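/-
S52 node C (Bridge), helper83.

For a Weierstrass curve `W` over a field in which `2` and `3` are invertible, the affine
(nonsingular) points of `W` are in bijection with those of the short curve
`y^2 = x^3 - 27 c4 x - 54 c6`, via `(x, y) ↦ (36 x + 3 b2, 108 (2 y + a1 x + a3))`.
Consequently, for an integral model `W` and a prime `l ≥ 5`,
`apOfModel W l = l + 1 - #(short curve over ZMod l)`.
-/
import Mathlib
import Fermat.Prelude.Def_FLTPrelim_Modularity

set_option autoImplicit false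

namespace Fermat.Agent.S52.H83

open WeierstrassCurve

/-- The short Weierstrass curve `y^2 = x^3 - 27 c4 x - 54 c6`. -/
def shortCurve {R : Type*} [CommRing R] (c4 c6 : R) : WeierstrassCurve R :=
  ⟨0, 0, 0, -27 * c4, -54 * c6⟩

@[simp] lemma shortCurve_a₁ {R : Type*} [CommRing R] (c4 c6 : R) : (shortCurve c4 c6).a₁ = 0 := rfl
@[simp] lemma shortCurve_a₂ {R : Type*} [CommRing R] (c4 c6 : R) : (shortCurve c4 c6).a₂ = 0 := rfl
@[simp] lemma shortCurve_a₃ {R : Type*} [CommRing R] (c4 c6 : R) : (shortCurve c4 c6).a₃ = 0 := rfl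
@[simp] lemma shortCurve_a₄ {R : Type*} [CommRing R] (c4 c6 : R) :
    (shortCurve c4 c6).a₄ = -27 * c4 := rfl
@[simp] lemma shortCurve_a₆ {R : Type*} [CommRing R] (c4 c6 : R) :
    (shortCurve c4 c6).a₆ = -54 * c6 := rfl

lemma shortCurve_map {R S : Type*} [CommRing R] [CommRing S] (f : R →+* S) (c4 c6 : R) :
    (shortCurve c4 c6).map f = shortCurve (f c4) (f c6) := by
  ext <;> simp [shortCurve, WeierstrassCurve.map, map_ofNat]

section Field

variable {F : Type*} [Field F] (W : WeierstrassCurve F)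

/-- `x`-coordinate of the bridge map. -/
def brX (x : F) : F := 36 * x + 3 * W.b₂

/-- `y`-coordinate of the bridge map. -/
def brY (x y : F) : F := 108 * (2 * y + W.a₁ * x + W.a₃)

/-- inverse `x`-coordinate. -/
def brXinv (X : F) : F := (X - 3 * W.b₂) / 36

/-- inverse `y`-coordinate. -/
def brYinv (X Y : F) : F := (Y / 108 - W.a₁ * brXinv W X - W.a₃) / 2

lemma six_ne_zero_of (h2 : (2 : F) ≠ 0) (h3 : (3 : F) ≠ 0) :
    (36 : F) ≠ 0 ∧ (108 : F) ≠ 0 ∧ (46656 : F) ≠ 0 ∧ (216 : F) ≠ 0 := by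
  refine ⟨?_, ?_, ?_, ?_⟩
  · have : (36 : F) = 2 ^ 2 * 3 ^ 2 := by norm_num
    rw [this]; exact mul_ne_zero (pow_ne_zero _ h2) (pow_ne_zero _ h3)
  · have : (108 : F) = 2 ^ 2 * 3 ^ 3 := by norm_num
    rw [this]; exact mul_ne_zero (pow_ne_zero _ h2) (pow_ne_zero _ h3)
  · have : (46656 : F) = 2 ^ 6 * 3 ^ 6 := by norm_num
    rw [this]; exact mul_ne_zero (pow_ne_zero _ h2) (pow_ne_zero _ h3)
  · have : (216 : F) = 2 ^ 3 * 3 ^ 3 := by norm_num
    rw [this]; exact mul_ne_zero (pow_ne_zero _ h2) (pow_ne_zero _ h3)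

lemma brXinv_brX (h2 : (2 : F) ≠ 0) (h3 : (3 : F) ≠ 0) (x : F) : brXinv W (brX W x) = x := by
  obtain ⟨h36, -, -, -⟩ := six_ne_zero_of h2 h3
  unfold brXinv brX
  field_simp
  ring

lemma brX_brXinv (h2 : (2 : F) ≠ 0) (h3 : (3 : F) ≠ 0) (X : F) : brX W (brXinv W X) = X := by
  obtain ⟨h36, -, -, -⟩ := six_ne_zero_of h2 h3
  unfold brXinv brX
  field_simp
  ring

lemma brYinv_brY (h2 : (2 : F) ≠ 0) (h3 : (3 : F) ≠ 0) (x y : F) :
    brYinv W (brX W x) (brY W x y) = y := by
  obtain ⟨h36, h108, -, -⟩ := six_ne_zero_of h2 h3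
  unfold brYinv
  rw [brXinv_brX W h2 h3]
  unfold brY
  field_simp
  ring

lemma brY_brYinv (h2 : (2 : F) ≠ 0) (h3 : (3 : F) ≠ 0) (X Y : F) :
    brY W (brXinv W X) (brYinv W X Y) = Y := by
  obtain ⟨h36, h108, -, -⟩ := six_ne_zero_of h2 h3
  unfold brY brYinv
  field_simp
  ring

/-- The key polynomial identity: the short equation at the image point is `46656` times the
Weierstrass equation. -/
lemma short_eq_identity (x y : F) :
    (brY W x y) ^ 2 - ((brX W x) ^ 3 + (-27 * W.c₄) * brX W x + (-54 * W.c₆)) =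
      46656 * (y ^ 2 + W.a₁ * x * y + W.a₃ * y - (x ^ 3 + W.a₂ * x ^ 2 + W.a₄ * x + W.a₆)) := by
  simp only [brX, brY, WeierstrassCurve.c₄, WeierstrassCurve.c₆, WeierstrassCurve.b₂,
    WeierstrassCurve.b₄, WeierstrassCurve.b₆]
  ring

lemma short_dx_identity (x y : F) :
    36 * (27 * W.c₄ - 3 * (brX W x) ^ 2) + 108 * W.a₁ * (2 * brY W x y) =
      46656 * (W.a₁ * y - (3 * x ^ 2 + 2 * W.a₂ * x + W.a₄)) := by
  simp only [brX, brY, WeierstrassCurve.c₄, WeierstrassCurve.b₂, WeierstrassCurve.b₄]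
  ring

lemma equation_bridge_iff (h2 : (2 : F) ≠ 0) (h3 : (3 : F) ≠ 0) (x y : F) :
    (shortCurve W.c₄ W.c₆).toAffine.Equation (brX W x) (brY W x y) ↔ W.toAffine.Equation x y := by
  obtain ⟨-, -, h46656, -⟩ := six_ne_zero_of h2 h3
  rw [Affine.equation_iff, Affine.equation_iff]
  simp only [shortCurve_a₁, shortCurve_a₂, shortCurve_a₃, shortCurve_a₄, shortCurve_a₆]
  have key := short_eq_identity W x y
  constructor
  · intro h
    have h0 : (46656 : F) * (y ^ 2 + W.a₁ * x * y + W.a₃ * y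
        - (x ^ 3 + W.a₂ * x ^ 2 + W.a₄ * x + W.a₆)) = 0 := by
      rw [← key]; linear_combination h
    have := (mul_eq_zero.mp h0).resolve_left h46656
    linear_combination this
  · intro h
    linear_combination key + 46656 * h

lemma nonsingular_bridge_iff (h2 : (2 : F) ≠ 0) (h3 : (3 : F) ≠ 0) (x y : F) :
    (shortCurve W.c₄ W.c₆).toAffine.Nonsingular (brX W x) (brY W x y) ↔
      W.toAffine.Nonsingular x y := by
  obtain ⟨h36, h108, h46656, h216⟩ := six_ne_zero_of h2 h3
  rw [Affine.nonsingular_iff, Affine.nonsingular_iff, equation_bridge_iff W h2 h3]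
  simp only [shortCurve_a₁, shortCurve_a₂, shortCurve_a₃, shortCurve_a₄]
  have kdx := short_dx_identity W x y
  refine and_congr_right fun _ => ?_
  -- both sides: negations of "both partial derivatives vanish"
  rw [← not_and_or, ← not_and_or, not_iff_not]
  constructor
  · rintro ⟨hX, hY⟩
    -- hX : 0 * brY = 3 * brX^2 + 2*0*brX + (-27 c4),  hY : brY = -brY - 0 * brX - 0
    have hY0 : brY W x y = 0 := by
      have h2Y : (2 : F) * brY W x y = 0 := by linear_combination hY
      exact (mul_eq_zero.mp h2Y).resolve_left h2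
    have hy : 2 * y + W.a₁ * x + W.a₃ = 0 := by
      have : (108 : F) * (2 * y + W.a₁ * x + W.a₃) = 0 := hY0
      exact (mul_eq_zero.mp this).resolve_left h108
    refine ⟨?_, by linear_combination hy⟩
    have h0 : (46656 : F) * (W.a₁ * y - (3 * x ^ 2 + 2 * W.a₂ * x + W.a₄)) = 0 := by
      rw [← kdx, hY0]; linear_combination (36 : F) * hX
    have := (mul_eq_zero.mp h0).resolve_left h46656
    linear_combination this
  · rintro ⟨hx, hy⟩
    have hy' : 2 * y + W.a₁ * x + W.a₃ = 0 := by linear_combination hy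
    have hY0 : brY W x y = 0 := by
      show (108 : F) * (2 * y + W.a₁ * x + W.a₃) = 0
      rw [hy', mul_zero]
    refine ⟨?_, by rw [hY0]; ring⟩
    have h0 : (36 : F) * (27 * W.c₄ - 3 * (brX W x) ^ 2) = 0 := by
      have := kdx
      rw [hY0] at this
      linear_combination this + 46656 * hx
    have := (mul_eq_zero.mp h0).resolve_left h36
    linear_combination this

/-- The bridge bijection on affine points. -/
noncomputable def pointEquiv (h2 : (2 : F) ≠ 0) (h3 : (3 : F) ≠ 0) :
    W.toAffine.Point ≃ (shortCurve W.c₄ W.c₆).toAffine.Point where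
  toFun P := match P with
    | .zero => .zero
    | .some x y h => .some (brX W x) (brY W x y) ((nonsingular_bridge_iff W h2 h3 x y).mpr h)
  invFun Q := match Q with
    | .zero => .zero
    | .some X Y h => .some (brXinv W X) (brYinv W X Y) (by
        rw [← nonsingular_bridge_iff W h2 h3, brX_brXinv W h2 h3, brY_brYinv W h2 h3]
        exact h)
  left_inv P := by
    cases P with
    | zero => rfl
    | some x y h =>
      simp only
      congr 1
      · exact brXinv_brX W h2 h3 x
      · exact brYinv_brY W h2 h3 x y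
  right_inv Q := by
    cases Q with
    | zero => rfl
    | some X Y h =>
      simp only
      congr 1
      · exact brX_brXinv W h2 h3 X
      · exact brY_brYinv W h2 h3 X Y

theorem card_point_eq_card_short (h2 : (2 : F) ≠ 0) (h3 : (3 : F) ≠ 0) :
    Nat.card W.toAffine.Point = Nat.card (shortCurve W.c₄ W.c₆).toAffine.Point :=
  Nat.card_congr (pointEquiv W h2 h3)

end Field

/-- **Node C (Bridge).** For a prime `l ≥ 5`, the trace of Frobenius of an integral model is
computed on the short curve `y^2 = x^3 - 27 c4 x - 54 c6` over `ZMod l`. -/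
theorem apOfModel_eq_short (W : WeierstrassCurve ℤ) (l : ℕ) (hl : l.Prime) (h5 : 5 ≤ l) :
    W.apOfModel l = (l : ℤ) + 1 -
      (Nat.card (shortCurve ((W.c₄ : ℤ) : ZMod l) ((W.c₆ : ℤ) : ZMod l)).toAffine.Point : ℤ) := by
  have : Fact l.Prime := ⟨hl⟩
  have h2 : ((2 : ℕ) : ZMod l) ≠ 0 := by
    rw [Ne, ZMod.natCast_eq_zero_iff]
    intro h
    have := Nat.le_of_dvd (by norm_num) h
    omega
  have h3 : ((3 : ℕ) : ZMod l) ≠ 0 := by
    rw [Ne, ZMod.natCast_eq_zero_iff]
    intro h
    have := Nat.le_of_dvd (by norm_num) h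
    omega
  have h2' : (2 : ZMod l) ≠ 0 := by exact_mod_cast h2
  have h3' : (3 : ZMod l) ≠ 0 := by exact_mod_cast h3
  have hcard := card_point_eq_card_short (W.reductionMod l) h2' h3'
  have hc4 : (W.reductionMod l).c₄ = ((W.c₄ : ℤ) : ZMod l) := by
    simp [WeierstrassCurve.reductionMod, WeierstrassCurve.map_c₄]
  have hc6 : (W.reductionMod l).c₆ = ((W.c₆ : ℤ) : ZMod l) := by
    simp [WeierstrassCurve.reductionMod, WeierstrassCurve.map_c₆]
  rw [hc4, hc6] at hcard
  unfold WeierstrassCurve.apOfModel WeierstrassCurve.traceOfFrobenius WeierstrassCurve.card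
  rw [hcard, Nat.card_zmod]

end Fermat.Agent.S52.H83
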