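import Mathlib

/-!
# S52 node E3 (Comp), interface-free core: height of a composite of rational functions

`ht g := max g.num.natDegree g.denom.natDegree`.  For a non-constant `ξ`, the substitution
`σ_ξ : K(X) →ₐ[K] K(X)`, `X ↦ ξ`, multiplies heights by `ht ξ`.  Proof: tower law and
`RatFunc.finrank_eq_max_natDegree`.
-/

set_option autoImplicit false

namespace Fermat.Agent.S52.H79

open Polynomial IntermediateField

variable {K : Type*} [Field K]

/-- Height (degree as a map `ℙ¹ → ℙ¹`) of a rational function. -/
noncomputable def ratHt (g : RatFunc K) : ℕ := max g.num.natDegree g.denom.natDegree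

theorem ratHt_eq_finrank (g : RatFunc K) :
    ratHt g = Module.finrank K⟮g⟯ (RatFunc K) :=
  (RatFunc.finrank_eq_max_natDegree g).symm

/-- Substitution `X ↦ ξ` for a transcendental (= non-constant) `ξ`. -/
noncomputable def ratSubst (ξ : RatFunc K) (hξ : Transcendental K ξ) :
    RatFunc K →ₐ[K] RatFunc K :=
  RatFunc.liftAlgHom (Polynomial.aeval ξ)
    (nonZeroDivisors_le_comap_nonZeroDivisors_of_injective _
      (transcendental_iff_injective.mp hξ))

theorem ratSubst_apply (ξ : RatFunc K) (hξ : Transcendental K ξ) (g : RatFunc K) :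
    ratSubst ξ hξ g = Polynomial.aeval ξ g.num / Polynomial.aeval ξ g.denom :=
  RatFunc.liftAlgHom_apply _ _ g

theorem ratSubst_algebraMap (ξ : RatFunc K) (hξ : Transcendental K ξ) (p : K[X]) :
    ratSubst ξ hξ (algebraMap K[X] (RatFunc K) p) = Polynomial.aeval ξ p := by
  have := RatFunc.liftAlgHom_apply_div (Polynomial.aeval ξ)
    (nonZeroDivisors_le_comap_nonZeroDivisors_of_injective _
      (transcendental_iff_injective.mp hξ)) p 1
  simpa [ratSubst] using this

theorem ratSubst_X (ξ : RatFunc K) (hξ : Transcendental K ξ) :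
    ratSubst ξ hξ RatFunc.X = ξ := by
  have := ratSubst_algebraMap ξ hξ Polynomial.X
  simpa using this

theorem ratSubst_injective (ξ : RatFunc K) (hξ : Transcendental K ξ) :
    Function.Injective (ratSubst ξ hξ) :=
  (ratSubst ξ hξ).injective

/-- Heights multiply under composition. -/
theorem ratHt_ratSubst (ξ : RatFunc K) (hξ : Transcendental K ξ) (g : RatFunc K) :
    ratHt (ratSubst ξ hξ g) = ratHt g * ratHt ξ := by
  set σ := ratSubst ξ hξ with hσ
  rw [ratHt_eq_finrank, ratHt_eq_finrank, ratHt_eq_finrank]
  have h1 : K⟮σ g⟯ = (K⟮g⟯).map σ := by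
    rw [IntermediateField.adjoin_map]; simp
  have h2 : K⟮ξ⟯ = (⊤ : IntermediateField K (RatFunc K)).map σ := by
    rw [← RatFunc.adjoin_X, IntermediateField.adjoin_map]
    simp [hσ, ratSubst_X]
  have hle : K⟮σ g⟯ ≤ K⟮ξ⟯ := by
    rw [h1, h2]; exact IntermediateField.map_mono _ le_top
  rw [← IntermediateField.relfinrank_mul_finrank_top hle, h1, h2,
    IntermediateField.relfinrank_map_map, IntermediateField.relfinrank_top_right]

end Fermat.Agent.S52.H79
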