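import Mathlib

/-!
# S52 (E-block): one-step semilinear twist homomorphism between short Weierstrass curves

For fields `F`, `K`, a ring hom `σ : F →+* K`, a scalar `s ≠ 0` and short curves
`y² = x³ + a x + b` over `F`, `y² = x³ + a' x + b'` over `K` with `a' = s⁴ σ a`, `b' = s⁶ σ b`,
the map `(x, y) ↦ (s² σ x, s³ σ y)` is an injective group homomorphism on nonsingular points.
-/

set_option autoImplicit false

namespace Fermat.Agent.S52.H79

open WeierstrassCurve

/-- Short Weierstrass curve `y² = x³ + a x + b` as an affine curve. -/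
abbrev shortAff {F : Type*} [CommRing F] (a b : F) : WeierstrassCurve.Affine F :=
  (⟨0, 0, 0, a, b⟩ : WeierstrassCurve F)

section

variable {F K : Type*} [Field F] [Field K]

theorem shortAff_equation_iff {a b x y : F} :
    (shortAff a b).Equation x y ↔ y ^ 2 = x ^ 3 + a * x + b := by
  rw [Affine.equation_iff]
  simp

theorem shortAff_nonsingular_iff {a b x y : F} :
    (shortAff a b).Nonsingular x y ↔
      y ^ 2 = x ^ 3 + a * x + b ∧ (3 * x ^ 2 + a ≠ 0 ∨ 2 * y ≠ 0) := by
  rw [Affine.nonsingular_iff', shortAff_equation_iff]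
  have e1 : (shortAff a b).a₁ * y - (3 * x ^ 2 + 2 * (shortAff a b).a₂ * x + (shortAff a b).a₄)
      = -(3 * x ^ 2 + a) := by simp
  have e2 : 2 * y + (shortAff a b).a₁ * x + (shortAff a b).a₃ = 2 * y := by simp
  rw [e1, e2, neg_ne_zero]

theorem shortAff_negY {a b x y : F} : (shortAff a b).negY x y = -y := by
  simp [Affine.negY]

theorem twist_nonsingular (σ : F →+* K) {s : K} (hs : s ≠ 0) {a b : F} {a' b' : K}
    (ha : a' = s ^ 4 * σ a) (hb : b' = s ^ 6 * σ b) {x y : F}
    (h : (shortAff a b).Nonsingular x y) :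
    (shortAff a' b').Nonsingular (s ^ 2 * σ x) (s ^ 3 * σ y) := by
  rw [shortAff_nonsingular_iff] at h ⊢
  obtain ⟨h1, h2⟩ := h
  refine ⟨?_, ?_⟩
  · have := congrArg σ h1
    simp only [map_pow, map_add, map_mul] at this
    rw [ha, hb]
    linear_combination s ^ 6 * this
  · rcases h2 with h2 | h2
    · left
      have h3 : σ (3 * x ^ 2 + a) ≠ 0 := (map_ne_zero σ).mpr h2
      simp only [map_pow, map_add, map_mul, map_ofNat] at h3
      have h4 : 3 * (s ^ 2 * σ x) ^ 2 + a' = s ^ 4 * (3 * σ x ^ 2 + σ a) := by rw [ha]; ring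
      rw [h4]
      exact mul_ne_zero (pow_ne_zero _ hs) h3
    · right
      have h3 : σ (2 * y) ≠ 0 := (map_ne_zero σ).mpr h2
      simp only [map_mul, map_ofNat] at h3
      have h4 : 2 * (s ^ 3 * σ y) = s ^ 3 * (2 * σ y) := by ring
      rw [h4]
      exact mul_ne_zero (pow_ne_zero _ hs) h3

variable [DecidableEq F] [DecidableEq K]

theorem twist_slope (σ : F →+* K) {s : K} (hs : s ≠ 0) {a b : F} {a' b' : K}
    (ha : a' = s ^ 4 * σ a) (x₁ x₂ y₁ y₂ : F) :
    (shortAff a' b').slope (s ^ 2 * σ x₁) (s ^ 2 * σ x₂) (s ^ 3 * σ y₁) (s ^ 3 * σ y₂) =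
      s * σ ((shortAff a b).slope x₁ x₂ y₁ y₂) := by
  have hs2 : s ^ 2 ≠ 0 := pow_ne_zero _ hs
  have hs3 : s ^ 3 ≠ 0 := pow_ne_zero _ hs
  by_cases hx : x₁ = x₂
  · subst hx
    by_cases hy : y₁ = (shortAff a b).negY x₁ y₂
    · have hy' : s ^ 3 * σ y₁ = (shortAff a' b').negY (s ^ 2 * σ x₁) (s ^ 3 * σ y₂) := by
        rw [shortAff_negY] at hy ⊢
        rw [hy]; simp
      rw [Affine.slope_of_Y_eq rfl hy, Affine.slope_of_Y_eq rfl hy']
      simp
    · have hy' : s ^ 3 * σ y₁ ≠ (shortAff a' b').negY (s ^ 2 * σ x₁) (s ^ 3 * σ y₂) := by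
        rw [shortAff_negY] at hy ⊢
        intro h
        apply hy
        have h5 : s ^ 3 * σ (y₁ + y₂) = 0 := by rw [map_add]; linear_combination h
        have h6 : σ (y₁ + y₂) = 0 := by
          rcases mul_eq_zero.mp h5 with h7 | h7
          · exact absurd h7 hs3
          · exact h7
        have h7 : y₁ + y₂ = 0 := (map_eq_zero σ).mp h6
        linear_combination h7
      rw [Affine.slope_of_Y_ne rfl hy, Affine.slope_of_Y_ne rfl hy']
      simp only [shortAff_negY]
      rw [ha]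
      by_cases hD : y₁ - -y₁ = 0
      · have hD' : s ^ 3 * σ y₁ - -(s ^ 3 * σ y₁) = 0 := by
          have := congrArg σ hD
          simp only [map_sub, map_neg, map_zero] at this
          linear_combination s ^ 3 * this
        rw [hD, hD']
        simp
      · have hD' : σ y₁ - -σ y₁ ≠ 0 := by
          have := (map_ne_zero σ).mpr hD
          simpa only [map_sub, map_neg] using this
        have hD'' : σ y₁ + σ y₁ ≠ 0 := by simpa using hD'
        simp only [map_div₀, map_add, map_mul, map_pow, map_ofNat,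
          mul_zero, zero_mul, add_zero, sub_zero, sub_neg_eq_add]
        have hD3 : s ^ 3 * σ y₁ + s ^ 3 * σ y₁ ≠ 0 := by
          have : s ^ 3 * σ y₁ + s ^ 3 * σ y₁ = s ^ 3 * (σ y₁ + σ y₁) := by ring
          rw [this]
          exact mul_ne_zero hs3 hD''
        rw [div_eq_iff hD3, mul_div_assoc', div_mul_eq_mul_div, eq_div_iff hD'']
        ring
  · have hx' : s ^ 2 * σ x₁ ≠ s ^ 2 * σ x₂ := by
      intro h
      exact hx (σ.injective (mul_left_cancel₀ hs2 h))
    rw [Affine.slope_of_X_ne hx, Affine.slope_of_X_ne hx']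
    have h1 : σ x₁ - σ x₂ ≠ 0 := sub_ne_zero.mpr fun h => hx (σ.injective h)
    simp only [map_div₀, map_sub]
    field_simp

omit [DecidableEq F] [DecidableEq K] in
theorem twist_addX (σ : F →+* K) (s : K) (a b : F) (a' b' : K) (x₁ x₂ L : F) :
    (shortAff a' b').addX (s ^ 2 * σ x₁) (s ^ 2 * σ x₂) (s * σ L) =
      s ^ 2 * σ ((shortAff a b).addX x₁ x₂ L) := by
  simp only [Affine.addX, map_sub, map_add, map_mul, map_pow, map_zero]
  ring

omit [DecidableEq F] [DecidableEq K] in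
theorem twist_addY (σ : F →+* K) (s : K) (a b : F) (a' b' : K) (x₁ x₂ y₁ L : F) :
    (shortAff a' b').addY (s ^ 2 * σ x₁) (s ^ 2 * σ x₂) (s ^ 3 * σ y₁) (s * σ L) =
      s ^ 3 * σ ((shortAff a b).addY x₁ x₂ y₁ L) := by
  simp only [Affine.addY, Affine.negAddY, Affine.negY, Affine.addX, map_sub, map_add, map_mul,
    map_pow, map_zero, map_neg]
  ring

/-- The semilinear twist homomorphism `(x, y) ↦ (s² σ x, s³ σ y)`. -/
noncomputable def twistHom (σ : F →+* K) {s : K} (hs : s ≠ 0) {a b : F} {a' b' : K}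
    (ha : a' = s ^ 4 * σ a) (hb : b' = s ^ 6 * σ b) :
    (shortAff a b).Point →+ (shortAff a' b').Point where
  toFun P := match P with
    | 0 => 0
    | .some x y h => .some (s ^ 2 * σ x) (s ^ 3 * σ y) (twist_nonsingular σ hs ha hb h)
  map_zero' := rfl
  map_add' := by
    rintro (_ | ⟨x₁, y₁, h₁⟩) (_ | ⟨x₂, y₂, h₂⟩)
    any_goals rfl
    by_cases hxy : x₁ = x₂ ∧ y₁ = (shortAff a b).negY x₂ y₂
    · have hxy' : s ^ 2 * σ x₁ = s ^ 2 * σ x₂ ∧
          s ^ 3 * σ y₁ = (shortAff a' b').negY (s ^ 2 * σ x₂) (s ^ 3 * σ y₂) := by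
        refine ⟨by rw [hxy.1], ?_⟩
        rw [shortAff_negY]
        rw [hxy.2, shortAff_negY]
        simp
      rw [Affine.Point.add_of_Y_eq hxy.1 hxy.2]
      exact (Affine.Point.add_of_Y_eq hxy'.1 hxy'.2).symm
    · have hxy' : ¬ (s ^ 2 * σ x₁ = s ^ 2 * σ x₂ ∧
          s ^ 3 * σ y₁ = (shortAff a' b').negY (s ^ 2 * σ x₂) (s ^ 3 * σ y₂)) := by
        rintro ⟨h1, h2⟩
        apply hxy
        have hx : x₁ = x₂ := σ.injective (mul_left_cancel₀ (pow_ne_zero _ hs) h1)
        refine ⟨hx, ?_⟩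
        rw [shortAff_negY] at h2 ⊢
        have h3 : s ^ 3 * σ y₁ = s ^ 3 * σ (-y₂) := by rw [map_neg]; linear_combination h2
        exact σ.injective (mul_left_cancel₀ (pow_ne_zero _ hs) h3)
      rw [Affine.Point.add_some hxy]
      refine Eq.trans ?_ (Affine.Point.add_some (h₁ := twist_nonsingular σ hs ha hb h₁)
        (h₂ := twist_nonsingular σ hs ha hb h₂) hxy').symm
      simp only [Affine.Point.some.injEq]
      rw [twist_slope σ hs ha (b := b)]
      exact ⟨(twist_addX σ s a b a' b' _ _ _).symm, (twist_addY σ s a b a' b' _ _ _ _).symm⟩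

@[simp]
theorem twistHom_some (σ : F →+* K) {s : K} (hs : s ≠ 0) {a b : F} {a' b' : K}
    (ha : a' = s ^ 4 * σ a) (hb : b' = s ^ 6 * σ b) {x y : F}
    (h : (shortAff a b).Nonsingular x y) :
    twistHom σ hs ha hb (.some x y h) =
      .some (s ^ 2 * σ x) (s ^ 3 * σ y) (twist_nonsingular σ hs ha hb h) := rfl

theorem twistHom_injective (σ : F →+* K) {s : K} (hs : s ≠ 0) {a b : F} {a' b' : K}
    (ha : a' = s ^ 4 * σ a) (hb : b' = s ^ 6 * σ b) :
    Function.Injective (twistHom σ hs ha hb) := by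
  rintro (_ | ⟨x₁, y₁, h₁⟩) (_ | ⟨x₂, y₂, h₂⟩) h
  · rfl
  · exact absurd h.symm (Affine.Point.some_ne_zero _)
  · exact absurd h (Affine.Point.some_ne_zero _)
  · simp only [twistHom_some, Affine.Point.some.injEq] at h
    simp only [Affine.Point.some.injEq]
    exact ⟨σ.injective (mul_left_cancel₀ (pow_ne_zero _ hs) h.1),
      σ.injective (mul_left_cancel₀ (pow_ne_zero _ hs) h.2)⟩

end

end Fermat.Agent.S52.H79
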