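import Mathlib
import Fermat.Agent.S52.RatHeight_helper79
import Fermat.Agent.S52.TwistHom_helper79

/-!
# S52 node E3 (Comp, (M2)): composition of points of the twisted curve

`k` a field, `A B : k`, `f = X³ + A X + B`, `F = RatFunc k`, twisted curve
`EE : Y² = X³ + A f² X + B f³` over `F`.  For a point `Q = (X_Q, Y_Q)` with
`ξ = X_Q / f` transcendental (i.e. `0 < d Q`), `Σ_Q := sigmaXi ξ η` (`η = Y_Q / f²`) is the
endomorphism "compose with `Q`" of `EE(F)`; `Σ_Q G0 = Q`, `d (Σ_Q P) = d P * d Q`, and over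
`ZMod l`, `Σ_Q Φ = Σ_Φ Q`.
-/

set_option autoImplicit false

namespace Fermat.Agent.S52.H79

open Polynomial WeierstrassCurve

section General

variable {k : Type*} [Field k] (A B : k)

/-- The cubic `X³ + A X + B`. -/
noncomputable def fPoly : k[X] := X ^ 3 + C A * X + C B

/-- The cubic as a rational function. -/
noncomputable def fRat : RatFunc k := algebraMap k[X] (RatFunc k) (fPoly A B)

theorem fPoly_ne_zero : fPoly A B ≠ 0 := by
  have h : (fPoly A B).natDegree = 3 := by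
    unfold fPoly
    compute_degree!
  intro h0
  rw [h0] at h
  simp at h

theorem fRat_ne_zero : fRat A B ≠ 0 := by
  unfold fRat
  intro h
  exact fPoly_ne_zero A B
    ((map_eq_zero_iff _ (RatFunc.algebraMap_injective k)).mp h)

theorem fRat_eq : fRat A B = RatFunc.X ^ 3 + RatFunc.C A * RatFunc.X + RatFunc.C B := by
  simp [fRat, fPoly]

/-- The twisted curve `Y² = X³ + A f² X + B f³` over `k(X)`. -/
noncomputable abbrev twAff : WeierstrassCurve.Affine (RatFunc k) :=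
  shortAff (RatFunc.C A * fRat A B ^ 2) (RatFunc.C B * fRat A B ^ 3)

/-- Degree of a point of the twisted curve: height of `X / f`. -/
noncomputable def dPt : (twAff A B).Point → ℕ
  | .zero => 0
  | .some x _ _ => ratHt (x / fRat A B)

@[simp] theorem dPt_zero : dPt A B (0 : (twAff A B).Point) = 0 := rfl

@[simp] theorem dPt_some {x y : RatFunc k} (h : (twAff A B).Nonsingular x y) :
    dPt A B (.some x y h) = ratHt (x / fRat A B) := rfl

theorem ratHt_C (c : k) : ratHt (RatFunc.C c) = 0 := by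
  simp [ratHt]

theorem transcendental_of_ratHt_pos {ξ : RatFunc k} (h : 0 < ratHt ξ) : Transcendental k ξ := by
  apply RatFunc.transcendental_of_ne_C
  rintro ⟨c, rfl⟩
  rw [ratHt_C] at h
  exact lt_irrefl _ h

variable {A B}

theorem ratSubst_fRat (ξ : RatFunc k) (hξ : Transcendental k ξ) :
    ratSubst ξ hξ (fRat A B) = ξ ^ 3 + RatFunc.C A * ξ + RatFunc.C B := by
  rw [fRat, ratSubst_algebraMap]
  simp [fPoly, RatFunc.algebraMap_eq_C]

theorem ratSubst_C (ξ : RatFunc k) (hξ : Transcendental k ξ) (c : k) :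
    ratSubst ξ hξ (RatFunc.C c) = RatFunc.C c := by
  rw [← RatFunc.algebraMap_eq_C]
  exact (ratSubst ξ hξ).commutes c

/-- The relation `f η² = ξ³ + A ξ + B` forces `η ≠ 0` when `ξ` is transcendental. -/
theorem eta_ne_zero {ξ η : RatFunc k} (hξ : Transcendental k ξ)
    (hrel : fRat A B * η ^ 2 = ξ ^ 3 + RatFunc.C A * ξ + RatFunc.C B) : η ≠ 0 := by
  rintro rfl
  apply hξ
  refine ⟨fPoly A B, fPoly_ne_zero A B, ?_⟩
  have : (0 : RatFunc k) = ξ ^ 3 + RatFunc.C A * ξ + RatFunc.C B := by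
    rw [← hrel]; ring
  simp [fPoly, RatFunc.algebraMap_eq_C, ← this]

theorem sigma_ha {ξ η : RatFunc k} (hξ : Transcendental k ξ)
    (hrel : fRat A B * η ^ 2 = ξ ^ 3 + RatFunc.C A * ξ + RatFunc.C B) :
    RatFunc.C A * fRat A B ^ 2 =
      (η⁻¹) ^ 4 * (ratSubst ξ hξ : RatFunc k →+* RatFunc k) (RatFunc.C A * fRat A B ^ 2) := by
  have hη := eta_ne_zero hξ hrel
  simp only [RingHom.coe_coe, map_mul, map_pow, ratSubst_C, ratSubst_fRat, ← hrel]
  field_simp

theorem sigma_hb {ξ η : RatFunc k} (hξ : Transcendental k ξ)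
    (hrel : fRat A B * η ^ 2 = ξ ^ 3 + RatFunc.C A * ξ + RatFunc.C B) :
    RatFunc.C B * fRat A B ^ 3 =
      (η⁻¹) ^ 6 * (ratSubst ξ hξ : RatFunc k →+* RatFunc k) (RatFunc.C B * fRat A B ^ 3) := by
  have hη := eta_ne_zero hξ hrel
  simp only [RingHom.coe_coe, map_mul, map_pow, ratSubst_C, ratSubst_fRat, ← hrel]
  field_simp

variable [DecidableEq (RatFunc k)]

/-- "Compose with the point `(ξ f, η f²)`": the endomorphism
`(X, Y) ↦ (η⁻² X(ξ), η⁻³ Y(ξ))` of the twisted curve. -/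
noncomputable def sigmaXi (ξ η : RatFunc k) (hξ : Transcendental k ξ)
    (hrel : fRat A B * η ^ 2 = ξ ^ 3 + RatFunc.C A * ξ + RatFunc.C B) :
    (twAff A B).Point →+ (twAff A B).Point :=
  twistHom (ratSubst ξ hξ : RatFunc k →+* RatFunc k) (inv_ne_zero (eta_ne_zero hξ hrel))
    (sigma_ha hξ hrel) (sigma_hb hξ hrel)

theorem sigmaXi_some (ξ η : RatFunc k) (hξ : Transcendental k ξ)
    (hrel : fRat A B * η ^ 2 = ξ ^ 3 + RatFunc.C A * ξ + RatFunc.C B)
    {x y : RatFunc k} (h : (twAff A B).Nonsingular x y) :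
    sigmaXi ξ η hξ hrel (.some x y h) =
      .some ((η⁻¹) ^ 2 * ratSubst ξ hξ x) ((η⁻¹) ^ 3 * ratSubst ξ hξ y)
        (twist_nonsingular (ratSubst ξ hξ : RatFunc k →+* RatFunc k)
          (inv_ne_zero (eta_ne_zero hξ hrel)) (sigma_ha hξ hrel) (sigma_hb hξ hrel) h) := rfl

omit [DecidableEq (RatFunc k)] in
theorem sigmaXi_nonsingular (ξ η : RatFunc k) (hξ : Transcendental k ξ)
    (hrel : fRat A B * η ^ 2 = ξ ^ 3 + RatFunc.C A * ξ + RatFunc.C B)
    {x y : RatFunc k} (h : (twAff A B).Nonsingular x y) :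
    (twAff A B).Nonsingular ((η⁻¹) ^ 2 * ratSubst ξ hξ x) ((η⁻¹) ^ 3 * ratSubst ξ hξ y) :=
  twist_nonsingular (ratSubst ξ hξ : RatFunc k →+* RatFunc k)
    (inv_ne_zero (eta_ne_zero hξ hrel)) (sigma_ha hξ hrel) (sigma_hb hξ hrel) h

/-- Degrees multiply: `d (Σ_Q P) = d P * ht ξ_Q`. -/
theorem dPt_sigmaXi (ξ η : RatFunc k) (hξ : Transcendental k ξ)
    (hrel : fRat A B * η ^ 2 = ξ ^ 3 + RatFunc.C A * ξ + RatFunc.C B)
    (P : (twAff A B).Point) :
    dPt A B (sigmaXi ξ η hξ hrel P) = dPt A B P * ratHt ξ := by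
  rcases P with _ | ⟨x, y, h⟩
  · change dPt A B (sigmaXi ξ η hξ hrel 0) = dPt A B 0 * ratHt ξ
    rw [map_zero]; simp
  · rw [sigmaXi_some, dPt_some, dPt_some, ← ratHt_ratSubst ξ hξ]
    congr 1
    have hη := eta_ne_zero hξ hrel
    have hf := fRat_ne_zero A B
    rw [map_div₀, ratSubst_fRat, ← hrel]
    field_simp

/-- `Σ_Q G0 = Q` in coordinates. -/
theorem sigmaXi_G0 (ξ η : RatFunc k) (hξ : Transcendental k ξ)
    (hrel : fRat A B * η ^ 2 = ξ ^ 3 + RatFunc.C A * ξ + RatFunc.C B)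
    (h0 : (twAff A B).Nonsingular (RatFunc.X * fRat A B) (fRat A B ^ 2))
    (hQ : (twAff A B).Nonsingular (ξ * fRat A B) (η * fRat A B ^ 2)) :
    sigmaXi ξ η hξ hrel (.some _ _ h0) = .some _ _ hQ := by
  rw [sigmaXi_some]
  simp only [Affine.Point.some.injEq]
  have hη := eta_ne_zero hξ hrel
  have hf := fRat_ne_zero A B
  refine ⟨?_, ?_⟩
  · rw [map_mul, ratSubst_X, ratSubst_fRat, ← hrel]
    field_simp
  · rw [map_pow, ratSubst_fRat, ← hrel]
    field_simp

omit [DecidableEq (RatFunc k)] in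
/-- The relation `f η² = ξ³ + A ξ + B` for the twist coordinates of an affine point. -/
theorem rel_of_nonsingular {x y : RatFunc k} (h : (twAff A B).Nonsingular x y) :
    fRat A B * (y / fRat A B ^ 2) ^ 2 =
      (x / fRat A B) ^ 3 + RatFunc.C A * (x / fRat A B) + RatFunc.C B := by
  have hf := fRat_ne_zero A B
  have h1 := (shortAff_nonsingular_iff.mp h).1
  field_simp
  linear_combination h1

/-- `Σ_Q` for an affine point `Q` of positive degree. -/
noncomputable def sigmaPt {x y : RatFunc k} (h : (twAff A B).Nonsingular x y)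
    (hd : 0 < ratHt (x / fRat A B)) : (twAff A B).Point →+ (twAff A B).Point :=
  sigmaXi (x / fRat A B) (y / fRat A B ^ 2) (transcendental_of_ratHt_pos hd)
    (rel_of_nonsingular h)

theorem sigmaPt_G0 {x y : RatFunc k} (h : (twAff A B).Nonsingular x y)
    (hd : 0 < ratHt (x / fRat A B))
    (h0 : (twAff A B).Nonsingular (RatFunc.X * fRat A B) (fRat A B ^ 2)) :
    sigmaPt h hd (.some _ _ h0) = .some x y h := by
  have hf := fRat_ne_zero A B
  have hx : x / fRat A B * fRat A B = x := by field_simp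
  have hy : y / fRat A B ^ 2 * fRat A B ^ 2 = y := by field_simp
  have hQ : (twAff A B).Nonsingular (x / fRat A B * fRat A B)
      (y / fRat A B ^ 2 * fRat A B ^ 2) := by rw [hx, hy]; exact h
  rw [sigmaPt, sigmaXi_G0 _ _ _ _ h0 hQ]
  simp only [Affine.Point.some.injEq]
  exact ⟨hx, hy⟩

theorem dPt_sigmaPt {x y : RatFunc k} (h : (twAff A B).Nonsingular x y)
    (hd : 0 < ratHt (x / fRat A B)) (P : (twAff A B).Point) :
    dPt A B (sigmaPt h hd P) = dPt A B P * dPt A B (.some x y h) := by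
  rw [sigmaPt, dPt_sigmaXi, dPt_some]

end General

section Frob

variable {l : ℕ} [Fact l.Prime] {A B : ZMod l}

theorem transcendental_X_pow_char :
    Transcendental (ZMod l) (RatFunc.X ^ l : RatFunc (ZMod l)) :=
  RatFunc.transcendental_X.pow (Fact.out : l.Prime).pos

/-- Substituting `X ↦ X^l` over `ZMod l` is the Frobenius. -/
theorem ratSubst_X_pow_char (h : Transcendental (ZMod l) (RatFunc.X ^ l : RatFunc (ZMod l)))
    (g : RatFunc (ZMod l)) : ratSubst (RatFunc.X ^ l) h g = g ^ l := by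
  have key : ∀ p : (ZMod l)[X], Polynomial.aeval (RatFunc.X ^ l : RatFunc (ZMod l)) p =
      (algebraMap (ZMod l)[X] (RatFunc (ZMod l)) p) ^ l := by
    intro p
    rw [← map_pow, ← ZMod.expand_card, ← RatFunc.algebraMap_X, ← map_pow,
      Polynomial.aeval_algebraMap_apply]
    congr 1
  rw [ratSubst_apply, key, key, ← div_pow, RatFunc.num_div_denom]

theorem fRat_pow_char :
    fRat A B ^ l = (RatFunc.X ^ l) ^ 3 + RatFunc.C A * RatFunc.X ^ l + RatFunc.C B := by
  have h := ratSubst_X_pow_char (l := l) transcendental_X_pow_char (fRat A B)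
  rw [← h, ratSubst_fRat]

theorem frob_rel {r : ℕ} (hl : l = 2 * r + 1) :
    fRat A B * (fRat A B ^ r) ^ 2 =
      (RatFunc.X ^ l) ^ 3 + RatFunc.C A * RatFunc.X ^ l + RatFunc.C B := by
  rw [← fRat_pow_char]
  have h2 : fRat A B ^ l = fRat A B ^ (2 * r + 1) := congrArg (fun n => fRat A B ^ n) hl
  rw [h2]
  ring

variable [DecidableEq (RatFunc (ZMod l))]

/-- `Σ_Φ`: compose with the Frobenius point `Φ = (X^l f, f^((l+3)/2))`. -/
noncomputable def sigmaFrob {r : ℕ} (hl : l = 2 * r + 1) :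
    (twAff A B).Point →+ (twAff A B).Point :=
  sigmaXi (RatFunc.X ^ l) (fRat A B ^ r) transcendental_X_pow_char (frob_rel hl)

theorem sigmaFrob_some {r : ℕ} (hl : l = 2 * r + 1) {x y : RatFunc (ZMod l)}
    (h : (twAff A B).Nonsingular x y)
    (h' : (twAff A B).Nonsingular (x ^ l / fRat A B ^ (2 * r)) (y ^ l / fRat A B ^ (3 * r))) :
    sigmaFrob hl (.some x y h) = .some _ _ h' := by
  rw [sigmaFrob, sigmaXi_some]
  simp only [Affine.Point.some.injEq]
  have hf := fRat_ne_zero A B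
  rw [ratSubst_X_pow_char, ratSubst_X_pow_char]
  refine ⟨?_, ?_⟩
  · field_simp
    ring
  · field_simp
    ring

omit [DecidableEq (RatFunc (ZMod l))] in
theorem sigmaFrob_nonsingular {r : ℕ} (hl : l = 2 * r + 1) {x y : RatFunc (ZMod l)}
    (h : (twAff A B).Nonsingular x y) :
    (twAff A B).Nonsingular (x ^ l / fRat A B ^ (2 * r)) (y ^ l / fRat A B ^ (3 * r)) := by
  have hf := fRat_ne_zero A B
  have h1 := sigmaXi_nonsingular (RatFunc.X ^ l) (fRat A B ^ r) transcendental_X_pow_char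
    (frob_rel (A := A) (B := B) hl) h
  have e1 : (fRat A B ^ r)⁻¹ ^ 2 * ratSubst (RatFunc.X ^ l) transcendental_X_pow_char x =
      x ^ l / fRat A B ^ (2 * r) := by
    rw [ratSubst_X_pow_char]
    field_simp
    ring
  have e2 : (fRat A B ^ r)⁻¹ ^ 3 * ratSubst (RatFunc.X ^ l) transcendental_X_pow_char y =
      y ^ l / fRat A B ^ (3 * r) := by
    rw [ratSubst_X_pow_char]
    field_simp
    ring
  rw [e1, e2] at h1
  exact h1

/-- `Σ_Q Φ = Σ_Φ Q` in coordinates. -/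
theorem sigma_swap {r : ℕ} (hl : l = 2 * r + 1) (ξ η : RatFunc (ZMod l))
    (hξ : Transcendental (ZMod l) ξ)
    (hrel : fRat A B * η ^ 2 = ξ ^ 3 + RatFunc.C A * ξ + RatFunc.C B)
    (hΦ : (twAff A B).Nonsingular (RatFunc.X ^ l * fRat A B) (fRat A B ^ (r + 2)))
    (hQ : (twAff A B).Nonsingular (ξ * fRat A B) (η * fRat A B ^ 2)) :
    sigmaXi ξ η hξ hrel (.some _ _ hΦ) = sigmaFrob hl (.some _ _ hQ) := by
  rw [sigmaFrob_some hl hQ (sigmaFrob_nonsingular hl hQ), sigmaXi_some]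
  simp only [Affine.Point.some.injEq]
  have hη := eta_ne_zero hξ hrel
  have hf := fRat_ne_zero A B
  have hl' : ∀ z : RatFunc (ZMod l), z ^ l = z ^ (2 * r + 1) :=
    fun z => congrArg (fun n => z ^ n) hl
  refine ⟨?_, ?_⟩
  · rw [map_mul, map_pow, ratSubst_X, ratSubst_fRat, ← hrel, hl' (ξ * fRat A B), hl' ξ]
    field_simp
    ring
  · rw [map_pow, ratSubst_fRat, ← hrel, hl' (η * fRat A B ^ 2)]
    field_simp
    ring

theorem sigmaPt_frob {r : ℕ} (hl : l = 2 * r + 1) {x y : RatFunc (ZMod l)}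
    (h : (twAff A B).Nonsingular x y) (hd : 0 < ratHt (x / fRat A B))
    (hΦ : (twAff A B).Nonsingular (RatFunc.X ^ l * fRat A B) (fRat A B ^ (r + 2))) :
    sigmaPt h hd (.some _ _ hΦ) = sigmaFrob hl (.some x y h) := by
  have hf := fRat_ne_zero A B
  have hx : x / fRat A B * fRat A B = x := by field_simp
  have hy : y / fRat A B ^ 2 * fRat A B ^ 2 = y := by field_simp
  have hQ : (twAff A B).Nonsingular (x / fRat A B * fRat A B)
      (y / fRat A B ^ 2 * fRat A B ^ 2) := by rw [hx, hy]; exact h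
  rw [sigmaPt, sigma_swap hl _ _ _ _ hΦ hQ]
  congr 1
  simp only [Affine.Point.some.injEq]
  exact ⟨hx, hy⟩

theorem sigmaFrob_G0 {r : ℕ} (hl : l = 2 * r + 1)
    (h0 : (twAff A B).Nonsingular (RatFunc.X * fRat A B) (fRat A B ^ 2))
    (hΦ : (twAff A B).Nonsingular (RatFunc.X ^ l * fRat A B) (fRat A B ^ (r + 2))) :
    sigmaFrob hl (.some _ _ h0) = .some _ _ hΦ := by
  have e : fRat A B ^ r * fRat A B ^ 2 = fRat A B ^ (r + 2) := by ring
  have hQ : (twAff A B).Nonsingular (RatFunc.X ^ l * fRat A B)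
      (fRat A B ^ r * fRat A B ^ 2) := by rw [e]; exact hΦ
  rw [sigmaFrob, sigmaXi_G0 _ _ _ _ h0 hQ]
  simp only [Affine.Point.some.injEq]
  exact ⟨trivial, e⟩

theorem sigmaFrob_frob {r : ℕ} (hl : l = 2 * r + 1)
    (hΦ : (twAff A B).Nonsingular (RatFunc.X ^ l * fRat A B) (fRat A B ^ (r + 2)))
    (hΦ2 : (twAff A B).Nonsingular (RatFunc.X ^ (l ^ 2) * fRat A B)
      (fRat A B ^ (2 * r ^ 2 + 2 * r + 2))) :
    sigmaFrob hl (.some _ _ hΦ) = .some _ _ hΦ2 := by
  rw [sigmaFrob_some hl hΦ (sigmaFrob_nonsingular hl hΦ)]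
  simp only [Affine.Point.some.injEq]
  have hf := fRat_ne_zero A B
  have hl' : ∀ z : RatFunc (ZMod l), z ^ l = z ^ (2 * r + 1) :=
    fun z => congrArg (fun n => z ^ n) hl
  have hl2 : (RatFunc.X : RatFunc (ZMod l)) ^ (l ^ 2) = (RatFunc.X ^ l) ^ l := by
    rw [← pow_mul, pow_two]
  refine ⟨?_, ?_⟩
  · rw [hl2, hl' (RatFunc.X ^ l * fRat A B), hl' (RatFunc.X ^ l)]
    field_simp
    ring
  · rw [hl' (fRat A B ^ (r + 2))]
    field_simp
    ring

/-- **(M2) / hcomp**: `d (Φ2 + (m+n) Φ + mn G0) = d (Φ + m G0) * d (Φ + n G0)` as soon as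
`0 < d (Φ + n G0)`. -/
theorem comp_degree {r : ℕ} (hl : l = 2 * r + 1)
    (h0 : (twAff A B).Nonsingular (RatFunc.X * fRat A B) (fRat A B ^ 2))
    (hΦ : (twAff A B).Nonsingular (RatFunc.X ^ l * fRat A B) (fRat A B ^ (r + 2)))
    (hΦ2 : (twAff A B).Nonsingular (RatFunc.X ^ (l ^ 2) * fRat A B)
      (fRat A B ^ (2 * r ^ 2 + 2 * r + 2)))
    (m n : ℤ)
    (hn : 0 < dPt A B (Affine.Point.some _ _ hΦ + n • Affine.Point.some _ _ h0)) :
    dPt A B (Affine.Point.some _ _ hΦ2 + (m + n) • Affine.Point.some _ _ hΦ +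
        (m * n) • Affine.Point.some _ _ h0) =
      dPt A B (Affine.Point.some _ _ hΦ + m • Affine.Point.some _ _ h0) *
        dPt A B (Affine.Point.some _ _ hΦ + n • Affine.Point.some _ _ h0) := by
  set G0 : (twAff A B).Point := Affine.Point.some _ _ h0 with hG0
  set Φ : (twAff A B).Point := Affine.Point.some _ _ hΦ with hΦe
  set Φ2 : (twAff A B).Point := Affine.Point.some _ _ hΦ2 with hΦ2e
  rcases hQe : Φ + n • G0 with _ | ⟨x, y, h⟩
  · rw [hQe] at hn
    exact absurd hn (lt_irrefl _)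
  · rw [hQe] at hn
    have hd : 0 < ratHt (x / fRat A B) := hn
    have key : sigmaPt h hd (Φ + m • G0) = Φ2 + (m + n) • Φ + (m * n) • G0 := by
      rw [map_add, map_zsmul, hΦe, sigmaPt_frob hl h hd hΦ, hG0, sigmaPt_G0 h hd h0, ← hG0,
        ← hΦe, ← hQe, map_add, map_zsmul, sigmaFrob_G0 hl h0 hΦ, hΦe, sigmaFrob_frob hl hΦ hΦ2,
        ← hΦe, ← hΦ2e]
      module
    rw [← key, dPt_sigmaPt]

/-- `comp_degree` with arbitrary exponent expressions for the `Y`-coordinates of `Φ`, `Φ2`. -/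
theorem comp_degree_exp {r e₁ e₂ : ℕ} (hl : l = 2 * r + 1) (he₁ : e₁ = r + 2)
    (he₂ : e₂ = 2 * r ^ 2 + 2 * r + 2)
    (h0 : (twAff A B).Nonsingular (RatFunc.X * fRat A B) (fRat A B ^ 2))
    (hΦ : (twAff A B).Nonsingular (RatFunc.X ^ l * fRat A B) (fRat A B ^ e₁))
    (hΦ2 : (twAff A B).Nonsingular (RatFunc.X ^ (l ^ 2) * fRat A B) (fRat A B ^ e₂))
    (m n : ℤ)
    (hn : 0 < dPt A B (Affine.Point.some _ _ hΦ + n • Affine.Point.some _ _ h0)) :
    dPt A B (Affine.Point.some _ _ hΦ2 + (m + n) • Affine.Point.some _ _ hΦ +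
        (m * n) • Affine.Point.some _ _ h0) =
      dPt A B (Affine.Point.some _ _ hΦ + m • Affine.Point.some _ _ h0) *
        dPt A B (Affine.Point.some _ _ hΦ + n • Affine.Point.some _ _ h0) := by
  subst he₁ he₂
  exact comp_degree hl h0 hΦ hΦ2 m n hn

/-- **(M2) in the shape of the E5 core (`hcomp`)**, exponents `(l+3)/2`, `(l²+3)/2`,
for an odd prime `l`. -/
theorem comp_degree_std (hl2 : l ≠ 2)
    (h0 : (twAff A B).Nonsingular (RatFunc.X * fRat A B) (fRat A B ^ 2))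
    (hΦ : (twAff A B).Nonsingular (RatFunc.X ^ l * fRat A B) (fRat A B ^ ((l + 3) / 2)))
    (hΦ2 : (twAff A B).Nonsingular (RatFunc.X ^ (l ^ 2) * fRat A B)
      (fRat A B ^ ((l ^ 2 + 3) / 2)))
    (m n : ℤ)
    (_hm : 0 < dPt A B (Affine.Point.some _ _ hΦ + m • Affine.Point.some _ _ h0))
    (hn : 0 < dPt A B (Affine.Point.some _ _ hΦ + n • Affine.Point.some _ _ h0)) :
    dPt A B (Affine.Point.some _ _ hΦ2 + (m + n) • Affine.Point.some _ _ hΦ +
        (m * n) • Affine.Point.some _ _ h0) =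
      dPt A B (Affine.Point.some _ _ hΦ + m • Affine.Point.some _ _ h0) *
        dPt A B (Affine.Point.some _ _ hΦ + n • Affine.Point.some _ _ h0) := by
  obtain ⟨r, hr⟩ := (Fact.out : l.Prime).odd_of_ne_two hl2
  have he₁ : (l + 3) / 2 = r + 2 := by omega
  have he₂ : (l ^ 2 + 3) / 2 = 2 * r ^ 2 + 2 * r + 2 := by
    apply Nat.div_eq_of_eq_mul_left (by norm_num)
    rw [hr]; ring
  exact comp_degree_exp hr he₁ he₂ h0 hΦ hΦ2 m n hn

end Frob

end Fermat.Agent.S52.H79
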