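import Mathlib

set_option autoImplicit false

/-!
# S52, node E2: the degree function on the twisted curve and the identity (M1)

`F = RatFunc K`, `f = t^3 + A t + B`, twisted curve `EE : Y^2 = X^3 + A f^2 X + B f^3` over `F`.
`rdeg r = max (deg num) (deg denom)`; for a point `P = (X, Y)` of `EE`, `d P = rdeg (X / f)`.
Main results: `(M1)  d (P + G0) + d (P - G0) = 2 d P + 2` and `(M4)  d P = 0 → 2 • P = 0`.
-/

namespace Fermat.Agent.S52.H28

open Polynomial

section Poly

variable {K : Type*} [Field K]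

/-- Bezout form of primitivity of a triple of polynomials. -/
theorem bezout3_of_no_common_prime {a b c : K[X]} (ha : a ≠ 0)
    (h : ∀ π : K[X], Irreducible π → π ∣ a → π ∣ b → π ∣ c → False) :
    ∃ u v w : K[X], u * a + v * b + w * c = 1 := by
  classical
  set g := EuclideanDomain.gcd a (EuclideanDomain.gcd b c) with hg
  have hga : g ∣ a := EuclideanDomain.gcd_dvd_left _ _
  have hgbc : g ∣ EuclideanDomain.gcd b c := EuclideanDomain.gcd_dvd_right _ _
  have hgb : g ∣ b := hgbc.trans (EuclideanDomain.gcd_dvd_left _ _)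
  have hgc : g ∣ c := hgbc.trans (EuclideanDomain.gcd_dvd_right _ _)
  have hg0 : g ≠ 0 := fun h0 => ha (by rw [h0] at hga; exact zero_dvd_iff.mp hga)
  have hgu : IsUnit g := by
    by_contra hnu
    obtain ⟨π, hπ, hπg⟩ := WfDvdMonoid.exists_irreducible_factor hnu hg0
    exact h π hπ (hπg.trans hga) (hπg.trans hgb) (hπg.trans hgc)
  obtain ⟨gi, hgi⟩ := hgu.exists_left_inv
  have e1 := EuclideanDomain.gcd_eq_gcd_ab a (EuclideanDomain.gcd b c)
  have e2 := EuclideanDomain.gcd_eq_gcd_ab b c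
  refine ⟨gi * EuclideanDomain.gcdA a (EuclideanDomain.gcd b c),
    gi * EuclideanDomain.gcdB a (EuclideanDomain.gcd b c) * EuclideanDomain.gcdA b c,
    gi * EuclideanDomain.gcdB a (EuclideanDomain.gcd b c) * EuclideanDomain.gcdB b c, ?_⟩
  rw [← hgi, hg]
  linear_combination (-gi) * e1 - gi * EuclideanDomain.gcdB a (EuclideanDomain.gcd b c) * e2

/-- Two proportional primitive triples have the same degrees. -/
theorem natDegree_eq_of_proportional {a2 a1 a0 b2 b1 b0 : K[X]} (ha2 : a2 ≠ 0)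
    (hA : ∃ u v w : K[X], u * a2 + v * a1 + w * a0 = 1)
    (hB : ∃ u v w : K[X], u * b2 + v * b1 + w * b0 = 1)
    (h1 : a2 * b1 = a1 * b2) (h0 : a2 * b0 = a0 * b2) :
    a2.natDegree = b2.natDegree ∧ a1.natDegree = b1.natDegree ∧ a0.natDegree = b0.natDegree := by
  obtain ⟨u, v, w, hA⟩ := hA
  obtain ⟨u', v', w', hB⟩ := hB
  have e1 : a2 = b2 * (u' * a2 + v' * a1 + w' * a0) := by
    linear_combination (-a2) * hB + v' * h1 + w' * h0
  have e2 : b2 = a2 * (u * b2 + v * b1 + w * b0) := by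
    linear_combination (-b2) * hA - v * h1 - w * h0
  set c := u' * a2 + v' * a1 + w' * a0 with hc
  set c' := u * b2 + v * b1 + w * b0 with hc'
  have hb2 : b2 ≠ 0 := by
    rintro rfl
    exact ha2 (by rw [e1, zero_mul])
  have hcc : c' * c = 1 := by
    have : a2 * (c' * c) = a2 * 1 := by
      rw [mul_one]; nth_rewrite 2 [e1]; nth_rewrite 1 [e2]; ring
    exact mul_left_cancel₀ ha2 this
  have hcu : IsUnit c := IsUnit.of_mul_eq_one _ (by rw [mul_comm]; exact hcc)
  obtain ⟨k, hk, hkc⟩ := Polynomial.isUnit_iff.mp hcu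
  have hk0 : k ≠ 0 := hk.ne_zero
  have f1 : a1 = C k * b1 := by
    have : b2 * a1 = b2 * (C k * b1) := by
      rw [hkc]; linear_combination (-1 : K[X]) * h1 + b1 * e1
    exact mul_left_cancel₀ hb2 this
  have f0 : a0 = C k * b0 := by
    have : b2 * a0 = b2 * (C k * b0) := by
      rw [hkc]; linear_combination (-1 : K[X]) * h0 + b0 * e1
    exact mul_left_cancel₀ hb2 this
  have f2 : a2 = C k * b2 := by rw [hkc, mul_comm]; exact e1
  refine ⟨?_, ?_, ?_⟩
  · rw [f2, natDegree_C_mul hk0]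
  · rw [f1, natDegree_C_mul hk0]
  · rw [f0, natDegree_C_mul hk0]

/-- Multiplicativity of the Gauss norm at infinity for two linear forms. -/
theorem natDegree_triple_pairs {p1 q1 p2 q2 : K[X]} (hq1 : q1 ≠ 0) (hq2 : q2 ≠ 0) :
    max (max (q1 * q2).natDegree (p1 * q2 + p2 * q1).natDegree) (p1 * p2).natDegree
      = max p1.natDegree q1.natDegree + max p2.natDegree q2.natDegree := by
  have hu1 : (q1 * q2).natDegree ≤ max p1.natDegree q1.natDegree + max p2.natDegree q2.natDegree :=
    natDegree_mul_le_of_le (le_max_right _ _) (le_max_right _ _)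
  have hu2 : (p1 * q2 + p2 * q1).natDegree ≤
      max p1.natDegree q1.natDegree + max p2.natDegree q2.natDegree := by
    refine natDegree_add_le_of_degree_le ?_ ?_
    · exact natDegree_mul_le_of_le (le_max_left _ _) (le_max_right _ _)
    · rw [add_comm]
      exact natDegree_mul_le_of_le (le_max_left _ _) (le_max_right _ _)
  have hu3 : (p1 * p2).natDegree ≤ max p1.natDegree q1.natDegree + max p2.natDegree q2.natDegree :=
    natDegree_mul_le_of_le (le_max_left _ _) (le_max_left _ _)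
  refine le_antisymm (max_le (max_le hu1 hu2) hu3) ?_
  rcases le_or_gt p1.natDegree q1.natDegree with h1 | h1
  · rcases le_or_gt p2.natDegree q2.natDegree with h2 | h2
    · rw [max_eq_right h1, max_eq_right h2, ← natDegree_mul hq1 hq2]
      exact le_max_of_le_left (le_max_left _ _)
    · have hp2 : p2 ≠ 0 := by rintro rfl; simp at h2
      rw [max_eq_right h1, max_eq_left h2.le]
      have : (p1 * q2 + p2 * q1).natDegree = q1.natDegree + p2.natDegree := by
        rw [add_comm (p1 * q2), natDegree_add_eq_left_of_natDegree_lt, natDegree_mul hp2 hq1,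
          add_comm]
        rw [natDegree_mul hp2 hq1]
        calc (p1 * q2).natDegree ≤ p1.natDegree + q2.natDegree := natDegree_mul_le
          _ < p2.natDegree + q1.natDegree := by omega
      rw [← this]
      exact le_max_of_le_left (le_max_right _ _)
  · have hp1 : p1 ≠ 0 := by rintro rfl; simp at h1
    rcases le_or_gt p2.natDegree q2.natDegree with h2 | h2
    · rw [max_eq_left h1.le, max_eq_right h2]
      have : (p1 * q2 + p2 * q1).natDegree = p1.natDegree + q2.natDegree := by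
        rw [natDegree_add_eq_left_of_natDegree_lt, natDegree_mul hp1 hq2]
        rw [natDegree_mul hp1 hq2]
        calc (p2 * q1).natDegree ≤ p2.natDegree + q1.natDegree := natDegree_mul_le
          _ < p1.natDegree + q2.natDegree := by omega
      rw [← this]
      exact le_max_of_le_left (le_max_right _ _)
    · have hp2 : p2 ≠ 0 := by rintro rfl; simp at h2
      rw [max_eq_left h1.le, max_eq_left h2.le, ← natDegree_mul hp1 hp2]
      exact le_max_right _ _

/-- The triple of coefficients of `(q1 Z - p1)(q2 Z - p2)` (up to sign) is primitive. -/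
theorem bezout3_of_coprime_pairs {p1 q1 p2 q2 : K[X]} (h1 : IsCoprime p1 q1)
    (h2 : IsCoprime p2 q2) (hq1 : q1 ≠ 0) (hq2 : q2 ≠ 0) :
    ∃ u v w : K[X], u * (q1 * q2) + v * (p1 * q2 + p2 * q1) + w * (p1 * p2) = 1 := by
  refine bezout3_of_no_common_prime (mul_ne_zero hq1 hq2) ?_
  intro π hπ hd2 hd1 hd0
  have hπp : Prime π := hπ.prime
  have key : ∀ {p q : K[X]}, IsCoprime p q → π ∣ p → π ∣ q → False := by
    intro p q hpq hp hq
    exact hπ.not_isUnit (hpq.isUnit_of_dvd' hp hq)
  rcases hπp.dvd_or_dvd hd2 with hq | hq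
  · -- π ∣ q1
    have hp1 : ¬ π ∣ p1 := fun hp => key h1 hp hq
    have hp2 : π ∣ p2 := (hπp.dvd_or_dvd hd0).resolve_left hp1
    have hq2' : ¬ π ∣ q2 := fun hq' => key h2 hp2 hq'
    have : π ∣ p1 * q2 := by
      have := dvd_sub hd1 (Dvd.dvd.mul_left hq p2)
      simpa using this
    rcases hπp.dvd_or_dvd this with h | h
    · exact hp1 h
    · exact hq2' h
  · have hp2 : ¬ π ∣ p2 := fun hp => key h2 hp hq
    have hp1 : π ∣ p1 := (hπp.dvd_or_dvd hd0).resolve_right hp2
    have hq1' : ¬ π ∣ q1 := fun hq' => key h1 hp1 hq'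
    have : π ∣ p2 * q1 := by
      have := dvd_sub hd1 (Dvd.dvd.mul_left hq p1)
      simpa using this
    rcases hπp.dvd_or_dvd this with h | h
    · exact hp2 h
    · exact hq1' h

/-- The three coefficient polynomials of the quadratic in (M1). -/
noncomputable def m1a2 (p q : K[X]) : K[X] := (p - X * q) ^ 2

/-- Middle coefficient (with the sign of `r1 + r2`). -/
noncomputable def m1a1 (A B : K) (p q : K[X]) : K[X] :=
  2 * (p * X + C A * q) * (p + X * q) + 4 * C B * q ^ 2

/-- Constant coefficient. -/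
noncomputable def m1a0 (A B : K) (p q : K[X]) : K[X] :=
  (p * X - C A * q) ^ 2 - 4 * C B * q * (p + X * q)

theorem natDegree_m1_triple (A B : K) {p q : K[X]} (hq : q ≠ 0) :
    max (max (m1a2 p q).natDegree (m1a1 A B p q).natDegree) (m1a0 A B p q).natDegree
      = 2 * max p.natDegree q.natDegree + 2 := by
  have hu2 : (m1a2 p q).natDegree ≤ 2 * max p.natDegree q.natDegree + 2 := by
    unfold m1a2; compute_degree; omega
  have hu1 : (m1a1 A B p q).natDegree ≤ 2 * max p.natDegree q.natDegree + 2 := by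
    unfold m1a1; compute_degree; omega
  have hu0 : (m1a0 A B p q).natDegree ≤ 2 * max p.natDegree q.natDegree + 2 := by
    unfold m1a0; compute_degree; omega
  refine le_antisymm (max_le (max_le hu2 hu1) hu0) ?_
  rcases le_or_gt p.natDegree q.natDegree with h | h
  · -- deg a2 = 2 deg q + 2
    have e : (p - X * q).natDegree = q.natDegree + 1 := by
      rw [← neg_sub, natDegree_neg, natDegree_sub_eq_left_of_natDegree_lt, natDegree_X_mul hq]
      rw [natDegree_X_mul hq]; omega
    have : (m1a2 p q).natDegree = 2 * q.natDegree + 2 := by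
      unfold m1a2; rw [natDegree_pow, e]; ring
    rw [max_eq_right h, ← this]
    exact le_max_of_le_left (le_max_left _ _)
  · have hp : p ≠ 0 := by rintro rfl; simp at h
    have e : (p * X - C A * q).natDegree = p.natDegree + 1 := by
      rw [natDegree_sub_eq_left_of_natDegree_lt, natDegree_mul_X hp]
      rw [natDegree_mul_X hp]
      calc (C A * q).natDegree ≤ q.natDegree := natDegree_C_mul_le _ _
        _ < p.natDegree + 1 := by omega
    have e2 : ((p * X - C A * q) ^ 2).natDegree = 2 * p.natDegree + 2 := by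
      rw [natDegree_pow, e]; ring
    have e3 : (4 * C B * q * (p + X * q)).natDegree < 2 * p.natDegree + 2 := by
      have : (4 * C B * q * (p + X * q)).natDegree ≤ q.natDegree + max p.natDegree (1 + q.natDegree) := by
        compute_degree
      omega
    have : (m1a0 A B p q).natDegree = 2 * p.natDegree + 2 := by
      unfold m1a0
      rw [natDegree_sub_eq_left_of_natDegree_lt, e2]
      rw [e2]; exact e3
    rw [max_eq_left h.le, ← this]
    exact le_max_right _ _

/-- Primitivity of the (M1) triple. -/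
theorem m1_triple_primitive (h2 : (2 : K) ≠ 0) {A B : K} (hdisc : 4 * A ^ 3 + 27 * B ^ 2 ≠ 0)
    {p q : K[X]} (hpq : IsCoprime p q) (π : K[X]) (hπ : Irreducible π)
    (hd2 : π ∣ m1a2 p q) (hd1 : π ∣ m1a1 A B p q) (hd0 : π ∣ m1a0 A B p q) : False := by
  have hπp : Prime π := hπ.prime
  have hd : π ∣ p - X * q := hπp.dvd_of_dvd_pow hd2
  have hq : ¬ π ∣ q := by
    intro hq
    have hp : π ∣ p := by
      have := dvd_add hd (Dvd.dvd.mul_left hq X)
      simpa using this
    exact hπ.not_isUnit (hpq.isUnit_of_dvd' hp hq)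
  set f : K[X] := X ^ 3 + C A * X + C B with hf
  set g2 : K[X] := X ^ 4 - 2 * C A * X ^ 2 - 8 * C B * X + C A ^ 2 with hg2
  have i1 : m1a1 A B p q = 4 * q ^ 2 * f + (p - X * q) * (2 * p * X + 4 * q * X ^ 2 + 2 * C A * q) := by
    unfold m1a1; rw [hf]; ring
  have i0 : m1a0 A B p q = q ^ 2 * g2 + (p - X * q) * (X * (p * X + q * X ^ 2 - 2 * C A * q) - 4 * C B * q) := by
    unfold m1a0; rw [hg2]; ring
  have hf' : π ∣ f := by
    have h4 : π ∣ 4 * q ^ 2 * f := by
      have := dvd_sub hd1 (Dvd.dvd.mul_right hd (2 * p * X + 4 * q * X ^ 2 + 2 * C A * q))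
      rw [i1] at this; simpa using this
    have h4' : (4 : K[X]) = C (4 : K) := (map_ofNat C 4).symm
    have hu : IsUnit (4 : K[X]) := by
      rw [h4']
      refine Polynomial.isUnit_C.mpr (IsUnit.mk0 _ ?_)
      have : (4 : K) = 2 * 2 := by norm_num
      rw [this]; exact mul_ne_zero h2 h2
    rcases hπp.dvd_or_dvd h4 with h | h
    · rcases hπp.dvd_or_dvd h with h | h
      · exact absurd (isUnit_of_dvd_unit h hu) hπ.not_isUnit
      · exact absurd (hπp.dvd_of_dvd_pow h) hq
    · exact h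
  have hg' : π ∣ g2 := by
    have h4 : π ∣ q ^ 2 * g2 := by
      have := dvd_sub hd0 (Dvd.dvd.mul_right hd (X * (p * X + q * X ^ 2 - 2 * C A * q) - 4 * C B * q))
      rw [i0] at this; simpa using this
    rcases hπp.dvd_or_dvd h4 with h | h
    · exact absurd (hπp.dvd_of_dvd_pow h) hq
    · exact h
  have key : (3 * X ^ 2 + 4 * C A) * g2 - (3 * X ^ 3 - 5 * C A * X - 27 * C B) * f
      = C (4 * A ^ 3 + 27 * B ^ 2) := by
    rw [hf, hg2]; simp only [map_add, map_mul, map_pow, map_ofNat]; ring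
  have : π ∣ C (4 * A ^ 3 + 27 * B ^ 2) := by
    rw [← key]
    exact dvd_sub (Dvd.dvd.mul_left hg' _) (Dvd.dvd.mul_left hf' _)
  exact hπ.not_isUnit (isUnit_of_dvd_unit this (Polynomial.isUnit_C.mpr (IsUnit.mk0 _ hdisc)))

end Poly

section RatFunc

variable {K : Type*} [Field K]

/-- The degree of a rational function: `max (deg num) (deg denom)`. -/
noncomputable def rdeg (r : RatFunc K) : ℕ := max r.num.natDegree r.denom.natDegree

theorem rdeg_div_of_coprime {p q : K[X]} (hq : q ≠ 0) (h : IsCoprime p q) :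
    rdeg (algebraMap K[X] (RatFunc K) p / algebraMap K[X] (RatFunc K) q)
      = max p.natDegree q.natDegree := by
  set r : RatFunc K := algebraMap K[X] (RatFunc K) p / algebraMap K[X] (RatFunc K) q with hr
  have e : r.num * q = p * r.denom := (RatFunc.num_mul_eq_mul_denom_iff hq).mpr hr
  have hc := RatFunc.isCoprime_num_denom r
  have a1 : r.num ∣ p := hc.dvd_of_dvd_mul_right (e ▸ Dvd.intro _ rfl)
  have a2 : p ∣ r.num := h.dvd_of_dvd_mul_right (e ▸ Dvd.intro _ rfl)
  have b1 : r.denom ∣ q := hc.symm.dvd_of_dvd_mul_left (e ▸ Dvd.intro_left _ rfl)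
  have b2 : q ∣ r.denom := h.symm.dvd_of_dvd_mul_left (e ▸ Dvd.intro_left _ rfl)
  have n1 : r.num.natDegree = p.natDegree :=
    natDegree_eq_of_degree_eq (degree_eq_degree_of_associated (associated_of_dvd_dvd a1 a2))
  have n2 : r.denom.natDegree = q.natDegree :=
    natDegree_eq_of_degree_eq (degree_eq_degree_of_associated (associated_of_dvd_dvd b1 b2))
  unfold rdeg
  rw [n1, n2]

theorem rdeg_X : rdeg (RatFunc.X : RatFunc K) = 1 := by
  unfold rdeg; rw [RatFunc.num_X, RatFunc.denom_X]; simp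

theorem rdeg_C (c : K) : rdeg (RatFunc.C c : RatFunc K) = 0 := by
  unfold rdeg; rw [RatFunc.num_C, RatFunc.denom_C]; simp

theorem rdeg_zero : rdeg (0 : RatFunc K) = 0 := by
  unfold rdeg; simp

/-- `rdeg r = 0` iff `r` is a constant. -/
theorem exists_C_of_rdeg_eq_zero {r : RatFunc K} (h : rdeg r = 0) : ∃ c : K, r = RatFunc.C c := by
  unfold rdeg at h
  have h1 : r.num.natDegree = 0 := by omega
  have h2 : r.denom.natDegree = 0 := by omega
  have hd : r.denom = 1 := by
    have := (RatFunc.monic_denom r)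
    exact Polynomial.eq_one_of_monic_natDegree_zero this h2
  obtain ⟨c, hc⟩ := natDegree_eq_zero.mp h1
  refine ⟨c, ?_⟩
  rw [← RatFunc.num_div_denom r, hd, ← hc]
  simp [RatFunc.algebraMap_C]

/-- Gauss lemma at infinity: if `r1, r2` are the roots of a primitive quadratic
`a2 Z^2 - a1 Z + a0` over `K[X]`, then `rdeg r1 + rdeg r2` is the maximal degree of the
coefficients. -/
theorem rdeg_add_rdeg_of_quadratic {r1 r2 : RatFunc K} {a2 a1 a0 : K[X]} (ha2 : a2 ≠ 0)
    (hprim : ∀ π : K[X], Irreducible π → π ∣ a2 → π ∣ a1 → π ∣ a0 → False)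
    (hsum : algebraMap K[X] (RatFunc K) a2 * (r1 + r2) = algebraMap K[X] (RatFunc K) a1)
    (hprod : algebraMap K[X] (RatFunc K) a2 * (r1 * r2) = algebraMap K[X] (RatFunc K) a0) :
    rdeg r1 + rdeg r2 = max (max a2.natDegree a1.natDegree) a0.natDegree := by
  have hq1 := RatFunc.denom_ne_zero r1
  have hq2 := RatFunc.denom_ne_zero r2
  have hq1' : algebraMap K[X] (RatFunc K) r1.denom ≠ 0 := RatFunc.algebraMap_ne_zero hq1
  have hq2' : algebraMap K[X] (RatFunc K) r2.denom ≠ 0 := RatFunc.algebraMap_ne_zero hq2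
  have hr1 := RatFunc.num_div_denom r1
  have hr2 := RatFunc.num_div_denom r2
  have h1 : a2 * (r1.num * r2.denom + r2.num * r1.denom) = a1 * (r1.denom * r2.denom) := by
    apply RatFunc.algebraMap_injective K
    simp only [map_mul, map_add]
    rw [← hsum]
    have e : r1 + r2 = algebraMap K[X] (RatFunc K) r1.num / algebraMap K[X] (RatFunc K) r1.denom
        + algebraMap K[X] (RatFunc K) r2.num / algebraMap K[X] (RatFunc K) r2.denom := by
      rw [hr1, hr2]
    rw [e]
    field_simp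
  have h0 : a2 * (r1.num * r2.num) = a0 * (r1.denom * r2.denom) := by
    apply RatFunc.algebraMap_injective K
    simp only [map_mul]
    rw [← hprod]
    have e : r1 * r2 = algebraMap K[X] (RatFunc K) r1.num / algebraMap K[X] (RatFunc K) r1.denom
        * (algebraMap K[X] (RatFunc K) r2.num / algebraMap K[X] (RatFunc K) r2.denom) := by
      rw [hr1, hr2]
    rw [e]
    field_simp
  obtain ⟨e2, e1, e0⟩ := natDegree_eq_of_proportional ha2 (bezout3_of_no_common_prime ha2 hprim)
    (bezout3_of_coprime_pairs (RatFunc.isCoprime_num_denom r1) (RatFunc.isCoprime_num_denom r2)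
      hq1 hq2) h1 h0
  rw [e2, e1, e0, natDegree_triple_pairs hq1 hq2]
  rfl

end RatFunc

section FieldId

variable {F : Type*} [Field F]

theorem sumaux (y1 f D s : F) (hD : D ≠ 0) :
    ((y1 - f ^ 2) / D) ^ 2 - s + (((y1 + f ^ 2) / D) ^ 2 - s)
      = (2 * (y1 ^ 2 + f ^ 4) - 2 * s * D ^ 2) / D ^ 2 := by
  field_simp; ring

theorem prodaux (y1 f D s : F) (hD : D ≠ 0) :
    (((y1 - f ^ 2) / D) ^ 2 - s) * (((y1 + f ^ 2) / D) ^ 2 - s)
      = ((y1 ^ 2 + f ^ 4 - s * D ^ 2) ^ 2 - 4 * y1 ^ 2 * f ^ 4) / D ^ 4 := by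
  field_simp; ring

/-- Sum of the `x/f`-coordinates of `P ± G0` in terms of `z = x(P)/f`. -/
theorem sum_formula (y1 f t a b z Q : F) (hf : f ≠ 0) (hzt : z ≠ t)
    (hy : y1 ^ 2 = (f * z) ^ 3 + a * f ^ 2 * (f * z) + b * f ^ 3) (hfe : f = t ^ 3 + a * t + b) :
    (z * Q - t * Q) ^ 2 * ((((y1 - f ^ 2) / (f * z - t * f)) ^ 2 - f * z - t * f) / f
        + (((y1 + f ^ 2) / (f * z - t * f)) ^ 2 - f * z - t * f) / f)
      = 2 * (z * Q * t + a * Q) * (z * Q + t * Q) + 4 * b * Q ^ 2 := by
  have hD : f * z - t * f ≠ 0 := by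
    have : f * z - t * f = f * (z - t) := by ring
    rw [this]; exact mul_ne_zero hf (sub_ne_zero.mpr hzt)
  have hzt' : z - t ≠ 0 := sub_ne_zero.mpr hzt
  rw [← add_div, sub_sub, sub_sub, sumaux y1 f _ (f * z + t * f) hD, hy]
  have e : f * z - t * f = f * (z - t) := by ring
  rw [e]
  field_simp
  linear_combination (2 * Q ^ 2) * hfe

/-- Product of the `x/f`-coordinates of `P ± G0` in terms of `z = x(P)/f`. -/
theorem prod_formula (y1 f t a b z Q : F) (hf : f ≠ 0) (hzt : z ≠ t)
    (hy : y1 ^ 2 = (f * z) ^ 3 + a * f ^ 2 * (f * z) + b * f ^ 3) (hfe : f = t ^ 3 + a * t + b) :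
    (z * Q - t * Q) ^ 2 * (((((y1 - f ^ 2) / (f * z - t * f)) ^ 2 - f * z - t * f) / f)
        * ((((y1 + f ^ 2) / (f * z - t * f)) ^ 2 - f * z - t * f) / f))
      = (z * Q * t - a * Q) ^ 2 - 4 * b * Q * (z * Q + t * Q) := by
  have hD : f * z - t * f ≠ 0 := by
    have : f * z - t * f = f * (z - t) := by ring
    rw [this]; exact mul_ne_zero hf (sub_ne_zero.mpr hzt)
  have hzt' : z - t ≠ 0 := sub_ne_zero.mpr hzt
  rw [div_mul_div_comm, sub_sub, sub_sub, prodaux y1 f _ (f * z + t * f) hD, hy]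
  have e : f * z - t * f = f * (z - t) := by ring
  rw [e]
  field_simp
  linear_combination (Q ^ 2 * (f + (t ^ 3 + a * t + b) - 2 * (z ^ 3 + a * z + b)
    - 2 * (z - t) ^ 2 * (z + t))) * hfe

end FieldId

section Curve

open WeierstrassCurve

variable {K : Type*} [Field K]

/-- The cubic `t^3 + A t + B`. -/
noncomputable def fPoly (A B : K) : K[X] := X ^ 3 + C A * X + C B

/-- The cubic as a rational function. -/
noncomputable def fF (A B : K) : RatFunc K := algebraMap K[X] (RatFunc K) (fPoly A B)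

/-- The twisted curve `Y^2 = X^3 + A f^2 X + B f^3` over `K(t)`. -/
noncomputable def twist (A B : K) : WeierstrassCurve (RatFunc K) :=
  ⟨0, 0, 0, RatFunc.C A * fF A B ^ 2, RatFunc.C B * fF A B ^ 3⟩

theorem twist_eq (A B : K) :
    twist A B = ⟨0, 0, 0, RatFunc.C A * fF A B ^ 2, RatFunc.C B * fF A B ^ 3⟩ := rfl

theorem fF_def (A B : K) :
    fF A B = algebraMap K[X] (RatFunc K) (X ^ 3 + C A * X + C B) := rfl

theorem fPoly_natDegree (A B : K) : (fPoly A B).natDegree = 3 := by
  unfold fPoly; compute_degree!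

theorem fPoly_ne_zero (A B : K) : fPoly A B ≠ 0 := by
  intro h
  have := fPoly_natDegree A B
  rw [h] at this; simp at this

theorem fF_ne_zero (A B : K) : fF A B ≠ 0 := RatFunc.algebraMap_ne_zero (fPoly_ne_zero A B)

theorem fF_eq (A B : K) :
    fF A B = RatFunc.X ^ 3 + RatFunc.C A * RatFunc.X + RatFunc.C B := by
  simp [fF, fPoly, RatFunc.algebraMap_X, RatFunc.algebraMap_C]

theorem twist_equation_iff (A B : K) (x y : RatFunc K) :
    (twist A B).toAffine.Equation x y ↔
      y ^ 2 = x ^ 3 + RatFunc.C A * fF A B ^ 2 * x + RatFunc.C B * fF A B ^ 3 := by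
  rw [WeierstrassCurve.Affine.equation_iff]; simp [twist]

theorem twist_negY (A B : K) (x y : RatFunc K) : (twist A B).toAffine.negY x y = -y := by
  simp [WeierstrassCurve.Affine.negY, twist]

theorem twist_addX (A B : K) (x₁ x₂ ℓ : RatFunc K) :
    (twist A B).toAffine.addX x₁ x₂ ℓ = ℓ ^ 2 - x₁ - x₂ := by
  simp [WeierstrassCurve.Affine.addX, twist]

/-- The point `G0 = (t f, f^2)` is nonsingular (characteristic `≠ 2`). -/
theorem nonsingular_G0 (h2 : (2 : K) ≠ 0) (A B : K) :
    (twist A B).toAffine.Nonsingular (RatFunc.X * fF A B) (fF A B ^ 2) := by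
  rw [WeierstrassCurve.Affine.nonsingular_iff, twist_equation_iff]
  refine ⟨?_, Or.inr ?_⟩
  · have e := fF_eq A B
    linear_combination (fF A B ^ 3) * e
  · have h2' : (2 : RatFunc K) ≠ 0 := by
      have : (2 : RatFunc K) = RatFunc.C (2 : K) := (map_ofNat (RatFunc.C (K := K)) 2).symm
      rw [this]; exact (_root_.map_ne_zero _).mpr h2
    have hf := fF_ne_zero A B
    intro h
    have h' : 2 * fF A B ^ 2 = 0 := by
      simp only [twist] at h
      linear_combination h
    exact mul_ne_zero h2' (pow_ne_zero 2 hf) h'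

/-- The degree of a point of the twisted curve: `rdeg (X / f)`. -/
noncomputable def dPt (A B : K) : (twist A B).toAffine.Point → ℕ
  | .zero => 0
  | .some x _ _ => rdeg (x / fF A B)

theorem dPt_zero (A B : K) : dPt A B (0 : (twist A B).toAffine.Point) = 0 := rfl

theorem dPt_some (A B : K) {x y : RatFunc K} (h : (twist A B).toAffine.Nonsingular x y) :
    dPt A B (.some x y h) = rdeg (x / fF A B) := rfl

theorem dPt_neg (A B : K) (P : (twist A B).toAffine.Point) : dPt A B (-P) = dPt A B P := by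
  rcases P with _ | ⟨x, y, h⟩
  · rfl
  · rfl

theorem dPt_G0 (A B : K) (hG : (twist A B).toAffine.Nonsingular (RatFunc.X * fF A B) (fF A B ^ 2)) :
    dPt A B (.some _ _ hG) = 1 := by
  rw [dPt_some, mul_div_assoc, div_self (fF_ne_zero A B), mul_one, rdeg_X]

/-- (M1) for a point `P` with `x(P) ≠ x(G0)`. -/
theorem dPt_add_sub_generic (h2 : (2 : K) ≠ 0) {A B : K} (hdisc : 4 * A ^ 3 + 27 * B ^ 2 ≠ 0)
    [DecidableEq (RatFunc K)]
    (hG : (twist A B).toAffine.Nonsingular (RatFunc.X * fF A B) (fF A B ^ 2))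
    {x1 y1 : RatFunc K} (h1 : (twist A B).toAffine.Nonsingular x1 y1)
    (hx : x1 ≠ RatFunc.X * fF A B) :
    dPt A B (Affine.Point.some x1 y1 h1 + Affine.Point.some _ _ hG)
        + dPt A B (Affine.Point.some x1 y1 h1 - Affine.Point.some _ _ hG)
      = 2 * dPt A B (Affine.Point.some x1 y1 h1) + 2 := by
  have hf := fF_ne_zero A B
  have hfe := fF_eq A B
  obtain ⟨z, hz⟩ : ∃ z, x1 = fF A B * z := ⟨x1 / fF A B, by field_simp⟩
  subst hz
  have hzt : z ≠ RatFunc.X := by
    intro h; apply hx; rw [h, mul_comm]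
  have hq0 : z.denom ≠ 0 := RatFunc.denom_ne_zero z
  have hQ0 : algebraMap K[X] (RatFunc K) z.denom ≠ 0 := RatFunc.algebraMap_ne_zero hq0
  have hpz : algebraMap K[X] (RatFunc K) z.num = z * algebraMap K[X] (RatFunc K) z.denom := by
    have := RatFunc.num_div_denom z
    rw [div_eq_iff hQ0] at this
    exact this
  have hy : y1 ^ 2 = (fF A B * z) ^ 3 + RatFunc.C A * fF A B ^ 2 * (fF A B * z)
      + RatFunc.C B * fF A B ^ 3 := (twist_equation_iff A B _ _).mp h1.1
  have d1 : dPt A B (Affine.Point.some (fF A B * z) y1 h1 + Affine.Point.some _ _ hG)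
      = rdeg ((((y1 - fF A B ^ 2) / (fF A B * z - RatFunc.X * fF A B)) ^ 2 - fF A B * z
          - RatFunc.X * fF A B) / fF A B) := by
    rw [Affine.Point.add_of_X_ne hx, dPt_some, twist_addX, Affine.slope_of_X_ne hx]
  have d2 : dPt A B (Affine.Point.some (fF A B * z) y1 h1 - Affine.Point.some _ _ hG)
      = rdeg ((((y1 + fF A B ^ 2) / (fF A B * z - RatFunc.X * fF A B)) ^ 2 - fF A B * z
          - RatFunc.X * fF A B) / fF A B) := by
    rw [sub_eq_add_neg, Affine.Point.neg_some, Affine.Point.add_of_X_ne hx, dPt_some, twist_addX,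
      Affine.slope_of_X_ne hx, twist_negY, sub_neg_eq_add]
  have d0 : dPt A B (Affine.Point.some (fF A B * z) y1 h1) = rdeg z := by
    rw [dPt_some, mul_div_cancel_left₀ _ hf]
  have ea2 : algebraMap K[X] (RatFunc K) (m1a2 z.num z.denom)
      = (z * algebraMap K[X] (RatFunc K) z.denom
          - RatFunc.X * algebraMap K[X] (RatFunc K) z.denom) ^ 2 := by
    simp only [m1a2, map_pow, map_sub, map_mul, RatFunc.algebraMap_X, hpz]
  have ea1 : algebraMap K[X] (RatFunc K) (m1a1 A B z.num z.denom)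
      = 2 * (z * algebraMap K[X] (RatFunc K) z.denom * RatFunc.X
            + RatFunc.C A * algebraMap K[X] (RatFunc K) z.denom)
          * (z * algebraMap K[X] (RatFunc K) z.denom
            + RatFunc.X * algebraMap K[X] (RatFunc K) z.denom)
        + 4 * RatFunc.C B * algebraMap K[X] (RatFunc K) z.denom ^ 2 := by
    simp only [m1a1, map_pow, map_add, map_mul, RatFunc.algebraMap_X, RatFunc.algebraMap_C, hpz,
      map_ofNat]
  have ea0 : algebraMap K[X] (RatFunc K) (m1a0 A B z.num z.denom)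
      = (z * algebraMap K[X] (RatFunc K) z.denom * RatFunc.X
            - RatFunc.C A * algebraMap K[X] (RatFunc K) z.denom) ^ 2
          - 4 * RatFunc.C B * algebraMap K[X] (RatFunc K) z.denom
            * (z * algebraMap K[X] (RatFunc K) z.denom
              + RatFunc.X * algebraMap K[X] (RatFunc K) z.denom) := by
    simp only [m1a0, map_pow, map_add, map_sub, map_mul, RatFunc.algebraMap_X,
      RatFunc.algebraMap_C, hpz, map_ofNat]
  have ha2 : m1a2 z.num z.denom ≠ 0 := by
    intro h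
    have h' : algebraMap K[X] (RatFunc K) (m1a2 z.num z.denom) = 0 := by rw [h, map_zero]
    rw [ea2] at h'
    have h'' := pow_eq_zero_iff (two_ne_zero) |>.mp h'
    rw [← sub_mul] at h''
    rcases mul_eq_zero.mp h'' with h3 | h3
    · exact hzt (sub_eq_zero.mp h3)
    · exact hQ0 h3
  have key := rdeg_add_rdeg_of_quadratic ha2
    (m1_triple_primitive h2 hdisc (RatFunc.isCoprime_num_denom z))
    (r1 := (((y1 - fF A B ^ 2) / (fF A B * z - RatFunc.X * fF A B)) ^ 2 - fF A B * z
          - RatFunc.X * fF A B) / fF A B)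
    (r2 := (((y1 + fF A B ^ 2) / (fF A B * z - RatFunc.X * fF A B)) ^ 2 - fF A B * z
          - RatFunc.X * fF A B) / fF A B)
    (a1 := m1a1 A B z.num z.denom) (a0 := m1a0 A B z.num z.denom)
    (by rw [ea2, ea1]; exact sum_formula y1 _ _ _ _ z _ hf hzt hy hfe)
    (by rw [ea2, ea0]; exact prod_formula y1 _ _ _ _ z _ hf hzt hy hfe)
  rw [d1, d2, d0, key, natDegree_m1_triple A B hq0]
  rfl

/-- The polynomial `t^4 - 2 A t^2 - 8 B t + A^2` (numerator of `x(2 G0)/f`). -/
noncomputable def g2Poly (A B : K) : K[X] := X ^ 4 - 2 * C A * X ^ 2 - 8 * C B * X + C A ^ 2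

theorem g2Poly_natDegree (A B : K) : (g2Poly A B).natDegree = 4 := by
  unfold g2Poly; compute_degree!

theorem isCoprime_g2Poly (h2 : (2 : K) ≠ 0) {A B : K} (hdisc : 4 * A ^ 3 + 27 * B ^ 2 ≠ 0) :
    IsCoprime (g2Poly A B) (C 4 * fPoly A B) := by
  have h4 : (4 : K) ≠ 0 := by
    have : (4 : K) = 2 * 2 := by norm_num
    rw [this]; exact mul_ne_zero h2 h2
  refine ⟨C (4 * A ^ 3 + 27 * B ^ 2)⁻¹ * (3 * X ^ 2 + 4 * C A),
    -(C (4 * A ^ 3 + 27 * B ^ 2)⁻¹ * C (4 : K)⁻¹ * (3 * X ^ 3 - 5 * C A * X - 27 * C B)), ?_⟩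
  have key : (3 * X ^ 2 + 4 * C A) * g2Poly A B - (3 * X ^ 3 - 5 * C A * X - 27 * C B) * fPoly A B
      = C (4 * A ^ 3 + 27 * B ^ 2) := by
    unfold g2Poly fPoly; simp only [map_add, map_mul, map_pow, map_ofNat]; ring
  have e1 : C (4 * A ^ 3 + 27 * B ^ 2)⁻¹ * C (4 * A ^ 3 + 27 * B ^ 2) = (1 : K[X]) := by
    rw [← C_mul, inv_mul_cancel₀ hdisc, C_1]
  have e2 : C (4 : K)⁻¹ * C (4 : K) = (1 : K[X]) := by
    rw [← C_mul, inv_mul_cancel₀ h4, C_1]
  linear_combination (C (4 * A ^ 3 + 27 * B ^ 2)⁻¹) * key + e1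
    - (C (4 * A ^ 3 + 27 * B ^ 2)⁻¹ * (3 * X ^ 3 - 5 * C A * X - 27 * C B) * fPoly A B) * e2

/-- `d (2 G0) = 4`. -/
theorem dPt_G0_add_G0 (h2 : (2 : K) ≠ 0) {A B : K} (hdisc : 4 * A ^ 3 + 27 * B ^ 2 ≠ 0)
    [DecidableEq (RatFunc K)]
    (hG : (twist A B).toAffine.Nonsingular (RatFunc.X * fF A B) (fF A B ^ 2)) :
    dPt A B (Affine.Point.some _ _ hG + Affine.Point.some _ _ hG) = 4 := by
  have hf := fF_ne_zero A B
  have hfe := fF_eq A B
  have h2' : (2 : RatFunc K) ≠ 0 := by
    have : (2 : RatFunc K) = RatFunc.C (2 : K) := (map_ofNat (RatFunc.C (K := K)) 2).symm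
    rw [this]; exact (_root_.map_ne_zero _).mpr h2
  have h4 : (4 : K) ≠ 0 := by
    have : (4 : K) = 2 * 2 := by norm_num
    rw [this]; exact mul_ne_zero h2 h2
  have hy : fF A B ^ 2 ≠ (twist A B).toAffine.negY (RatFunc.X * fF A B) (fF A B ^ 2) := by
    rw [twist_negY]
    intro h
    have h' : 2 * fF A B ^ 2 = 0 := by linear_combination h
    exact mul_ne_zero h2' (pow_ne_zero 2 hf) h'
  have hc4 : (C (4 : K) * fPoly A B) ≠ 0 := mul_ne_zero (C_ne_zero.mpr h4) (fPoly_ne_zero A B)
  have hval : (twist A B).toAffine.addX (RatFunc.X * fF A B) (RatFunc.X * fF A B)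
        ((twist A B).toAffine.slope (RatFunc.X * fF A B) (RatFunc.X * fF A B) (fF A B ^ 2)
          (fF A B ^ 2)) / fF A B
      = algebraMap K[X] (RatFunc K) (g2Poly A B)
          / algebraMap K[X] (RatFunc K) (C 4 * fPoly A B) := by
    rw [twist_addX, Affine.slope_of_Y_ne rfl hy, twist_negY]
    have hden : algebraMap K[X] (RatFunc K) (C 4 * fPoly A B) = 4 * fF A B := by
      simp only [map_mul, RatFunc.algebraMap_C, fF]
      congr 1
      exact map_ofNat (RatFunc.C (K := K)) 4
    have hnum : algebraMap K[X] (RatFunc K) (g2Poly A B)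
        = RatFunc.X ^ 4 - 2 * RatFunc.C A * RatFunc.X ^ 2 - 8 * RatFunc.C B * RatFunc.X
          + RatFunc.C A ^ 2 := by
      simp only [g2Poly, map_add, map_sub, map_mul, map_pow, RatFunc.algebraMap_X,
        RatFunc.algebraMap_C, map_ofNat]
    rw [hden, hnum]
    have e : (twist A B).toAffine.a₂ = 0 := rfl
    have e1 : (twist A B).toAffine.a₁ = 0 := rfl
    have e4 : (twist A B).toAffine.a₄ = RatFunc.C A * fF A B ^ 2 := rfl
    rw [e, e1, e4]
    have h4' : (4 : RatFunc K) ≠ 0 := by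
      have : (4 : RatFunc K) = 2 * 2 := by norm_num
      rw [this]; exact mul_ne_zero h2' h2'
    have hd : fF A B ^ 2 - -fF A B ^ 2 ≠ 0 := by
      have : fF A B ^ 2 - -fF A B ^ 2 = 2 * fF A B ^ 2 := by ring
      rw [this]; exact mul_ne_zero h2' (pow_ne_zero 2 hf)
    obtain ⟨s, hs2⟩ : ∃ s : RatFunc K, 2 * s = 3 * RatFunc.X ^ 2 + RatFunc.C A :=
      ⟨(3 * RatFunc.X ^ 2 + RatFunc.C A) / 2, mul_div_cancel₀ _ h2'⟩
    have hs : (3 * (RatFunc.X * fF A B) ^ 2 + 2 * 0 * (RatFunc.X * fF A B)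
        + RatFunc.C A * fF A B ^ 2 - 0 * fF A B ^ 2) / (fF A B ^ 2 - -fF A B ^ 2) = s := by
      rw [div_eq_iff hd]
      linear_combination (-(fF A B ^ 2)) * hs2
    rw [hs, div_eq_div_iff hf (mul_ne_zero h4' hf)]
    linear_combination (fF A B * (2 * s + 3 * RatFunc.X ^ 2 + RatFunc.C A)) * hs2
      + (-8 * RatFunc.X * fF A B) * hfe
  rw [Affine.Point.add_self_of_Y_ne hy, dPt_some, hval,
    rdeg_div_of_coprime hc4 (isCoprime_g2Poly h2 hdisc), g2Poly_natDegree,
    natDegree_C_mul h4, fPoly_natDegree]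
  rfl

/-- **(M1)**: `d (P + G0) + d (P - G0) = 2 d P + 2` for every point `P` of the twisted curve. -/
theorem dPt_add_G0_add_dPt_sub_G0 (h2 : (2 : K) ≠ 0) {A B : K}
    (hdisc : 4 * A ^ 3 + 27 * B ^ 2 ≠ 0) [DecidableEq (RatFunc K)]
    (hG : (twist A B).toAffine.Nonsingular (RatFunc.X * fF A B) (fF A B ^ 2))
    (P : (twist A B).toAffine.Point) :
    dPt A B (P + Affine.Point.some _ _ hG) + dPt A B (P - Affine.Point.some _ _ hG)
      = 2 * dPt A B P + 2 := by
  rcases P with _ | ⟨x1, y1, h1⟩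
  · rw [← Affine.Point.zero_def, zero_add, zero_sub, dPt_neg, dPt_G0, dPt_zero]
  · by_cases hx : x1 = RatFunc.X * fF A B
    · rcases (Affine.Point.X_eq_iff (h₁ := h1) (h₂ := hG)).mp hx with h | h
      · rw [h, sub_self, dPt_zero, dPt_G0_add_G0 h2 hdisc, dPt_G0]
      · rw [h, neg_add_cancel, dPt_zero, ← neg_add', dPt_neg, dPt_neg,
          dPt_G0_add_G0 h2 hdisc, dPt_G0]
    · exact dPt_add_sub_generic h2 hdisc hG h1 hx

/-- **(M4)**: a point of degree `0` is killed by `2` (because `deg f` is odd). -/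
theorem two_nsmul_eq_zero_of_dPt_eq_zero {A B : K} [DecidableEq (RatFunc K)]
    (P : (twist A B).toAffine.Point) (h : dPt A B P = 0) : 2 • P = 0 := by
  rcases P with _ | ⟨x, y, hxy⟩
  · rw [← Affine.Point.zero_def, nsmul_zero]
  · rw [dPt_some] at h
    obtain ⟨c, hc⟩ := exists_C_of_rdeg_eq_zero h
    have hf := fF_ne_zero A B
    have hx : x = RatFunc.C c * fF A B := by
      rw [div_eq_iff hf] at hc; exact hc
    have hy := (twist_equation_iff A B _ _).mp hxy.1
    have hy' : y ^ 2 = RatFunc.C (c ^ 3 + A * c + B) * fF A B ^ 3 := by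
      rw [hy, hx]; simp only [map_add, map_mul, map_pow]; ring
    have hy0 : y = 0 := by
      by_contra hne
      have hyd := RatFunc.num_div_denom y
      have hv0 : y.denom ≠ 0 := RatFunc.denom_ne_zero y
      have hV : algebraMap K[X] (RatFunc K) y.denom ≠ 0 := RatFunc.algebraMap_ne_zero hv0
      have hu0 : y.num ≠ 0 := fun h0 => hne (RatFunc.num_eq_zero_iff.mp h0)
      by_cases he : c ^ 3 + A * c + B = 0
      · rw [he, map_zero, zero_mul] at hy'
        exact hne ((pow_eq_zero_iff two_ne_zero).mp hy')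
      · have hpoly : y.num ^ 2 = C (c ^ 3 + A * c + B) * fPoly A B ^ 3 * y.denom ^ 2 := by
          apply RatFunc.algebraMap_injective K
          simp only [map_mul, map_pow, RatFunc.algebraMap_C]
          have hu : algebraMap K[X] (RatFunc K) y.num
              = y * algebraMap K[X] (RatFunc K) y.denom := by
            rw [div_eq_iff hV] at hyd; exact hyd
          rw [hu, mul_pow, hy']; rfl
        have hdeg := congrArg natDegree hpoly
        rw [natDegree_pow, natDegree_mul (mul_ne_zero (C_ne_zero.mpr he)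
          (pow_ne_zero 3 (fPoly_ne_zero A B))) (pow_ne_zero 2 hv0), natDegree_C_mul he,
          natDegree_pow, natDegree_pow, fPoly_natDegree] at hdeg
        omega
    subst hy0
    rw [two_nsmul]
    exact Affine.Point.add_self_of_Y_eq (by rw [twist_negY, neg_zero])

end Curve

end Fermat.Agent.S52.H28
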