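import Mathlib
import Fermat.Agent.S52.Comp_helper79
import Fermat.Agent.S52.DegM1_helper28

/-!
# S52 node E3b: `hcomp` in the vocabulary of `DegM1_helper28` (`H28.twist`, `H28.fF`, `H28.dPt`)
-/

set_option autoImplicit false

namespace Fermat.Agent.S52.H79

open WeierstrassCurve

theorem fRat_eq_H28 {K : Type*} [Field K] (A B : K) : fRat A B = H28.fF A B := rfl

theorem dPt_eq_H28 {K : Type*} [Field K] (A B : K) (P : (H28.twist A B).toAffine.Point) :
    H28.dPt A B P = dPt A B P := by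
  cases P <;> rfl

/-- **E3b = `hcomp`** for the consumer `FrobChar` (E-block assembly), in `H28`'s terms. -/
theorem hcomp_H28 {l : ℕ} [Fact l.Prime] (hl2 : l ≠ 2) (A B : ZMod l)
    [DecidableEq (RatFunc (ZMod l))]
    (hG : (H28.twist A B).toAffine.Nonsingular (RatFunc.X * H28.fF A B) (H28.fF A B ^ 2))
    (hΦ : (H28.twist A B).toAffine.Nonsingular (RatFunc.X ^ l * H28.fF A B)
      (H28.fF A B ^ ((l + 3) / 2)))
    (hΦ2 : (H28.twist A B).toAffine.Nonsingular (RatFunc.X ^ (l ^ 2) * H28.fF A B)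
      (H28.fF A B ^ ((l ^ 2 + 3) / 2)))
    (m n : ℤ)
    (hm : 0 < H28.dPt A B (Affine.Point.some _ _ hΦ + m • Affine.Point.some _ _ hG))
    (hn : 0 < H28.dPt A B (Affine.Point.some _ _ hΦ + n • Affine.Point.some _ _ hG)) :
    H28.dPt A B (Affine.Point.some _ _ hΦ2 + (m + n) • Affine.Point.some _ _ hΦ +
        (m * n) • Affine.Point.some _ _ hG) =
      H28.dPt A B (Affine.Point.some _ _ hΦ + m • Affine.Point.some _ _ hG) *
        H28.dPt A B (Affine.Point.some _ _ hΦ + n • Affine.Point.some _ _ hG) := by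
  rw [dPt_eq_H28] at hm hn
  rw [dPt_eq_H28, dPt_eq_H28, dPt_eq_H28]
  exact comp_degree_std (A := A) (B := B) hl2 hG hΦ hΦ2 m n hm hn

/-- Same, without the (unused) positivity hypothesis on the `m`-side. -/
theorem hcomp_H28' {l : ℕ} [Fact l.Prime] (hl2 : l ≠ 2) (A B : ZMod l)
    [DecidableEq (RatFunc (ZMod l))]
    (G0 Φ Φ2 : (H28.twist A B).toAffine.Point)
    (hG0 : ∃ h, G0 = Affine.Point.some (RatFunc.X * H28.fF A B) (H28.fF A B ^ 2) h)
    (hΦ : ∃ h, Φ = Affine.Point.some (RatFunc.X ^ l * H28.fF A B)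
      (H28.fF A B ^ ((l + 3) / 2)) h)
    (hΦ2 : ∃ h, Φ2 = Affine.Point.some (RatFunc.X ^ (l ^ 2) * H28.fF A B)
      (H28.fF A B ^ ((l ^ 2 + 3) / 2)) h) :
    ∀ m n : ℤ, 0 < H28.dPt A B (Φ + m • G0) → 0 < H28.dPt A B (Φ + n • G0) →
      H28.dPt A B (Φ2 + (m + n) • Φ + (m * n) • G0) =
        H28.dPt A B (Φ + m • G0) * H28.dPt A B (Φ + n • G0) := by
  obtain ⟨h0, rfl⟩ := hG0
  obtain ⟨h1, rfl⟩ := hΦ
  obtain ⟨h2, rfl⟩ := hΦ2
  intro m n hm hn
  exact hcomp_H28 hl2 A B h0 h1 h2 m n hm hn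

end Fermat.Agent.S52.H79
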