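import Mathlib

/-!
# S52, node E5 (core): Manin's quadratic-sequence algebra

An abstract form of the last step of Manin's elementary proof of the Hasse relation: a "degree"
function `d` on an abelian group satisfying the parallelogram identity along `G0`, multiplicative
under composition, with `d Φ = l` and `d (Φ - G0) = l + 1 - a`, forces
`2 • (Φ2 - a • Φ + l • G0) = 0`.
-/

set_option autoImplicit false

namespace Fermat.Agent.S52.H76

/-- A sequence `ℤ → ℤ` with constant second difference `2` is a monic quadratic polynomial. -/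
theorem quad_seq (s : ℤ → ℤ) (h : ∀ k, s (k + 1) + s (k - 1) = 2 * s k + 2) (k : ℤ) :
    s k = k ^ 2 + (s 1 - s 0 - 1) * k + s 0 := by
  set t : ℤ → ℤ := fun k => s k - (k ^ 2 + (s 1 - s 0 - 1) * k + s 0) with ht
  have ht0 : t 0 = 0 := by simp [ht]
  have ht1 : t 1 = 0 := by simp [ht]
  have hrec : ∀ k, t (k + 1) + t (k - 1) = 2 * t k := by
    intro k
    have := h k
    simp only [ht]
    linarith [this]
  have hpos : ∀ n : ℕ, t n = 0 ∧ t (n + 1) = 0 := by
    intro n
    induction n with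
    | zero => exact ⟨by simpa using ht0, by simpa using ht1⟩
    | succ n ih =>
      refine ⟨by push_cast; exact ih.2, ?_⟩
      have := hrec ((n : ℤ) + 1)
      rw [add_sub_cancel_right, ih.1, ih.2] at this
      push_cast
      linarith
  have hneg : ∀ n : ℕ, t (-(n : ℤ)) = 0 ∧ t (-(n : ℤ) + 1) = 0 := by
    intro n
    induction n with
    | zero => exact ⟨by simpa using ht0, by simpa using ht1⟩
    | succ n ih =>
      have e1 : -((n + 1 : ℕ) : ℤ) + 1 = -(n : ℤ) := by push_cast; ring
      have e2 : -((n + 1 : ℕ) : ℤ) = -(n : ℤ) - 1 := by push_cast; ring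
      refine ⟨?_, by rw [e1]; exact ih.1⟩
      have := hrec (-(n : ℤ))
      rw [ih.1, ih.2] at this
      rw [e2]
      linarith
  have hall : t k = 0 := by
    rcases le_total 0 k with hk | hk
    · obtain ⟨n, rfl⟩ := Int.eq_ofNat_of_zero_le hk
      exact (hpos n).1
    · obtain ⟨n, hn⟩ := Int.eq_ofNat_of_zero_le (neg_nonneg.mpr hk)
      have : k = -(n : ℤ) := by linarith
      rw [this]
      exact (hneg n).1
  have := hall
  simp only [ht] at this
  linarith

variable {G : Type*} [AddCommGroup G]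

/-- **Manin's algebra.**  `hM1` is the basic identity, `hM4` says that degree `0` forces
`2`-torsion, `hcomp` is the multiplicativity of the degree under composition
(`(Φ + m G0) ∘ (Φ + n G0) = Φ2 + (m + n) Φ + m n G0`), needed only when both degrees are
positive. -/
theorem two_nsmul_eq_zero_of_degree (d : G → ℕ) (G0 Φ Φ2 : G) (l : ℕ) (a : ℤ)
    (hM1 : ∀ P : G, d (P + G0) + d (P - G0) = 2 * d P + 2)
    (hM4 : ∀ P : G, d P = 0 → 2 • P = 0)
    (hΦ : d Φ = l) (hΦG : (d (Φ - G0) : ℤ) = l + 1 - a)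
    (hcomp : ∀ m n : ℤ, 0 < d (Φ + m • G0) → 0 < d (Φ + n • G0) →
      d (Φ2 + (m + n) • Φ + (m * n) • G0) = d (Φ + m • G0) * d (Φ + n • G0)) :
    2 • (Φ2 - a • Φ + (l : ℤ) • G0) = 0 := by
  -- along every coset of `ℤ G0` the degree is a monic quadratic
  have hseq : ∀ (P : G) (k : ℤ),
      (d (P + k • G0) : ℤ) = k ^ 2 + ((d (P + G0) : ℤ) - d P - 1) * k + d P := by
    intro P k
    have hrec : ∀ k : ℤ, (d (P + (k + 1) • G0) : ℤ) + d (P + (k - 1) • G0)
        = 2 * d (P + k • G0) + 2 := by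
      intro k
      have h := hM1 (P + k • G0)
      have e1 : P + (k + 1) • G0 = P + k • G0 + G0 := by rw [add_smul, one_smul, add_assoc]
      have e2 : P + (k - 1) • G0 = P + k • G0 - G0 := by rw [sub_smul, one_smul, add_sub_assoc]
      rw [e1, e2]
      exact_mod_cast h
    have := quad_seq (fun k => (d (P + k • G0) : ℤ)) hrec k
    simpa using this
  -- the sequence `g n = d (Φ + n G0) = n ^ 2 + a n + l`
  have hg : ∀ n : ℤ, (d (Φ + n • G0) : ℤ) = n ^ 2 + a * n + l := by
    intro n
    have h1 := hseq Φ n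
    have h2 := hseq Φ (-1)
    have e : Φ + (-1 : ℤ) • G0 = Φ - G0 := by simp [sub_eq_add_neg]
    rw [e, hΦG, hΦ] at h2
    rw [hΦ] at h1
    have h3 : (d (Φ + G0) : ℤ) - l - 1 = a := by linarith
    rw [h3] at h1
    exact h1
  have hpos : ∀ n : ℤ, |a| < |n| → 0 < d (Φ + n • G0) := by
    intro n hn
    have hl : (0 : ℤ) ≤ l := Int.natCast_nonneg l
    have h1 : -(|a| * |n|) ≤ a * n := by
      have := neg_abs_le (a * n)
      rw [abs_mul] at this
      exact this
    have h2 : n ^ 2 = |n| * |n| := by rw [abs_mul_abs_self]; ring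
    have h3 : 0 < |n| := lt_of_le_of_lt (abs_nonneg a) hn
    have h4 : 0 < |n| * (|n| - |a|) := mul_pos h3 (sub_pos.mpr hn)
    have h5 : (0 : ℤ) < d (Φ + n • G0) := by
      rw [hg n]
      nlinarith
    exact_mod_cast h5
  -- the two-parameter formula
  have hmain : ∀ u N : ℤ, (d (Φ2 + u • Φ + N • G0) : ℤ)
      = N ^ 2 + (a * u + a ^ 2 - 2 * l) * N + l * (u ^ 2 + a * u + l) := by
    intro u N
    obtain ⟨β, hβ⟩ : ∃ β : ℤ, β = (d (Φ2 + u • Φ + G0) : ℤ) - d (Φ2 + u • Φ) - 1 := ⟨_, rfl⟩
    obtain ⟨γ, hγ⟩ : ∃ γ : ℤ, γ = (d (Φ2 + u • Φ) : ℤ) := ⟨_, rfl⟩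
    have hh : ∀ N : ℤ, (d (Φ2 + u • Φ + N • G0) : ℤ) = N ^ 2 + β * N + γ := by
      intro N
      rw [hβ, hγ]
      exact hseq _ N
    have hgood : ∀ m : ℤ, |a| + |u| < m →
        (m * (u - m)) ^ 2 + β * (m * (u - m)) + γ
          = (m * (u - m)) ^ 2 + (a * u + a ^ 2 - 2 * l) * (m * (u - m))
            + l * (u ^ 2 + a * u + l) := by
      intro m hm
      have ha0 := abs_nonneg a
      have hu0 := abs_nonneg u
      have hm1 : |a| < |m| := by
        rw [abs_of_pos (show (0 : ℤ) < m by linarith)]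
        linarith
      have hm2 : |a| < |u - m| := by
        have hlt : u - m < 0 := by linarith [le_abs_self u]
        rw [abs_of_neg hlt]
        linarith [le_abs_self u]
      have h := hcomp m (u - m) (hpos m hm1) (hpos (u - m) hm2)
      have e : m + (u - m) = u := by ring
      rw [e] at h
      have h' : (d (Φ2 + u • Φ + (m * (u - m)) • G0) : ℤ)
          = (d (Φ + m • G0) : ℤ) * d (Φ + (u - m) • G0) := by exact_mod_cast h
      rw [hh, hg, hg] at h'
      rw [h']
      ring
    have h1 := hgood (|a| + |u| + 1) (by linarith)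
    have h2 := hgood (|a| + |u| + 2) (by linarith)
    obtain ⟨m, hm⟩ : ∃ m : ℤ, m = |a| + |u| + 1 := ⟨_, rfl⟩
    have hm' : |a| + |u| + 2 = m + 1 := by rw [hm]; ring
    rw [← hm] at h1
    rw [hm'] at h2
    have hne : m * (u - m) - (m + 1) * (u - (m + 1)) ≠ 0 := by
      have : m * (u - m) - (m + 1) * (u - (m + 1)) = 2 * m + 1 - u := by ring
      rw [this]
      intro h0
      linarith [le_abs_self u, abs_nonneg a, abs_nonneg u]
    have hβ' : β = a * u + a ^ 2 - 2 * l := by
      have h3 : (β - (a * u + a ^ 2 - 2 * l)) * (m * (u - m) - (m + 1) * (u - (m + 1))) = 0 := by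
        linear_combination h1 - h2
      rcases mul_eq_zero.mp h3 with h4 | h4
      · linarith
      · exact absurd h4 hne
    have hγ' : γ = l * (u ^ 2 + a * u + l) := by
      rw [hβ'] at h1
      linarith
    rw [hh, hβ', hγ']
  have hzero : d (Φ2 + (-a) • Φ + (l : ℤ) • G0) = 0 := by
    have h := hmain (-a) l
    have : (d (Φ2 + (-a) • Φ + (l : ℤ) • G0) : ℤ) = 0 := by
      rw [h]
      ring
    exact_mod_cast this
  have := hM4 _ hzero
  rw [neg_smul, ← sub_eq_add_neg] at this
  exact this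

end Fermat.Agent.S52.H76
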