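import Mathlib
import Fermat.Agent.S52.DegM1_helper28

set_option autoImplicit false

/-!
# S52, node E4: the Manin count (M3)

`k = ZMod p` (`p` an odd prime), `f = t^3 + A t + B` with `4A^3 + 27B^2 ≠ 0`, twisted curve
`EE : Y^2 = X^3 + A f^2 X + B f^3` over `k(t)`, `G0 = (t f, f^2)`, `Φ = (t^p f, f^((p+3)/2))`.

* `rdeg_manin_eq_card` (pure polynomials): the height of
  `(f (f^((p-1)/2) + 1)^2 - (t^p + t)(t^p - t)^2) / (t^p - t)^2` is `#E(F_p)`.
* `manin_sub`: `Φ - G0` is an affine point whose `x / f` is that quotient.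
* `nonsingular_Phi_twist`, `nonsingular_Phi2_twist`, `dPt_Phi`, `dPt_Phi_sub_G0`: the statements
  in the vocabulary of `DegM1_helper28`.
-/

open Polynomial

namespace Fermat.Agent.S52.H17

noncomputable section

/-- Height of a rational function: `max (deg num) (deg denom)`. -/
def rdeg {K : Type*} [Field K] (r : RatFunc K) : ℕ :=
  max r.num.natDegree r.denom.natDegree

lemma natDegree_num_denom_div_of_isCoprime {K : Type*} [Field K] {N D : K[X]} (hD : D ≠ 0)
    (h : IsCoprime N D) :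
    (RatFunc.num (algebraMap K[X] (RatFunc K) N / algebraMap K[X] (RatFunc K) D)).natDegree
        = N.natDegree ∧
    (RatFunc.denom (algebraMap K[X] (RatFunc K) N / algebraMap K[X] (RatFunc K) D)).natDegree
        = D.natDegree := by
  set x := algebraMap K[X] (RatFunc K) N / algebraMap K[X] (RatFunc K) D with hx
  have key : x.num * D = N * x.denom := (RatFunc.num_mul_eq_mul_denom_iff hD).mpr rfl
  have hc := RatFunc.isCoprime_num_denom x
  have h1 : N ∣ x.num := h.dvd_of_dvd_mul_right (Dvd.intro _ key.symm)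
  have h2 : x.num ∣ N := hc.dvd_of_dvd_mul_right (Dvd.intro _ key)
  have h3 : D ∣ x.denom := h.symm.dvd_of_dvd_mul_left (Dvd.intro_left _ key)
  have h4 : x.denom ∣ D := hc.symm.dvd_of_dvd_mul_left (Dvd.intro_left _ key.symm)
  exact ⟨natDegree_eq_of_degree_eq (degree_eq_degree_of_associated (associated_of_dvd_dvd h2 h1)),
    natDegree_eq_of_degree_eq (degree_eq_degree_of_associated (associated_of_dvd_dvd h4 h3))⟩

/-- `rdeg` of a quotient `G*N₁ / G*D₁` with coprime cofactors. -/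
lemma rdeg_div_of_cofactors {K : Type*} [Field K] {N D G N₁ D₁ : K[X]} (hG : G ≠ 0)
    (hD₁ : D₁ ≠ 0) (hN : N = G * N₁) (hD : D = G * D₁) (h : IsCoprime N₁ D₁) :
    rdeg (algebraMap K[X] (RatFunc K) N / algebraMap K[X] (RatFunc K) D)
      = max N₁.natDegree D₁.natDegree := by
  have hG' : algebraMap K[X] (RatFunc K) G ≠ 0 := RatFunc.algebraMap_ne_zero hG
  have e : algebraMap K[X] (RatFunc K) N / algebraMap K[X] (RatFunc K) D
      = algebraMap K[X] (RatFunc K) N₁ / algebraMap K[X] (RatFunc K) D₁ := by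
    rw [hN, hD, map_mul, map_mul, mul_div_mul_left _ _ hG']
  rw [e, rdeg, (natDegree_num_denom_div_of_isCoprime hD₁ h).1,
    (natDegree_num_denom_div_of_isCoprime hD₁ h).2]

lemma isCoprime_X_sub_C_of_eval_ne_zero {K : Type*} [Field K] (q : K[X]) (a : K)
    (h : q.eval a ≠ 0) : IsCoprime q (X - C a) := by
  have := (irreducible_X_sub_C a).coprime_iff_not_dvd (n := q)
  exact (this.mpr (by rwa [dvd_iff_isRoot])).symm

section Core

variable (p : ℕ) [hp : Fact p.Prime] (A B : ZMod p)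

/-- The cubic `X^3 + A X + B`. -/
def fP : (ZMod p)[X] := X ^ 3 + C A * X + C B

/-- Numerator of `x(Φ - G₀)/f`. -/
def maninNum : (ZMod p)[X] :=
  fP p A B * (fP p A B ^ (p / 2) + 1) ^ 2 - (X ^ p + X) * (X ^ p - X) ^ 2

/-- Denominator of `x(Φ - G₀)/f`. -/
def maninDen : (ZMod p)[X] := (X ^ p - X) ^ 2

/-- Cancellation exponent at `α`. -/
def eExp (α : ZMod p) : ℕ :=
  if (fP p A B).eval α = 0 then 1 else if (fP p A B).eval α ^ (p / 2) = 1 then 0 else 2

lemma eExp_le_two (α : ZMod p) : eExp p A B α ≤ 2 := by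
  unfold eExp; split_ifs <;> omega

/-- The common factor of numerator and denominator. -/
def gcdG : (ZMod p)[X] := ∏ α : ZMod p, (X - C α) ^ eExp p A B α

/-- The reduced denominator. -/
def cofD : (ZMod p)[X] := ∏ α : ZMod p, (X - C α) ^ (2 - eExp p A B α)

lemma X_pow_sub_X_eq_prod : (X ^ p - X : (ZMod p)[X]) = ∏ α : ZMod p, (X - C α) := by
  have hroots := FiniteField.roots_X_pow_card_sub_X (ZMod p)
  rw [ZMod.card] at hroots
  have hmonic : (X ^ p - X : (ZMod p)[X]).Monic :=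
    monic_X_pow_sub (by rw [degree_X]; exact_mod_cast hp.out.one_lt)
  have hdeg : (X ^ p - X : (ZMod p)[X]).natDegree = p :=
    FiniteField.X_pow_card_sub_X_natDegree_eq _ hp.out.one_lt
  have := prod_multiset_X_sub_C_of_monic_of_roots_card_eq hmonic (by rw [hroots, hdeg]; simp)
  rw [← this, hroots]; rfl

lemma maninDen_eq : maninDen p = gcdG p A B * cofD p A B := by
  unfold maninDen gcdG cofD
  rw [X_pow_sub_X_eq_prod, ← Finset.prod_pow, ← Finset.prod_mul_distrib]
  refine Finset.prod_congr rfl fun α _ => ?_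
  rw [← pow_add]; congr 1; have := eExp_le_two p A B α; omega

lemma eval_fP (α : ZMod p) : (fP p A B).eval α = α ^ 3 + A * α + B := by simp [fP]

lemma eval_maninNum (α : ZMod p) : (maninNum p A B).eval α
    = (fP p A B).eval α * ((fP p A B).eval α ^ (p / 2) + 1) ^ 2 := by
  simp [maninNum, ZMod.pow_card]

lemma gcdG_monic : (gcdG p A B).Monic :=
  monic_prod_of_monic _ _ fun α _ => (monic_X_sub_C α).pow _

lemma cofD_monic : (cofD p A B).Monic :=
  monic_prod_of_monic _ _ fun α _ => (monic_X_sub_C α).pow _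

lemma gcdG_dvd_maninNum : gcdG p A B ∣ maninNum p A B := by
  unfold gcdG
  refine Finset.prod_dvd_of_coprime ?_ ?_
  · intro α _ β _ hαβ
    exact (isCoprime_X_sub_C_of_isUnit_sub (sub_ne_zero_of_ne hαβ).isUnit).pow
  · intro α _
    unfold eExp
    split_ifs with h0 h1
    · rw [pow_one, dvd_iff_isRoot, IsRoot, eval_maninNum, h0, zero_mul]
    · simp
    · have hm1 : (fP p A B).eval α ^ (p / 2) = -1 :=
        (ZMod.pow_div_two_eq_neg_one_or_one p h0).resolve_left h1
      have d1 : (X - C α) ∣ fP p A B ^ (p / 2) + 1 := by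
        rw [dvd_iff_isRoot, IsRoot]; simp [hm1]
      have d2 : (X - C α) ∣ (X ^ p - X : (ZMod p)[X]) := by
        rw [dvd_iff_isRoot, IsRoot]; simp [ZMod.pow_card]
      unfold maninNum
      exact dvd_sub (Dvd.dvd.mul_left (pow_dvd_pow_of_dvd d1 2) _)
        (Dvd.dvd.mul_left (pow_dvd_pow_of_dvd d2 2) _)

lemma fP_natDegree : (fP p A B).natDegree = 3 := by
  unfold fP; compute_degree!

lemma fP_pow_p : fP p A B ^ p = X ^ (3 * p) + C A * X ^ p + C B := by
  rw [← ZMod.expand_card]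
  simp only [fP, map_add, map_mul, map_pow, expand_X, expand_C]
  ring

lemma maninNum_eq (hp2 : p ≠ 2) : maninNum p A B = X ^ (2 * p + 1) +
    (X ^ (p + 2) + C A * X ^ p + C B - X ^ 3 + 2 * fP p A B ^ (p / 2 + 1) + fP p A B) := by
  have hodd : p = 2 * (p / 2) + 1 := by
    have := hp.out.eq_two_or_odd; omega
  have h1 : fP p A B ^ (2 * (p / 2) + 1) = X ^ (3 * p) + C A * X ^ p + C B := by
    rw [← hodd]; exact fP_pow_p p A B
  have h2 : fP p A B * (fP p A B ^ (p / 2) + 1) ^ 2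
      = fP p A B ^ (2 * (p / 2) + 1) + 2 * fP p A B ^ (p / 2 + 1) + fP p A B := by ring
  unfold maninNum
  rw [h2, h1]; ring

lemma maninNum_natDegree (hp2 : p ≠ 2) : (maninNum p A B).natDegree = 2 * p + 1 := by
  rw [maninNum_eq p A B hp2]
  have hp3 : 3 ≤ p := by have := hp.out.two_le; omega
  have hodd : p = 2 * (p / 2) + 1 := by
    have := hp.out.eq_two_or_odd; omega
  have hf := fP_natDegree p A B
  have hlow : (X ^ (p + 2) + C A * X ^ p + C B - X ^ 3 + 2 * fP p A B ^ (p / 2 + 1)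
      + fP p A B).natDegree ≤ 2 * p := by
    have e1 : (X ^ (p + 2) : (ZMod p)[X]).natDegree ≤ 2 * p :=
      (natDegree_X_pow_le _).trans (by omega)
    have e2 : (C A * X ^ p : (ZMod p)[X]).natDegree ≤ 2 * p :=
      (natDegree_C_mul_X_pow_le _ _).trans (by omega)
    have e3 : (C B : (ZMod p)[X]).natDegree ≤ 2 * p := by simp
    have e4 : (X ^ 3 : (ZMod p)[X]).natDegree ≤ 2 * p :=
      (natDegree_X_pow_le _).trans (by omega)
    have e5 : (2 * fP p A B ^ (p / 2 + 1)).natDegree ≤ 2 * p := by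
      have : (2 : (ZMod p)[X]) = C 2 := (map_ofNat (C : ZMod p →+* (ZMod p)[X]) 2).symm
      rw [this]
      refine (natDegree_C_mul_le _ _).trans ?_
      refine (natDegree_pow_le_of_le _ hf.le).trans ?_
      omega
    have e6 : (fP p A B).natDegree ≤ 2 * p := by omega
    have e7 : (X ^ (p + 2) + C A * X ^ p + C B - X ^ 3 : (ZMod p)[X]).natDegree ≤ 2 * p :=
      (natDegree_sub_le_of_le (natDegree_add_le_of_degree_le
        (natDegree_add_le_of_degree_le e1 e2) e3) e4).trans (by simp)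
    exact natDegree_add_le_of_degree_le (natDegree_add_le_of_degree_le e7 e5) e6
  rw [natDegree_add_eq_left_of_natDegree_lt, natDegree_X_pow]
  rw [natDegree_X_pow]; omega

lemma disc_of_double_root (α : ZMod p) (e1 : α ^ 3 + A * α + B = 0) (e2 : 3 * α ^ 2 + A = 0) :
    4 * A ^ 3 + 27 * B ^ 2 = 0 := by
  linear_combination (4 * A ^ 2 + 6 * A * α ^ 2 - 9 * B * α) * e2 - (18 * A * α - 27 * B) * e1

lemma not_sq_dvd_fP (hΔ : 4 * A ^ 3 + 27 * B ^ 2 ≠ 0) (α : ZMod p) :
    ¬ (X - C α) ^ 2 ∣ fP p A B := by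
  rintro ⟨g, hg⟩
  apply hΔ
  have e1 : α ^ 3 + A * α + B = 0 := by
    rw [← eval_fP, hg]; simp
  have hder : derivative (fP p A B) = 3 * X ^ 2 + C A := by
    unfold fP
    simp only [derivative_add, derivative_X_pow, derivative_mul, derivative_C, derivative_X,
      zero_mul, mul_one, zero_add, add_zero]
    norm_num
    exact map_ofNat (C : ZMod p →+* (ZMod p)[X]) 3
  have e2 : 3 * α ^ 2 + A = 0 := by
    have h := congrArg (fun q => eval α (derivative q)) hg
    simp only [hder, derivative_mul, derivative_pow, derivative_sub, derivative_X, derivative_C,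
      eval_add, eval_mul, eval_pow, eval_sub, eval_X, eval_C, sub_self] at h
    simpa using h
  exact disc_of_double_root p A B α e1 e2

lemma sum_eExp : (∑ α : ZMod p, eExp p A B α) + ∑ α : ZMod p, (2 - eExp p A B α) = 2 * p := by
  rw [← Finset.sum_add_distrib]
  have : ∀ α ∈ (Finset.univ : Finset (ZMod p)), eExp p A B α + (2 - eExp p A B α) = 2 := by
    intro α _; have := eExp_le_two p A B α; omega
  rw [Finset.sum_congr rfl this]
  simp [ZMod.card, mul_comm]

theorem rdeg_manin (hp2 : p ≠ 2) (hΔ : 4 * A ^ 3 + 27 * B ^ 2 ≠ 0) :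
    rdeg (algebraMap (ZMod p)[X] (RatFunc (ZMod p)) (maninNum p A B)
      / algebraMap (ZMod p)[X] (RatFunc (ZMod p)) (maninDen p))
    = 1 + ∑ α : ZMod p, (2 - eExp p A B α) := by
  have hp3 : 3 ≤ p := by have := hp.out.two_le; omega
  have h2 : (2 : ZMod p) ≠ 0 := by
    intro h
    have : ((2 : ℕ) : ZMod p) = 0 := by exact_mod_cast h
    rw [ZMod.natCast_eq_zero_iff] at this
    have := Nat.le_of_dvd (by norm_num) this
    omega
  obtain ⟨N₁, hN₁⟩ := gcdG_dvd_maninNum p A B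
  have hNne : maninNum p A B ≠ 0 := by
    intro h
    have := maninNum_natDegree p A B hp2
    rw [h, natDegree_zero] at this; omega
  have hN₁ne : N₁ ≠ 0 := by
    rintro rfl; exact hNne (by rw [hN₁, mul_zero])
  have hGne := (gcdG_monic p A B).ne_zero
  have hcop : IsCoprime N₁ (cofD p A B) := by
    unfold cofD
    refine IsCoprime.prod_right fun α _ => ?_
    by_cases he : eExp p A B α = 2
    · rw [he]; simpa using isCoprime_one_right
    · refine IsCoprime.pow_right ?_
      apply isCoprime_X_sub_C_of_eval_ne_zero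
      intro hev
      have hNum : (maninNum p A B).eval α = 0 := by rw [hN₁, eval_mul, hev, mul_zero]
      rw [eval_maninNum] at hNum
      unfold eExp at he
      split_ifs at he with h0 h1
      · -- double root
        have d1 : (X - C α) ∣ N₁ := by rwa [dvd_iff_isRoot]
        have d2 : (X - C α) ∣ gcdG p A B := by
          have := Finset.dvd_prod_of_mem (fun β : ZMod p => (X - C β) ^ eExp p A B β)
            (Finset.mem_univ α)
          have e1 : eExp p A B α = 1 := by unfold eExp; rw [if_pos h0]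
          simp only [e1, pow_one] at this
          exact this
        have d3 : (X - C α) ^ 2 ∣ maninNum p A B := by
          rw [hN₁, pow_two]; exact mul_dvd_mul d2 d1
        have d4 : (X - C α) ∣ (X ^ p - X : (ZMod p)[X]) := by
          rw [dvd_iff_isRoot, IsRoot]; simp [ZMod.pow_card]
        have d5 : (X - C α) ^ 2 ∣ fP p A B * (fP p A B ^ (p / 2) + 1) ^ 2 := by
          have : fP p A B * (fP p A B ^ (p / 2) + 1) ^ 2
              = maninNum p A B + (X ^ p + X) * (X ^ p - X) ^ 2 := by unfold maninNum; ring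
          rw [this]
          exact dvd_add d3 (Dvd.dvd.mul_left (pow_dvd_pow_of_dvd d4 2) _)
        have hc : IsCoprime ((X - C α) ^ 2) ((fP p A B ^ (p / 2) + 1) ^ 2) := by
          refine IsCoprime.pow (IsCoprime.symm ?_)
          apply isCoprime_X_sub_C_of_eval_ne_zero
          have hh : p / 2 ≠ 0 := by omega
          simp [h0, hh]
        exact not_sq_dvd_fP p A B hΔ α (hc.dvd_of_dvd_mul_right d5)
      · rw [h1] at hNum
        have : (1 + 1 : ZMod p) ^ 2 ≠ 0 := by
          have : (1 + 1 : ZMod p) = 2 := by norm_num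
          rw [this]; exact pow_ne_zero 2 h2
        exact (mul_ne_zero h0 this) hNum
      · exact he rfl
  rw [rdeg_div_of_cofactors hGne (cofD_monic p A B).ne_zero hN₁ (maninDen_eq p A B) hcop]
  have hGdeg : (gcdG p A B).natDegree = ∑ α : ZMod p, eExp p A B α := by
    unfold gcdG
    rw [natDegree_prod_of_monic _ _ fun α _ => (monic_X_sub_C α).pow _]
    refine Finset.sum_congr rfl fun α _ => ?_
    rw [(monic_X_sub_C α).natDegree_pow, natDegree_X_sub_C, mul_one]
  have hDdeg : (cofD p A B).natDegree = ∑ α : ZMod p, (2 - eExp p A B α) := by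
    unfold cofD
    rw [natDegree_prod_of_monic _ _ fun α _ => (monic_X_sub_C α).pow _]
    refine Finset.sum_congr rfl fun α _ => ?_
    rw [(monic_X_sub_C α).natDegree_pow, natDegree_X_sub_C, mul_one]
  have hsum := sum_eExp p A B
  have hN : (maninNum p A B).natDegree = (gcdG p A B).natDegree + N₁.natDegree := by
    conv_lhs => rw [hN₁]
    exact natDegree_mul hGne hN₁ne
  rw [maninNum_natDegree p A B hp2] at hN
  omega

lemma two_ne_zero_of_ne_two (hp2 : p ≠ 2) : (2 : ZMod p) ≠ 0 := by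
  intro h
  have h' : ((2 : ℕ) : ZMod p) = 0 := by exact_mod_cast h
  rw [ZMod.natCast_eq_zero_iff] at h'
  have h1 := Nat.le_of_dvd (by norm_num) h'
  have h2 := hp.out.two_le
  omega

lemma card_sq_eq (hp2 : p ≠ 2) (c : ZMod p) :
    Nat.card {y : ZMod p // y ^ 2 = c}
      = if c = 0 then 1 else if c ^ (p / 2) = 1 then 2 else 0 := by
  classical
  rw [Nat.card_eq_fintype_card, Fintype.card_subtype]
  split_ifs with h0 h1
  · subst h0
    have : (Finset.univ.filter fun y : ZMod p => y ^ 2 = 0) = {0} := by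
      ext y; simp
    rw [this, Finset.card_singleton]
  · obtain ⟨y0, hy0⟩ := (ZMod.euler_criterion p h0).mpr h1
    have hy0ne : y0 ≠ 0 := by rintro rfl; exact h0 (by rw [hy0, mul_zero])
    have : (Finset.univ.filter fun y : ZMod p => y ^ 2 = c) = {y0, -y0} := by
      ext y
      simp only [Finset.mem_filter, Finset.mem_univ, true_and, Finset.mem_insert,
        Finset.mem_singleton]
      rw [hy0, ← pow_two, sq_eq_sq_iff_eq_or_eq_neg]
    rw [this, Finset.card_pair]
    intro h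
    have h2 := two_ne_zero_of_ne_two p hp2
    have : 2 * y0 = 0 := by linear_combination h
    rcases mul_eq_zero.mp this with h | h
    · exact h2 h
    · exact hy0ne h
  · have : (Finset.univ.filter fun y : ZMod p => y ^ 2 = c) = ∅ := by
      ext y
      simp only [Finset.mem_filter, Finset.mem_univ, true_and, Finset.notMem_empty, iff_false]
      intro hy
      exact h1 ((ZMod.euler_criterion p h0).mp ⟨y, by rw [← hy, pow_two]⟩)
    rw [this, Finset.card_empty]

/-- The short Weierstrass curve `y² = x³ + A x + B`. -/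
def shortW {R : Type*} [CommRing R] (a b : R) : WeierstrassCurve R := ⟨0, 0, 0, a, b⟩

lemma shortW_nonsingular_iff (hp2 : p ≠ 2) (hΔ : 4 * A ^ 3 + 27 * B ^ 2 ≠ 0) (x y : ZMod p) :
    (shortW A B).toAffine.Nonsingular x y ↔ y ^ 2 = (fP p A B).eval x := by
  have h2 := two_ne_zero_of_ne_two p hp2
  have hD : (shortW A B).Δ ≠ 0 := by
    have : (shortW A B).Δ = -16 * (4 * A ^ 3 + 27 * B ^ 2) := by
      simp only [shortW, WeierstrassCurve.Δ, WeierstrassCurve.b₂, WeierstrassCurve.b₄,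
        WeierstrassCurve.b₆, WeierstrassCurve.b₈]
      ring
    rw [this]
    refine mul_ne_zero ?_ hΔ
    have : (-16 : ZMod p) = -(2 ^ 4) := by norm_num
    rw [this]
    exact neg_ne_zero.mpr (pow_ne_zero 4 h2)
  rw [← WeierstrassCurve.Affine.equation_iff_nonsingular_of_Δ_ne_zero hD,
    WeierstrassCurve.Affine.equation_iff, eval_fP]
  simp [shortW]

theorem card_point (hp2 : p ≠ 2) (hΔ : 4 * A ^ 3 + 27 * B ^ 2 ≠ 0) :
    Nat.card (shortW A B).toAffine.Point = 1 + ∑ α : ZMod p, (2 - eExp p A B α) := by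
  classical
  rw [Nat.card_congr (shortW A B).toAffine.nonsingularPointEquiv]
  have e1 : {xy : ZMod p × ZMod p // (shortW A B).toAffine.Nonsingular xy.1 xy.2}
      ≃ Σ x : ZMod p, {y : ZMod p // y ^ 2 = (fP p A B).eval x} :=
    (Equiv.subtypeEquivRight fun xy : ZMod p × ZMod p =>
      shortW_nonsingular_iff p A B hp2 hΔ xy.1 xy.2).trans
      (Equiv.subtypeProdEquivSigmaSubtype fun x y : ZMod p => y ^ 2 = (fP p A B).eval x)
  have e2 : Nat.card (WithZero {xy : ZMod p × ZMod p //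
      (shortW A B).toAffine.Nonsingular xy.1 xy.2})
      = Nat.card {xy : ZMod p × ZMod p // (shortW A B).toAffine.Nonsingular xy.1 xy.2} + 1 :=
    Finite.card_option
  rw [e2, Nat.card_congr e1, Nat.card_sigma, add_comm]
  congr 1
  refine Finset.sum_congr rfl fun α _ => ?_
  rw [card_sq_eq p hp2]
  unfold eExp
  split_ifs <;> rfl

/-- **Manin count, polynomial core**: the height of `x(Φ - G₀)/f` is the number of points. -/
theorem rdeg_manin_eq_card (hp2 : p ≠ 2) (hΔ : 4 * A ^ 3 + 27 * B ^ 2 ≠ 0) :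
    rdeg (algebraMap (ZMod p)[X] (RatFunc (ZMod p)) (maninNum p A B)
      / algebraMap (ZMod p)[X] (RatFunc (ZMod p)) (maninDen p))
    = Nat.card (shortW A B).toAffine.Point := by
  rw [rdeg_manin p A B hp2 hΔ, card_point p A B hp2 hΔ]

end Core

section Pt

open WeierstrassCurve WeierstrassCurve.Affine

variable (p : ℕ) [hp : Fact p.Prime] (A B : ZMod p)

/-- The cubic as an element of the function field. -/
def fF : RatFunc (ZMod p) := algebraMap (ZMod p)[X] (RatFunc (ZMod p)) (fP p A B)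

lemma fF_eq : fF p A B = RatFunc.X ^ 3 + RatFunc.C A * RatFunc.X + RatFunc.C B := by
  simp [fF, fP, RatFunc.algebraMap_X, RatFunc.algebraMap_C]

lemma fF_ne_zero : fF p A B ≠ 0 := by
  unfold fF
  refine RatFunc.algebraMap_ne_zero ?_
  intro h
  have := fP_natDegree p A B
  rw [h, natDegree_zero] at this
  omega

lemma fF_pow_p : fF p A B ^ p
    = RatFunc.X ^ (3 * p) + RatFunc.C A * RatFunc.X ^ p + RatFunc.C B := by
  unfold fF
  rw [← map_pow, fP_pow_p]
  simp [RatFunc.algebraMap_X, RatFunc.algebraMap_C]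

lemma two_ne_zero_F (hp2 : p ≠ 2) : (2 : RatFunc (ZMod p)) ≠ 0 := by
  have h2 := two_ne_zero_of_ne_two p hp2
  have : (2 : RatFunc (ZMod p)) = RatFunc.C (2 : ZMod p) := (map_ofNat RatFunc.C 2).symm
  rw [this]
  exact (_root_.map_ne_zero _).mpr h2

lemma X_pow_sub_X_ne_zero_F : (RatFunc.X ^ p - RatFunc.X : RatFunc (ZMod p)) ≠ 0 := by
  have h : (RatFunc.X ^ p - RatFunc.X : RatFunc (ZMod p))
      = algebraMap (ZMod p)[X] (RatFunc (ZMod p)) (X ^ p - X) := by
    simp [RatFunc.algebraMap_X]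
  rw [h]
  exact RatFunc.algebraMap_ne_zero (FiniteField.X_pow_card_sub_X_ne_zero _ hp.out.one_lt)

variable (W : WeierstrassCurve (RatFunc (ZMod p)))

lemma nonsingular_G0 (hp2 : p ≠ 2) (h₁ : W.a₁ = 0) (h₂ : W.a₂ = 0) (h₃ : W.a₃ = 0)
    (h₄ : W.a₄ = RatFunc.C A * fF p A B ^ 2) (h₆ : W.a₆ = RatFunc.C B * fF p A B ^ 3) :
    W.toAffine.Nonsingular (RatFunc.X * fF p A B) (fF p A B ^ 2) := by
  have hf := fF_eq p A B
  have hf0 := fF_ne_zero p A B
  have h2 := two_ne_zero_F p hp2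
  rw [Affine.nonsingular_iff, Affine.equation_iff]
  simp only [h₁, h₂, h₃, h₄, h₆]
  refine ⟨by linear_combination (fF p A B) ^ 3 * hf, Or.inr ?_⟩
  intro h
  have : 2 * fF p A B ^ 2 = 0 := by linear_combination h
  exact (mul_ne_zero h2 (pow_ne_zero 2 hf0)) this

lemma nonsingular_Phi (hp2 : p ≠ 2) (h₁ : W.a₁ = 0) (h₂ : W.a₂ = 0) (h₃ : W.a₃ = 0)
    (h₄ : W.a₄ = RatFunc.C A * fF p A B ^ 2) (h₆ : W.a₆ = RatFunc.C B * fF p A B ^ 3) :
    W.toAffine.Nonsingular (RatFunc.X ^ p * fF p A B) (fF p A B ^ ((p + 3) / 2)) := by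
  have hfp := fF_pow_p p A B
  have hf0 := fF_ne_zero p A B
  have h2 := two_ne_zero_F p hp2
  have hodd : p = 2 * (p / 2) + 1 := by
    have := hp.out.eq_two_or_odd; omega
  have hexp : (fF p A B ^ ((p + 3) / 2)) ^ 2 = fF p A B ^ 3 * fF p A B ^ p := by
    rw [← pow_mul, ← pow_add]; congr 1; omega
  rw [Affine.nonsingular_iff, Affine.equation_iff]
  simp only [h₁, h₂, h₃, h₄, h₆]
  refine ⟨by linear_combination hexp + (fF p A B) ^ 3 * hfp, Or.inr ?_⟩
  intro h
  have : 2 * fF p A B ^ ((p + 3) / 2) = 0 := by linear_combination h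
  exact (mul_ne_zero h2 (pow_ne_zero _ hf0)) this

lemma algebraMap_maninNum : algebraMap (ZMod p)[X] (RatFunc (ZMod p)) (maninNum p A B)
    = fF p A B * (fF p A B ^ (p / 2) + 1) ^ 2
      - (RatFunc.X ^ p + RatFunc.X) * (RatFunc.X ^ p - RatFunc.X) ^ 2 := by
  simp [maninNum, fF, RatFunc.algebraMap_X]

lemma algebraMap_maninDen : algebraMap (ZMod p)[X] (RatFunc (ZMod p)) (maninDen p)
    = (RatFunc.X ^ p - RatFunc.X) ^ 2 := by
  simp [maninDen, RatFunc.algebraMap_X]

/-- **Manin count, point level**: `Φ - G₀` is an affine point whose `x/f` is `maninNum/maninDen`. -/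
theorem manin_sub [DecidableEq (RatFunc (ZMod p))] (hp2 : p ≠ 2)
    (h₁ : W.a₁ = 0) (h₂ : W.a₂ = 0) (h₃ : W.a₃ = 0)
    (hG : W.toAffine.Nonsingular (RatFunc.X * fF p A B) (fF p A B ^ 2))
    (hΦ : W.toAffine.Nonsingular (RatFunc.X ^ p * fF p A B) (fF p A B ^ ((p + 3) / 2))) :
    ∃ (x y : RatFunc (ZMod p)) (hxy : W.toAffine.Nonsingular x y),
      Point.some _ _ hΦ - Point.some _ _ hG = Point.some x y hxy ∧
      x / fF p A B = algebraMap (ZMod p)[X] (RatFunc (ZMod p)) (maninNum p A B)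
        / algebraMap (ZMod p)[X] (RatFunc (ZMod p)) (maninDen p) := by
  have hf0 := fF_ne_zero p A B
  have hX := X_pow_sub_X_ne_zero_F p
  have hodd : p = 2 * (p / 2) + 1 := by
    have := hp.out.eq_two_or_odd; omega
  have hne : RatFunc.X ^ p * fF p A B ≠ RatFunc.X * fF p A B := by
    intro h
    apply hX
    have : (RatFunc.X ^ p - RatFunc.X) * fF p A B = 0 := by linear_combination h
    exact (mul_eq_zero.mp this).resolve_right hf0
  rw [sub_eq_add_neg, Point.neg_some, Point.add_of_X_ne hne]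
  refine ⟨_, _, _, rfl, ?_⟩
  rw [Affine.addX, Affine.slope_of_X_ne hne, algebraMap_maninNum, algebraMap_maninDen]
  have hexp : fF p A B ^ ((p + 3) / 2) = fF p A B ^ (p / 2) * fF p A B ^ 2 := by
    rw [← pow_add]; congr 1; omega
  have hd : RatFunc.X ^ p * fF p A B - RatFunc.X * fF p A B
      = (RatFunc.X ^ p - RatFunc.X) * fF p A B := by ring
  simp only [h₁, h₂, h₃, Affine.negY, hexp, hd]
  field_simp
  ring

lemma fF_pow_p_sq : fF p A B ^ (p ^ 2)
    = RatFunc.X ^ (3 * p ^ 2) + RatFunc.C A * RatFunc.X ^ (p ^ 2) + RatFunc.C B := by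
  have h : fP p A B ^ (p ^ 2) = X ^ (3 * p ^ 2) + C A * X ^ (p ^ 2) + C B := by
    rw [pow_two, pow_mul, fP_pow_p, ← ZMod.expand_card]
    simp only [map_add, map_mul, map_pow, expand_X, expand_C]
    ring
  unfold fF
  rw [← map_pow, h]
  simp [RatFunc.algebraMap_X, RatFunc.algebraMap_C]

lemma nonsingular_Phi2 (hp2 : p ≠ 2) (h₁ : W.a₁ = 0) (h₂ : W.a₂ = 0) (h₃ : W.a₃ = 0)
    (h₄ : W.a₄ = RatFunc.C A * fF p A B ^ 2) (h₆ : W.a₆ = RatFunc.C B * fF p A B ^ 3) :
    W.toAffine.Nonsingular (RatFunc.X ^ (p ^ 2) * fF p A B) (fF p A B ^ ((p ^ 2 + 3) / 2)) := by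
  have hfp := fF_pow_p_sq p A B
  have hf0 := fF_ne_zero p A B
  have h2 := two_ne_zero_F p hp2
  have hodd : Odd p := hp.out.eq_two_or_odd'.resolve_left hp2
  have hodd2 : (p ^ 2) % 2 = 1 := Nat.odd_iff.mp hodd.pow
  have hexp : (fF p A B ^ ((p ^ 2 + 3) / 2)) ^ 2 = fF p A B ^ 3 * fF p A B ^ (p ^ 2) := by
    rw [← pow_mul, ← pow_add]; congr 1; omega
  rw [Affine.nonsingular_iff, Affine.equation_iff]
  simp only [h₁, h₂, h₃, h₄, h₆]
  refine ⟨by linear_combination hexp + (fF p A B) ^ 3 * hfp, Or.inr ?_⟩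
  intro h
  have : 2 * fF p A B ^ ((p ^ 2 + 3) / 2) = 0 := by linear_combination h
  exact (mul_ne_zero h2 (pow_ne_zero _ hf0)) this

/-- `x(Φ)/f = X^p` has height `p`. -/
lemma rdeg_Phi : rdeg (RatFunc.X ^ p * fF p A B / fF p A B) = p := by
  rw [mul_div_assoc, div_self (fF_ne_zero p A B), mul_one]
  have : (RatFunc.X ^ p : RatFunc (ZMod p)) = algebraMap (ZMod p)[X] _ (X ^ p) := by
    simp [RatFunc.algebraMap_X]
  rw [this, rdeg, RatFunc.num_algebraMap, RatFunc.denom_algebraMap]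
  simp

/-- **Manin count (M3)**, for any degree function `d` with `d (x, y) = rdeg (x / f)`. -/
theorem manin_count [DecidableEq (RatFunc (ZMod p))] (hp2 : p ≠ 2)
    (hΔ : 4 * A ^ 3 + 27 * B ^ 2 ≠ 0)
    (h₁ : W.a₁ = 0) (h₂ : W.a₂ = 0) (h₃ : W.a₃ = 0)
    (d : W.toAffine.Point → ℕ)
    (hd : ∀ (x y : RatFunc (ZMod p)) (h : W.toAffine.Nonsingular x y),
      d (Point.some x y h) = rdeg (x / fF p A B))
    (hG : W.toAffine.Nonsingular (RatFunc.X * fF p A B) (fF p A B ^ 2))
    (hΦ : W.toAffine.Nonsingular (RatFunc.X ^ p * fF p A B) (fF p A B ^ ((p + 3) / 2))) :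
    d (Point.some _ _ hΦ) = p ∧
    d (Point.some _ _ hΦ - Point.some _ _ hG)
      = Nat.card (⟨0, 0, 0, A, B⟩ : WeierstrassCurve (ZMod p)).toAffine.Point := by
  refine ⟨by rw [hd, rdeg_Phi], ?_⟩
  obtain ⟨x, y, hxy, he, hx⟩ := manin_sub p A B W hp2 h₁ h₂ h₃ hG hΦ
  rw [he, hd, hx]
  exact rdeg_manin_eq_card p A B hp2 hΔ

end Pt

/-! ### The statements in the vocabulary of `DegM1_helper28` (`H28.twist`, `H28.fF`, `H28.dPt`) -/

section Bridge

open WeierstrassCurve WeierstrassCurve.Affine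
open Fermat.Agent.S52

variable (l : ℕ) [hl : Fact l.Prime] (A B : ZMod l)

/-- (E4-a) `Φ = (t^l f, f^((l+3)/2))` is a nonsingular point of the twisted curve. -/
theorem nonsingular_Phi_twist (hl2 : l ≠ 2) :
    (H28.twist A B).toAffine.Nonsingular (RatFunc.X ^ l * H28.fF A B)
      (H28.fF A B ^ ((l + 3) / 2)) :=
  nonsingular_Phi l A B (H28.twist A B) hl2 rfl rfl rfl rfl rfl

/-- (E4-a) `Φ2 = (t^(l^2) f, f^((l^2+3)/2))` is a nonsingular point of the twisted curve. -/
theorem nonsingular_Phi2_twist (hl2 : l ≠ 2) :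
    (H28.twist A B).toAffine.Nonsingular (RatFunc.X ^ (l ^ 2) * H28.fF A B)
      (H28.fF A B ^ ((l ^ 2 + 3) / 2)) :=
  nonsingular_Phi2 l A B (H28.twist A B) hl2 rfl rfl rfl rfl rfl

/-- (E4-b) `d Φ = l`. -/
theorem dPt_Phi
    (hΦ : (H28.twist A B).toAffine.Nonsingular (RatFunc.X ^ l * H28.fF A B)
      (H28.fF A B ^ ((l + 3) / 2))) :
    H28.dPt A B (Point.some _ _ hΦ) = l :=
  rdeg_Phi l A B

/-- (E4-c) `d (Φ - G0) = #E(F_l)`. -/
theorem dPt_Phi_sub_G0 [DecidableEq (RatFunc (ZMod l))] (hl2 : l ≠ 2)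
    (hdisc : 4 * A ^ 3 + 27 * B ^ 2 ≠ 0)
    (hG : (H28.twist A B).toAffine.Nonsingular (RatFunc.X * H28.fF A B) (H28.fF A B ^ 2))
    (hΦ : (H28.twist A B).toAffine.Nonsingular (RatFunc.X ^ l * H28.fF A B)
      (H28.fF A B ^ ((l + 3) / 2))) :
    H28.dPt A B (Point.some _ _ hΦ - Point.some _ _ hG)
      = Nat.card (⟨0, 0, 0, A, B⟩ : WeierstrassCurve (ZMod l)).toAffine.Point :=
  (manin_count l A B (H28.twist A B) hl2 hdisc rfl rfl rfl (H28.dPt A B)
    (fun _ _ _ => rfl) hG hΦ).2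

/-- (E4-c), integer form used by the quadratic-sequence argument:
`d (Φ - G0) = l + 1 - a` with `a = l + 1 - #E(F_l)`. -/
theorem dPt_Phi_sub_G0_int [DecidableEq (RatFunc (ZMod l))] (hl2 : l ≠ 2)
    (hdisc : 4 * A ^ 3 + 27 * B ^ 2 ≠ 0)
    (hG : (H28.twist A B).toAffine.Nonsingular (RatFunc.X * H28.fF A B) (H28.fF A B ^ 2))
    (hΦ : (H28.twist A B).toAffine.Nonsingular (RatFunc.X ^ l * H28.fF A B)
      (H28.fF A B ^ ((l + 3) / 2))) :
    (H28.dPt A B (Point.some _ _ hΦ - Point.some _ _ hG) : ℤ)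
      = (l : ℤ) + 1 - ((l : ℤ) + 1
        - Nat.card (⟨0, 0, 0, A, B⟩ : WeierstrassCurve (ZMod l)).toAffine.Point) := by
  rw [dPt_Phi_sub_G0 l A B hl2 hdisc hG hΦ]; ring

end Bridge

end

end Fermat.Agent.S52.H17
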