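import Mathlib

set_option autoImplicit false

open WeierstrassCurve WeierstrassCurve.Affine Polynomial
open scoped nonZeroDivisors

namespace Fermat.Agent.S52.H82

/-- The short Weierstrass curve `y² = x³ + A x + B`. -/
abbrev sh {F : Type*} [CommRing F] (A B : F) : WeierstrassCurve F := ⟨0, 0, 0, A, B⟩

section Scale

variable {F K : Type*} [Field F] [Field K]

lemma sh_equation_iff (A B x y : F) :
    (sh A B).toAffine.Equation x y ↔ y ^ 2 = x ^ 3 + A * x + B := by
  rw [Affine.equation_iff]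
  simp

lemma sh_nonsingular_iff (A B x y : F) :
    (sh A B).toAffine.Nonsingular x y ↔
      y ^ 2 = x ^ 3 + A * x + B ∧ (3 * x ^ 2 + A ≠ 0 ∨ y ≠ -y) := by
  rw [Affine.nonsingular_iff, sh_equation_iff]
  simp [eq_comm]

lemma sh_negY (A B x y : F) : (sh A B).toAffine.negY x y = -y := by
  simp [Affine.negY]

/-- semilinear scaling preserves nonsingularity -/
lemma sh_nonsingular_scale (φ : F →+* K) (s : K) (hs : s ≠ 0) {A B : F} {A' B' : K}
    (hA : A' = s ^ 4 * φ A) (hB : B' = s ^ 6 * φ B) {x y : F}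
    (h : (sh A B).toAffine.Nonsingular x y) :
    (sh A' B').toAffine.Nonsingular (s ^ 2 * φ x) (s ^ 3 * φ y) := by
  rw [sh_nonsingular_iff] at h ⊢
  obtain ⟨h1, h2⟩ := h
  refine ⟨?_, ?_⟩
  · have := congrArg φ h1
    simp only [map_pow, map_add, map_mul] at this
    rw [hA, hB]
    linear_combination s ^ 6 * this
  · rcases h2 with h2 | h2
    · left
      have h3 : φ (3 * x ^ 2 + A) ≠ 0 := fun h => h2 (φ.injective (by simpa using h))
      simp only [map_pow, map_add, map_mul, map_ofNat] at h3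
      intro h4
      apply h3
      have h5 : s ^ 4 ≠ 0 := pow_ne_zero _ hs
      apply mul_left_cancel₀ h5
      rw [hA] at h4
      linear_combination h4
    · right
      intro h4
      apply h2
      apply φ.injective
      have h5 : s ^ 3 ≠ 0 := pow_ne_zero _ hs
      apply mul_left_cancel₀ h5
      rw [map_neg]
      linear_combination h4

lemma sh_slope_scale [DecidableEq F] [DecidableEq K] (φ : F →+* K) (s : K) (hs : s ≠ 0)
    {A B : F} {A' B' : K} (hA : A' = s ^ 4 * φ A) (x₁ x₂ y₁ y₂ : F) :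
    (sh A' B').toAffine.slope (s ^ 2 * φ x₁) (s ^ 2 * φ x₂) (s ^ 3 * φ y₁) (s ^ 3 * φ y₂) =
      s * φ ((sh A B).toAffine.slope x₁ x₂ y₁ y₂) := by
  have hs2 : s ^ 2 ≠ 0 := pow_ne_zero _ hs
  have hs3 : s ^ 3 ≠ 0 := pow_ne_zero _ hs
  by_cases hx : x₁ = x₂
  · subst hx
    by_cases hy : y₁ = (sh A B).toAffine.negY x₁ y₂
    · rw [Affine.slope_of_Y_eq rfl hy, Affine.slope_of_Y_eq rfl, map_zero, mul_zero]
      rw [sh_negY] at hy ⊢
      rw [hy, map_neg]; ring
    · have hy' : s ^ 3 * φ y₁ ≠ (sh A' B').toAffine.negY (s ^ 2 * φ x₁) (s ^ 3 * φ y₂) := by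
        rw [sh_negY] at hy ⊢
        intro h
        apply hy
        apply φ.injective
        apply mul_left_cancel₀ hs3
        rw [map_neg]; linear_combination h
      rw [Affine.slope_of_Y_ne rfl hy, Affine.slope_of_Y_ne rfl hy', sh_negY, sh_negY]
      simp only [map_div₀, map_sub, map_add, map_mul, map_pow, map_neg, map_ofNat,
        mul_zero, zero_mul, add_zero, sub_zero]
      rw [hA]
      have e1 : 3 * (s ^ 2 * φ x₁) ^ 2 + s ^ 4 * φ A = s ^ 3 * (s * (3 * φ x₁ ^ 2 + φ A)) := by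
        ring
      have e2 : s ^ 3 * φ y₁ - -(s ^ 3 * φ y₁) = s ^ 3 * (φ y₁ - -φ y₁) := by ring
      rw [e1, e2, mul_div_mul_left _ _ hs3, mul_div_assoc]
  · have hx' : s ^ 2 * φ x₁ ≠ s ^ 2 * φ x₂ := fun h => hx (φ.injective (mul_left_cancel₀ hs2 h))
    rw [Affine.slope_of_X_ne hx, Affine.slope_of_X_ne hx']
    simp only [map_div₀, map_sub]
    have e1 : s ^ 3 * φ y₁ - s ^ 3 * φ y₂ = s ^ 2 * (s * (φ y₁ - φ y₂)) := by ring
    have e2 : s ^ 2 * φ x₁ - s ^ 2 * φ x₂ = s ^ 2 * (φ x₁ - φ x₂) := by ring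
    rw [e1, e2, mul_div_mul_left _ _ hs2, mul_div_assoc]

/-- The semilinear scaling homomorphism `(x, y) ↦ (s² φ x, s³ φ y)` between short curves. -/
noncomputable def scalePt [DecidableEq F] [DecidableEq K] (φ : F →+* K) (s : K) (hs : s ≠ 0)
    {A B : F} {A' B' : K} (hA : A' = s ^ 4 * φ A) (hB : B' = s ^ 6 * φ B) :
    (sh A B).toAffine.Point →+ (sh A' B').toAffine.Point where
  toFun P := match P with
    | .zero => 0
    | .some x y h => .some (s ^ 2 * φ x) (s ^ 3 * φ y) (sh_nonsingular_scale φ s hs hA hB h)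
  map_zero' := rfl
  map_add' := by
    have hs2 : s ^ 2 ≠ 0 := pow_ne_zero _ hs
    have hs3 : s ^ 3 ≠ 0 := pow_ne_zero _ hs
    rintro (_ | ⟨x₁, y₁, h₁⟩) (_ | ⟨x₂, y₂, h₂⟩)
    any_goals rfl
    by_cases hxy : x₁ = x₂ ∧ y₁ = (sh A B).toAffine.negY x₂ y₂
    · rw [Point.add_of_Y_eq hxy.left hxy.right]
      symm
      apply Point.add_of_Y_eq (congrArg _ hxy.left)
      rw [hxy.right, sh_negY, sh_negY, map_neg]; ring
    · have hxy' : ¬ (s ^ 2 * φ x₁ = s ^ 2 * φ x₂ ∧
          s ^ 3 * φ y₁ = (sh A' B').toAffine.negY (s ^ 2 * φ x₂) (s ^ 3 * φ y₂)) := by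
        rintro ⟨h1, h2⟩
        apply hxy
        refine ⟨φ.injective (mul_left_cancel₀ hs2 h1), ?_⟩
        rw [sh_negY] at h2 ⊢
        apply φ.injective
        apply mul_left_cancel₀ hs3
        rw [map_neg]; linear_combination h2
      rw [Point.add_some hxy]
      show Point.some _ _ _ = Point.some _ _ _ + Point.some _ _ _
      rw [Point.add_some hxy']
      rw [Point.some.injEq]
      simp only [Affine.addY, Affine.negAddY, Affine.addX, sh_negY]
      rw [sh_slope_scale φ s hs hA]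
      simp only [map_neg, map_add, map_sub, map_mul, map_pow, zero_mul,
        sub_zero, add_zero]
      constructor <;> ring

@[simp] lemma scalePt_zero [DecidableEq F] [DecidableEq K] (φ : F →+* K) (s : K) (hs : s ≠ 0)
    {A B : F} {A' B' : K} (hA : A' = s ^ 4 * φ A) (hB : B' = s ^ 6 * φ B) :
    scalePt φ s hs hA hB (Point.zero) = 0 := rfl

lemma scalePt_some [DecidableEq F] [DecidableEq K] (φ : F →+* K) (s : K) (hs : s ≠ 0)
    {A B : F} {A' B' : K} (hA : A' = s ^ 4 * φ A) (hB : B' = s ^ 6 * φ B) {x y : F}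
    (h : (sh A B).toAffine.Nonsingular x y) :
    scalePt φ s hs hA hB (Point.some x y h) =
      Point.some (s ^ 2 * φ x) (s ^ 3 * φ y) (sh_nonsingular_scale φ s hs hA hB h) := rfl

lemma scalePt_injective [DecidableEq F] [DecidableEq K] (φ : F →+* K) (s : K) (hs : s ≠ 0)
    {A B : F} {A' B' : K} (hA : A' = s ^ 4 * φ A) (hB : B' = s ^ 6 * φ B) :
    Function.Injective (scalePt φ s hs hA hB) := by
  have hs2 : s ^ 2 ≠ 0 := pow_ne_zero _ hs
  have hs3 : s ^ 3 ≠ 0 := pow_ne_zero _ hs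
  rintro (_ | ⟨x₁, y₁, h₁⟩) (_ | ⟨x₂, y₂, h₂⟩) h
  · rfl
  · exact absurd h.symm (Point.some_ne_zero _)
  · exact absurd h (Point.some_ne_zero _)
  · rw [scalePt_some, scalePt_some, Point.some.injEq] at h
    rw [Point.some.injEq]
    exact ⟨φ.injective (mul_left_cancel₀ hs2 h.1), φ.injective (mul_left_cancel₀ hs3 h.2)⟩

end Scale

section MapPt

variable {F K : Type*} [Field F] [Field K]

lemma sh_nonsingular_map (φ : F →+* K) {A B : F} {A' B' : K}
    (hA : A' = φ A) (hB : B' = φ B) {x y : F}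
    (h : (sh A B).toAffine.Nonsingular x y) :
    (sh A' B').toAffine.Nonsingular (φ x) (φ y) := by
  have := sh_nonsingular_scale φ 1 one_ne_zero (A' := A') (B' := B') (by simp [hA]) (by simp [hB]) h
  simpa using this

variable [DecidableEq F] [DecidableEq K]

/-- The homomorphism `(x, y) ↦ (φ x, φ y)` between short curves. -/
noncomputable def mapPt (φ : F →+* K) {A B : F} {A' B' : K} (hA : A' = φ A) (hB : B' = φ B) :
    (sh A B).toAffine.Point →+ (sh A' B').toAffine.Point where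
  toFun P := match P with
    | .zero => 0
    | .some x y h => .some (φ x) (φ y) (sh_nonsingular_map φ hA hB h)
  map_zero' := rfl
  map_add' := by
    have key : ∀ P : (sh A B).toAffine.Point,
        (match P with
          | .zero => (0 : (sh A' B').toAffine.Point)
          | .some x y h => .some (φ x) (φ y) (sh_nonsingular_map φ hA hB h)) =
        scalePt φ 1 one_ne_zero (A' := A') (B' := B') (by simp [hA]) (by simp [hB]) P := by
      rintro (_ | ⟨x, y, h⟩)
      · rfl
      · rw [scalePt_some, Point.some.injEq]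
        simp
    intro P Q
    rw [key, key, key, map_add]

@[simp] lemma mapPt_zero (φ : F →+* K) {A B : F} {A' B' : K} (hA : A' = φ A) (hB : B' = φ B) :
    mapPt φ hA hB (Point.zero) = 0 := rfl

lemma mapPt_some (φ : F →+* K) {A B : F} {A' B' : K} (hA : A' = φ A) (hB : B' = φ B) {x y : F}
    (h : (sh A B).toAffine.Nonsingular x y) :
    mapPt φ hA hB (Point.some x y h) =
      Point.some (φ x) (φ y) (sh_nonsingular_map φ hA hB h) := rfl

lemma mapPt_injective (φ : F →+* K) {A B : F} {A' B' : K} (hA : A' = φ A) (hB : B' = φ B) :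
    Function.Injective (mapPt φ hA hB) := by
  rintro (_ | ⟨x₁, y₁, h₁⟩) (_ | ⟨x₂, y₂, h₂⟩) h
  · rfl
  · exact absurd h.symm (Point.some_ne_zero _)
  · exact absurd h (Point.some_ne_zero _)
  · rw [mapPt_some, mapPt_some, Point.some.injEq] at h
    rw [Point.some.injEq]
    exact ⟨φ.injective h.1, φ.injective h.2⟩

end MapPt

section Frob

variable (l : ℕ) [Fact l.Prime] {K : Type*} [Field K] [CharP K l] [DecidableEq K]

/-- Frobenius `(x, y) ↦ (x ^ l, y ^ l)` on the points of a short curve with coefficients fixed by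
Frobenius. -/
noncomputable def frobPt {a b : K} (ha : a ^ l = a) (hb : b ^ l = b) :
    (sh a b).toAffine.Point →+ (sh a b).toAffine.Point :=
  mapPt (frobenius K l) (by rw [frobenius_def, ha]) (by rw [frobenius_def, hb])

lemma frobPt_some {a b : K} (ha : a ^ l = a) (hb : b ^ l = b) {x y : K}
    (h : (sh a b).toAffine.Nonsingular x y) :
    ∃ h', frobPt l ha hb (Point.some x y h) = Point.some (x ^ l) (y ^ l) h' :=
  ⟨_, rfl⟩

lemma frobPt_some' {a b : K} (ha : a ^ l = a) (hb : b ^ l = b) {x y : K}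
    (h : (sh a b).toAffine.Nonsingular x y) (h' : (sh a b).toAffine.Nonsingular (x ^ l) (y ^ l)) :
    frobPt l ha hb (Point.some x y h) = Point.some (x ^ l) (y ^ l) h' :=
  rfl

lemma frobPt_injective {a b : K} (ha : a ^ l = a) (hb : b ^ l = b) :
    Function.Injective (frobPt l ha hb) :=
  mapPt_injective _ _ _

end Frob

section Twist

variable (l : ℕ) [Fact l.Prime] (A B : ZMod l)

/-- `f = t³ + A t + B` as a rational function over `ZMod l`. -/
noncomputable def fF : RatFunc (ZMod l) :=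
  algebraMap (ZMod l)[X] (RatFunc (ZMod l)) (X ^ 3 + C A * X + C B)

/-- The twist `Y² = X³ + A f² X + B f³` over `F_l(t)`. -/
noncomputable abbrev twist : WeierstrassCurve (RatFunc (ZMod l)) :=
  sh (RatFunc.C A * fF l A B ^ 2) (RatFunc.C B * fF l A B ^ 3)

lemma cubic_ne_zero : (X ^ 3 + C A * X + C B : (ZMod l)[X]) ≠ 0 := by
  intro h
  have := congrArg (fun p => Polynomial.coeff p 3) h
  simp at this

variable {l A B}

/-- the generic point: Frobenius characteristic relation transported along evaluation -/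
theorem chi_generic [DecidableEq (RatFunc (ZMod l))] (hl2 : l ≠ 2) (a : ℤ)
    (G0 Φ Φ2 : (twist l A B).toAffine.Point)
    (hG0 : ∃ h, G0 = Point.some (RatFunc.X * fF l A B) (fF l A B ^ 2) h)
    (hΦ : ∃ h, Φ = Point.some (RatFunc.X ^ l * fF l A B) (fF l A B ^ ((l + 3) / 2)) h)
    (hΦ2 : ∃ h, Φ2 = Point.some (RatFunc.X ^ (l ^ 2) * fF l A B)
      (fF l A B ^ ((l ^ 2 + 3) / 2)) h)
    (hchar : (2 : ℕ) • (Φ2 - a • Φ + (l : ℤ) • G0) = 0)
    {K' : Type*} [Field K'] [DecidableEq K'] [CharP K' l] (j : ZMod l →+* K') {a' b' : K'}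
    (ha' : a' = j A) (hb' : b' = j B) (x' y' : K')
    (htr : ∀ p : (ZMod l)[X], p ≠ 0 → p.eval₂ j x' ≠ 0)
    (h' : (sh a' b').toAffine.Nonsingular x' y') (ha : a' ^ l = a') (hb : b' ^ l = b') :
    (2 : ℕ) • (frobPt l ha hb (frobPt l ha hb (Point.some x' y' h')) -
      a • frobPt l ha hb (Point.some x' y' h') + (l : ℤ) • Point.some x' y' h') = 0 := by
  have hlodd : Odd l := (Fact.out : l.Prime).odd_of_ne_two hl2
  have hψ : (ZMod l)[X]⁰ ≤ K'⁰.comap (Polynomial.eval₂RingHom j x') := by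
    intro p hp
    rw [Submonoid.mem_comap]
    apply mem_nonZeroDivisors_of_ne_zero
    exact htr p (nonZeroDivisors.ne_zero hp)
  set ψ : RatFunc (ZMod l) →+* K' := RatFunc.liftRingHom (Polynomial.eval₂RingHom j x') hψ with hψdef
  have hψC : ∀ c : ZMod l, ψ (RatFunc.C c) = j c := by
    intro c
    rw [hψdef, RatFunc.liftRingHom_C]
    simp
  have hψX : ψ RatFunc.X = x' := by
    rw [hψdef, RatFunc.liftRingHom_X]
    simp
  have hy : y' ^ 2 = x' ^ 3 + a' * x' + b' := ((sh_nonsingular_iff _ _ _ _).mp h').1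
  have hψf : ψ (fF l A B) = y' ^ 2 := by
    rw [hψdef, fF, RatFunc.liftRingHom_algebraMap, hy, ha', hb']
    simp
  have hy0 : y' ≠ 0 := by
    intro h0
    apply htr _ (cubic_ne_zero l A B)
    rw [h0] at hy
    simp only [eval₂_add, eval₂_mul, eval₂_pow, eval₂_X, eval₂_C]
    rw [← ha', ← hb', ← hy]; ring
  have hs : y'⁻¹ ≠ 0 := inv_ne_zero hy0
  have hA : a' = y'⁻¹ ^ 4 * ψ (RatFunc.C A * fF l A B ^ 2) := by
    rw [map_mul, map_pow, hψC, hψf, ha']
    field_simp
  have hB : b' = y'⁻¹ ^ 6 * ψ (RatFunc.C B * fF l A B ^ 3) := by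
    rw [map_mul, map_pow, hψC, hψf, hb']
    field_simp
  set ev := scalePt ψ y'⁻¹ hs hA hB with hev
  -- images
  have e0 : ev G0 = Point.some x' y' h' := by
    obtain ⟨h, rfl⟩ := hG0
    rw [hev, scalePt_some, Point.some.injEq]
    constructor
    · rw [map_mul, hψX, hψf]; field_simp
    · rw [map_pow, hψf]; field_simp
  obtain ⟨k, hk⟩ := hlodd
  have e1 : ev Φ = frobPt l ha hb (Point.some x' y' h') := by
    obtain ⟨h, rfl⟩ := hΦ
    obtain ⟨h1, h1e⟩ := frobPt_some l ha hb h'
    rw [h1e, hev, scalePt_some, Point.some.injEq]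
    constructor
    · rw [map_mul, map_pow, hψX, hψf]; field_simp
    · rw [map_pow, hψf]
      have : (l + 3) / 2 = k + 2 := by omega
      rw [this, hk]
      field_simp
      ring
  have e2 : ev Φ2 = frobPt l ha hb (frobPt l ha hb (Point.some x' y' h')) := by
    obtain ⟨h, rfl⟩ := hΦ2
    obtain ⟨h1, h1e⟩ := frobPt_some l ha hb h'
    obtain ⟨h2, h2e⟩ := frobPt_some l ha hb h1
    rw [h1e, h2e, hev, scalePt_some, Point.some.injEq]
    constructor
    · rw [map_mul, map_pow, hψX, hψf]; field_simp; ring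
    · rw [map_pow, hψf]
      have : (l ^ 2 + 3) / 2 = 2 * k ^ 2 + 2 * k + 2 := by
        rw [hk]
        have : (2 * k + 1) ^ 2 + 3 = 2 * (2 * k ^ 2 + 2 * k + 2) := by ring
        rw [this]; omega
      rw [this, hk]
      field_simp
      ring
  have := congrArg ev hchar
  rw [map_nsmul, map_add, map_sub, map_zsmul, map_zsmul, e0, e1, e2, map_zero] at this
  exact this

end Twist

section Transfer

/-- An element outside an algebraically closed subfield is transcendental over every subfield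
of it. -/
lemma eval₂_ne_zero_of_not_mem_range {k K K' : Type*} [Field k] [Field K] [IsAlgClosed K]
    [Field K'] (ι : K →+* K') (j0 : k →+* K) (x : K') (hx : x ∉ Set.range ι)
    (p : k[X]) (hp : p ≠ 0) : p.eval₂ (ι.comp j0) x ≠ 0 := by
  intro h0
  apply hx
  have hq : p.map j0 ≠ 0 := (Polynomial.map_ne_zero_iff j0.injective).mpr hp
  rw [← Polynomial.eval₂_map] at h0
  let _ : Algebra K K' := ι.toAlgebra
  have halg : IsAlgebraic K x := ⟨p.map j0, hq, by rw [Polynomial.aeval_def]; exact h0⟩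
  have hint : IsIntegral K x := halg.isIntegral
  have hdeg := IsAlgClosed.degree_eq_one_of_irreducible K (minpoly.irreducible hint)
  have := minpoly.mem_range_of_degree_eq_one K x hdeg
  exact this

lemma mapPt_frobPt (l : ℕ) [Fact l.Prime] {K K' : Type*} [Field K] [Field K'] [CharP K l]
    [CharP K' l] [DecidableEq K] [DecidableEq K'] (ι : K →+* K') {a b : K}
    (ha : a ^ l = a) (hb : b ^ l = b) (ha' : ι a ^ l = ι a) (hb' : ι b ^ l = ι b)
    (P : (sh a b).toAffine.Point) :
    mapPt ι rfl rfl (frobPt l ha hb P) = frobPt l ha' hb' (mapPt ι rfl rfl P) := by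
  rcases P with _ | ⟨x, y, h⟩
  · rfl
  · obtain ⟨h1, h1e⟩ := frobPt_some l ha hb h
    rw [h1e, mapPt_some, mapPt_some]
    obtain ⟨h2, h2e⟩ := frobPt_some l ha' hb' (sh_nonsingular_map ι rfl rfl h)
    rw [h2e, Point.some.injEq]
    exact ⟨map_pow _ _ _, map_pow _ _ _⟩

variable {l : ℕ} [Fact l.Prime] {A B : ZMod l}

/-- **Transfer (M5)**, algebraically closed case: the relation `2(Φ₂ - aΦ + lG₀) = 0` on the
twist over `F_l(t)` gives `2(Fr² - a Fr + l) = 0` on all points of the curve over `K`. -/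
theorem frobChar_of_twist_algClosed [DecidableEq (RatFunc (ZMod l))] (hl2 : l ≠ 2) (a : ℤ)
    (G0 Φ Φ2 : (twist l A B).toAffine.Point)
    (hG0 : ∃ h, G0 = Point.some (RatFunc.X * fF l A B) (fF l A B ^ 2) h)
    (hΦ : ∃ h, Φ = Point.some (RatFunc.X ^ l * fF l A B) (fF l A B ^ ((l + 3) / 2)) h)
    (hΦ2 : ∃ h, Φ2 = Point.some (RatFunc.X ^ (l ^ 2) * fF l A B)
      (fF l A B ^ ((l ^ 2 + 3) / 2)) h)
    (hchar : (2 : ℕ) • (Φ2 - a • Φ + (l : ℤ) • G0) = 0)
    {K : Type*} [Field K] [DecidableEq K] [CharP K l] [IsAlgClosed K] (j0 : ZMod l →+* K)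
    {a' b' : K} (ha' : a' = j0 A) (hb' : b' = j0 B) (ha : a' ^ l = a') (hb : b' ^ l = b')
    (P : (sh a' b').toAffine.Point) :
    (2 : ℕ) • (frobPt l ha hb (frobPt l ha hb P) - a • frobPt l ha hb P + (l : ℤ) • P) = 0 := by
  classical
  let K' := AlgebraicClosure (RatFunc K)
  let ι : K →+* K' := (algebraMap (RatFunc K) K').comp (RatFunc.C)
  have : CharP K' l := charP_of_injective_ringHom ι.injective l
  have h2 : (2 : K') ≠ 0 := by
    intro h
    have h' : ((2 : ℕ) : K') = 0 := by exact_mod_cast h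
    rw [CharP.cast_eq_zero_iff K' l] at h'
    have hp : l.Prime := Fact.out
    have := Nat.le_of_dvd (by norm_num) h'
    have := hp.two_le
    omega
  set x' : K' := algebraMap (RatFunc K) K' RatFunc.X with hx'def
  have hx'range : x' ∉ Set.range ι := by
    rintro ⟨c, hc⟩
    have : (RatFunc.C c : RatFunc K) = RatFunc.X :=
      (algebraMap (RatFunc K) K').injective hc
    have h1 := congrArg RatFunc.intDegree this
    rw [RatFunc.intDegree_C, RatFunc.intDegree_X] at h1
    exact zero_ne_one h1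
  have ha'' : ι a' ^ l = ι a' := by rw [← map_pow, ha]
  have hb'' : ι b' ^ l = ι b' := by rw [← map_pow, hb]
  have haj : ι a' = (ι.comp j0) A := by rw [ha']; rfl
  have hbj : ι b' = (ι.comp j0) B := by rw [hb']; rfl
  have htr : ∀ x : K', x ∉ Set.range ι → ∀ p : (ZMod l)[X], p ≠ 0 → p.eval₂ (ι.comp j0) x ≠ 0 :=
    fun x hx p hp => eval₂_ne_zero_of_not_mem_range ι j0 x hx p hp
  obtain ⟨y', hy'⟩ := IsAlgClosed.exists_pow_nat_eq (x' ^ 3 + ι a' * x' + ι b') (n := 2) (by norm_num)
  have hy'0 : y' ≠ 0 := by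
    intro h0
    apply htr x' hx'range _ (cubic_ne_zero l A B)
    simp only [eval₂_add, eval₂_mul, eval₂_pow, eval₂_X, eval₂_C]
    rw [← haj, ← hbj, ← hy', h0]; ring
  have hG' : (sh (ι a') (ι b')).toAffine.Nonsingular x' y' := by
    rw [sh_nonsingular_iff]
    refine ⟨hy', Or.inr ?_⟩
    intro h
    apply hy'0
    have : 2 * y' = 0 := by linear_combination h
    rcases mul_eq_zero.mp this with h | h
    · exact absurd h h2
    · exact h
  set G' : (sh (ι a') (ι b')).toAffine.Point := Point.some x' y' hG' with hG'def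
  set T' : (sh (ι a') (ι b')).toAffine.Point := mapPt ι rfl rfl P with hT'def
  -- generic points are killed
  have hgen : ∀ (x y : K') (h : (sh (ι a') (ι b')).toAffine.Nonsingular x y), x ∉ Set.range ι →
      (2 : ℕ) • (frobPt l ha'' hb'' (frobPt l ha'' hb'' (Point.some x y h)) -
        a • frobPt l ha'' hb'' (Point.some x y h) + (l : ℤ) • Point.some x y h) = 0 :=
    fun x y h hx => chi_generic hl2 a G0 Φ Φ2 hG0 hΦ hΦ2 hchar (ι.comp j0) haj hbj x y
      (htr x hx) h ha'' hb''
  have hGkill : (2 : ℕ) • (frobPt l ha'' hb'' (frobPt l ha'' hb'' G') -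
        a • frobPt l ha'' hb'' G' + (l : ℤ) • G') = 0 := hgen x' y' hG' hx'range
  -- the sum G' + T' is generic
  have hGnot : G' ∉ (mapPt ι (A := a') (B := b') rfl rfl).range := by
    rintro ⟨Q, hQ⟩
    rcases Q with _ | ⟨x, y, h⟩
    · exact Point.some_ne_zero _ hQ.symm
    · rw [mapPt_some, hG'def, Point.some.injEq] at hQ
      exact hx'range ⟨x, hQ.1⟩
  have hSnot : G' + T' ∉ (mapPt ι (A := a') (B := b') rfl rfl).range := by
    intro hS
    apply hGnot
    have hT : T' ∈ (mapPt ι (A := a') (B := b') rfl rfl).range := ⟨P, rfl⟩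
    have := (mapPt ι (A := a') (B := b') rfl rfl).range.sub_mem hS hT
    simpa using this
  have hSkill : (2 : ℕ) • (frobPt l ha'' hb'' (frobPt l ha'' hb'' (G' + T')) -
        a • frobPt l ha'' hb'' (G' + T') + (l : ℤ) • (G' + T')) = 0 := by
    rcases hS : G' + T' with _ | ⟨x, y, h⟩
    · exfalso
      apply hSnot
      rw [hS]
      exact (mapPt ι (A := a') (B := b') rfl rfl).range.zero_mem
    · apply hgen
      rintro ⟨x0, hx0⟩
      apply hSnot
      rw [hS]
      obtain ⟨y0, hy0⟩ := IsAlgClosed.exists_pow_nat_eq (x0 ^ 3 + a' * x0 + b') (n := 2)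
        (by norm_num)
      have hns := (sh_nonsingular_iff _ _ _ _).mp h
      have hsq : y ^ 2 = (ι y0) ^ 2 := by
        rw [hns.1, ← map_pow, hy0, ← hx0]
        simp
      have hy1 : ∃ y1 : K, y1 ^ 2 = x0 ^ 3 + a' * x0 + b' ∧ ι y1 = y := by
        rcases sq_eq_sq_iff_eq_or_eq_neg.mp hsq with h1 | h1
        · exact ⟨y0, hy0, h1.symm⟩
        · refine ⟨-y0, by rw [neg_sq, hy0], by rw [map_neg, h1]⟩
      obtain ⟨y1, hy1sq, hy1⟩ := hy1
      have hns0 : (sh a' b').toAffine.Nonsingular x0 y1 := by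
        rw [sh_nonsingular_iff]
        refine ⟨hy1sq, ?_⟩
        rcases hns.2 with h3 | h3
        · left
          intro h4
          apply h3
          rw [← hx0]
          have := congrArg ι h4
          simpa [map_ofNat] using this
        · right
          intro h4
          apply h3
          rw [← hy1, ← map_neg, ← h4]
      refine ⟨Point.some x0 y1 hns0, ?_⟩
      rw [mapPt_some, Point.some.injEq]
      exact ⟨hx0, hy1⟩
  -- subtract
  have hTkill : (2 : ℕ) • (frobPt l ha'' hb'' (frobPt l ha'' hb'' T') -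
        a • frobPt l ha'' hb'' T' + (l : ℤ) • T') = 0 := by
    have hT : T' = (G' + T') - G' := by abel
    rw [hT, map_sub, map_sub]
    have e : (2 : ℕ) • (frobPt l ha'' hb'' (frobPt l ha'' hb'' (G' + T')) -
          frobPt l ha'' hb'' (frobPt l ha'' hb'' G') -
          a • (frobPt l ha'' hb'' (G' + T') - frobPt l ha'' hb'' G') +
          (l : ℤ) • (G' + T' - G')) =
        (2 : ℕ) • (frobPt l ha'' hb'' (frobPt l ha'' hb'' (G' + T')) -
          a • frobPt l ha'' hb'' (G' + T') + (l : ℤ) • (G' + T')) -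
        (2 : ℕ) • (frobPt l ha'' hb'' (frobPt l ha'' hb'' G') -
          a • frobPt l ha'' hb'' G' + (l : ℤ) • G') := by
      module
    rw [e, hSkill, hGkill, sub_zero]
  -- pull back
  apply mapPt_injective ι (A := a') (B := b') rfl rfl
  rw [map_zero, map_nsmul, map_add, map_sub, map_zsmul, map_zsmul, mapPt_frobPt l ι ha hb ha'' hb'',
    mapPt_frobPt l ι ha hb ha'' hb'']
  exact hTkill

/-- **Transfer (M5)**, any field `K` of characteristic `l`: the relation
`2(Φ₂ - aΦ + lG₀) = 0` on the twist over `F_l(t)` gives `2(Fr² - a Fr + l) = 0` on all points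
of the curve `y² = x³ + A x + B` over `K`. -/
theorem frobChar_of_twist [DecidableEq (RatFunc (ZMod l))] (hl2 : l ≠ 2) (a : ℤ)
    (G0 Φ Φ2 : (twist l A B).toAffine.Point)
    (hG0 : ∃ h, G0 = Point.some (RatFunc.X * fF l A B) (fF l A B ^ 2) h)
    (hΦ : ∃ h, Φ = Point.some (RatFunc.X ^ l * fF l A B) (fF l A B ^ ((l + 3) / 2)) h)
    (hΦ2 : ∃ h, Φ2 = Point.some (RatFunc.X ^ (l ^ 2) * fF l A B)
      (fF l A B ^ ((l ^ 2 + 3) / 2)) h)
    (hchar : (2 : ℕ) • (Φ2 - a • Φ + (l : ℤ) • G0) = 0)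
    {K : Type*} [Field K] [DecidableEq K] [CharP K l] (j0 : ZMod l →+* K)
    {a' b' : K} (ha' : a' = j0 A) (hb' : b' = j0 B) (ha : a' ^ l = a') (hb : b' ^ l = b')
    (P : (sh a' b').toAffine.Point) :
    (2 : ℕ) • (frobPt l ha hb (frobPt l ha hb P) - a • frobPt l ha hb P + (l : ℤ) • P) = 0 := by
  classical
  let Kb := AlgebraicClosure K
  let ι : K →+* Kb := algebraMap K Kb
  have : CharP Kb l := charP_of_injective_ringHom ι.injective l
  have ha'' : ι a' ^ l = ι a' := by rw [← map_pow, ha]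
  have hb'' : ι b' ^ l = ι b' := by rw [← map_pow, hb]
  have key := frobChar_of_twist_algClosed hl2 a G0 Φ Φ2 hG0 hΦ hΦ2 hchar (ι.comp j0)
    (a' := ι a') (b' := ι b') (by rw [ha']; rfl) (by rw [hb']; rfl) ha'' hb''
    (mapPt ι rfl rfl P)
  apply mapPt_injective ι (A := a') (B := b') rfl rfl
  rw [map_zero, map_nsmul, map_add, map_sub, map_zsmul, map_zsmul,
    mapPt_frobPt l ι ha hb ha'' hb'', mapPt_frobPt l ι ha hb ha'' hb'']
  exact key

/-- Coefficients coming from `ZMod l` are fixed by Frobenius. -/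
lemma ringHom_zmod_pow {K : Type*} [Field K] (j0 : ZMod l →+* K) (c : ZMod l) :
    j0 c ^ l = j0 c := by
  rw [← map_pow, ZMod.pow_card]

end Transfer

end Fermat.Agent.S52.H82
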