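import Mathlib
import Fermat.Agent.S52.DegM1_helper28
import Fermat.Agent.S52.ManinAlg_helper76
import Fermat.Agent.S52.Transfer_helper82
import Fermat.Agent.S52.CompBridge_helper79
import Fermat.Agent.S52.ManinCount_helper17

/-!
# S52, E-block assembly: the Frobenius characteristic relation

`E2` (helper28: parallelogram identity `(M1)`, `(M4)`), `E5` (helper76: quadratic-sequence
algebra) and `E6` (`Transfer_helper82`) are composed in `frobChar_of_inputs`; with `E3`
(helper79: composition law) and `E4` (helper17: Manin's count) this gives the final `frobChar`.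
-/

set_option autoImplicit false

open WeierstrassCurve WeierstrassCurve.Affine Polynomial

namespace Fermat.Agent.S52.H82

/-- helper28's twist is the twist of `Transfer_helper82`. -/
theorem H28_twist_eq (l : ℕ) [Fact l.Prime] (A B : ZMod l) : H28.twist A B = twist l A B := rfl

theorem H28_fF_eq (l : ℕ) [Fact l.Prime] (A B : ZMod l) : H28.fF A B = fF l A B := rfl

lemma two_ne_zero_zmod (l : ℕ) [Fact l.Prime] (hl2 : l ≠ 2) : (2 : ZMod l) ≠ 0 := by
  intro h
  have h' : ((2 : ℕ) : ZMod l) = 0 := by exact_mod_cast h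
  rw [ZMod.natCast_eq_zero_iff] at h'
  have hp : l.Prime := Fact.out
  have := Nat.le_of_dvd (by norm_num) h'
  have := hp.two_le
  omega

/-- **E-block, conditional assembly**: from Manin's count (`hdΦ`, `hdΦG`) and the composition
law (`hcomp`) to the Frobenius characteristic relation on `E(K)`. -/
theorem frobChar_of_inputs (l : ℕ) [Fact l.Prime] (hl2 : l ≠ 2) (A B : ZMod l)
    (hdisc : 4 * A ^ 3 + 27 * B ^ 2 ≠ 0) [DecidableEq (RatFunc (ZMod l))]
    (hG : (H28.twist A B).toAffine.Nonsingular (RatFunc.X * H28.fF A B) (H28.fF A B ^ 2))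
    (hΦ : (H28.twist A B).toAffine.Nonsingular (RatFunc.X ^ l * H28.fF A B)
      (H28.fF A B ^ ((l + 3) / 2)))
    (hΦ2 : (H28.twist A B).toAffine.Nonsingular (RatFunc.X ^ (l ^ 2) * H28.fF A B)
      (H28.fF A B ^ ((l ^ 2 + 3) / 2)))
    (a : ℤ)
    (hdΦ : H28.dPt A B (Point.some _ _ hΦ) = l)
    (hdΦG : (H28.dPt A B (Point.some _ _ hΦ - Point.some _ _ hG) : ℤ) = l + 1 - a)
    (hcomp : ∀ m n : ℤ, 0 < H28.dPt A B (Point.some _ _ hΦ + m • Point.some _ _ hG) →
      0 < H28.dPt A B (Point.some _ _ hΦ + n • Point.some _ _ hG) →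
      H28.dPt A B (Point.some _ _ hΦ2 + (m + n) • Point.some _ _ hΦ +
          (m * n) • Point.some _ _ hG) =
        H28.dPt A B (Point.some _ _ hΦ + m • Point.some _ _ hG) *
          H28.dPt A B (Point.some _ _ hΦ + n • Point.some _ _ hG))
    {K : Type*} [Field K] [DecidableEq K] [CharP K l] (j0 : ZMod l →+* K) {a' b' : K}
    (ha' : a' = j0 A) (hb' : b' = j0 B) (ha : a' ^ l = a') (hb : b' ^ l = b')
    (P : (sh a' b').toAffine.Point) :
    (2 : ℕ) • (frobPt l ha hb (frobPt l ha hb P) - a • frobPt l ha hb P + (l : ℤ) • P) = 0 := by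
  have h2 : (2 : ZMod l) ≠ 0 := two_ne_zero_zmod l hl2
  have hchar := H76.two_nsmul_eq_zero_of_degree (H28.dPt A B) (Point.some _ _ hG)
    (Point.some _ _ hΦ) (Point.some _ _ hΦ2) l a
    (H28.dPt_add_G0_add_dPt_sub_G0 h2 hdisc hG) H28.two_nsmul_eq_zero_of_dPt_eq_zero hdΦ hdΦG hcomp
  exact frobChar_of_twist hl2 a (A := A) (B := B) (Point.some _ _ hG) (Point.some _ _ hΦ)
    (Point.some _ _ hΦ2) ⟨hG, rfl⟩ ⟨hΦ, rfl⟩ ⟨hΦ2, rfl⟩ hchar j0 ha' hb' ha hb P

/-- **FROBCHAR** (E-block, final): for the curve `E : y² = x³ + A x + B` over `ZMod l`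
(`l ≠ 2`, nonzero discriminant) and any field `K` of characteristic `l`, every point `P` of
`E(K)` satisfies `2 (Fr² P - a Fr P + l P) = 0` with `a = l + 1 - #E(F_l)`.
(E2 = `DegM1_helper28`, E3 = `CompBridge_helper79`, E4 = `ManinCount_helper17`,
E5 = `ManinAlg_helper76`, E6 = `Transfer_helper82`.) -/
theorem frobChar (l : ℕ) [Fact l.Prime] (hl2 : l ≠ 2) (A B : ZMod l)
    (hdisc : 4 * A ^ 3 + 27 * B ^ 2 ≠ 0)
    {K : Type*} [Field K] [DecidableEq K] [CharP K l] (j0 : ZMod l →+* K) {a' b' : K}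
    (ha' : a' = j0 A) (hb' : b' = j0 B) (ha : a' ^ l = a') (hb : b' ^ l = b')
    (P : (sh a' b').toAffine.Point) :
    (2 : ℕ) • (frobPt l ha hb (frobPt l ha hb P) -
      ((l : ℤ) + 1 - (Nat.card (sh A B).toAffine.Point : ℤ)) • frobPt l ha hb P +
      (l : ℤ) • P) = 0 := by
  classical
  have hG := H28.nonsingular_G0 (two_ne_zero_zmod l hl2) A B
  have hΦ := H17.nonsingular_Phi_twist l A B hl2
  have hΦ2 := H17.nonsingular_Phi2_twist l A B hl2
  exact frobChar_of_inputs l hl2 A B hdisc hG hΦ hΦ2 _ (H17.dPt_Phi l A B hΦ)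
    (H17.dPt_Phi_sub_G0_int l A B hl2 hdisc hG hΦ)
    (fun m n hm hn => H79.hcomp_H28 hl2 A B hG hΦ hΦ2 m n hm hn) j0 ha' hb' ha hb P

/-- `frobChar` with the coefficients written as images of `A`, `B` (no side conditions). -/
theorem frobChar' (l : ℕ) [Fact l.Prime] (hl2 : l ≠ 2) (A B : ZMod l)
    (hdisc : 4 * A ^ 3 + 27 * B ^ 2 ≠ 0)
    {K : Type*} [Field K] [DecidableEq K] [CharP K l] (j0 : ZMod l →+* K)
    (P : (sh (j0 A) (j0 B)).toAffine.Point) :
    (2 : ℕ) • (frobPt l (ringHom_zmod_pow j0 A) (ringHom_zmod_pow j0 B)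
        (frobPt l (ringHom_zmod_pow j0 A) (ringHom_zmod_pow j0 B) P) -
      ((l : ℤ) + 1 - (Nat.card (sh A B).toAffine.Point : ℤ)) •
        frobPt l (ringHom_zmod_pow j0 A) (ringHom_zmod_pow j0 B) P +
      (l : ℤ) • P) = 0 :=
  frobChar l hl2 A B hdisc j0 rfl rfl _ _ P

end Fermat.Agent.S52.H82
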