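/-
S52 node D (Lift), helper83.

Klein's icosahedral forms `kf` (degree 12), `kH` (degree 20), `kT` (degree 30) with
`kT^2 + kH^3 = 1728 kf^5`.  Over an algebraically closed field of characteristic not 2, 3, 5,
every pair `(c4, c6)` with `c4^3 ≠ c6^2` is of the form `(-kH u v, -kT u v)`.
-/
import Mathlib

set_option autoImplicit false

namespace Fermat.Agent.S52.H83

open Polynomial

section Forms

variable {R : Type*} [CommRing R]

/-- Klein's form of degree 12. -/
def kf (u v : R) : R := u * v * (u ^ 10 + 11 * u ^ 5 * v ^ 5 - v ^ 10)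

/-- Klein's form of degree 20 (Hessian). -/
def kH (u v : R) : R :=
  -(u ^ 20 + v ^ 20) + 228 * (u ^ 15 * v ^ 5 - u ^ 5 * v ^ 15) - 494 * u ^ 10 * v ^ 10

/-- Klein's form of degree 30. -/
def kT (u v : R) : R :=
  (u ^ 30 + v ^ 30) + 522 * (u ^ 25 * v ^ 5 - u ^ 5 * v ^ 25)
    - 10005 * (u ^ 20 * v ^ 10 + u ^ 10 * v ^ 20)

/-- The icosahedral relation. -/
theorem klein_rel (u v : R) : kT u v ^ 2 + kH u v ^ 3 = 1728 * kf u v ^ 5 := by
  unfold kT kH kf
  ring

/-- (B1): an explicit combination of `g = U^2 + 11 U V - V^2` and `H` equal to `3125 V^5`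
(`U = u^5`, `V = v^5`). -/
theorem klein_B1 (u v : R) :
    (-11 * (u ^ 5) ^ 3 + 2507 * (u ^ 5) ^ 2 * v ^ 5 - 5206 * u ^ 5 * (v ^ 5) ^ 2
        - 3003 * (v ^ 5) ^ 3) * (u ^ 10 + 11 * u ^ 5 * v ^ 5 - v ^ 10)
      + (-11 * u ^ 5 - 122 * v ^ 5) * kH u v = 3125 * v ^ 25 := by
  unfold kH
  ring

theorem kf_smul (c u v : R) : kf (c * u) (c * v) = c ^ 12 * kf u v := by
  unfold kf; ring

theorem kH_smul (c u v : R) : kH (c * u) (c * v) = c ^ 20 * kH u v := by
  unfold kH; ring

theorem kT_smul (c u v : R) : kT (c * u) (c * v) = c ^ 30 * kT u v := by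
  unfold kT; ring

end Forms

section Field

variable {K : Type*} [Field K]

/-- In characteristic `≠ 5` the forms `kf` and `kH` have no common nontrivial zero. -/
theorem eq_zero_of_kf_kH (h5 : (5 : K) ≠ 0) {u v : K} (hf : kf u v = 0) (hH : kH u v = 0) :
    u = 0 ∧ v = 0 := by
  have hv_of_u : u = 0 → v = 0 := by
    intro hu
    have : -(v ^ 20) = 0 := by
      have h := hH
      unfold kH at h
      rw [hu] at h
      linear_combination h
    exact pow_eq_zero_iff (n := 20) (by norm_num) |>.mp (neg_eq_zero.mp this)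
  have hu_of_v : v = 0 → u = 0 := by
    intro hv
    have : -(u ^ 20) = 0 := by
      have h := hH
      unfold kH at h
      rw [hv] at h
      linear_combination h
    exact pow_eq_zero_iff (n := 20) (by norm_num) |>.mp (neg_eq_zero.mp this)
  have hf' := hf
  unfold kf at hf'
  rcases mul_eq_zero.mp hf' with huv | hg
  · rcases mul_eq_zero.mp huv with hu | hv
    · exact ⟨hu, hv_of_u hu⟩
    · exact ⟨hu_of_v hv, hv⟩
  · have hB := klein_B1 u v
    rw [hg, hH, mul_zero, mul_zero, add_zero] at hB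
    have h3125 : (3125 : K) ≠ 0 := by
      have : (3125 : K) = 5 ^ 5 := by norm_num
      rw [this]; exact pow_ne_zero _ h5
    have hv25 : v ^ 25 = 0 := (mul_eq_zero.mp hB.symm).resolve_left h3125
    have hv : v = 0 := pow_eq_zero_iff (n := 25) (by norm_num) |>.mp hv25
    exact ⟨hu_of_v hv, hv⟩

/-- `-(H(X,1))` as a monic polynomial of degree 20. -/
noncomputable def HmPoly (K : Type*) [Field K] : K[X] :=
  X ^ 20 + (-(C 228 * X ^ 15) + C 494 * X ^ 10 + C 228 * X ^ 5 + 1)

/-- `T(X,1)` as a monic polynomial of degree 30. -/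
noncomputable def TpPoly (K : Type*) [Field K] : K[X] :=
  X ^ 30 + (C 522 * X ^ 25 - C 10005 * X ^ 20 - C 10005 * X ^ 10 - C 522 * X ^ 5 + 1)

lemma HmPoly_tail_degree :
    (-(C (228 : K) * X ^ 15) + C 494 * X ^ 10 + C 228 * X ^ 5 + 1 : K[X]).degree
      < ((20 : ℕ) : WithBot ℕ) := by
  have h : (-(C (228 : K) * X ^ 15) + C 494 * X ^ 10 + C 228 * X ^ 5 + 1 : K[X]).natDegree
      ≤ 15 := by compute_degree
  exact lt_of_le_of_lt degree_le_natDegree
    (by exact_mod_cast (lt_of_le_of_lt h (by norm_num) : _ < 20))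

lemma TpPoly_tail_degree :
    (C (522 : K) * X ^ 25 - C 10005 * X ^ 20 - C 10005 * X ^ 10 - C 522 * X ^ 5 + 1 : K[X]).degree
      < ((30 : ℕ) : WithBot ℕ) := by
  have h : (C (522 : K) * X ^ 25 - C 10005 * X ^ 20 - C 10005 * X ^ 10 - C 522 * X ^ 5 + 1
      : K[X]).natDegree ≤ 25 := by compute_degree
  exact lt_of_le_of_lt degree_le_natDegree
    (by exact_mod_cast (lt_of_le_of_lt h (by norm_num) : _ < 30))

lemma HmPoly_monic : (HmPoly K).Monic := monic_X_pow_add HmPoly_tail_degree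

lemma TpPoly_monic : (TpPoly K).Monic := monic_X_pow_add TpPoly_tail_degree

lemma HmPoly_natDegree : (HmPoly K).natDegree = 20 := by
  have h : (HmPoly K).degree = ((20 : ℕ) : WithBot ℕ) := by
    unfold HmPoly
    rw [degree_add_eq_left_of_degree_lt (by rw [degree_X_pow]; exact HmPoly_tail_degree),
      degree_X_pow]
  exact natDegree_eq_of_degree_eq_some h

lemma TpPoly_natDegree : (TpPoly K).natDegree = 30 := by
  have h : (TpPoly K).degree = ((30 : ℕ) : WithBot ℕ) := by
    unfold TpPoly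
    rw [degree_add_eq_left_of_degree_lt (by rw [degree_X_pow]; exact TpPoly_tail_degree),
      degree_X_pow]
  exact natDegree_eq_of_degree_eq_some h

lemma HmPoly_eval (u : K) : (HmPoly K).eval u = -kH u 1 := by
  simp only [HmPoly, kH, eval_add, eval_neg, eval_mul, eval_pow, eval_X, eval_C, eval_one]
  ring

lemma TpPoly_eval (u : K) : (TpPoly K).eval u = kT u 1 := by
  simp only [TpPoly, kT, eval_add, eval_sub, eval_mul, eval_pow, eval_X, eval_C, eval_one]
  ring

/-- On the line `v = 1`, `kH` and `kT` have no common zero (char `≠ 2, 3, 5`). -/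
lemma not_kH_kT_zero (h2 : (2 : K) ≠ 0) (h3 : (3 : K) ≠ 0) (h5 : (5 : K) ≠ 0) (u : K)
    (hH : kH u 1 = 0) (hT : kT u 1 = 0) : False := by
  have hrel := klein_rel u (1 : K)
  rw [hH, hT] at hrel
  have h1728 : (1728 : K) ≠ 0 := by
    have : (1728 : K) = 2 ^ 6 * 3 ^ 3 := by norm_num
    rw [this]; exact mul_ne_zero (pow_ne_zero _ h2) (pow_ne_zero _ h3)
  have hf5 : kf u 1 ^ 5 = 0 := by
    have : (1728 : K) * kf u 1 ^ 5 = 0 := by rw [← hrel]; ring
    exact (mul_eq_zero.mp this).resolve_left h1728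
  have hf : kf u 1 = 0 := pow_eq_zero_iff (n := 5) (by norm_num) |>.mp hf5
  exact one_ne_zero (eq_zero_of_kf_kH h5 hf hH).2

/-- If `(-kH, -kT) = (c4, c6)` with `c4^3 ≠ c6^2` then `kf ≠ 0`. -/
lemma kf_ne_zero_of_lift {c4 c6 u v : K} (hd : c4 ^ 3 ≠ c6 ^ 2)
    (hH : -kH u v = c4) (hT : -kT u v = c6) : kf u v ≠ 0 := by
  intro hf
  apply hd
  have hrel := klein_rel u v
  rw [hf] at hrel
  rw [← hH, ← hT]
  linear_combination (-1 : K) * hrel

/-- **Node D (Lift).** -/
theorem exists_klein_lift [IsAlgClosed K] (h2 : (2 : K) ≠ 0) (h3 : (3 : K) ≠ 0) (h5 : (5 : K) ≠ 0)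
    (c4 c6 : K) (hd : c4 ^ 3 ≠ c6 ^ 2) :
    ∃ u v : K, -kH u v = c4 ∧ -kT u v = c6 ∧ kf u v ≠ 0 := by
  suffices h : ∃ u v : K, -kH u v = c4 ∧ -kT u v = c6 by
    obtain ⟨u, v, hH, hT⟩ := h
    exact ⟨u, v, hH, hT, kf_ne_zero_of_lift hd hH hT⟩
  by_cases h4 : c4 = 0
  · -- `c4 = 0`, `c6 ≠ 0`
    have h6 : c6 ≠ 0 := by
      intro h6; apply hd; rw [h4, h6]; ring
    obtain ⟨u1, hu1⟩ := IsAlgClosed.exists_root (HmPoly K) (by
      rw [degree_eq_natDegree HmPoly_monic.ne_zero, HmPoly_natDegree]; norm_num)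
    have hH1 : kH u1 1 = 0 := by
      have := HmPoly_eval u1
      rw [IsRoot.def] at hu1
      rw [hu1] at this
      exact neg_eq_zero.mp this.symm
    have hT1 : kT u1 1 ≠ 0 := fun hT => not_kH_kT_zero h2 h3 h5 u1 hH1 hT
    obtain ⟨μ, hμ⟩ := IsAlgClosed.exists_pow_nat_eq (-c6 / kT u1 1) (n := 30) (by norm_num)
    refine ⟨μ * u1, μ * 1, ?_, ?_⟩
    · rw [kH_smul, hH1, h4]; ring
    · rw [kT_smul, hμ]; field_simp
  · by_cases h6 : c6 = 0
    · obtain ⟨u1, hu1⟩ := IsAlgClosed.exists_root (TpPoly K) (by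
        rw [degree_eq_natDegree TpPoly_monic.ne_zero, TpPoly_natDegree]; norm_num)
      have hT1 : kT u1 1 = 0 := by
        have := TpPoly_eval u1
        rw [IsRoot.def] at hu1
        rw [hu1] at this
        exact this.symm
      have hH1 : kH u1 1 ≠ 0 := fun hH => not_kH_kT_zero h2 h3 h5 u1 hH hT1
      obtain ⟨μ, hμ⟩ := IsAlgClosed.exists_pow_nat_eq (-c4 / kH u1 1) (n := 20) (by norm_num)
      refine ⟨μ * u1, μ * 1, ?_, ?_⟩
      · rw [kH_smul, hμ]; field_simp
      · rw [kT_smul, hT1, h6]; ring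
    · -- generic case
      set P : K[X] := C (c4 ^ 3) * TpPoly K ^ 2 - C (c6 ^ 2) * HmPoly K ^ 3 with hP
      have hT2 : (TpPoly K ^ 2).coeff 60 = 1 := by
        have hm : (TpPoly K ^ 2).Monic := TpPoly_monic.pow 2
        have hn : (TpPoly K ^ 2).natDegree = 60 := by
          rw [TpPoly_monic.natDegree_pow, TpPoly_natDegree]
        rw [← hn]; exact hm.coeff_natDegree
      have hH3 : (HmPoly K ^ 3).coeff 60 = 1 := by
        have hm : (HmPoly K ^ 3).Monic := HmPoly_monic.pow 3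
        have hn : (HmPoly K ^ 3).natDegree = 60 := by
          rw [HmPoly_monic.natDegree_pow, HmPoly_natDegree]
        rw [← hn]; exact hm.coeff_natDegree
      have hP60 : P.coeff 60 = c4 ^ 3 - c6 ^ 2 := by
        rw [hP, coeff_sub, coeff_C_mul, coeff_C_mul, hT2, hH3]; ring
      have hPdeg : P.degree ≠ 0 := by
        intro h0
        have hC := eq_C_of_degree_eq_zero h0
        have : P.coeff 60 = 0 := by rw [hC, coeff_C]; simp
        rw [hP60] at this
        exact hd (sub_eq_zero.mp this)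
      obtain ⟨u1, hu1⟩ := IsAlgClosed.exists_root P hPdeg
      set H1 := kH u1 1 with hH1def
      set T1 := kT u1 1 with hT1def
      have hrel : c4 ^ 3 * T1 ^ 2 + c6 ^ 2 * H1 ^ 3 = 0 := by
        rw [IsRoot.def, hP, eval_sub, eval_mul, eval_mul, eval_C, eval_C, eval_pow, eval_pow,
          TpPoly_eval, HmPoly_eval] at hu1
        linear_combination hu1
      have hH1 : H1 ≠ 0 := by
        intro hH
        have hT : T1 = 0 := by
          rw [hH] at hrel
          have : c4 ^ 3 * T1 ^ 2 = 0 := by linear_combination hrel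
          rcases mul_eq_zero.mp this with h | h
          · exact absurd (pow_eq_zero_iff (n := 3) (by norm_num) |>.mp h) h4
          · exact pow_eq_zero_iff (n := 2) (by norm_num) |>.mp h
        exact not_kH_kT_zero h2 h3 h5 u1 hH hT
      have hT1 : T1 ≠ 0 := by
        intro hT
        rw [hT] at hrel
        have : c6 ^ 2 * H1 ^ 3 = 0 := by linear_combination hrel
        rcases mul_eq_zero.mp this with h | h
        · exact absurd (pow_eq_zero_iff (n := 2) (by norm_num) |>.mp h) h6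
        · exact hH1 (pow_eq_zero_iff (n := 3) (by norm_num) |>.mp h)
      obtain ⟨μ, hμ⟩ := IsAlgClosed.exists_pow_nat_eq ((c6 * H1) / (c4 * T1)) (n := 10)
        (by norm_num)
      have h20 : μ ^ 20 = ((c6 * H1) / (c4 * T1)) ^ 2 := by rw [← hμ]; ring
      have h30 : μ ^ 30 = ((c6 * H1) / (c4 * T1)) ^ 3 := by rw [← hμ]; ring
      have hne : c4 * T1 ≠ 0 := mul_ne_zero h4 hT1
      have key1 : ((c6 * H1) / (c4 * T1)) ^ 2 * H1 = -c4 := by
        rw [div_pow, div_mul_eq_mul_div, div_eq_iff (pow_ne_zero 2 hne)]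
        linear_combination hrel
      have key2 : ((c6 * H1) / (c4 * T1)) ^ 3 * T1 = -c6 := by
        rw [div_pow, div_mul_eq_mul_div, div_eq_iff (pow_ne_zero 3 hne)]
        linear_combination (c6 * T1) * hrel
      refine ⟨μ * u1, μ * 1, ?_, ?_⟩
      · rw [kH_smul, ← hH1def, h20, key1, neg_neg]
      · rw [kT_smul, ← hT1def, h30, key2, neg_neg]

end Field

end Fermat.Agent.S52.H83
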