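import Mathlib
import Fermat.Agent.S52.Lift_helper83

/-!
S52, node A data (helper48; machine-generated by my own exact-arithmetic script from the Klein
forms only).  Klein's forms `kf, kH, kT` are those of `Lift_helper83`.
`famC4, famC6, famD` are the coefficients of the Rubin-Silverberg / Klein family: with
`c4 = -H(w)`, `c6 = -T(w)` one has
`-H(a w + b n(w)) = famC4 c4 c6 a b`, `f(a w + b n(w)) = f(w) * famD c4 c6 a b`   (F2),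
`famC4 ^ 3 - famC6 ^ 2 = (c4 ^ 3 - c6 ^ 2) * famD ^ 5`   (F1),
`famC4(1,t) * d/dt famD(1,t) - 12 * famC6(1,t) = famTheta(t) * famD(1,t)`   (F3).
The definitions are split into chunks only to keep elaboration fast.
-/

set_option autoImplicit false
set_option linter.unusedVariables false

namespace Fermat.Agent.S52.H48

open Fermat.Agent.S52.H83 (kf kH kT)

variable {R : Type*} [CommRing R]

/-- `n(w) = (∂f/∂v, -∂f/∂u)`. -/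
def nU (u v : R) : R := u * (u ^ 10 + 66 * u ^ 5 * v ^ 5 - 11 * v ^ 10)

def nV (u v : R) : R := -(v * (11 * u ^ 10 + 66 * u ^ 5 * v ^ 5 - v ^ 10))

theorem klein_det (u v : R) : u * nV u v - v * nU u v = -12 * kf u v := by
  simp only [nU, nV, kf]; ring

def famC4_0 (c4 c6 a b : R) : R :=
  c4 * a ^ 20 + (-20 * c6) * a ^ 19 * b + 190 * c4 ^ 2 * a ^ 18 * b ^ 2 + (-1140 * c4 * c6) * a
    ^ 17 * b ^ 3 + (5700 * c6 ^ 2 - 855 * c4 ^ 3) * a ^ 16 * b ^ 4 + (-15504 * c4 ^ 2 * c6) * a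
    ^ 15 * b ^ 5

def famC4_1 (c4 c6 a b : R) : R :=
  (-63840 * c4 * c6 ^ 2 + 102600 * c4 ^ 4) * a ^ 14 * b ^ 6 + (182400 * c6 ^ 3 - 259920 * c4 ^
    3 * c6) * a ^ 13 * b ^ 7 + (1126320 * c4 ^ 2 * c6 ^ 2 - 1000350 * c4 ^ 5) * a ^ 12 * b ^ 8 +
    (-7904000 * c4 * c6 ^ 3 + 7736040 * c4 ^ 4 * c6) * a ^ 11 * b ^ 9 + (15808000 * c6 ^ 4 -
    5619744 * c4 ^ 3 * c6 ^ 2 - 10003500 * c4 ^ 6) * a ^ 10 * b ^ 10 + (-54853760 * c4 ^ 2 * c6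
    ^ 3 + 54685800 * c4 ^ 5 * c6) * a ^ 9 * b ^ 11

def famC4_2 (c4 c6 a b : R) : R :=
  (37939200 * c4 * c6 ^ 4 + 7202520 * c4 ^ 4 * c6 ^ 2 - 45015750 * c4 ^ 7) * a ^ 8 * b ^ 12 +
    (-58368000 * c6 ^ 5 + 23201280 * c4 ^ 3 * c6 ^ 3 + 35089200 * c4 ^ 6 * c6) * a ^ 7 * b ^ 13 +
    (287462400 * c4 ^ 2 * c6 ^ 4 - 495188640 * c4 ^ 5 * c6 ^ 2 + 207765000 * c4 ^ 8) * a ^ 6 *
    b ^ 14 + (-466944000 * c4 * c6 ^ 5 + 882458496 * c4 ^ 4 * c6 ^ 3 - 415530000 * c4 ^ 7 * c6) *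
    a ^ 5 * b ^ 15 + (583680000 * c6 ^ 6 - 1220474880 * c4 ^ 3 * c6 ^ 4 + 714711600 * c4 ^ 6 *
    c6 ^ 2 - 77911875 * c4 ^ 9) * a ^ 4 * b ^ 16 + (-361881600 * c4 ^ 2 * c6 ^ 5 + 715080960 *
    c4 ^ 5 * c6 ^ 3 - 353200500 * c4 ^ 8 * c6) * a ^ 3 * b ^ 17

def famC4_3 (c4 c6 a b : R) : R :=
  (-622592000 * c4 * c6 ^ 6 + 2026391040 * c4 ^ 4 * c6 ^ 4 - 2182917600 * c4 ^ 7 * c6 ^ 2 +
    779118750 * c4 ^ 10) * a ^ 2 * b ^ 18 + (655360000 * c6 ^ 7 - 2005401600 * c4 ^ 3 * c6 ^ 5 +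
    2044414080 * c4 ^ 6 * c6 ^ 3 - 694372500 * c4 ^ 9 * c6) * a * b ^ 19 + (-180224000 * c4 ^ 2 *
    c6 ^ 6 + 544997376 * c4 ^ 5 * c6 ^ 4 - 549301500 * c4 ^ 8 * c6 ^ 2 + 184528125 * c4 ^ 11) *
    b ^ 20

def famC4 (c4 c6 a b : R) : R :=
  famC4_0 c4 c6 a b + famC4_1 c4 c6 a b + famC4_2 c4 c6 a b + famC4_3 c4 c6 a b

def famC6_0 (c4 c6 a b : R) : R :=
  c6 * a ^ 30 + (-30 * c4 ^ 2) * a ^ 29 * b + 435 * c4 * c6 * a ^ 28 * b ^ 2 + (-2900 * c6 ^ 2 -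
    1160 * c4 ^ 3) * a ^ 27 * b ^ 3 + 27405 * c4 ^ 2 * c6 * a ^ 26 * b ^ 4 + (-46980 * c4 * c6
    ^ 2 - 95526 * c4 ^ 4) * a ^ 25 * b ^ 5

def famC6_1 (c4 c6 a b : R) : R :=
  (156600 * c6 ^ 3 + 437175 * c4 ^ 3 * c6) * a ^ 24 * b ^ 6 + (-3915000 * c4 ^ 2 * c6 ^ 2 +
    1879200 * c4 ^ 5) * a ^ 23 * b ^ 7 + (14407200 * c4 * c6 ^ 3 - 8554275 * c4 ^ 4 * c6) * a ^
    22 * b ^ 8 + (-32016000 * c6 ^ 4 + 42021000 * c4 ^ 3 * c6 ^ 2 - 24312150 * c4 ^ 6) * a ^ 21 *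
    b ^ 9 + (-216588240 * c4 ^ 2 * c6 ^ 3 + 246633255 * c4 ^ 5 * c6) * a ^ 20 * b ^ 10 +
    (1459929600 * c4 * c6 ^ 4 - 1352475900 * c4 ^ 4 * c6 ^ 2 - 162081000 * c4 ^ 7) * a ^ 19 * b
    ^ 11

def famC6_2 (c4 c6 a b : R) : R :=
  (-2433216000 * c6 ^ 5 - 1612005600 * c4 ^ 3 * c6 ^ 3 + 4131714825 * c4 ^ 6 * c6) * a ^ 18 * b
    ^ 12 + (12044419200 * c4 ^ 2 * c6 ^ 4 - 5235216300 * c4 ^ 5 * c6 ^ 2 - 6928962750 * c4 ^ 8) *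
    a ^ 17 * b ^ 13 + (-43045111800 * c4 ^ 4 * c6 ^ 3 + 43190534475 * c4 ^ 7 * c6) * a ^ 16 * b
    ^ 14 + (79420170240 * c4 ^ 3 * c6 ^ 4 - 79575287760 * c4 ^ 6 * c6 ^ 2) * a ^ 15 * b ^ 15 +
    (-297825638400 * c4 ^ 2 * c6 ^ 5 + 474659611200 * c4 ^ 5 * c6 ^ 3 - 176688550125 * c4 ^ 8 *
    c6) * a ^ 14 * b ^ 16 + (700766208000 * c4 * c6 ^ 6 - 935084908800 * c4 ^ 4 * c6 ^ 4 -
    77604382800 * c4 ^ 7 * c6 ^ 2 + 311803323750 * c4 ^ 10) * a ^ 13 * b ^ 17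

def famC6_3 (c4 c6 a b : R) : R :=
  (-778629120000 * c6 ^ 7 - 303665356800 * c4 ^ 3 * c6 ^ 5 + 2776512362400 * c4 ^ 6 * c6 ^ 3 -
    1694131392375 * c4 ^ 9 * c6) * a ^ 12 * b ^ 18 + (4290656256000 * c4 ^ 2 * c6 ^ 6 -
    8100765158400 * c4 ^ 5 * c6 ^ 4 + 3481840250100 * c4 ^ 8 * c6 ^ 2 + 328214025000 * c4 ^ 11) *
    a ^ 11 * b ^ 19 + (-3442360320000 * c4 * c6 ^ 7 + 3892110842880 * c4 ^ 4 * c6 ^ 5 +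
    2424887357760 * c4 ^ 7 * c6 ^ 3 - 2874607835625 * c4 ^ 10 * c6) * a ^ 10 * b ^ 20 +
    (3278438400000 * c6 ^ 8 - 5125838438400 * c4 ^ 3 * c6 ^ 6 + 2709129888000 * c4 ^ 6 * c6 ^ 4 -
    3077188825500 * c4 ^ 9 * c6 ^ 2 + 2215444668750 * c4 ^ 12) * a ^ 9 * b ^ 21 +
    (-4573421568000 * c4 ^ 2 * c6 ^ 7 + 7701051801600 * c4 ^ 5 * c6 ^ 5 - 1724509423800 * c4 ^
    8 * c6 ^ 3 - 1403114956875 * c4 ^ 11 * c6) * a ^ 8 * b ^ 22 + (-6157762560000 * c4 * c6 ^ 8 +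
    30337884979200 * c4 ^ 4 * c6 ^ 6 - 49888700928000 * c4 ^ 7 * c6 ^ 4 + 33414470973000 * c4 ^
    10 * c6 ^ 2 - 7705894500000 * c4 ^ 13) * a ^ 7 * b ^ 23

def famC6_4 (c4 c6 a b : R) : R :=
  (5131468800000 * c6 ^ 9 - 22779445248000 * c4 ^ 3 * c6 ^ 7 + 35246094796800 * c4 ^ 6 * c6 ^ 5 -
    22687218914400 * c4 ^ 9 * c6 ^ 3 + 5089101159375 * c4 ^ 12 * c6) * a ^ 6 * b ^ 24 +
    (18216714240000 * c4 ^ 2 * c6 ^ 8 - 71274600677376 * c4 ^ 5 * c6 ^ 6 + 105528606261120 * c4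
    ^ 8 * c6 ^ 4 - 70097953635000 * c4 ^ 11 * c6 ^ 2 + 17627233668750 * c4 ^ 14) * a ^ 5 * b ^
    25 + (-41051750400000 * c4 * c6 ^ 9 + 163803539865600 * c4 ^ 4 * c6 ^ 7 - 245438120632320 *
    c4 ^ 7 * c6 ^ 5 + 163672057566000 * c4 ^ 10 * c6 ^ 3 - 40985726371875 * c4 ^ 13 * c6) * a ^
    4 * b ^ 26 + (30408704000000 * c6 ^ 10 - 111934439424000 * c4 ^ 3 * c6 ^ 8 +
    143803576074240 * c4 ^ 6 * c6 ^ 6 - 63806176396800 * c4 ^ 9 * c6 ^ 4 - 8104032382500 * c4 ^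
    12 * c6 ^ 2 + 9632368125000 * c4 ^ 15) * a ^ 3 * b ^ 27 + (-21438136320000 * c4 ^ 2 * c6 ^
    9 + 85731449241600 * c4 ^ 5 * c6 ^ 7 - 128580522647040 * c4 ^ 8 * c6 ^ 5 + 85719228804000 *
    c4 ^ 11 * c6 ^ 3 - 21432019078125 * c4 ^ 14 * c6) * a ^ 2 * b ^ 28 + (-5033164800000 * c4 *
    c6 ^ 10 + 31344427008000 * c4 ^ 4 * c6 ^ 8 - 75042714746880 * c4 ^ 7 * c6 ^ 6 +
    87394892457600 * c4 ^ 10 * c6 ^ 4 - 49873523512500 * c4 ^ 13 * c6 ^ 2 + 11210083593750 * c4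
    ^ 16) * a * b ^ 29

def famC6_5 (c4 c6 a b : R) : R :=
  (3355443200000 * c6 ^ 11 - 17532190720000 * c4 ^ 3 * c6 ^ 9 + 36574189977600 * c4 ^ 6 * c6 ^
    7 - 38083944628224 * c4 ^ 9 * c6 ^ 5 + 19796866155000 * c4 ^ 12 * c6 ^ 3 - 4110363984375 *
    c4 ^ 15 * c6) * b ^ 30

def famC6 (c4 c6 a b : R) : R :=
  famC6_0 c4 c6 a b + famC6_1 c4 c6 a b + famC6_2 c4 c6 a b + famC6_3 c4 c6 a b + famC6_4 c4 c6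
    a b + famC6_5 c4 c6 a b

def famD_0 (c4 c6 a b : R) : R :=
  1 * a ^ 12 + (-66 * c4) * a ^ 10 * b ^ 2 + 440 * c6 * a ^ 9 * b ^ 3 + (-1485 * c4 ^ 2) * a ^
    8 * b ^ 4 + 3168 * c4 * c6 * a ^ 7 * b ^ 5 + (-10560 * c6 ^ 2 + 5940 * c4 ^ 3) * a ^ 6 * b
    ^ 6

def famD_1 (c4 c6 a b : R) : R :=
  4752 * c4 ^ 2 * c6 * a ^ 5 * b ^ 7 + (63360 * c4 * c6 ^ 2 - 66825 * c4 ^ 4) * a ^ 4 * b ^ 8 +
    (-140800 * c6 ^ 3 + 142560 * c4 ^ 3 * c6) * a ^ 3 * b ^ 9 + (133056 * c4 ^ 2 * c6 ^ 2 -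
    133650 * c4 ^ 5) * a ^ 2 * b ^ 10 + (-61440 * c4 * c6 ^ 3 + 61560 * c4 ^ 4 * c6) * a * b ^
    11 + (102400 * c6 ^ 4 - 193536 * c4 ^ 3 * c6 ^ 2 + 91125 * c4 ^ 6) * b ^ 12

def famD (c4 c6 a b : R) : R :=
  famD_0 c4 c6 a b + famD_1 c4 c6 a b

def famDt_0 (c4 c6 t : R) : R :=
  (-132 * c4) * t + 1320 * c6 * t ^ 2 + (-5940 * c4 ^ 2) * t ^ 3 + 15840 * c4 * c6 * t ^ 4 +
    (-63360 * c6 ^ 2 + 35640 * c4 ^ 3) * t ^ 5 + 33264 * c4 ^ 2 * c6 * t ^ 6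

def famDt_1 (c4 c6 t : R) : R :=
  (506880 * c4 * c6 ^ 2 - 534600 * c4 ^ 4) * t ^ 7 + (-1267200 * c6 ^ 3 + 1283040 * c4 ^ 3 *
    c6) * t ^ 8 + (1330560 * c4 ^ 2 * c6 ^ 2 - 1336500 * c4 ^ 5) * t ^ 9 + (-675840 * c4 * c6 ^
    3 + 677160 * c4 ^ 4 * c6) * t ^ 10 + (1228800 * c6 ^ 4 - 2322432 * c4 ^ 3 * c6 ^ 2 +
    1093500 * c4 ^ 6) * t ^ 11

/-- `d/dt famD c4 c6 1 t`. -/
def famDt (c4 c6 t : R) : R :=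
  famDt_0 c4 c6 t + famDt_1 c4 c6 t

def famTheta_0 (c4 c6 t : R) : R :=
  (-12 * c6) + 228 * c4 ^ 2 * t + (-2052 * c4 * c6) * t ^ 2 + (13680 * c6 ^ 2 - 2052 * c4 ^ 3) *
    t ^ 3 + (-46512 * c4 ^ 2 * c6) * t ^ 4 + (-229824 * c4 * c6 ^ 2 + 369360 * c4 ^ 4) * t ^ 5

def famTheta_1 (c4 c6 t : R) : R :=
  (766080 * c6 ^ 3 - 1091664 * c4 ^ 3 * c6) * t ^ 6 + (5406336 * c4 ^ 2 * c6 ^ 2 - 4801680 * c4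
    ^ 5) * t ^ 7 + (-42681600 * c4 * c6 ^ 3 + 41774616 * c4 ^ 4 * c6) * t ^ 8 + (94848000 * c6
    ^ 4 - 33718464 * c4 ^ 3 * c6 ^ 2 - 60021000 * c4 ^ 6) * t ^ 9 + (-362034816 * c4 ^ 2 * c6 ^
    3 + 360926280 * c4 ^ 5 * c6) * t ^ 10 + (273162240 * c4 * c6 ^ 4 + 51858144 * c4 ^ 4 * c6 ^
    2 - 324113400 * c4 ^ 7) * t ^ 11

def famTheta_2 (c4 c6 t : R) : R :=
  (-455270400 * c6 ^ 5 + 180969984 * c4 ^ 3 * c6 ^ 3 + 273695760 * c4 ^ 6 * c6) * t ^ 12 +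
    (2414684160 * c4 ^ 2 * c6 ^ 4 - 4159584576 * c4 ^ 5 * c6 ^ 2 + 1745226000 * c4 ^ 8) * t ^
    13 + (-4202496000 * c4 * c6 ^ 5 + 7942126464 * c4 ^ 4 * c6 ^ 3 - 3739770000 * c4 ^ 7 * c6) *
    t ^ 14 + (5603328000 * c6 ^ 6 - 11716558848 * c4 ^ 3 * c6 ^ 4 + 6861231360 * c4 ^ 6 * c6 ^
    2 - 747954000 * c4 ^ 9) * t ^ 15 + (-3691192320 * c4 ^ 2 * c6 ^ 5 + 7293825792 * c4 ^ 5 *
    c6 ^ 3 - 3602645100 * c4 ^ 8 * c6) * t ^ 16 + (-6723993600 * c4 * c6 ^ 6 + 21885023232 * c4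
    ^ 4 * c6 ^ 4 - 23575510080 * c4 ^ 7 * c6 ^ 2 + 8414482500 * c4 ^ 10) * t ^ 17

def famTheta_3 (c4 c6 t : R) : R :=
  (7471104000 * c6 ^ 7 - 22861578240 * c4 ^ 3 * c6 ^ 5 + 23306320512 * c4 ^ 6 * c6 ^ 3 -
    7915846500 * c4 ^ 9 * c6) * t ^ 18 + (-2162688000 * c4 ^ 2 * c6 ^ 6 + 6539968512 * c4 ^ 5 *
    c6 ^ 4 - 6591618000 * c4 ^ 8 * c6 ^ 2 + 2214337500 * c4 ^ 11) * t ^ 19

def famTheta (c4 c6 t : R) : R :=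
  famTheta_0 c4 c6 t + famTheta_1 c4 c6 t + famTheta_2 c4 c6 t + famTheta_3 c4 c6 t

end Fermat.Agent.S52.H48
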