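import Mathlib
import Fermat.Agent.S52.Fam_helper48

/-!
# S52: the two node-G3 data facts `degD`, `hneD` for helper48's family (helper82)

In the literal shapes of the hypotheses `degD`, `hneD` of `H43.switch_of_data` (with
`C4 C6 D := H48.famC4, H48.famC6, H48.famD`), for every field of characteristic zero and with no
restriction on `c4`:

* `derivative_famD`: `d/dX famD (C c4) (C c6) 1 X = famDt (C c4) (C c6) X`;
* `degD`: `c4 ^ 3 ≠ c6 ^ 2 → 11 ≤ natDegree (famD (C c4) (C c6) 1 X)`;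
* `hneD`: `c4 ^ 3 ≠ c6 ^ 2 → D' ^ 4 - 96 C4 D' ^ 2 - 512 C6 D' - 768 C4 ^ 2 ≠ 0`.
-/

set_option autoImplicit false

namespace Fermat.Agent.S52.H82

open Polynomial

section Ring

variable {R : Type*} [CommRing R]

/-- `famD (C c4) (C c6) 1 X` in coefficient form. -/
theorem famD_one_X (c4 c6 : R) :
    H48.famD (C c4) (C c6) 1 X =
      C (102400 * c6 ^ 4 - 193536 * c4 ^ 3 * c6 ^ 2 + 91125 * c4 ^ 6) * X ^ 12 + C (-61440 * c4
        * c6 ^ 3 + 61560 * c4 ^ 4 * c6) * X ^ 11 + C (133056 * c4 ^ 2 * c6 ^ 2 - 133650 * c4 ^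
        5) * X ^ 10 + C (-140800 * c6 ^ 3 + 142560 * c4 ^ 3 * c6) * X ^ 9 + C (63360 * c4 * c6
        ^ 2 - 66825 * c4 ^ 4) * X ^ 8 + C (4752 * c4 ^ 2 * c6) * X ^ 7 + C (-10560 * c6 ^ 2 +
        5940 * c4 ^ 3) * X ^ 6 + C (3168 * c4 * c6) * X ^ 5 + C (-1485 * c4 ^ 2) * X ^ 4 + C
        (440 * c6) * X ^ 3 + C (-66 * c4) * X ^ 2 + C (1) * X ^ 0 := by
  simp only [H48.famD, H48.famD_0, H48.famD_1, C_add, C_sub, C_mul, C_pow, C_neg, C_ofNat, C_1]
  ring

theorem coeff_famD_twelve (c4 c6 : R) :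
    (H48.famD (C c4) (C c6) 1 X).coeff 12 = 102400 * c6 ^ 4 - 193536 * c4 ^ 3 * c6 ^ 2 + 91125 * c4 ^ 6 := by
  rw [famD_one_X]
  simp only [coeff_add, coeff_C_mul_X_pow]
  norm_num

theorem coeff_famD_eleven (c4 c6 : R) :
    (H48.famD (C c4) (C c6) 1 X).coeff 11 = -61440 * c4 * c6 ^ 3 + 61560 * c4 ^ 4 * c6 := by
  rw [famD_one_X]
  simp only [coeff_add, coeff_C_mul_X_pow]
  norm_num

/-- `d/dX famD (C c4) (C c6) 1 X = famDt (C c4) (C c6) X`. -/
theorem derivative_famD (c4 c6 : R) :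
    derivative (H48.famD (C c4) (C c6) 1 X) = H48.famDt (C c4) (C c6) X := by
  rw [famD_one_X]
  simp only [derivative_add, derivative_C_mul, derivative_X_pow]
  simp only [H48.famDt, H48.famDt_0, H48.famDt_1, C_add, C_sub, C_mul, C_pow, C_neg, C_ofNat,
    C_1, Nat.cast_ofNat, Nat.cast_zero, C_0]
  norm_num
  ring

theorem eval_famDt (c4 c6 t : R) :
    (H48.famDt (C c4) (C c6) X).eval t = H48.famDt c4 c6 t := by
  simp only [H48.famDt, H48.famDt_0, H48.famDt_1, eval_add, eval_sub, eval_mul, eval_pow,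
    eval_neg, eval_C, eval_X, eval_ofNat]

theorem eval_famC4 (c4 c6 t : R) :
    (H48.famC4 (C c4) (C c6) 1 X).eval t = H48.famC4 c4 c6 1 t := by
  simp only [H48.famC4, H48.famC4_0, H48.famC4_1, H48.famC4_2, H48.famC4_3, eval_add, eval_sub,
    eval_mul, eval_pow, eval_neg, eval_C, eval_X, eval_ofNat, eval_one]

theorem famDt_zero (c4 c6 : R) : H48.famDt c4 c6 0 = 0 := by
  simp only [H48.famDt, H48.famDt_0, H48.famDt_1]
  ring

theorem famC4_one_zero (c4 c6 : R) : H48.famC4 c4 c6 1 0 = c4 := by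
  simp only [H48.famC4, H48.famC4_0, H48.famC4_1, H48.famC4_2, H48.famC4_3]
  ring

/-- the cofactor of `t ^ 2 * c6 ^ 2` in the `hneD` expression at `c4 = 0`. -/
def gQ (c6 t : R) : R :=
  -983040 + 5512888320 * c6 * t ^ 3 + 1542743654400 * c6 ^ 2 * t ^ 6 - 496874658201600 * c6 ^ 3
    * t ^ 9 + 31087719874560000 * c6 ^ 4 * t ^ 12 + 408383945441280000 * c6 ^ 5 * t ^ 15 -
    56236097918730240000 * c6 ^ 6 * t ^ 18 - 560723227626700800000 * c6 ^ 7 * t ^ 21 +
    28150567713688780800000 * c6 ^ 8 * t ^ 24 + 476845479863255040000000 * c6 ^ 9 * t ^ 27 +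
    975123602447794176000000 * c6 ^ 10 * t ^ 30 - 8429412491414470656000000 * c6 ^ 11 * t ^ 33
    + 14171825272730419200000000 * c6 ^ 12 * t ^ 36 - 9501891526309969920000000 * c6 ^ 13 * t ^
    39 + 2279947311356313600000000 * c6 ^ 14 * t ^ 42

set_option maxHeartbeats 1000000 in
/-- the `hneD` expression at `c4 = 0` is `t ^ 2 * (c6 ^ 2 * gQ c6 t)`. -/
theorem hne_zero_identity (c6 t : R) :
    H48.famDt 0 c6 t ^ 4 - 96 * H48.famC4 0 c6 1 t * H48.famDt 0 c6 t ^ 2
      - 512 * H48.famC6 0 c6 1 t * H48.famDt 0 c6 t - 768 * H48.famC4 0 c6 1 t ^ 2 =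
      t ^ 2 * (c6 ^ 2 * gQ c6 t) := by
  simp only [H48.famDt, H48.famDt_0, H48.famDt_1, H48.famC4, H48.famC4_0, H48.famC4_1,
    H48.famC4_2, H48.famC4_3, H48.famC6, H48.famC6_0, H48.famC6_1, H48.famC6_2, H48.famC6_3,
    H48.famC6_4, H48.famC6_5, gQ]
  ring

end Ring

section Field

variable {K : Type*} [Field K] [CharZero K]

/-- the `X ^ 12` and `X ^ 11` coefficients of `famD(1, X)` vanish together only if
`c4 = c6 = 0`. -/
theorem top_coeffs (c4 c6 : K)
    (h12 : 102400 * c6 ^ 4 - 193536 * c4 ^ 3 * c6 ^ 2 + 91125 * c4 ^ 6 = 0)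
    (h11 : -61440 * c4 * c6 ^ 3 + 61560 * c4 ^ 4 * c6 = 0) : c4 ^ 3 = c6 ^ 2 := by
  have h11' : (120 : K) * (c4 * (c6 * (513 * c4 ^ 3 - 512 * c6 ^ 2))) = 0 := by
    linear_combination h11
  have h11'' : c4 * (c6 * (513 * c4 ^ 3 - 512 * c6 ^ 2)) = 0 :=
    (mul_eq_zero.mp h11').resolve_left (by norm_num)
  have key : ∀ x : K, ∀ n : ℕ, ∀ c : K, c ≠ 0 → c * x ^ n = 0 → x = 0 := by
    intro x n c hc hx
    exact eq_zero_of_pow_eq_zero ((mul_eq_zero.mp hx).resolve_left hc)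
  rcases mul_eq_zero.mp h11'' with hc4 | h
  · have hc6 : c6 = 0 := by
      refine key c6 4 102400 (by norm_num) ?_
      rw [hc4] at h12
      linear_combination h12
    rw [hc4, hc6]
    norm_num
  · rcases mul_eq_zero.mp h with hc6 | h
    · have hc4 : c4 = 0 := by
        refine key c4 6 91125 (by norm_num) ?_
        rw [hc6] at h12
        linear_combination h12
      rw [hc4, hc6]
      norm_num
    · have hc6 : c6 = 0 := by
        refine key c6 4 2985984 (by norm_num) ?_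
        linear_combination 263169 * h12 - (46747125 * c4 ^ 3 - 52627968 * c6 ^ 2) * h
      have hc4 : c4 = 0 := by
        refine key c4 3 513 (by norm_num) ?_
        rw [hc6] at h
        linear_combination h
      rw [hc4, hc6]
      norm_num

/-- **`degD`** of `H43.switch_of_data` for helper48's family. -/
theorem degD (c4 c6 : K) (h : c4 ^ 3 ≠ c6 ^ 2) :
    11 ≤ (H48.famD (C c4) (C c6) 1 X).natDegree := by
  by_contra hlt
  have hlt' : (H48.famD (C c4) (C c6) 1 X).natDegree < 11 := not_le.mp hlt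
  have h12 : (H48.famD (C c4) (C c6) 1 X).coeff 12 = 0 :=
    coeff_eq_zero_of_natDegree_lt (by omega)
  have h11 : (H48.famD (C c4) (C c6) 1 X).coeff 11 = 0 :=
    coeff_eq_zero_of_natDegree_lt (by omega)
  rw [coeff_famD_twelve] at h12
  rw [coeff_famD_eleven] at h11
  exact h (top_coeffs c4 c6 h12 h11)

/-- **`hneD`** of `H43.switch_of_data` for helper48's family. -/
theorem hneD (c4 c6 : K) (h : c4 ^ 3 ≠ c6 ^ 2) :
    derivative (H48.famD (C c4) (C c6) 1 X) ^ 4
      - 96 * H48.famC4 (C c4) (C c6) 1 X * derivative (H48.famD (C c4) (C c6) 1 X) ^ 2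
      - 512 * H48.famC6 (C c4) (C c6) 1 X * derivative (H48.famD (C c4) (C c6) 1 X)
      - 768 * H48.famC4 (C c4) (C c6) 1 X ^ 2 ≠ 0 := by
  rw [derivative_famD]
  intro hE
  have h0 := congrArg (eval 0) hE
  simp only [eval_sub, eval_mul, eval_pow, eval_ofNat, eval_famDt, eval_famC4, famDt_zero,
    famC4_one_zero, eval_zero] at h0
  have hc4 : c4 = 0 := by
    have h1 : (768 : K) * c4 ^ 2 = 0 := by linear_combination -h0
    exact pow_eq_zero_iff (two_ne_zero) |>.mp ((mul_eq_zero.mp h1).resolve_left (by norm_num))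
  subst hc4
  rw [C_0, hne_zero_identity] at hE
  have hQ : C c6 ^ 2 * gQ (C c6) X = 0 :=
    (mul_eq_zero.mp hE).resolve_left (pow_ne_zero 2 X_ne_zero)
  have hQ0 := congrArg (eval 0) hQ
  simp only [gQ, eval_add, eval_sub, eval_mul, eval_pow, eval_neg, eval_C, eval_X, eval_ofNat,
    eval_zero] at hQ0
  have hc6 : c6 = 0 := by
    have h1 : (983040 : K) * c6 ^ 2 = 0 := by linear_combination -hQ0
    exact pow_eq_zero_iff (two_ne_zero) |>.mp ((mul_eq_zero.mp h1).resolve_left (by norm_num))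
  apply h
  rw [hc6]
  norm_num

end Field

end Fermat.Agent.S52.H82
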