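import Fermat.Agent.S52.Fam_helper48

/-!
S52, node A identities (helper48, machine-generated): (F1) and (F3) for `famC4, famC6, famD`
(pure `ring`; (F1) takes about two minutes).
-/

set_option autoImplicit false

namespace Fermat.Agent.S52.H48

open Fermat.Agent.S52.H83 (kf kH kT)

variable {R : Type*} [CommRing R]

set_option maxHeartbeats 4000000 in
theorem fam_F1 (c4 c6 a b : R) :
    famC4 c4 c6 a b ^ 3 - famC6 c4 c6 a b ^ 2 = (c4 ^ 3 - c6 ^ 2) * famD c4 c6 a b ^ 5 := by
  simp only [famC4, famC4_0, famC4_1, famC4_2, famC4_3, famC6, famC6_0, famC6_1, famC6_2, famC6_3, famC6_4, famC6_5, famD, famD_0, famD_1]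
  ring

set_option maxHeartbeats 1000000 in
theorem fam_F3 (c4 c6 t : R) :
    famC4 c4 c6 1 t * famDt c4 c6 t - 12 * famC6 c4 c6 1 t
      = famTheta c4 c6 t * famD c4 c6 1 t := by
  simp only [famC4, famC4_0, famC4_1, famC4_2, famC4_3, famC6, famC6_0, famC6_1, famC6_2, famC6_3, famC6_4, famC6_5, famD, famD_0, famD_1, famDt, famDt_0, famDt_1, famTheta, famTheta_0, famTheta_1, famTheta_2, famTheta_3]
  ring

end Fermat.Agent.S52.H48
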