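import Fermat.Agent.S52.Fam_helper48

/-!
S52, node A identities (helper48, machine-generated): the Klein parametrisation (F2) for
`famD` and `famC4` (pure `ring`; the second one takes about six minutes).
-/

set_option autoImplicit false

namespace Fermat.Agent.S52.H48

open Fermat.Agent.S52.H83 (kf kH kT)

variable {R : Type*} [CommRing R]

set_option maxHeartbeats 1000000 in
theorem famD_klein (u v a b : R) :
    kf (a * u + b * nU u v) (a * v + b * nV u v) = kf u v * famD (-kH u v) (-kT u v) a b := by
  simp only [famD, famD_0, famD_1, kf, kH, kT, nU, nV]
  ring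

set_option maxHeartbeats 4000000 in
theorem famC4_klein (u v a b : R) :
    famC4 (-kH u v) (-kT u v) a b = -kH (a * u + b * nU u v) (a * v + b * nV u v) := by
  simp only [famC4, famC4_0, famC4_1, famC4_2, famC4_3, kH, kT, nU, nV]
  ring

end Fermat.Agent.S52.H48
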