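import Mathlib
import Fermat.Agent.S52.Fam_helper48

/-!
S52, node A plumbing (helper48): the family `famC4, famC6, famD, famDt, famTheta` of
`Fam_helper48` commutes with ring homomorphisms, its values at `(a, b) = (1, 0)`, homogeneity
in `(a, b)`, the congruences modulo `M` at `(a, b) = (1 + M k, M)`, and the polynomial forms
(`famC4 (C c4) (C c6) 1 X` etc.) with their evaluations and the derivative of `famD`.
-/

set_option autoImplicit false
set_option linter.unusedSimpArgs false

namespace Fermat.Agent.S52.H48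

open Polynomial

section Maps

variable {R : Type*} [CommRing R] {S : Type*} [CommRing S] (φ : R →+* S)

theorem map_kf (u v : R) : φ (H83.kf u v) = H83.kf (φ u) (φ v) := by
  simp only [H83.kf, map_add, map_sub, map_mul, map_pow, map_neg, map_ofNat]

theorem map_kH (u v : R) : φ (H83.kH u v) = H83.kH (φ u) (φ v) := by
  simp only [H83.kH, map_add, map_sub, map_mul, map_pow, map_neg, map_ofNat]

theorem map_kT (u v : R) : φ (H83.kT u v) = H83.kT (φ u) (φ v) := by
  simp only [H83.kT, map_add, map_sub, map_mul, map_pow, map_neg, map_ofNat]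

theorem map_nU (u v : R) : φ (nU u v) = nU (φ u) (φ v) := by
  simp only [nU, map_add, map_sub, map_mul, map_pow, map_neg, map_ofNat]

theorem map_nV (u v : R) : φ (nV u v) = nV (φ u) (φ v) := by
  simp only [nV, map_add, map_sub, map_mul, map_pow, map_neg, map_ofNat]

theorem map_famC4 (c4 c6 a b : R) :
    φ (famC4 c4 c6 a b) = famC4 (φ c4) (φ c6) (φ a) (φ b) := by
  simp only [famC4, famC4_0, famC4_1, famC4_2, famC4_3, map_add, map_sub, map_mul, map_pow,
    map_neg, map_ofNat, map_one]

theorem map_famC6 (c4 c6 a b : R) :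
    φ (famC6 c4 c6 a b) = famC6 (φ c4) (φ c6) (φ a) (φ b) := by
  simp only [famC6, famC6_0, famC6_1, famC6_2, famC6_3, famC6_4, famC6_5, map_add, map_sub,
    map_mul, map_pow, map_neg, map_ofNat, map_one]

theorem map_famD (c4 c6 a b : R) :
    φ (famD c4 c6 a b) = famD (φ c4) (φ c6) (φ a) (φ b) := by
  simp only [famD, famD_0, famD_1, map_add, map_sub, map_mul, map_pow, map_neg, map_ofNat,
    map_one]

theorem map_famDt (c4 c6 t : R) : φ (famDt c4 c6 t) = famDt (φ c4) (φ c6) (φ t) := by
  simp only [famDt, famDt_0, famDt_1, map_add, map_sub, map_mul, map_pow, map_neg, map_ofNat,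
    map_one]

theorem map_famTheta (c4 c6 t : R) :
    φ (famTheta c4 c6 t) = famTheta (φ c4) (φ c6) (φ t) := by
  simp only [famTheta, famTheta_0, famTheta_1, famTheta_2, famTheta_3, map_add, map_sub,
    map_mul, map_pow, map_neg, map_ofNat, map_one]

end Maps

section Values

variable {R : Type*} [CommRing R]

theorem famC4_one_zero (c4 c6 : R) : famC4 c4 c6 1 0 = c4 := by
  simp only [famC4, famC4_0, famC4_1, famC4_2, famC4_3]
  ring

theorem famC6_one_zero (c4 c6 : R) : famC6 c4 c6 1 0 = c6 := by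
  simp only [famC6, famC6_0, famC6_1, famC6_2, famC6_3, famC6_4, famC6_5]
  ring

theorem famD_one_zero (c4 c6 : R) : famD c4 c6 1 0 = 1 := by
  simp only [famD, famD_0, famD_1]
  ring

theorem famDt_zero (c4 c6 : R) : famDt c4 c6 0 = 0 := by
  simp only [famDt, famDt_0, famDt_1]
  ring

/-- homogeneity of degree `20` in `(a, b)`. -/
theorem famC4_smul (c4 c6 s a b : R) :
    famC4 c4 c6 (s * a) (s * b) = s ^ 20 * famC4 c4 c6 a b := by
  simp only [famC4, famC4_0, famC4_1, famC4_2, famC4_3]
  ring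

/-- homogeneity of degree `30` in `(a, b)`. -/
theorem famC6_smul (c4 c6 s a b : R) :
    famC6 c4 c6 (s * a) (s * b) = s ^ 30 * famC6 c4 c6 a b := by
  simp only [famC6, famC6_0, famC6_1, famC6_2, famC6_3, famC6_4, famC6_5]
  ring

/-- homogeneity of degree `12` in `(a, b)`. -/
theorem famD_smul (c4 c6 s a b : R) :
    famD c4 c6 (s * a) (s * b) = s ^ 12 * famD c4 c6 a b := by
  simp only [famD, famD_0, famD_1]
  ring

end Values

section Congr

/-- an integer is divisible by `M` as soon as its image in `ZMod M.natAbs` vanishes. -/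
theorem dvd_of_cast_zmod_natAbs_eq_zero (M z : ℤ) (h : (z : ZMod M.natAbs) = 0) : M ∣ z :=
  Int.natAbs_dvd.mp ((ZMod.intCast_zmod_eq_zero_iff_dvd z M.natAbs).mp h)

theorem natAbs_cast_zmod_self (M : ℤ) : ((M : ℤ) : ZMod M.natAbs) = 0 :=
  (ZMod.intCast_zmod_eq_zero_iff_dvd M M.natAbs).mpr (Int.natAbs_dvd.mpr dvd_rfl)

/-- `famC4 c4 c6 (1 + M k) M ≡ c4 (mod M)`. -/
theorem dvd_famC4_sub (c4 c6 M k : ℤ) : M ∣ famC4 c4 c6 (1 + M * k) M - c4 := by
  apply dvd_of_cast_zmod_natAbs_eq_zero
  have h := map_famC4 (Int.castRingHom (ZMod M.natAbs)) c4 c6 (1 + M * k) M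
  simp only [eq_intCast] at h
  rw [Int.cast_sub, h, Int.cast_add, Int.cast_mul, natAbs_cast_zmod_self, zero_mul, add_zero,
    Int.cast_one, famC4_one_zero, sub_self]

/-- `famC6 c4 c6 (1 + M k) M ≡ c6 (mod M)`. -/
theorem dvd_famC6_sub (c4 c6 M k : ℤ) : M ∣ famC6 c4 c6 (1 + M * k) M - c6 := by
  apply dvd_of_cast_zmod_natAbs_eq_zero
  have h := map_famC6 (Int.castRingHom (ZMod M.natAbs)) c4 c6 (1 + M * k) M
  simp only [eq_intCast] at h
  rw [Int.cast_sub, h, Int.cast_add, Int.cast_mul, natAbs_cast_zmod_self, zero_mul, add_zero,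
    Int.cast_one, famC6_one_zero, sub_self]

/-- `famD c4 c6 (1 + M k) M ≡ 1 (mod M)`. -/
theorem dvd_famD_sub (c4 c6 M k : ℤ) : M ∣ famD c4 c6 (1 + M * k) M - 1 := by
  apply dvd_of_cast_zmod_natAbs_eq_zero
  have h := map_famD (Int.castRingHom (ZMod M.natAbs)) c4 c6 (1 + M * k) M
  simp only [eq_intCast] at h
  rw [Int.cast_sub, h, Int.cast_add, Int.cast_mul, natAbs_cast_zmod_self, zero_mul, add_zero,
    Int.cast_one, famD_one_zero, sub_self]

end Congr

section Poly

variable {R : Type*} [CommRing R]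

theorem eval_famC4 (c4 c6 t : R) :
    (famC4 (C c4) (C c6) 1 X : R[X]).eval t = famC4 c4 c6 1 t := by
  have h := map_famC4 (evalRingHom t) (C c4) (C c6) 1 X
  simpa only [coe_evalRingHom, eval_C, eval_X, eval_one] using h

theorem eval_famC6 (c4 c6 t : R) :
    (famC6 (C c4) (C c6) 1 X : R[X]).eval t = famC6 c4 c6 1 t := by
  have h := map_famC6 (evalRingHom t) (C c4) (C c6) 1 X
  simpa only [coe_evalRingHom, eval_C, eval_X, eval_one] using h

theorem eval_famD (c4 c6 t : R) :
    (famD (C c4) (C c6) 1 X : R[X]).eval t = famD c4 c6 1 t := by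
  have h := map_famD (evalRingHom t) (C c4) (C c6) 1 X
  simpa only [coe_evalRingHom, eval_C, eval_X, eval_one] using h

theorem eval_famDt (c4 c6 t : R) :
    (famDt (C c4) (C c6) X : R[X]).eval t = famDt c4 c6 t := by
  have h := map_famDt (evalRingHom t) (C c4) (C c6) X
  simpa only [coe_evalRingHom, eval_C, eval_X, eval_one] using h

/-- the derivative of `famD (C c4) (C c6) 1 X` is `famDt (C c4) (C c6) X`. -/
theorem derivative_famD (c4 c6 : R) :
    derivative (famD (C c4) (C c6) 1 X : R[X]) = famDt (C c4) (C c6) X := by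
  simp only [famD, famD_0, famD_1, famDt, famDt_0, famDt_1, derivative_add, derivative_sub,
    derivative_mul, derivative_pow, derivative_neg, derivative_C, derivative_X, derivative_one,
    derivative_ofNat, derivative_X_pow, one_pow, mul_one, zero_mul, mul_zero, add_zero, zero_add,
    sub_zero, neg_zero]
  simp only [Nat.cast_ofNat, C_ofNat, map_ofNat]
  ring

end Poly

end Fermat.Agent.S52.H48
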