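import Mathlib
import Fermat.Agent.S52.FamId_helper48
import Fermat.Agent.S52.FamKlein_helper48
import Fermat.Agent.S52.FamMap_helper48

/-!
S52, node A (helper48): the Klein parametrisation (F2) for `famC6`,
`famC6 (-H(w)) (-T(w)) a b = -T(a w + b n(w))`, WITHOUT expanding the degree-30 form:
by (F1), the Klein relation and (F2) for `famD`, `famC4` the two sides have the same square;
in the domain `ℤ[u, v, a, b]` they therefore agree up to sign, the sign is read off at
`(u, v, a, b) = (1, 0, 1, 0)`, and the identity is transported to any commutative ring.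
-/

set_option autoImplicit false
set_option linter.unusedSimpArgs false

namespace Fermat.Agent.S52.H48

open Fermat.Agent.S52.H83 (kf kH kT klein_rel)

theorem sq_eq_sq_of_rel {A : Type*} [CommRing A] (P c4' D' f H T f' H' T' : A)
    (h1 : c4' ^ 3 - P ^ 2 = ((-H) ^ 3 - (-T) ^ 2) * D' ^ 5) (h2 : T ^ 2 + H ^ 3 = 1728 * f ^ 5)
    (h3 : f' = f * D') (h4 : c4' = -H') (h5 : T' ^ 2 + H' ^ 3 = 1728 * f' ^ 5) :
    P ^ 2 = (-T') ^ 2 := by
  subst h3 h4
  linear_combination (-1) * h1 + D' ^ 5 * h2 - h5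

theorem famC6_klein_sq {A : Type*} [CommRing A] (u v a b : A) :
    famC6 (-kH u v) (-kT u v) a b ^ 2 =
      (-kT (a * u + b * nU u v) (a * v + b * nV u v)) ^ 2 :=
  sq_eq_sq_of_rel _ _ _ _ _ _ _ _ _ (fam_F1 (-kH u v) (-kT u v) a b) (klein_rel u v)
    (famD_klein u v a b) (famC4_klein u v a b) (klein_rel _ _)

theorem famC6_klein_mv :
    famC6 (-kH (MvPolynomial.X 0) (MvPolynomial.X 1)) (-kT (MvPolynomial.X 0) (MvPolynomial.X 1))
        (MvPolynomial.X 2) (MvPolynomial.X 3) =
      -kT ((MvPolynomial.X 2 : MvPolynomial (Fin 4) ℤ) * MvPolynomial.X 0 +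
            MvPolynomial.X 3 * nU (MvPolynomial.X 0) (MvPolynomial.X 1))
          (MvPolynomial.X 2 * MvPolynomial.X 1 +
            MvPolynomial.X 3 * nV (MvPolynomial.X 0) (MvPolynomial.X 1)) := by
  rcases sq_eq_sq_iff_eq_or_eq_neg.mp (famC6_klein_sq (MvPolynomial.X 0) (MvPolynomial.X 1)
    (MvPolynomial.X 2 : MvPolynomial (Fin 4) ℤ) (MvPolynomial.X 3)) with h | h
  · exact h
  · exfalso
    have h' := congrArg (MvPolynomial.eval (![1, 0, 1, 0] : Fin 4 → ℤ)) h
    simp only [map_neg, map_famC6, map_kT, map_kH, map_add, map_mul, map_nU, map_nV,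
      MvPolynomial.eval_X] at h'
    simp [famC6_one_zero, kT] at h'

/-- **(F2) for `famC6`.** -/
theorem famC6_klein {R : Type*} [CommRing R] (u v a b : R) :
    famC6 (-kH u v) (-kT u v) a b = -kT (a * u + b * nU u v) (a * v + b * nV u v) := by
  have h := congrArg (MvPolynomial.eval₂Hom (Int.castRingHom R) (![u, v, a, b] : Fin 4 → R))
    famC6_klein_mv
  simp only [map_neg, map_famC6, map_kT, map_kH, map_add, map_mul, map_nU, map_nV,
    MvPolynomial.eval₂Hom_X'] at h
  simpa using h

end Fermat.Agent.S52.H48
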