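import Mathlib
import Fermat.Prelude.Def_FLTPrelim_Modularity

/-!
S52, node B (IntModel), interface-free core (helper48).

Given an integral Weierstrass curve `W`, a modulus `M` divisible by `6 ^ 8` and integers
`c4' ≡ W.c₄`, `c6' ≡ W.c₆` modulo `M`, there is an integral model `W'` with `c₄ = c4'`,
`c₆ = c6'` which has the same reduction as `W` at every prime dividing `M`
(`a₄` and `a₆` are shifted by multiples of `6 * (M / 6 ^ 8)`).
Also: transfer lemmas along equal reductions, the discriminant formula and a semistability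
criterion for `W'`.
-/

set_option autoImplicit false

open WeierstrassCurve

namespace Fermat.Agent.S52.H48

/-- `W` with `a₄`, `a₆` shifted. -/
def shiftCurve (W : WeierstrassCurve ℤ) (d4 d6 : ℤ) : WeierstrassCurve ℤ :=
  ⟨W.a₁, W.a₂, W.a₃, W.a₄ + d4, W.a₆ + d6⟩

lemma shiftCurve_c₄ (W : WeierstrassCurve ℤ) (d4 d6 : ℤ) :
    (shiftCurve W d4 d6).c₄ = W.c₄ - 48 * d4 := by
  simp only [shiftCurve, WeierstrassCurve.c₄, WeierstrassCurve.b₂, WeierstrassCurve.b₄]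
  ring

lemma shiftCurve_c₆ (W : WeierstrassCurve ℤ) (d4 d6 : ℤ) :
    (shiftCurve W d4 d6).c₆ = W.c₆ + 72 * W.b₂ * d4 - 864 * d6 := by
  simp only [shiftCurve, WeierstrassCurve.c₆, WeierstrassCurve.b₂, WeierstrassCurve.b₄,
    WeierstrassCurve.b₆]
  ring

lemma shiftCurve_reductionMod (W : WeierstrassCurve ℤ) (d4 d6 : ℤ) (p : ℕ)
    (h4 : (p : ℤ) ∣ d4) (h6 : (p : ℤ) ∣ d6) :
    (shiftCurve W d4 d6).reductionMod p = W.reductionMod p := by
  have e4 : ((d4 : ℤ) : ZMod p) = 0 := (ZMod.intCast_zmod_eq_zero_iff_dvd d4 p).mpr h4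
  have e6 : ((d6 : ℤ) : ZMod p) = 0 := (ZMod.intCast_zmod_eq_zero_iff_dvd d6 p).mpr h6
  unfold WeierstrassCurve.reductionMod shiftCurve
  ext <;> simp [WeierstrassCurve.map, e4, e6]

/-- **B core**: an integral model with prescribed `c₄`, `c₆` and unchanged reductions at the
primes dividing `M`. -/
theorem exists_model (W : WeierstrassCurve ℤ) (M c4' c6' : ℤ) (hM : (6 : ℤ) ^ 8 ∣ M)
    (h4 : M ∣ c4' - W.c₄) (h6 : M ∣ c6' - W.c₆) :
    ∃ W' : WeierstrassCurve ℤ, W'.c₄ = c4' ∧ W'.c₆ = c6' ∧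
      ∀ p : ℕ, p.Prime → (p : ℤ) ∣ M → W'.reductionMod p = W.reductionMod p := by
  obtain ⟨m, rfl⟩ := hM
  obtain ⟨t4, ht4⟩ := h4
  obtain ⟨t6, ht6⟩ := h6
  refine ⟨shiftCurve W (-(34992 * m * t4)) (-(1944 * m * t6) - 2916 * W.b₂ * m * t4), ?_, ?_, ?_⟩
  · rw [shiftCurve_c₄]; linear_combination -ht4
  · rw [shiftCurve_c₆]; linear_combination -ht6
  · intro p hp hpM
    have hp' : Prime (p : ℤ) := Nat.prime_iff_prime_int.mp hp
    have h6m : (p : ℤ) ∣ 6 * m := by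
      rcases hp'.dvd_or_dvd hpM with h | h
      · exact Dvd.dvd.mul_right (hp'.dvd_of_dvd_pow h) m
      · exact Dvd.dvd.mul_left h 6
    apply shiftCurve_reductionMod
    · exact h6m.trans ⟨-(5832 * t4), by ring⟩
    · exact h6m.trans ⟨-(324 * t6) - 486 * W.b₂ * t4, by ring⟩

section Transfer

variable {W W' : WeierstrassCurve ℤ} {p : ℕ}

lemma apOfModel_eq_of_reductionMod_eq (h : W'.reductionMod p = W.reductionMod p) :
    W'.apOfModel p = W.apOfModel p := by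
  unfold WeierstrassCurve.apOfModel
  rw [h]

lemma intCast_Δ_eq_of_reductionMod_eq (h : W'.reductionMod p = W.reductionMod p) :
    ((W'.Δ : ℤ) : ZMod p) = ((W.Δ : ℤ) : ZMod p) := by
  have h1 := congrArg WeierstrassCurve.Δ h
  unfold WeierstrassCurve.reductionMod at h1
  simpa [WeierstrassCurve.map_Δ] using h1

lemma intCast_c₄_eq_of_reductionMod_eq (h : W'.reductionMod p = W.reductionMod p) :
    ((W'.c₄ : ℤ) : ZMod p) = ((W.c₄ : ℤ) : ZMod p) := by
  have h1 := congrArg WeierstrassCurve.c₄ h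
  unfold WeierstrassCurve.reductionMod at h1
  simpa [WeierstrassCurve.map_c₄] using h1

lemma dvd_Δ_iff_of_reductionMod_eq (h : W'.reductionMod p = W.reductionMod p) :
    (p : ℤ) ∣ W'.Δ ↔ (p : ℤ) ∣ W.Δ := by
  rw [← ZMod.intCast_zmod_eq_zero_iff_dvd, ← ZMod.intCast_zmod_eq_zero_iff_dvd,
    intCast_Δ_eq_of_reductionMod_eq h]

lemma dvd_c₄_iff_of_reductionMod_eq (h : W'.reductionMod p = W.reductionMod p) :
    (p : ℤ) ∣ W'.c₄ ↔ (p : ℤ) ∣ W.c₄ := by
  rw [← ZMod.intCast_zmod_eq_zero_iff_dvd, ← ZMod.intCast_zmod_eq_zero_iff_dvd,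
    intCast_c₄_eq_of_reductionMod_eq h]

lemma isGoodPrimeFor_iff_of_reductionMod_eq (h : W'.reductionMod p = W.reductionMod p) :
    W'.IsGoodPrimeFor p ↔ W.IsGoodPrimeFor p := by
  unfold WeierstrassCurve.IsGoodPrimeFor
  rw [dvd_Δ_iff_of_reductionMod_eq h]

end Transfer

/-- The discriminant of a model whose `c₄, c₆` satisfy the family relation (F1). -/
lemma Δ_eq_mul_pow (W W' : WeierstrassCurve ℤ) (d : ℤ)
    (h : W'.c₄ ^ 3 - W'.c₆ ^ 2 = (W.c₄ ^ 3 - W.c₆ ^ 2) * d ^ 5) : W'.Δ = W.Δ * d ^ 5 := by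
  have h1 := W.c_relation
  have h2 := W'.c_relation
  have h3 : (1728 : ℤ) * W'.Δ = 1728 * (W.Δ * d ^ 5) := by
    rw [h2, h, ← h1]; ring
  exact mul_left_cancel₀ (by norm_num) h3

/-- Semistability criterion for the new model. -/
theorem semistable_of (W W' : WeierstrassCurve ℤ) (M d : ℤ) (hW : W.IsSemistableModel)
    (hΔ : W'.Δ = W.Δ * d ^ 5) (hMΔ : W.Δ ∣ M)
    (hred : ∀ p : ℕ, p.Prime → (p : ℤ) ∣ M → W'.reductionMod p = W.reductionMod p)
    (hkey : ∀ p : ℕ, p.Prime → ¬ (p : ℤ) ∣ M → (p : ℤ) ∣ d → ¬ (p : ℤ) ∣ W'.c₄) :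
    W'.IsSemistableModel := by
  intro p hp hpΔ
  have hp' : Prime (p : ℤ) := Nat.prime_iff_prime_int.mp hp
  by_cases hpM : (p : ℤ) ∣ M
  · have h := hred p hp hpM
    rw [dvd_c₄_iff_of_reductionMod_eq h]
    exact hW p hp ((dvd_Δ_iff_of_reductionMod_eq h).mp hpΔ)
  · have hpW : ¬ (p : ℤ) ∣ W.Δ := fun h => hpM (h.trans hMΔ)
    rw [hΔ] at hpΔ
    have hd : (p : ℤ) ∣ d :=
      hp'.dvd_of_dvd_pow ((hp'.dvd_or_dvd hpΔ).resolve_left hpW)
    exact hkey p hp hpM hd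

end Fermat.Agent.S52.H48
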