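import Mathlib
import Fermat.Prelude.Def_FLTPrelim_Modularity
import Fermat.Prelude.Def_FLTPrelim_ModularRep
import Fermat.Agent.S52.IntModel_helper48

/-!
# S52, top assembly in interface-free form (helper43)

The conclusion of the frozen statement S52 from node-level inputs about three integers
`c4', c6', d'` (the values `famC4, famC6, famD` of the family at `(n, M)`, `n = 1 + M k`):

* congruences modulo `M` (`6 ^ 8 ∣ M`, `W.Δ ∣ M`), the relation (F1),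
* the semistability input at `p ∤ M`,
* irreducibility mod `3` of every model with these invariants (block G + IRR3),
* the congruence of `a_ℓ` modulo `5` at the primes `ℓ ∤ M`, `ℓ ≠ 5` (blocks C, E, F).

Uses the landed node B (`IntModel_helper48`).
-/

set_option autoImplicit false

open WeierstrassCurve

namespace Fermat.Agent.S52.H43

/-- **Assembly, one parameter value.** -/
theorem switch_of_model (W : WeierstrassCurve ℤ) (hΔ : W.Δ ≠ 0) (hW : W.IsSemistableModel)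
    (M c4' c6' d' : ℤ) (hM6 : (6 : ℤ) ^ 8 ∣ M) (hMΔ : W.Δ ∣ M)
    (h4 : M ∣ c4' - W.c₄) (h6 : M ∣ c6' - W.c₆) (hd : M ∣ d' - 1)
    (hF1 : c4' ^ 3 - c6' ^ 2 = (W.c₄ ^ 3 - W.c₆ ^ 2) * d' ^ 5)
    (hss : ∀ p : ℕ, p.Prime → ¬ (p : ℤ) ∣ M → (p : ℤ) ∣ d' → ¬ (p : ℤ) ∣ c4')
    (hirr : ∀ W' : WeierstrassCurve ℤ, W'.Δ ≠ 0 → W'.c₄ = c4' → W'.c₆ = c6' →
      W'.ModRepIsIrreducible 3)
    (hmod5 : ∀ W' : WeierstrassCurve ℤ, W'.c₄ = c4' → W'.c₆ = c6' →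
      ∀ ℓ : ℕ, ℓ.Prime → ¬ (ℓ : ℤ) ∣ M → ℓ ≠ 5 → W'.IsGoodPrimeFor ℓ →
        (5 : ℤ) ∣ W'.apOfModel ℓ - W.apOfModel ℓ) :
    ∃ W' : WeierstrassCurve ℤ, W'.Δ ≠ 0 ∧ W'.IsSemistableModel ∧ W'.ModRepIsIrreducible 3 ∧
      ∀ ℓ : ℕ, ℓ.Prime → W.IsGoodPrimeFor ℓ → W'.IsGoodPrimeFor ℓ → ℓ ≠ 5 →
        (5 : ℤ) ∣ (W'.apOfModel ℓ - W.apOfModel ℓ) := by
  obtain ⟨W', h4', h6', hred⟩ := H48.exists_model W M c4' c6' hM6 h4 h6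
  have hΔ' : W'.Δ = W.Δ * d' ^ 5 :=
    H48.Δ_eq_mul_pow W W' d' (by rw [h4', h6']; exact hF1)
  have hd0 : d' ≠ 0 := by
    rintro rfl
    have h1 : (6 : ℤ) ^ 8 ∣ 1 := by
      have h2 : (6 : ℤ) ^ 8 ∣ (0 : ℤ) - 1 := hM6.trans hd
      have h3 : ((0 : ℤ) - 1) = -1 := by norm_num
      rw [h3] at h2
      exact (dvd_neg).mp h2
    have h4 := Int.le_of_dvd (by norm_num) h1
    norm_num at h4
  have hΔ'0 : W'.Δ ≠ 0 := by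
    rw [hΔ']
    exact mul_ne_zero hΔ (pow_ne_zero 5 hd0)
  refine ⟨W', hΔ'0, ?_, hirr W' hΔ'0 h4' h6', ?_⟩
  · refine H48.semistable_of W W' M d' hW hΔ' hMΔ hred (fun p hp hpM hpd => ?_)
    rw [h4']
    exact hss p hp hpM hpd
  · intro ℓ hℓ _ hgW' hℓ5
    by_cases hℓM : (ℓ : ℤ) ∣ M
    · rw [H48.apOfModel_eq_of_reductionMod_eq (hred ℓ hℓ hℓM), sub_self]
      exact dvd_zero 5
    · exact hmod5 W' h4' h6' ℓ hℓ hℓM hℓ5 hgW'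

/-- **Assembly, family form**: `c4' k, c6' k, d' k` the family values at `n = 1 + M k`;
`hhit` is the output of block G, `hirr3` is node IRR3. -/
theorem switch_of_family (W : WeierstrassCurve ℤ) (hΔ : W.Δ ≠ 0) (hW : W.IsSemistableModel)
    (M : ℤ) (hM6 : (6 : ℤ) ^ 8 ∣ M) (hMΔ : W.Δ ∣ M) (c4' c6' d' : ℕ → ℤ)
    (h4 : ∀ k, M ∣ c4' k - W.c₄) (h6 : ∀ k, M ∣ c6' k - W.c₆) (hd : ∀ k, M ∣ d' k - 1)
    (hF1 : ∀ k, c4' k ^ 3 - c6' k ^ 2 = (W.c₄ ^ 3 - W.c₆ ^ 2) * d' k ^ 5)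
    (hss : ∀ k, ∀ p : ℕ, p.Prime → ¬ (p : ℤ) ∣ M → (p : ℤ) ∣ d' k → ¬ (p : ℤ) ∣ c4' k)
    (hhit : ∃ k, ∀ X : ℤ, X ^ 4 - 6 * c4' k * X ^ 2 - 8 * c6' k * X - 3 * c4' k ^ 2 ≠ 0)
    (hirr3 : ∀ W' : WeierstrassCurve ℤ, W'.Δ ≠ 0 →
      (∀ X : ℤ, X ^ 4 - 6 * W'.c₄ * X ^ 2 - 8 * W'.c₆ * X - 3 * W'.c₄ ^ 2 ≠ 0) →
      W'.ModRepIsIrreducible 3)
    (hmod5 : ∀ k, ∀ W' : WeierstrassCurve ℤ, W'.c₄ = c4' k → W'.c₆ = c6' k →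
      ∀ ℓ : ℕ, ℓ.Prime → ¬ (ℓ : ℤ) ∣ M → ℓ ≠ 5 → W'.IsGoodPrimeFor ℓ →
        (5 : ℤ) ∣ W'.apOfModel ℓ - W.apOfModel ℓ) :
    ∃ W' : WeierstrassCurve ℤ, W'.Δ ≠ 0 ∧ W'.IsSemistableModel ∧ W'.ModRepIsIrreducible 3 ∧
      ∀ ℓ : ℕ, ℓ.Prime → W.IsGoodPrimeFor ℓ → W'.IsGoodPrimeFor ℓ → ℓ ≠ 5 →
        (5 : ℤ) ∣ (W'.apOfModel ℓ - W.apOfModel ℓ) := by
  obtain ⟨k, hk⟩ := hhit
  refine switch_of_model W hΔ hW M (c4' k) (c6' k) (d' k) hM6 hMΔ (h4 k) (h6 k) (hd k) (hF1 k)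
    (hss k) (fun W' hΔ' e4 e6 => hirr3 W' hΔ' ?_) (hmod5 k)
  rw [e4, e6]
  exact hk

end Fermat.Agent.S52.H43
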