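/-
S52, node G1 (Approx): Hensel/Newton approximants for the roots of a monic polynomial
`q(x, ε)` over `ℂ[ε]` whose specialisation at `ε = 0` is separable, and localisation of the
roots of `q(·, ε)` for small `ε`:  every root of `q(·, ε)` is within `C * ‖ε‖ ^ (N + 1)` of
one of the polynomial approximants `Pi j` (of degree `≤ N`).  Mathlib only.
-/
import Mathlib

set_option autoImplicit false

namespace Fermat.Agent.S52.H51

open Polynomial

/-- Evaluation at `e` commutes with evaluating a polynomial over `ℂ[ε]` at an element of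
`ℂ[ε]`. -/
theorem eval_eval_eq_eval_map (q : Polynomial (Polynomial ℂ)) (P : Polynomial ℂ) (e : ℂ) :
    (q.eval P).eval e = (q.map (evalRingHom e)).eval (P.eval e) := by
  rw [eval_map]
  exact (eval₂_at_apply (p := q) (evalRingHom e) P).symm

/-- Newton/Hensel step in `ℂ[ε]`: a simple root `ρ` of `q(·, 0)` lifts to a polynomial
`P` of degree `≤ N` with `P(0) = ρ` and `ε ^ (N + 1) ∣ q(P(ε), ε)`. -/
theorem exists_newton_approx (q : Polynomial (Polynomial ℂ)) (ρ : ℂ)
    (hρ : (q.map (evalRingHom (0 : ℂ))).eval ρ = 0)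
    (hρ' : (derivative (q.map (evalRingHom (0 : ℂ)))).eval ρ ≠ 0) (N : ℕ) :
    ∃ P : Polynomial ℂ, P.natDegree ≤ N ∧ P.eval 0 = ρ ∧
      (X : Polynomial ℂ) ^ (N + 1) ∣ q.eval P := by
  induction N with
  | zero =>
    refine ⟨C ρ, by simp, by simp, ?_⟩
    rw [zero_add, pow_one, X_dvd_iff, coeff_zero_eq_eval_zero, eval_eval_eq_eval_map]
    simpa using hρ
  | succ N ih =>
    obtain ⟨P, hdeg, hP0, r, hr⟩ := ih
    obtain ⟨k, hk⟩ := binomExpansion q P
      (C (-(r.eval 0) / (derivative (q.map (evalRingHom (0 : ℂ)))).eval ρ) * X ^ (N + 1))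
    set c : ℂ := -(r.eval 0) / (derivative (q.map (evalRingHom (0 : ℂ)))).eval ρ with hc
    refine ⟨P + C c * X ^ (N + 1), ?_, ?_, ?_⟩
    · refine (natDegree_add_le _ _).trans (max_le (hdeg.trans (Nat.le_succ N)) ?_)
      exact (natDegree_C_mul_le _ _).trans (natDegree_X_pow_le _)
    · simp [hP0]
    · rw [hk, hr]
      have hder : ((derivative q).eval P).eval 0 =
          (derivative (q.map (evalRingHom (0 : ℂ)))).eval ρ := by
        rw [eval_eval_eq_eval_map, hP0, derivative_map]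
      have hX : (X : Polynomial ℂ) ∣ r + (derivative q).eval P * C c := by
        rw [X_dvd_iff, coeff_zero_eq_eval_zero, eval_add, eval_mul, hder, eval_C, hc]
        field_simp
        ring
      obtain ⟨s, hs⟩ := hX
      refine ⟨s + k * C c ^ 2 * X ^ N, ?_⟩
      have : X ^ (N + 1) * r + (derivative q).eval P * (C c * X ^ (N + 1)) +
          k * (C c * X ^ (N + 1)) ^ 2 =
          X ^ (N + 1) * (r + (derivative q).eval P * C c) +
            X ^ (N + 1 + 1) * (k * C c ^ 2 * X ^ N) := by ring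
      rw [this, hs]
      ring

/-- Finitely many distinct complex numbers are uniformly separated. -/
theorem exists_sep {d : ℕ} (ρ : Fin d → ℂ) (hρ : Function.Injective ρ) :
    ∃ σ : ℝ, 0 < σ ∧ ∀ i j, i ≠ j → σ ≤ ‖ρ i - ρ j‖ := by
  classical
  by_cases h : ∃ p : Fin d × Fin d, p.1 ≠ p.2
  · have hS : (Finset.univ.filter (fun p : Fin d × Fin d => p.1 ≠ p.2)).Nonempty := by
      obtain ⟨p, hp⟩ := h
      exact ⟨p, by simp [hp]⟩
    obtain ⟨p, hp, hmin⟩ := Finset.exists_min_image _ (fun p : Fin d × Fin d => ‖ρ p.1 - ρ p.2‖) hS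
    refine ⟨‖ρ p.1 - ρ p.2‖, ?_, fun i j hij => hmin (i, j) (by simp [hij])⟩
    have hp' : p.1 ≠ p.2 := by simpa using hp
    exact norm_pos_iff.2 (sub_ne_zero.2 (fun e => hp' (hρ e)))
  · exact ⟨1, one_pos, fun i j hij => absurd ⟨(i, j), hij⟩ h⟩

/-- If every element of the multiset is at distance `≥ t` from `y`, the product of the
differences has norm `≥ t ^ card`. -/
theorem pow_card_le_norm_prod_sub (y : ℂ) {t : ℝ} (ht : 0 ≤ t) (M : Multiset ℂ)
    (h : ∀ a ∈ M, t ≤ ‖y - a‖) : t ^ Multiset.card M ≤ ‖(M.map (fun a => y - a)).prod‖ := by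
  induction M using Multiset.induction_on with
  | empty => simp
  | cons a M ih =>
    rw [Multiset.card_cons, Multiset.map_cons, Multiset.prod_cons, norm_mul, pow_succ, mul_comm]
    exact mul_le_mul (h a (Multiset.mem_cons_self a M))
      (ih (fun b hb => h b (Multiset.mem_cons_of_mem hb))) (pow_nonneg ht _) (norm_nonneg _)

/-- **Node G1 (Approx), full form.**  For a monic `q ∈ ℂ[ε][x]` with `q(·, 0)` separable there
are polynomial approximants `Pi j ∈ ℂ[ε]` (`j : Fin (deg q)`) of degree `≤ N`, whose values at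
`0` are the (distinct) roots of `q(·, 0)`, with `ε ^ (N + 1) ∣ q(Pi j(ε), ε)`, and constants
`C ≥ 0`, `δ > 0` such that for `‖ε‖ < δ` every root `x` of `q(·, ε)` satisfies
`‖x - Pi j(ε)‖ ≤ C * ‖ε‖ ^ (N + 1)` for some `j`. -/
theorem exists_approx_roots_full (N : ℕ) (q : Polynomial (Polynomial ℂ)) (hq : q.Monic)
    (hsep : (q.map (evalRingHom (0 : ℂ))).Separable) :
    ∃ (Pi : Fin q.natDegree → Polynomial ℂ) (C δ : ℝ), 0 ≤ C ∧ 0 < δ ∧
      (∀ j, (Pi j).natDegree ≤ N) ∧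
      (∀ j, (q.map (evalRingHom (0 : ℂ))).IsRoot ((Pi j).eval 0)) ∧
      (Function.Injective fun j => (Pi j).eval 0) ∧
      (∀ j, (X : Polynomial ℂ) ^ (N + 1) ∣ q.eval (Pi j)) ∧
      ∀ ε : ℂ, ‖ε‖ < δ → ∀ x : ℂ, (q.map (evalRingHom ε)).IsRoot x →
        ∃ j, ‖x - (Pi j).eval ε‖ ≤ C * ‖ε‖ ^ (N + 1) := by
  classical
  set d := q.natDegree with hd
  set q₀ := q.map (evalRingHom (0 : ℂ)) with hq₀
  have hq₀m : q₀.Monic := hq.map _
  have hq₀d : q₀.natDegree = d := hq.natDegree_map _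
  have hq₀ne : q₀ ≠ 0 := hq₀m.ne_zero
  have hnd : q₀.roots.Nodup := nodup_roots hsep
  have hcard : q₀.roots.toFinset.card = d := by
    rw [Multiset.toFinset_card_of_nodup hnd, IsAlgClosed.card_roots_eq_natDegree, hq₀d]
  -- enumerate the roots of `q₀`
  have hcard' : Fintype.card {x // x ∈ q₀.roots.toFinset} = d := by
    rw [Fintype.card_coe, hcard]
  let e : Fin d ≃ {x // x ∈ q₀.roots.toFinset} := (Fintype.equivFinOfCardEq hcard').symm
  let ρ : Fin d → ℂ := fun j => (e j : ℂ)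
  have hρinj : Function.Injective ρ := fun i j h => e.injective (Subtype.ext h)
  have hρroot : ∀ j, q₀.eval (ρ j) = 0 := fun j => by
    have : ρ j ∈ q₀.roots := Multiset.mem_toFinset.1 (e j).2
    exact (mem_roots hq₀ne).1 this
  have hρder : ∀ j, (derivative q₀).eval (ρ j) ≠ 0 := fun j => by
    have := hsep.eval₂_derivative_ne_zero (RingHom.id ℂ) (x := ρ j)
      (by rw [eval₂_id]; exact hρroot j)
    rwa [eval₂_id] at this
  choose Pi hdeg h0 hdiv using fun j => exists_newton_approx q (ρ j) (hρroot j) (hρder j) N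
  choose r hr using hdiv
  -- bound for the cofactors on the closed unit disc
  obtain ⟨R, hR0, hR⟩ : ∃ R : ℝ, 0 ≤ R ∧ ∀ j, ∀ ε : ℂ, ‖ε‖ ≤ 1 → ‖(r j).eval ε‖ ≤ R := by
    have hcont : ContinuousOn (fun ε : ℂ => ∑ j, ‖(r j).eval ε‖) (Metric.closedBall 0 1) :=
      (continuous_finsetSum _ fun j _ => (r j).continuous.norm).continuousOn
    obtain ⟨B, hB⟩ := (isCompact_closedBall (0 : ℂ) 1).exists_bound_of_continuousOn hcont
    refine ⟨max B 0, le_max_right _ _, fun j ε hε => ?_⟩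
    have h1 := hB ε (by simpa using hε)
    have h2 : ‖(r j).eval ε‖ ≤ ∑ i, ‖(r i).eval ε‖ :=
      Finset.single_le_sum (f := fun i => ‖(r i).eval ε‖) (fun i _ => norm_nonneg _)
        (Finset.mem_univ j)
    have h3 : (∑ i, ‖(r i).eval ε‖) ≤ ‖∑ i, ‖(r i).eval ε‖‖ := Real.le_norm_self _
    exact (h2.trans (h3.trans h1)).trans (le_max_left _ _)
  obtain ⟨σ, hσ, hσsep⟩ := exists_sep ρ hρinj
  set t : ℝ := σ / 4 with ht
  have ht0 : 0 < t := by positivity
  -- the "good" neighbourhood of `0`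
  have hgood : ∀ᶠ ε : ℂ in nhds 0,
      ‖ε‖ ≤ 1 ∧ (∀ j, ‖(Pi j).eval ε - ρ j‖ < t) ∧ R * ‖ε‖ < t ^ d := by
    refine Filter.Eventually.and ?_ (Filter.Eventually.and ?_ ?_)
    · have : ∀ᶠ ε : ℂ in nhds 0, ‖ε‖ < 1 := by
        have := Metric.ball_mem_nhds (0 : ℂ) one_pos
        filter_upwards [this] with ε hε
        simpa using hε
      exact this.mono fun ε hε => hε.le
    · rw [Filter.eventually_all]
      intro j
      have hc : ContinuousAt (fun ε : ℂ => (Pi j).eval ε) 0 := (Pi j).continuous.continuousAt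
      have := Metric.continuousAt_iff.1 hc t ht0
      obtain ⟨δ, hδ, h⟩ := this
      filter_upwards [Metric.ball_mem_nhds (0 : ℂ) hδ] with ε hε
      have := h hε
      rwa [h0 j, dist_eq_norm] at this
    · have hc : ContinuousAt (fun ε : ℂ => R * ‖ε‖) 0 :=
        (continuous_const.mul continuous_norm).continuousAt
      have h1 : (fun ε : ℂ => R * ‖ε‖) 0 < t ^ d := by simpa using pow_pos ht0 d
      exact hc.eventually_lt continuousAt_const h1
  obtain ⟨δ, hδ, hgood'⟩ := Metric.eventually_nhds_iff.1 hgood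
  refine ⟨Pi, R / t ^ (d - 1), δ, div_nonneg hR0 (pow_pos ht0 _).le, hδ, hdeg, ?_, ?_, ?_, ?_⟩
  · intro j
    rw [IsRoot.def, h0 j]
    exact hρroot j
  · intro i j hij
    simp only [h0] at hij
    exact hρinj hij
  · exact fun j => ⟨r j, hr j⟩
  intro ε hε x hx
  obtain ⟨hε1, hclose, hsmall⟩ := hgood' (by simpa [dist_eq_norm] using hε)
  set P := q.map (evalRingHom ε) with hP
  have hPm : P.Monic := hq.map _
  have hPd : P.natDegree = d := hq.natDegree_map _
  have hPsplit : P.Splits := IsAlgClosed.splits P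
  have hMcard : Multiset.card P.roots = d := by
    rw [IsAlgClosed.card_roots_eq_natDegree, hPd]
  set y : Fin d → ℂ := fun j => (Pi j).eval ε with hy
  have hPy : ∀ j, P.eval (y j) = ε ^ (N + 1) * (r j).eval ε := fun j => by
    rw [hP, hy, ← eval_eval_eq_eval_map, hr j]
    simp
  have hPy_norm : ∀ j, ‖P.eval (y j)‖ ≤ ‖ε‖ ^ (N + 1) * R := fun j => by
    rw [hPy j, norm_mul, norm_pow]
    exact mul_le_mul_of_nonneg_left (hR j ε hε1) (pow_nonneg (norm_nonneg _) _)
  have hβ : ‖ε‖ ^ (N + 1) * R < t ^ d := by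
    have h1 : ‖ε‖ ^ (N + 1) ≤ ‖ε‖ := pow_le_of_le_one (norm_nonneg _) hε1 (Nat.succ_ne_zero N)
    calc ‖ε‖ ^ (N + 1) * R ≤ ‖ε‖ * R := mul_le_mul_of_nonneg_right h1 hR0
      _ = R * ‖ε‖ := mul_comm _ _
      _ < t ^ d := hsmall
  -- every disc contains a root
  have hex : ∀ j, ∃ a ∈ P.roots, ‖y j - a‖ < t := fun j => by
    by_contra hcon
    push Not at hcon
    have h1 := pow_card_le_norm_prod_sub (y j) ht0.le P.roots hcon
    rw [hMcard, ← hPsplit.eval_eq_prod_roots_of_monic hPm] at h1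
    exact absurd (h1.trans (hPy_norm j)) (not_le.2 hβ)
  choose x' hx'mem hx'close using hex
  have hysep : ∀ i j, i ≠ j → 2 * t < ‖y i - y j‖ := fun i j hij => by
    have h1 := hσsep i j hij
    have h2 := hclose i
    have h3 := hclose j
    have h4 : ‖ρ i - ρ j‖ ≤ ‖y i - y j‖ + ‖y i - ρ i‖ + ‖y j - ρ j‖ := by
      have : ρ i - ρ j = (y i - y j) - (y i - ρ i) + (y j - ρ j) := by ring
      rw [this]
      exact (norm_add_le _ _).trans (add_le_add_left (norm_sub_le _ _) _)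
    simp only [hy] at h2 h3 h4 ⊢
    rw [ht] at h2 h3 ⊢
    linarith
  have hx'far : ∀ i j, i ≠ j → t ≤ ‖y j - x' i‖ := fun i j hij => by
    have h1 := hysep i j hij
    have h2 := hx'close i
    have h3 : ‖y i - y j‖ ≤ ‖y i - x' i‖ + ‖y j - x' i‖ := by
      have : y i - y j = (y i - x' i) - (y j - x' i) := by ring
      rw [this]
      exact norm_sub_le _ _
    linarith
  have hx'inj : Function.Injective x' := fun i j hij => by
    by_contra hne
    have h1 := hx'far i j hne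
    have h2 := hx'close j
    rw [hij] at h1
    linarith
  have hM : Multiset.map x' Finset.univ.val = P.roots := by
    have hnd' : (Multiset.map x' Finset.univ.val).Nodup := Finset.univ.nodup.map hx'inj
    have hle : Multiset.map x' Finset.univ.val ≤ P.roots :=
      (Multiset.le_iff_subset hnd').2 fun a ha => by
        obtain ⟨j, -, rfl⟩ := Multiset.mem_map.1 ha
        exact hx'mem j
    refine Multiset.eq_of_le_of_card_le hle ?_
    rw [hMcard, Multiset.card_map]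
    simp
  have hxmem : x ∈ P.roots := (mem_roots hPm.ne_zero).2 hx
  rw [← hM] at hxmem
  obtain ⟨j, -, rfl⟩ := Multiset.mem_map.1 hxmem
  refine ⟨j, ?_⟩
  have hprod : P.eval (y j) = ∏ i, (y j - x' i) := by
    rw [hPsplit.eval_eq_prod_roots_of_monic hPm, ← hM, Multiset.map_map]
    rfl
  have hnorm : ‖P.eval (y j)‖ = ‖y j - x' j‖ * ∏ i ∈ Finset.univ.erase j, ‖y j - x' i‖ := by
    rw [hprod, norm_prod, ← Finset.mul_prod_erase _ _ (Finset.mem_univ j)]
  have hrest : t ^ (d - 1) ≤ ∏ i ∈ Finset.univ.erase j, ‖y j - x' i‖ := by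
    have : ∏ _i ∈ Finset.univ.erase j, t = t ^ (d - 1) := by
      rw [Finset.prod_const, Finset.card_erase_of_mem (Finset.mem_univ j), Finset.card_univ,
        Fintype.card_fin]
    rw [← this]
    exact Finset.prod_le_prod (fun _ _ => ht0.le)
      (fun i hi => hx'far i j (Finset.ne_of_mem_erase hi))
  have hfin : ‖y j - x' j‖ * t ^ (d - 1) ≤ ‖ε‖ ^ (N + 1) * R :=
    (mul_le_mul_of_nonneg_left hrest (norm_nonneg _)).trans (hnorm ▸ hPy_norm j)
  rw [norm_sub_rev, div_mul_eq_mul_div, le_div_iff₀ (pow_pos ht0 _)]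
  calc ‖y j - x' j‖ * t ^ (d - 1) ≤ ‖ε‖ ^ (N + 1) * R := hfin
    _ = R * ‖ε‖ ^ (N + 1) := mul_comm _ _

/-- **Node G1 (Approx)** in the announced shape. -/
theorem exists_approx_roots (N : ℕ) (q : Polynomial (Polynomial ℂ)) (hq : q.Monic)
    (hsep : (q.map (evalRingHom (0 : ℂ))).Separable) :
    ∃ (Pi : Fin q.natDegree → Polynomial ℂ) (C δ : ℝ), 0 < δ ∧ (∀ j, (Pi j).natDegree ≤ N) ∧
      ∀ ε : ℂ, ‖ε‖ < δ → ∀ x : ℂ, (q.map (evalRingHom ε)).IsRoot x →
        ∃ j, ‖x - (Pi j).eval ε‖ ≤ C * ‖ε‖ ^ (N + 1) := by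
  obtain ⟨Pi, C, δ, -, hδ, hdeg, -, -, -, h⟩ := exists_approx_roots_full N q hq hsep
  exact ⟨Pi, C, δ, hδ, hdeg, h⟩

/-- The "reversed and rescaled" polynomial `n ↦ n ^ N * P (M / n)` of a polynomial `P` of
degree `≤ N`. -/
noncomputable def revScale (N : ℕ) (M : ℂ) (P : Polynomial ℂ) : Polynomial ℂ :=
  ∑ i ∈ Finset.range (N + 1), C (P.coeff i * M ^ i) * X ^ (N - i)

theorem natDegree_revScale_le (N : ℕ) (M : ℂ) (P : Polynomial ℂ) :
    (revScale N M P).natDegree ≤ N := by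
  refine natDegree_sum_le_of_forall_le _ _ fun i _ => ?_
  exact (natDegree_C_mul_le _ _).trans ((natDegree_X_pow_le _).trans (Nat.sub_le N i))

theorem eval_revScale (N : ℕ) (M : ℂ) (P : Polynomial ℂ) (hP : P.natDegree ≤ N) (n : ℂ)
    (hn : n ≠ 0) : (revScale N M P).eval n = n ^ N * P.eval (M / n) := by
  rw [revScale, eval_finsetSum, eval_eq_sum_range' (Nat.lt_succ_of_le hP), Finset.mul_sum]
  refine Finset.sum_congr rfl fun i hi => ?_
  have hi' : i ≤ N := Nat.lt_succ_iff.1 (Finset.mem_range.1 hi)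
  have hN : n ^ N = n ^ (N - i) * n ^ i := by rw [← pow_add, Nat.sub_add_cancel hi']
  rw [eval_mul, eval_C, eval_pow, eval_X, hN, div_pow]
  field_simp

/-- **Node G1, composed form for the G2 consumer.**  With `n = 1 + M * k`: if `x / n ^ N` is a
root of `q(·, M / n)`, then `x` is within `C / k` of the value at `k` of one of finitely many
polynomials of degree `≤ N`. -/
theorem exists_poly_approx (N : ℕ) (q : Polynomial (Polynomial ℂ)) (hq : q.Monic)
    (hsep : (q.map (evalRingHom (0 : ℂ))).Separable) (M : ℕ) :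
    ∃ (P : Fin q.natDegree → Polynomial ℂ) (C₀ : ℝ) (k₀ : ℕ), (∀ j, (P j).natDegree ≤ N) ∧
      ∀ k : ℕ, k₀ ≤ k → ∀ x : ℂ,
        (q.map (evalRingHom ((M : ℂ) / (1 + (M : ℂ) * (k : ℂ))))).IsRoot
          (x / (1 + (M : ℂ) * (k : ℂ)) ^ N) →
        ∃ j, ‖x - (P j).eval (k : ℂ)‖ ≤ C₀ / k := by
  obtain ⟨Pi, C₀, δ, hC, hδ, hdeg, -, -, -, h⟩ := exists_approx_roots_full N q hq hsep
  obtain ⟨k₀, hk₀⟩ := exists_nat_gt (1 / δ)
  refine ⟨fun j => (revScale N (M : ℂ) (Pi j)).comp (1 + C (M : ℂ) * X), C₀ * (M : ℝ) ^ (N + 1),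
    k₀ + 1, fun j => ?_, fun k hk x hx => ?_⟩
  · refine natDegree_comp_le.trans ?_
    have h1 : (1 + C (M : ℂ) * X : Polynomial ℂ).natDegree ≤ 1 := by
      refine (natDegree_add_le _ _).trans (max_le (by simp) ?_)
      exact (natDegree_C_mul_le _ _).trans natDegree_X_le
    calc (revScale N (M : ℂ) (Pi j)).natDegree * (1 + C (M : ℂ) * X : Polynomial ℂ).natDegree
        ≤ N * 1 := Nat.mul_le_mul (natDegree_revScale_le _ _ _) h1
      _ = N := mul_one N
  have hk1 : 1 ≤ k := le_trans (Nat.succ_le_succ (Nat.zero_le k₀)) hk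
  have hkpos : (0 : ℝ) < k := by exact_mod_cast hk1
  set n : ℂ := 1 + (M : ℂ) * (k : ℂ) with hn
  have hnreal : n = ((1 + (M : ℝ) * (k : ℝ) : ℝ) : ℂ) := by simp [hn]
  have hnpos : (0 : ℝ) < 1 + (M : ℝ) * (k : ℝ) := by positivity
  have hnnorm : ‖n‖ = 1 + (M : ℝ) * (k : ℝ) := by
    rw [hnreal, Complex.norm_real, Real.norm_of_nonneg hnpos.le]
  have hn0 : n ≠ 0 := by
    rw [← norm_pos_iff, hnnorm]
    exact hnpos
  have hεnorm : ‖(M : ℂ) / n‖ = (M : ℝ) / (1 + (M : ℝ) * (k : ℝ)) := by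
    rw [norm_div, hnnorm, Complex.norm_natCast]
  have hεlt : ‖(M : ℂ) / n‖ < δ := by
    rw [hεnorm, div_lt_iff₀ hnpos]
    have h1 : 1 / δ < k := hk₀.trans (by exact_mod_cast Nat.lt_of_succ_le hk)
    have h2 : 1 < δ * k := by
      rw [div_lt_iff₀ hδ] at h1
      linarith
    have hM0 : (0 : ℝ) ≤ M := Nat.cast_nonneg M
    nlinarith
  obtain ⟨j, hj⟩ := h _ hεlt _ hx
  refine ⟨j, ?_⟩
  have heval : ((revScale N (M : ℂ) (Pi j)).comp (1 + C (M : ℂ) * X)).eval (k : ℂ) =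
      n ^ N * (Pi j).eval ((M : ℂ) / n) := by
    rw [eval_comp]
    have : (1 + C (M : ℂ) * X : Polynomial ℂ).eval (k : ℂ) = n := by simp [hn]
    rw [this, eval_revScale N _ _ (hdeg j) n hn0]
  rw [heval]
  have hx' : x - n ^ N * (Pi j).eval ((M : ℂ) / n) =
      n ^ N * (x / n ^ N - (Pi j).eval ((M : ℂ) / n)) := by
    field_simp
  rw [hx', norm_mul, norm_pow, hnnorm]
  have hnN : (0 : ℝ) < (1 + (M : ℝ) * (k : ℝ)) ^ N := pow_pos hnpos N
  calc (1 + (M : ℝ) * (k : ℝ)) ^ N * ‖x / n ^ N - (Pi j).eval ((M : ℂ) / n)‖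
      ≤ (1 + (M : ℝ) * (k : ℝ)) ^ N * (C₀ * ‖(M : ℂ) / n‖ ^ (N + 1)) :=
        mul_le_mul_of_nonneg_left hj hnN.le
    _ = C₀ * (M : ℝ) ^ (N + 1) / (1 + (M : ℝ) * (k : ℝ)) := by
        rw [hεnorm, div_pow, pow_succ (1 + (M : ℝ) * (k : ℝ)) N]
        field_simp
    _ ≤ C₀ * (M : ℝ) ^ (N + 1) / k := by
        by_cases hM : M = 0
        · subst hM
          simp
        · have hM1 : (1 : ℝ) ≤ M := by exact_mod_cast Nat.one_le_iff_ne_zero.2 hM
          have hM0 : (0 : ℝ) ≤ M := Nat.cast_nonneg M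
          have hnum : (0 : ℝ) ≤ C₀ * (M : ℝ) ^ (N + 1) := mul_nonneg hC (pow_nonneg hM0 _)
          exact div_le_div_of_nonneg_left hnum hkpos (by nlinarith)

end Fermat.Agent.S52.H51
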