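import Mathlib

/-!
# S52, node G2 core (helper43): integer points close to finitely many polynomial curves

`exists_rat_poly_of_approx`: let `X : ℕ → ℤ` and nodes `n_k = 1 + M k`.  If for all large `k`
the integer `X k` is within `C / n_k` of `P_j(n_k)` for one of finitely many complex polynomials
`P_j` of degree `≤ d`, then for every `T` there are a rational polynomial of degree `≤ d` and
at least `T` indices `k` (as far out as we like) with `X k = Pq(n_k)`.

Proof: pigeonhole in a long block far out, Lagrange interpolation through `d + 1` of the points,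
and for any further point an integer of absolute value `< 1`.
-/

open Polynomial

namespace Fermat.Agent.S52.H43

section LagrangeEval

variable {F : Type*} [Field F] {ι : Type*} [DecidableEq ι]

theorem eval_interpolate_eq_sum (s : Finset ι) (v : ι → F) (r : ι → F) (z : F) :
    (Lagrange.interpolate s v r).eval z =
      ∑ i ∈ s, r i * ∏ j ∈ s.erase i, ((z - v j) / (v i - v j)) := by
  rw [Lagrange.interpolate_apply, eval_finsetSum]
  refine Finset.sum_congr rfl fun i _ => ?_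
  rw [eval_mul, eval_C, Lagrange.basis, eval_prod]
  congr 1
  refine Finset.prod_congr rfl fun j _ => ?_
  rw [Lagrange.basisDivisor, eval_mul, eval_C, eval_sub, eval_X, eval_C, div_eq_mul_inv, mul_comm]

theorem eval_eq_sum_lagrange (s : Finset ι) (v : ι → F) (hv : Set.InjOn v s) (f : F[X])
    (hf : f.degree < s.card) (z : F) :
    f.eval z = ∑ i ∈ s, f.eval (v i) * ∏ j ∈ s.erase i, ((z - v j) / (v i - v j)) := by
  conv_lhs => rw [Lagrange.eq_interpolate hv hf]
  exact eval_interpolate_eq_sum s v _ z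

end LagrangeEval

section Main

/-- Abstract form: nodes `nd k` (injective, monotone, `k ≤ nd k`, increments bounded by `M`). -/
theorem exists_rat_poly_of_approx_aux {κ : Type*} [Fintype κ] (M : ℕ) (nd : ℕ → ℕ)
    (hnd_inj : Function.Injective nd) (hnd_mono : Monotone nd) (hnd_ge : ∀ k, k ≤ nd k)
    (hnd_lip : ∀ a b, a ≤ b → nd b ≤ nd a + M * (b - a)) (d : ℕ)
    (X : ℕ → ℤ) (P : κ → ℂ[X]) (hP : ∀ j, (P j).natDegree ≤ d) (C : ℝ) (k0 : ℕ)
    (hX : ∀ k, k0 ≤ k → ∃ j, ‖(X k : ℂ) - (P j).eval ((nd k : ℕ) : ℂ)‖ * ((nd k : ℕ) : ℝ) ≤ C)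
    (T : ℕ) :
    ∃ Pq : ℚ[X], Pq.natDegree ≤ d ∧ ∃ S : Finset ℕ, T ≤ S.card ∧ (∀ k ∈ S, k0 ≤ k) ∧
      ∀ k ∈ S, Pq.eval ((nd k : ℕ) : ℚ) = (X k : ℚ) := by
  classical
  obtain ⟨j0, -⟩ := hX k0 le_rfl
  obtain ⟨n, hn⟩ : ∃ n : ℕ, n = T + d + 1 := ⟨_, rfl⟩
  obtain ⟨B, hB⟩ : ∃ B : ℕ, B = Fintype.card κ * n := ⟨_, rfl⟩
  obtain ⟨L, hL⟩ : ∃ L : ℝ, L = ((M * B + 1 : ℕ) : ℝ) := ⟨_, rfl⟩
  have hL1 : (1 : ℝ) ≤ L := by
    rw [hL]
    exact_mod_cast Nat.le_add_left 1 (M * B)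
  have hL0 : (0 : ℝ) ≤ L := zero_le_one.trans hL1
  -- choose `K` far out
  obtain ⟨K, hK0, hK1, hKbig⟩ : ∃ K : ℕ, k0 ≤ K ∧ 1 ≤ nd K ∧
      L ^ (d * (d + 1)) * (|C| * (1 + (d + 1) * L ^ d)) < ((nd K : ℕ) : ℝ) := by
    obtain ⟨K, hK⟩ := exists_nat_gt (L ^ (d * (d + 1)) * (|C| * (1 + (d + 1) * L ^ d)))
    refine ⟨K + k0 + 1, by omega, ?_, lt_of_lt_of_le hK ?_⟩
    · have := hnd_ge (K + k0 + 1)
      omega
    · have h1 : K ≤ nd (K + k0 + 1) := by
        have := hnd_ge (K + k0 + 1)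
        omega
      exact_mod_cast h1
  have hKpos : (0 : ℝ) < ((nd K : ℕ) : ℝ) := by exact_mod_cast hK1
  -- the block and the pigeonhole principle
  have hblk_ge : ∀ k ∈ Finset.Ico K (K + B + 1), k0 ≤ k :=
    fun k hk => hK0.trans (Finset.mem_Ico.mp hk).1
  have hcol : ∀ k, ∃ j, k ∈ Finset.Ico K (K + B + 1) →
      ‖(X k : ℂ) - (P j).eval ((nd k : ℕ) : ℂ)‖ * ((nd k : ℕ) : ℝ) ≤ C := by
    intro k
    by_cases hk : k ∈ Finset.Ico K (K + B + 1)
    · obtain ⟨j, hj⟩ := hX k (hblk_ge k hk)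
      exact ⟨j, fun _ => hj⟩
    · exact ⟨j0, fun h => absurd h hk⟩
  choose col hcol' using hcol
  obtain ⟨j, -, hj⟩ := Finset.exists_lt_card_fiber_of_mul_lt_card_of_maps_to
    (s := Finset.Ico K (K + B + 1)) (t := Finset.univ) (f := col) (n := n)
    (fun a _ => Finset.mem_univ _)
    (by rw [Finset.card_univ, ← hB, Nat.card_Ico]; omega)
  obtain ⟨Fs, hFs⟩ : ∃ Fs : Finset ℕ,
      Fs = (Finset.Ico K (K + B + 1)).filter (fun k => col k = j) := ⟨_, rfl⟩
  rw [← hFs] at hj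
  have hFs_blk : ∀ k ∈ Fs, K ≤ k ∧ k ≤ K + B := by
    intro k hk
    rw [hFs] at hk
    have := Finset.mem_Ico.mp (Finset.mem_filter.mp hk).1
    omega
  have hFs_approx : ∀ k ∈ Fs,
      ‖(X k : ℂ) - (P j).eval ((nd k : ℕ) : ℂ)‖ * ((nd k : ℕ) : ℝ) ≤ C := by
    intro k hk
    rw [hFs] at hk
    obtain ⟨hkb, hkj⟩ := Finset.mem_filter.mp hk
    have := hcol' k hkb
    rwa [hkj] at this
  obtain ⟨s0, hs0F, hs0card⟩ := Finset.exists_subset_card_eq (show d + 1 ≤ Fs.card by omega)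
  obtain ⟨v, hv⟩ : ∃ v : ℕ → ℚ, v = fun k : ℕ => ((nd k : ℕ) : ℚ) := ⟨_, rfl⟩
  have hv_inj : Function.Injective v := by
    rw [hv]
    exact fun a b h => hnd_inj (Nat.cast_injective h)
  obtain ⟨vc, hvc⟩ : ∃ vc : ℕ → ℂ, vc = fun i : ℕ => ((nd i : ℕ) : ℂ) := ⟨_, rfl⟩
  have hvc_inj : Function.Injective vc := by
    rw [hvc]
    exact fun a b h => hnd_inj (Nat.cast_injective h)
  have hv_app : ∀ k, ((nd k : ℕ) : ℚ) = v k := fun k => by rw [hv]
  have hvc_app : ∀ k, ((nd k : ℕ) : ℂ) = vc k := fun k => by rw [hvc]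
  have hv_vc : ∀ k, ((v k : ℚ) : ℂ) = vc k := fun k => by
    rw [hv, hvc]
    push_cast
    rfl
  refine ⟨Lagrange.interpolate s0 v (fun k => (X k : ℚ)), ?_,
    Fs, by omega, fun k hk => hK0.trans (hFs_blk k hk).1, ?_⟩
  · -- degree
    have hdeg := Lagrange.degree_interpolate_lt (s := s0) (v := v) (fun k => (X k : ℚ))
      hv_inj.injOn
    rw [hs0card] at hdeg
    by_contra hcon
    have hcon' := not_le.mp hcon
    have hne : Lagrange.interpolate s0 v (fun k => (X k : ℚ)) ≠ 0 := by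
      intro h0
      rw [h0, natDegree_zero] at hcon'
      omega
    rw [degree_eq_natDegree hne] at hdeg
    have h2 : (Lagrange.interpolate s0 v (fun k => (X k : ℚ))).natDegree < d + 1 := by
      exact_mod_cast hdeg
    omega
  · intro k hk
    rw [hv_app]
    by_cases hks : k ∈ s0
    · exact Lagrange.eval_interpolate_at_node (fun k => (X k : ℚ)) hv_inj.injOn hks
    -- the main estimate
    obtain ⟨lc, hlc⟩ : ∃ lc : ℕ → ℂ,
        lc = fun i => ∏ m ∈ s0.erase i, ((vc k - vc m) / (vc i - vc m)) := ⟨_, rfl⟩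
    obtain ⟨Ev, hEv⟩ : ∃ Ev : ℚ,
        Ev = (Lagrange.interpolate s0 v (fun k => (X k : ℚ))).eval (v k) := ⟨_, rfl⟩
    rw [← hEv]
    have h1 : (Ev : ℂ) = ∑ i ∈ s0, (X i : ℂ) * lc i := by
      rw [hEv, eval_interpolate_eq_sum, hlc]
      push_cast
      refine Finset.sum_congr rfl fun i _ => ?_
      congr 1
      refine Finset.prod_congr rfl fun m _ => ?_
      rw [hv_vc, hv_vc, hv_vc]
    have hQdeg : (P j).degree < s0.card := by
      rw [hs0card]
      exact lt_of_le_of_lt degree_le_natDegree (by exact_mod_cast Nat.lt_succ_of_le (hP j))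
    have h2 : (P j).eval (vc k) = ∑ i ∈ s0, (P j).eval (vc i) * lc i := by
      rw [hlc]
      exact eval_eq_sum_lagrange s0 vc hvc_inj.injOn (P j) hQdeg (vc k)
    have h3 : (X k : ℂ) - (Ev : ℂ) =
        ((X k : ℂ) - (P j).eval (vc k)) - ∑ i ∈ s0, ((X i : ℂ) - (P j).eval (vc i)) * lc i := by
      rw [h1, h2]
      simp only [sub_mul, Finset.sum_sub_distrib]
      ring
    -- integrality
    obtain ⟨ni, hni⟩ : ∃ ni : ℕ → ℤ, ni = fun i : ℕ => ((nd i : ℕ) : ℤ) := ⟨_, rfl⟩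
    have hni_vc : ∀ i, ((ni i : ℤ) : ℂ) = vc i := by
      intro i
      rw [hni, hvc]
      push_cast
      rfl
    have hni_app : ∀ i, ni i = ((nd i : ℕ) : ℤ) := fun i => by rw [hni]
    have hni_inj : Function.Injective ni := by
      rw [hni]
      exact fun a b h => hnd_inj (Nat.cast_injective h)
    obtain ⟨Dd, hDd⟩ : ∃ Dd : ℕ → ℤ, Dd = fun i => ∏ m ∈ s0.erase i, (ni i - ni m) := ⟨_, rfl⟩
    obtain ⟨Nn, hNn⟩ : ∃ Nn : ℕ → ℤ, Nn = fun i => ∏ m ∈ s0.erase i, (ni k - ni m) := ⟨_, rfl⟩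
    obtain ⟨V, hV⟩ : ∃ V : ℤ, V = ∏ i ∈ s0, Dd i := ⟨_, rfl⟩
    have hDne : ∀ i ∈ s0, Dd i ≠ 0 := by
      intro i _
      rw [hDd]
      refine Finset.prod_ne_zero_iff.mpr fun m hm => ?_
      have hmi : m ≠ i := (Finset.mem_erase.mp hm).1
      intro h0
      exact hmi (hni_inj (sub_eq_zero.mp h0)).symm
    have hVne : V ≠ 0 := by
      rw [hV]
      exact Finset.prod_ne_zero_iff.mpr hDne
    have hVl : ∀ i ∈ s0, (V : ℂ) * lc i = (((∏ i' ∈ s0.erase i, Dd i') * Nn i : ℤ) : ℂ) := by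
      intro i hi
      have hVi : V = Dd i * ∏ i' ∈ s0.erase i, Dd i' := by
        rw [hV]
        exact (Finset.mul_prod_erase s0 Dd hi).symm
      have hlci : lc i * (Dd i : ℂ) = (Nn i : ℂ) := by
        rw [hlc, hDd, hNn]
        push_cast
        rw [← Finset.prod_mul_distrib]
        refine Finset.prod_congr rfl fun m hm => ?_
        have hmi : m ≠ i := (Finset.mem_erase.mp hm).1
        have hne : vc i - vc m ≠ 0 := sub_ne_zero.mpr fun h => hmi (hvc_inj h).symm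
        rw [hni_vc, hni_vc, hni_vc, div_mul_cancel₀ _ hne]
      rw [hVi]
      push_cast
      calc ((Dd i : ℂ) * ∏ i' ∈ s0.erase i, (Dd i' : ℂ)) * lc i
          = (∏ i' ∈ s0.erase i, (Dd i' : ℂ)) * (lc i * (Dd i : ℂ)) := by ring
        _ = (∏ i' ∈ s0.erase i, (Dd i' : ℂ)) * (Nn i : ℂ) := by rw [hlci]
    obtain ⟨mz, hmz⟩ : ∃ mz : ℤ,
        mz = V * X k - ∑ i ∈ s0, X i * ((∏ i' ∈ s0.erase i, Dd i') * Nn i) := ⟨_, rfl⟩
    have hmz_eq : (mz : ℂ) = (V : ℂ) * ((X k : ℂ) - (Ev : ℂ)) := by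
      rw [h1, hmz]
      push_cast
      rw [mul_sub, Finset.mul_sum]
      congr 1
      refine Finset.sum_congr rfl fun i hi => ?_
      have h := hVl i hi
      push_cast at h
      rw [show (V : ℂ) * ((X i : ℂ) * lc i) = (X i : ℂ) * ((V : ℂ) * lc i) by ring, h]
    -- sizes
    have hdiff_le : ∀ a b : ℕ, K ≤ a → a ≤ K + B → K ≤ b → b ≤ K + B → ‖vc a - vc b‖ ≤ L := by
      intro a b ha1 ha2 hb1 hb2
      rw [← hni_vc, ← hni_vc, ← Int.cast_sub, Complex.norm_intCast, hL, hni_app, hni_app]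
      have h : |((nd a : ℕ) : ℤ) - ((nd b : ℕ) : ℤ)| ≤ ((M * B + 1 : ℕ) : ℤ) := by
        rw [abs_le]
        rcases le_total a b with hab | hab
        · have h1 := hnd_lip a b hab
          have h2 := hnd_mono hab
          have h3 : M * (b - a) ≤ M * B := Nat.mul_le_mul_left M (by omega)
          constructor <;> push_cast <;> omega
        · have h1 := hnd_lip b a hab
          have h2 := hnd_mono hab
          have h3 : M * (a - b) ≤ M * B := Nat.mul_le_mul_left M (by omega)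
          constructor <;> push_cast <;> omega
      exact_mod_cast h
    have hdiff_ge : ∀ a b : ℕ, a ≠ b → 1 ≤ ‖vc a - vc b‖ := by
      intro a b hab
      rw [← hni_vc, ← hni_vc, ← Int.cast_sub, Complex.norm_intCast]
      have h : (1 : ℤ) ≤ |ni a - ni b| :=
        Int.one_le_abs (sub_ne_zero.mpr fun h => hab (hni_inj h))
      exact_mod_cast h
    have hs0_blk : ∀ i ∈ s0, K ≤ i ∧ i ≤ K + B := fun i hi => hFs_blk i (hs0F hi)
    have hk_blk := hFs_blk k hk
    have hcard_erase : ∀ i ∈ s0, (s0.erase i).card = d := by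
      intro i hi
      rw [Finset.card_erase_of_mem hi, hs0card]
      rfl
    have hlc_le : ∀ i ∈ s0, ‖lc i‖ ≤ L ^ d := by
      intro i hi
      rw [hlc]
      simp only
      rw [norm_prod]
      calc ∏ m ∈ s0.erase i, ‖(vc k - vc m) / (vc i - vc m)‖
          ≤ ∏ _m ∈ s0.erase i, L := by
            refine Finset.prod_le_prod (fun m _ => norm_nonneg _) fun m hm => ?_
            have hm' := Finset.mem_erase.mp hm
            rw [norm_div]
            have h1 := hdiff_le k m hk_blk.1 hk_blk.2 (hs0_blk m hm'.2).1 (hs0_blk m hm'.2).2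
            have h2 := hdiff_ge i m (Ne.symm hm'.1)
            calc ‖vc k - vc m‖ / ‖vc i - vc m‖ ≤ ‖vc k - vc m‖ / 1 :=
                  div_le_div_of_nonneg_left (norm_nonneg _) one_pos h2
              _ ≤ L := by rw [div_one]; exact h1
        _ = L ^ d := by rw [Finset.prod_const, hcard_erase i hi]
    have hV_le : ‖(V : ℂ)‖ ≤ L ^ (d * (d + 1)) := by
      rw [hV]
      push_cast
      rw [norm_prod]
      calc ∏ i ∈ s0, ‖(Dd i : ℂ)‖ ≤ ∏ _i ∈ s0, L ^ d := by
            refine Finset.prod_le_prod (fun i _ => norm_nonneg _) fun i hi => ?_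
            rw [hDd]
            push_cast
            rw [norm_prod]
            calc ∏ m ∈ s0.erase i, ‖((ni i : ℤ) : ℂ) - ((ni m : ℤ) : ℂ)‖
                ≤ ∏ _m ∈ s0.erase i, L := by
                  refine Finset.prod_le_prod (fun m _ => norm_nonneg _) fun m hm => ?_
                  have hm' := Finset.mem_erase.mp hm
                  rw [hni_vc, hni_vc]
                  exact hdiff_le i m (hs0_blk i hi).1 (hs0_blk i hi).2
                    (hs0_blk m hm'.2).1 (hs0_blk m hm'.2).2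
              _ = L ^ d := by rw [Finset.prod_const, hcard_erase i hi]
        _ = L ^ (d * (d + 1)) := by rw [Finset.prod_const, hs0card, ← pow_mul]
    -- the error terms
    obtain ⟨e, he⟩ : ∃ e : ℝ, e = |C| / ((nd K : ℕ) : ℝ) := ⟨_, rfl⟩
    have he0 : 0 ≤ e := by rw [he]; positivity
    have herr : ∀ i ∈ Fs, ‖(X i : ℂ) - (P j).eval (vc i)‖ ≤ e := by
      intro i hi
      have h := hFs_approx i hi
      rw [hvc_app] at h
      have hi1 := (hFs_blk i hi).1
      have hmono : ((nd K : ℕ) : ℝ) ≤ ((nd i : ℕ) : ℝ) := by exact_mod_cast hnd_mono hi1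
      rw [he, le_div_iff₀ hKpos]
      calc ‖(X i : ℂ) - (P j).eval (vc i)‖ * ((nd K : ℕ) : ℝ)
          ≤ ‖(X i : ℂ) - (P j).eval (vc i)‖ * ((nd i : ℕ) : ℝ) :=
            mul_le_mul_of_nonneg_left hmono (norm_nonneg _)
        _ ≤ C := h
        _ ≤ |C| := le_abs_self C
    have hnorm : ‖(X k : ℂ) - (Ev : ℂ)‖ ≤ e * (1 + (d + 1) * L ^ d) := by
      rw [h3]
      calc ‖((X k : ℂ) - (P j).eval (vc k)) - ∑ i ∈ s0, ((X i : ℂ) - (P j).eval (vc i)) * lc i‖
          ≤ ‖(X k : ℂ) - (P j).eval (vc k)‖ +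
              ‖∑ i ∈ s0, ((X i : ℂ) - (P j).eval (vc i)) * lc i‖ := norm_sub_le _ _
        _ ≤ e + ∑ i ∈ s0, ‖((X i : ℂ) - (P j).eval (vc i)) * lc i‖ :=
            add_le_add (herr k hk) (norm_sum_le _ _)
        _ ≤ e + ∑ _i ∈ s0, e * L ^ d := by
            refine add_le_add le_rfl (Finset.sum_le_sum fun i hi => ?_)
            rw [norm_mul]
            exact mul_le_mul (herr i (hs0F hi)) (hlc_le i hi) (norm_nonneg _) he0
        _ = e * (1 + (d + 1) * L ^ d) := by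
            rw [Finset.sum_const, hs0card, nsmul_eq_mul]
            push_cast
            ring
    have hmz_lt : ‖(mz : ℂ)‖ < 1 := by
      rw [hmz_eq, norm_mul]
      calc ‖(V : ℂ)‖ * ‖(X k : ℂ) - (Ev : ℂ)‖
          ≤ L ^ (d * (d + 1)) * (e * (1 + (d + 1) * L ^ d)) :=
            mul_le_mul hV_le hnorm (norm_nonneg _) (by positivity)
        _ = L ^ (d * (d + 1)) * (|C| * (1 + (d + 1) * L ^ d)) / ((nd K : ℕ) : ℝ) := by
            rw [he]
            ring
        _ < 1 := by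
            rw [div_lt_one hKpos]
            exact hKbig
    have hmz0 : mz = 0 := by
      rw [Complex.norm_intCast] at hmz_lt
      have h : |mz| < 1 := by exact_mod_cast hmz_lt
      exact Int.abs_lt_one_iff.mp h
    rw [hmz0, Int.cast_zero] at hmz_eq
    have hfin : (X k : ℂ) - (Ev : ℂ) = 0 := by
      rcases mul_eq_zero.mp hmz_eq.symm with h | h
      · exact absurd (by exact_mod_cast h) hVne
      · exact h
    have hfin2 : ((Ev : ℚ) : ℂ) = (((X k : ℤ) : ℚ) : ℂ) := by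
      push_cast
      exact (sub_eq_zero.mp hfin).symm
    exact_mod_cast hfin2

/-- **Doerge-lite interpolation step**, nodes `n_k = 1 + M k`. -/
theorem exists_rat_poly_of_approx {κ : Type*} [Fintype κ] (M : ℕ) (hM : 0 < M) (d : ℕ)
    (X : ℕ → ℤ) (P : κ → ℂ[X]) (hP : ∀ j, (P j).natDegree ≤ d) (C : ℝ) (k0 : ℕ)
    (hX : ∀ k, k0 ≤ k → ∃ j,
      ‖(X k : ℂ) - (P j).eval ((1 + M * k : ℕ) : ℂ)‖ * ((1 + M * k : ℕ) : ℝ) ≤ C)
    (T : ℕ) :
    ∃ Pq : ℚ[X], Pq.natDegree ≤ d ∧ ∃ S : Finset ℕ, T ≤ S.card ∧ (∀ k ∈ S, k0 ≤ k) ∧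
      ∀ k ∈ S, Pq.eval ((1 + M * k : ℕ) : ℚ) = (X k : ℚ) := by
  refine exists_rat_poly_of_approx_aux M (fun k => 1 + M * k) ?_ ?_ ?_ ?_ d X P hP C k0 hX T
  · intro a b h
    simp only at h
    exact Nat.eq_of_mul_eq_mul_left hM (by omega)
  · intro a b h
    show 1 + M * a ≤ 1 + M * b
    have := Nat.mul_le_mul_left M h
    omega
  · intro k
    show k ≤ 1 + M * k
    have := Nat.le_mul_of_pos_left k hM
    omega
  · intro a b h
    show 1 + M * b ≤ 1 + M * a + M * (b - a)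
    have : M * b = M * a + M * (b - a) := by
      rw [← Nat.mul_add]
      congr 1
      omega
    omega

end Main

end Fermat.Agent.S52.H43
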