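import Mathlib
import Fermat.Agent.S52.Interp_helper43

/-!
# S52, node G2 full (helper43): integer roots along `n = 1 + M k` force a polynomial root

`q : ℂ[ε][x]`.  Suppose the roots of `q(·, ε)` for small `ε` are approximated to order `d + 1` by
finitely many polynomials `Pi_j(ε)` of degree `≤ d` (the conclusion of node G1), and that for all
large `k` (with `n = 1 + M k`) there is an integer `X` such that `X / n ^ d` is a root of
`q(·, M / n)`.  Then `q` has a root `Rq ∈ ℚ[ε]` of degree `≤ d`: `q(Rq(ε), ε) = 0` identically.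
-/

open Polynomial

namespace Fermat.Agent.S52.H43

section RevScale

variable {F : Type*} [Field F]

/-- `revScale d M P (n) = n ^ d * P (M / n)` (for `natDegree P ≤ d`). -/
noncomputable def revScale (d : ℕ) (M : F) (P : F[X]) : F[X] :=
  ∑ i ∈ Finset.range (d + 1), C (P.coeff i * M ^ i) * X ^ (d - i)

theorem natDegree_revScale_le (d : ℕ) (M : F) (P : F[X]) : (revScale d M P).natDegree ≤ d := by
  refine natDegree_sum_le_of_forall_le _ _ (fun i _ => ?_)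
  refine (natDegree_C_mul_le _ _).trans ?_
  rw [natDegree_X_pow]
  exact Nat.sub_le d i

theorem eval_revScale (d : ℕ) (M : F) (P : F[X]) (hP : P.natDegree ≤ d) (n : F) (hn : n ≠ 0) :
    (revScale d M P).eval n = n ^ d * P.eval (M / n) := by
  rw [revScale, eval_finsetSum, eval_eq_sum_range' (Nat.lt_succ_of_le hP), Finset.mul_sum]
  refine Finset.sum_congr rfl fun i hi => ?_
  have hi' : i ≤ d := Nat.lt_succ_iff.mp (Finset.mem_range.mp hi)
  rw [eval_mul, eval_C, eval_pow, eval_X, div_pow]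
  have h1 : n ^ d = n ^ (d - i) * n ^ i := by rw [← pow_add, Nat.sub_add_cancel hi']
  have h2 : n ^ i ≠ 0 := pow_ne_zero _ hn
  rw [h1]
  field_simp

end RevScale

/-- evaluation of a bivariate polynomial at a polynomial point, then specialisation. -/
theorem eval_eval_eq_map_eval (q : Polynomial (Polynomial ℂ)) (p : Polynomial ℂ) (ε : ℂ) :
    (q.eval p).eval ε = (q.map (Polynomial.evalRingHom ε)).eval (p.eval ε) := by
  rw [eval_map]
  have h := hom_eval₂ q (RingHom.id (Polynomial ℂ)) (evalRingHom ε) p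
  rw [eval₂_id, RingHom.comp_id, coe_evalRingHom] at h
  exact h

/-- degree bound for `q(Rq(ε), ε)`. -/
theorem natDegree_eval_le (q : Polynomial (Polynomial ℂ)) (p : Polynomial ℂ) (d : ℕ)
    (hp : p.natDegree ≤ d) :
    (q.eval p).natDegree ≤
      (Finset.range (q.natDegree + 1)).sup (fun i => (q.coeff i).natDegree) + q.natDegree * d := by
  rw [eval_eq_sum_range]
  refine natDegree_sum_le_of_forall_le _ _ (fun i hi => ?_)
  have hi' : i ≤ q.natDegree := Nat.lt_succ_iff.mp (Finset.mem_range.mp hi)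
  refine natDegree_mul_le.trans ?_
  refine add_le_add ?_ ?_
  · exact Finset.le_sup (f := fun i => (q.coeff i).natDegree) hi
  · refine (natDegree_pow_le_of_le i hp).trans ?_
    exact Nat.mul_le_mul_right d hi'

/-- **G2 full.**  Integer roots along `n = 1 + M k` (for all large `k`) plus the order-`d + 1`
polynomial approximation of the roots near `ε = 0` give a rational polynomial root. -/
theorem exists_poly_root_of_int_roots (q : Polynomial (Polynomial ℂ)) (d : ℕ) (M : ℕ) (hM : 0 < M)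
    (hG1 : ∃ (J : ℕ) (Pi : Fin J → Polynomial ℂ) (C δ : ℝ), 0 < δ ∧ (∀ j, (Pi j).natDegree ≤ d) ∧
      ∀ ε : ℂ, ‖ε‖ < δ → ∀ x : ℂ, (q.map (Polynomial.evalRingHom ε)).IsRoot x →
        ∃ j, ‖x - (Pi j).eval ε‖ ≤ C * ‖ε‖ ^ (d + 1))
    (k0 : ℕ)
    (hroot : ∀ k, k0 ≤ k → ∃ X : ℤ,
      (q.map (Polynomial.evalRingHom ((M : ℂ) / ((1 + M * k : ℕ) : ℂ)))).IsRoot
        ((X : ℂ) / ((1 + M * k : ℕ) : ℂ) ^ d)) :
    ∃ Rq : Polynomial ℚ, Rq.natDegree ≤ d ∧ q.eval (Rq.map (algebraMap ℚ ℂ)) = 0 := by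
  classical
  obtain ⟨J, Pi, Cc, δ, hδ, hPi, happ⟩ := hG1
  -- the integer roots
  obtain ⟨Xf, hXf⟩ : ∃ Xf : ℕ → ℤ, ∀ k, k0 ≤ k →
      (q.map (Polynomial.evalRingHom ((M : ℂ) / ((1 + M * k : ℕ) : ℂ)))).IsRoot
        ((Xf k : ℂ) / ((1 + M * k : ℕ) : ℂ) ^ d) := by
    refine ⟨fun k => if h : k0 ≤ k then (hroot k h).choose else 0, fun k hk => ?_⟩
    simp only [dif_pos hk]
    exact (hroot k hk).choose_spec
  -- threshold
  obtain ⟨k1, hk1, hk1δ⟩ : ∃ k1 : ℕ, k0 ≤ k1 ∧ ∀ k, k1 ≤ k →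
      ‖(M : ℂ) / ((1 + M * k : ℕ) : ℂ)‖ < δ := by
    obtain ⟨m, hm⟩ := exists_nat_gt (1 / δ)
    refine ⟨max k0 (m + 1), le_max_left _ _, fun k hk => ?_⟩
    have hkm : m + 1 ≤ k := (le_max_right _ _).trans hk
    have hkpos : (0 : ℝ) < k := by exact_mod_cast (by omega : 0 < k)
    have hMpos : (0 : ℝ) < M := by exact_mod_cast hM
    rw [norm_div, Complex.norm_natCast, Complex.norm_natCast]
    have hn : (0 : ℝ) < ((1 + M * k : ℕ) : ℝ) := by positivity
    rw [div_lt_iff₀ hn]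
    have h1 : 1 / δ < k := hm.trans (by exact_mod_cast (by omega : m < k))
    have h2 : 1 < δ * k := by
      rw [div_lt_iff₀ hδ] at h1
      linarith
    push_cast
    nlinarith
  -- the approximating polynomials in `n`
  have hXapp : ∀ k, k1 ≤ k → ∃ j,
      ‖(Xf k : ℂ) - (revScale d (M : ℂ) (Pi j)).eval ((1 + M * k : ℕ) : ℂ)‖ *
        ((1 + M * k : ℕ) : ℝ) ≤ Cc * (M : ℝ) ^ (d + 1) := by
    intro k hk
    obtain ⟨j, hj⟩ := happ _ (hk1δ k hk) _ (hXf k (hk1.trans hk))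
    refine ⟨j, ?_⟩
    obtain ⟨n, hn⟩ : ∃ n : ℕ, n = 1 + M * k := ⟨_, rfl⟩
    rw [← hn] at hj ⊢
    have hnpos : 0 < n := by omega
    have hnR : (0 : ℝ) < (n : ℝ) := by exact_mod_cast hnpos
    have hnC : (n : ℂ) ≠ 0 := by exact_mod_cast hnpos.ne'
    rw [eval_revScale d (M : ℂ) (Pi j) (hPi j) (n : ℂ) hnC]
    have h1 : (Xf k : ℂ) - (n : ℂ) ^ d * (Pi j).eval ((M : ℂ) / (n : ℂ)) =
        (n : ℂ) ^ d * ((Xf k : ℂ) / (n : ℂ) ^ d - (Pi j).eval ((M : ℂ) / (n : ℂ))) := by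
      field_simp
    rw [h1, norm_mul, norm_pow, Complex.norm_natCast]
    rw [norm_div, Complex.norm_natCast, Complex.norm_natCast] at hj
    calc (n : ℝ) ^ d * ‖(Xf k : ℂ) / (n : ℂ) ^ d - (Pi j).eval ((M : ℂ) / (n : ℂ))‖ * (n : ℝ)
        ≤ (n : ℝ) ^ d * (Cc * ((M : ℝ) / (n : ℝ)) ^ (d + 1)) * (n : ℝ) := by
          gcongr
      _ = Cc * (M : ℝ) ^ (d + 1) := by
          rw [div_pow]
          field_simp
          ring
  -- number of points
  obtain ⟨B, hB⟩ : ∃ B : ℕ, B =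
      (Finset.range (q.natDegree + 1)).sup (fun i => (q.coeff i).natDegree) + q.natDegree * d :=
    ⟨_, rfl⟩
  obtain ⟨Pq, hPq, S, hS, hSk, hSv⟩ :=
    exists_rat_poly_of_approx M hM d Xf (fun j => revScale d (M : ℂ) (Pi j))
      (fun j => natDegree_revScale_le d _ _) (Cc * (M : ℝ) ^ (d + 1)) k1 hXapp (B + 1)
  -- the rational polynomial root
  have hMQ : (M : ℚ) ≠ 0 := by exact_mod_cast hM.ne'
  obtain ⟨Rq, hR⟩ : ∃ Rq : ℚ[X], Rq = C (((M : ℚ) ^ d)⁻¹) * revScale d (M : ℚ) Pq := ⟨_, rfl⟩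
  have hRdeg : Rq.natDegree ≤ d := by
    rw [hR]
    exact (natDegree_C_mul_le _ _).trans (natDegree_revScale_le d _ _)
  have hReval : ∀ k ∈ S, Rq.eval ((M : ℚ) / ((1 + M * k : ℕ) : ℚ)) =
      (Xf k : ℚ) / ((1 + M * k : ℕ) : ℚ) ^ d := by
    intro k hk
    have hv := hSv k hk
    obtain ⟨n, hn⟩ : ∃ n : ℕ, n = 1 + M * k := ⟨_, rfl⟩
    rw [← hn] at hv ⊢
    have hnpos : 0 < n := by omega
    have hnQ : (n : ℚ) ≠ 0 := by exact_mod_cast hnpos.ne'
    have hε : (M : ℚ) / (n : ℚ) ≠ 0 := div_ne_zero hMQ hnQ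
    rw [hR, eval_mul, eval_C, eval_revScale d (M : ℚ) Pq hPq _ hε]
    have h2 : (M : ℚ) / ((M : ℚ) / (n : ℚ)) = (n : ℚ) := by field_simp
    rw [h2, hv, div_pow]
    field_simp
  refine ⟨Rq, hRdeg, ?_⟩
  -- `q(Rq(ε), ε)` has more roots than its degree
  obtain ⟨G, hG⟩ : ∃ G : ℂ[X], G = q.eval (Rq.map (algebraMap ℚ ℂ)) := ⟨_, rfl⟩
  rw [← hG]
  have hGdeg : G.natDegree ≤ B := by
    rw [hG, hB]
    exact natDegree_eval_le q _ d ((natDegree_map_le).trans hRdeg)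
  have hinj : Set.InjOn (fun k : ℕ => (M : ℂ) / ((1 + M * k : ℕ) : ℂ)) (S : Set ℕ) := by
    intro a _ b _ hab
    simp only at hab
    have hMC : (M : ℂ) ≠ 0 := by exact_mod_cast hM.ne'
    have ha : ((1 + M * a : ℕ) : ℂ) ≠ 0 := by exact_mod_cast (by omega : 1 + M * a ≠ 0)
    have hb : ((1 + M * b : ℕ) : ℂ) ≠ 0 := by exact_mod_cast (by omega : 1 + M * b ≠ 0)
    rw [div_eq_div_iff ha hb] at hab
    have h3 : ((1 + M * b : ℕ) : ℂ) = ((1 + M * a : ℕ) : ℂ) := mul_left_cancel₀ hMC hab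
    have h4 : 1 + M * b = 1 + M * a := by exact_mod_cast h3
    exact (Nat.eq_of_mul_eq_mul_left hM (by omega)).symm
  refine eq_zero_of_natDegree_lt_card_of_eval_eq_zero' G
    (S.image (fun k : ℕ => (M : ℂ) / ((1 + M * k : ℕ) : ℂ))) ?_ ?_
  · intro x hx
    obtain ⟨k, hk, rfl⟩ := Finset.mem_image.mp hx
    rw [hG, eval_eval_eq_map_eval, eval_map_algebraMap]
    have h5 : (aeval ((M : ℂ) / ((1 + M * k : ℕ) : ℂ))) Rq =
        (Xf k : ℂ) / ((1 + M * k : ℕ) : ℂ) ^ d := by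
      have h7 : (M : ℂ) / ((1 + M * k : ℕ) : ℂ) =
          algebraMap ℚ ℂ ((M : ℚ) / ((1 + M * k : ℕ) : ℚ)) := by
        rw [map_div₀, map_natCast, map_natCast]
      rw [h7, aeval_algebraMap_apply, coe_aeval_eq_eval, hReval k hk, map_div₀, map_pow,
        map_natCast, map_intCast]
    rw [h5]
    exact hXf k ((hk1.trans (hSk k hk)))
  · rw [Finset.card_image_of_injOn hinj]
    omega

end Fermat.Agent.S52.H43
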