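import Mathlib

/-!
S52, node G3 (NoPolyRoot), interface-free core (helper48).

`K` algebraically closed of characteristic zero, `C4 C6 D Th : K[X]`, `kap ≠ 0` with
* `C4 ^ 3 - C6 ^ 2 = C kap * D ^ 5`                    (F1, dehomogenised)
* `C4 * derivative D - 12 * C6 = Th * D`               (F3)
* `C4` does not vanish at the roots of `D`, and `11 ≤ natDegree D`.
Then every polynomial root `Pi` (of degree at most 10) of the quartic
`x ^ 4 - 6 * C4 * x ^ 2 - 8 * C6 * x - 3 * C4 ^ 2` satisfies `4 * Pi = derivative D`.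
-/

set_option autoImplicit false

open Polynomial

namespace Fermat.Agent.S52.H48

variable {K : Type*} [Field K]

/-- The identity `C4^4 q(P) = N^3 (N - 4 C6) - dl (4 C6^2 - 4 C6 N + 6 N^2 + 3 dl)`,
`N = C4 P + C6`, `dl = C4^3 - C6^2`. -/
lemma quartic_identity {R : Type*} [CommRing R] (C4 C6 P : R) :
    C4 ^ 4 * (P ^ 4 - 6 * C4 * P ^ 2 - 8 * C6 * P - 3 * C4 ^ 2) =
      (C4 * P + C6) ^ 3 * ((C4 * P + C6) - 4 * C6) -
        (C4 ^ 3 - C6 ^ 2) * (4 * C6 ^ 2 - 4 * C6 * (C4 * P + C6) + 6 * (C4 * P + C6) ^ 2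
          + 3 * (C4 ^ 3 - C6 ^ 2)) := by
  ring

lemma rootMultiplicity_pow_of_ne_zero {p : K[X]} (hp : p ≠ 0) (c : K) (n : ℕ) :
    rootMultiplicity c (p ^ n) = n * rootMultiplicity c p := by
  induction n with
  | zero => simp
  | succ n ih =>
    rw [pow_succ, rootMultiplicity_mul (mul_ne_zero (pow_ne_zero n hp) hp), ih]
    ring

/-- Local analysis at a root `c` of `D`. -/
lemma eval_root [CharZero K] (C4 C6 D Th Pi : K[X]) (kap : K) (hk : kap ≠ 0)
    (hF1 : C4 ^ 3 - C6 ^ 2 = C kap * D ^ 5)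
    (hF3 : C4 * derivative D - 12 * C6 = Th * D)
    (hC4 : ∀ c, D.IsRoot c → C4.eval c ≠ 0) (hD0 : D ≠ 0)
    (hroot : Pi ^ 4 - 6 * C4 * Pi ^ 2 - 8 * C6 * Pi - 3 * C4 ^ 2 = 0)
    (c : K) (hc : D.IsRoot c) :
    (derivative D).eval c = 4 * Pi.eval c ∧ rootMultiplicity c D = 1 := by
  have hDc : D.eval c = 0 := hc
  have h4 : C4.eval c ≠ 0 := hC4 c hc
  have e1 : C4.eval c ^ 3 - C6.eval c ^ 2 = 0 := by
    have := congrArg (eval c) hF1
    simp only [eval_sub, eval_pow, eval_mul, eval_C, hDc] at this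
    rw [this]; ring
  have h6 : C6.eval c ≠ 0 := by
    intro h0
    rw [h0] at e1
    have h : C4.eval c ^ 3 = 0 := by linear_combination e1
    exact h4 (pow_eq_zero_iff (by norm_num) |>.mp h)
  have e3 : C4.eval c * (derivative D).eval c - 12 * C6.eval c = 0 := by
    have := congrArg (eval c) hF3
    simp only [eval_sub, eval_mul, hDc, mul_zero, eval_ofNat] at this
    exact this
  have hD' : (derivative D).eval c ≠ 0 := by
    intro h0
    rw [h0, mul_zero, zero_sub, neg_eq_zero] at e3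
    have h12 : (12 : K) ≠ 0 := by norm_num
    exact h6 ((mul_eq_zero.mp e3).resolve_left h12)
  have hmult : rootMultiplicity c D = 1 := by
    have h1 : 0 < rootMultiplicity c D := (rootMultiplicity_pos hD0).mpr hc
    have h2 : ¬ 1 < rootMultiplicity c D := by
      rw [one_lt_rootMultiplicity_iff_isRoot hD0]
      exact fun h => hD' h.2
    omega
  refine ⟨?_, hmult⟩
  obtain ⟨N, hN⟩ : ∃ N : K[X], N = C4 * Pi + C6 := ⟨_, rfl⟩
  obtain ⟨Br, hBr⟩ : ∃ Br : K[X], Br = 4 * C6 ^ 2 - 4 * C6 * N + 6 * N ^ 2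
      + 3 * (C4 ^ 3 - C6 ^ 2) := ⟨_, rfl⟩
  have E : N ^ 3 * (N - 4 * C6) = C kap * D ^ 5 * Br := by
    have h := quartic_identity C4 C6 Pi
    rw [hroot, mul_zero] at h
    rw [← hF1, hBr, hN]
    linear_combination -h
  have hNc' : N.eval c = C4.eval c * Pi.eval c + C6.eval c := by
    rw [hN]; simp
  have Ec : N.eval c ^ 3 * (N.eval c - 4 * C6.eval c) = 0 := by
    have := congrArg (eval c) E
    simp only [eval_mul, eval_pow, eval_sub, eval_C, hDc, eval_ofNat] at this
    rw [this]; ring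
  have hNc : N.eval c = 4 * C6.eval c := by
    rcases mul_eq_zero.mp Ec with h | h
    · exfalso
      have hN0 : N.eval c = 0 := pow_eq_zero_iff (by norm_num) |>.mp h
      have hBrc : Br.eval c = 4 * C6.eval c ^ 2 := by
        rw [hBr]
        simp only [eval_add, eval_sub, eval_mul, eval_pow, eval_ofNat, hN0]
        linear_combination 3 * e1
      have hBrc0 : Br.eval c ≠ 0 := by
        rw [hBrc]
        exact mul_ne_zero (by norm_num) (pow_ne_zero 2 h6)
      have hBr0 : Br ≠ 0 := fun h0 => hBrc0 (by rw [h0]; simp)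
      have hN4c : (N - 4 * C6).eval c ≠ 0 := by
        simp only [eval_sub, eval_mul, eval_ofNat, hN0, zero_sub, neg_ne_zero]
        exact mul_ne_zero (by norm_num) h6
      have hkapC : (C kap : K[X]) ≠ 0 := C_ne_zero.mpr hk
      have hR0 : C kap * D ^ 5 * Br ≠ 0 :=
        mul_ne_zero (mul_ne_zero hkapC (pow_ne_zero 5 hD0)) hBr0
      have hL0 : N ^ 3 * (N - 4 * C6) ≠ 0 := by rw [E]; exact hR0
      have hNne : N ≠ 0 := fun h0 => hL0 (by rw [h0]; simp)
      have mL : rootMultiplicity c (N ^ 3 * (N - 4 * C6)) = 3 * rootMultiplicity c N := by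
        rw [rootMultiplicity_mul hL0, rootMultiplicity_pow_of_ne_zero hNne,
          rootMultiplicity_eq_zero (p := N - 4 * C6) (x := c) hN4c, add_zero]
      have mR : rootMultiplicity c (C kap * D ^ 5 * Br) = 5 := by
        rw [rootMultiplicity_mul hR0, rootMultiplicity_mul (mul_ne_zero hkapC (pow_ne_zero 5 hD0)),
          rootMultiplicity_C, rootMultiplicity_pow_of_ne_zero hD0, hmult,
          rootMultiplicity_eq_zero (p := Br) (x := c) hBrc0]
      rw [E, mR] at mL
      omega
    · linear_combination h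
  have hN' : C4.eval c * Pi.eval c = 3 * C6.eval c := by
    linear_combination hNc - hNc'
  have hfin : C4.eval c * ((derivative D).eval c - 4 * Pi.eval c) = 0 := by
    linear_combination e3 - 4 * hN'
  exact sub_eq_zero.mp ((mul_eq_zero.mp hfin).resolve_left h4)

/-- **G3 core**: a polynomial root of degree `≤ 10` of the quartic must be `derivative D / 4`. -/
theorem four_mul_eq_derivative [IsAlgClosed K] [CharZero K] (C4 C6 D Th Pi : K[X]) (kap : K)
    (hk : kap ≠ 0)
    (hF1 : C4 ^ 3 - C6 ^ 2 = C kap * D ^ 5)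
    (hF3 : C4 * derivative D - 12 * C6 = Th * D)
    (hC4 : ∀ c, D.IsRoot c → C4.eval c ≠ 0) (hdeg : 11 ≤ D.natDegree)
    (hPi : Pi.natDegree ≤ 10)
    (hroot : Pi ^ 4 - 6 * C4 * Pi ^ 2 - 8 * C6 * Pi - 3 * C4 ^ 2 = 0) :
    4 * Pi = derivative D := by
  classical
  have hD0 : D ≠ 0 := by
    rintro rfl
    simp at hdeg
  have key := eval_root C4 C6 D Th Pi kap hk hF1 hF3 hC4 hD0 hroot
  have hnodup : D.roots.Nodup := by
    rw [Multiset.nodup_iff_count_le_one]
    intro c
    rw [count_roots]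
    by_cases hc : D.IsRoot c
    · rw [(key c hc).2]
    · rw [rootMultiplicity_eq_zero hc]; omega
  have hcard : D.roots.toFinset.card = D.natDegree := by
    rw [Multiset.toFinset_card_of_nodup hnodup, IsAlgClosed.card_roots_eq_natDegree]
  have hz : 4 * Pi - derivative D = 0 := by
    apply eq_zero_of_natDegree_lt_card_of_eval_eq_zero' _ D.roots.toFinset
    · intro c hc
      have hc' : D.IsRoot c := by
        rw [Multiset.mem_toFinset, mem_roots hD0] at hc
        exact hc
      simp only [eval_sub, eval_mul, eval_ofNat, (key c hc').1, sub_self]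
    · rw [hcard]
      have h1 : (4 * Pi).natDegree ≤ 10 := by
        have h4 : (4 : K[X]) = C 4 := (map_ofNat C 4).symm
        rw [h4]
        exact (natDegree_C_mul_le _ _).trans hPi
      have h2 : (derivative D).natDegree ≤ D.natDegree - 1 := natDegree_derivative_le D
      have h3 := natDegree_sub_le (4 * Pi) (derivative D)
      omega
  exact sub_eq_zero.mp hz

/-- **G3 core**, contradiction form: if `derivative D / 4` is not a root of the quartic
(cleared of denominators), the quartic has no polynomial root of degree `≤ 10`. -/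
theorem no_poly_root [IsAlgClosed K] [CharZero K] (C4 C6 D Th Pi : K[X]) (kap : K)
    (hk : kap ≠ 0)
    (hF1 : C4 ^ 3 - C6 ^ 2 = C kap * D ^ 5)
    (hF3 : C4 * derivative D - 12 * C6 = Th * D)
    (hC4 : ∀ c, D.IsRoot c → C4.eval c ≠ 0) (hdeg : 11 ≤ D.natDegree)
    (hne : (derivative D) ^ 4 - 96 * C4 * (derivative D) ^ 2 - 512 * C6 * derivative D
      - 768 * C4 ^ 2 ≠ 0)
    (hPi : Pi.natDegree ≤ 10)
    (hroot : Pi ^ 4 - 6 * C4 * Pi ^ 2 - 8 * C6 * Pi - 3 * C4 ^ 2 = 0) : False := by
  have h := four_mul_eq_derivative C4 C6 D Th Pi kap hk hF1 hF3 hC4 hdeg hPi hroot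
  apply hne
  rw [← h]
  linear_combination 256 * hroot

end Fermat.Agent.S52.H48
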