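import Mathlib
import Fermat.Agent.S52.Approx_helper51
import Fermat.Agent.S52.NoPolyRoot_helper48
import Fermat.Agent.S52.InterpFull_helper43

/-!
# S52, block G (HIT) assembled in interface-free form (helper43)

For `C4 C6 : ℂ[ε]` let `q = x^4 - 6 C4 x^2 - 8 C6 x - 3 C4^2`.  If `q(·, 0)` is separable
(`C4(0)^3 ≠ C6(0)^2`) and `q` has no polynomial root of degree `≤ d`, then for every `M > 0`
there are arbitrarily large `k` such that, with `n = 1 + M k`, the integer quartic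
`X^4 - 6 c4' X^2 - 8 c6' X - 3 c4'^2` with `c4' = n^(2d) C4(M/n)`, `c6' = n^(3d) C6(M/n)`
has no integer root.  (G1 = `H51.exists_approx_roots`, G2 = `exists_poly_root_of_int_roots`,
G3 = `H48.no_poly_root`.)
-/

open Polynomial

namespace Fermat.Agent.S52.H43

/-- the quartic `x^4 - 6 C4 x^2 - 8 C6 x - 3 C4^2` as a polynomial in `x` over `R[ε]`. -/
noncomputable def quarticQ {R : Type*} [CommRing R] (C4 C6 : R[X]) : R[X][X] :=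
  X ^ 4 - C (6 * C4) * X ^ 2 - C (8 * C6) * X - C (3 * C4 ^ 2)

theorem eval_quarticQ {R : Type*} [CommRing R] (C4 C6 p : R[X]) :
    (quarticQ C4 C6).eval p = p ^ 4 - 6 * C4 * p ^ 2 - 8 * C6 * p - 3 * C4 ^ 2 := by
  simp [quarticQ]

theorem eval_map_quarticQ {R : Type*} [CommRing R] (C4 C6 : R[X]) (ε x : R) :
    ((quarticQ C4 C6).map (evalRingHom ε)).eval x =
      x ^ 4 - 6 * C4.eval ε * x ^ 2 - 8 * C6.eval ε * x - 3 * C4.eval ε ^ 2 := by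
  simp [quarticQ]

theorem quarticQ_monic (C4 C6 : ℂ[X]) : (quarticQ C4 C6).Monic := by
  have h : quarticQ C4 C6 =
      X ^ 4 - (C (6 * C4) * X ^ 2 + C (8 * C6) * X + C (3 * C4 ^ 2)) := by
    unfold quarticQ; ring
  rw [h]
  refine Monic.sub_of_left (monic_X_pow 4) ?_
  rw [degree_X_pow]
  refine lt_of_le_of_lt (b := (2 : WithBot ℕ)) ?_ (by norm_num)
  compute_degree

/-- (B2): the quartic `x^4 - 6 c4 x^2 - 8 c6 x - 3 c4^2` is separable when `c4^3 ≠ c6^2`. -/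
theorem quartic_separable (c4 c6 : ℂ) (h : c4 ^ 3 ≠ c6 ^ 2) :
    (X ^ 4 - 6 * C c4 * X ^ 2 - 8 * C c6 * X - 3 * C c4 ^ 2 : ℂ[X]).Separable := by
  rw [separable_def]
  have hd : derivative (X ^ 4 - 6 * C c4 * X ^ 2 - 8 * C c6 * X - 3 * C c4 ^ 2 : ℂ[X]) =
      4 * X ^ 3 - 12 * C c4 * X - 8 * C c6 := by
    simp only [derivative_sub, derivative_mul, derivative_C, derivative_X, derivative_pow,
      derivative_ofNat]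
    simp only [Nat.cast_ofNat, C_ofNat]
    ring
  rw [hd]
  have hκ : (48 * (c4 ^ 3 - c6 ^ 2) : ℂ) ≠ 0 :=
    mul_ne_zero (by norm_num) (sub_ne_zero.mpr h)
  refine ⟨C ((48 * (c4 ^ 3 - c6 ^ 2))⁻¹) * (4 * X ^ 2 - 16 * C c4),
    C ((48 * (c4 ^ 3 - c6 ^ 2))⁻¹) * (6 * C c6 + 7 * C c4 * X - X ^ 3), ?_⟩
  have key : (4 * X ^ 2 - 16 * C c4) *
        (X ^ 4 - 6 * C c4 * X ^ 2 - 8 * C c6 * X - 3 * C c4 ^ 2 : ℂ[X]) +
      (6 * C c6 + 7 * C c4 * X - X ^ 3) * (4 * X ^ 3 - 12 * C c4 * X - 8 * C c6) =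
      C (48 * (c4 ^ 3 - c6 ^ 2)) := by
    have : (C (48 * (c4 ^ 3 - c6 ^ 2)) : ℂ[X]) = 48 * (C c4 ^ 3 - C c6 ^ 2) := by
      rw [C_mul, C_sub, C_pow, C_pow]; rfl
    rw [this]
    ring
  calc C ((48 * (c4 ^ 3 - c6 ^ 2))⁻¹) * (4 * X ^ 2 - 16 * C c4) *
          (X ^ 4 - 6 * C c4 * X ^ 2 - 8 * C c6 * X - 3 * C c4 ^ 2 : ℂ[X]) +
        C ((48 * (c4 ^ 3 - c6 ^ 2))⁻¹) * (6 * C c6 + 7 * C c4 * X - X ^ 3) *
          (4 * X ^ 3 - 12 * C c4 * X - 8 * C c6)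
      = C ((48 * (c4 ^ 3 - c6 ^ 2))⁻¹) * ((4 * X ^ 2 - 16 * C c4) *
          (X ^ 4 - 6 * C c4 * X ^ 2 - 8 * C c6 * X - 3 * C c4 ^ 2 : ℂ[X]) +
        (6 * C c6 + 7 * C c4 * X - X ^ 3) * (4 * X ^ 3 - 12 * C c4 * X - 8 * C c6)) := by ring
    _ = 1 := by rw [key, ← C_mul, inv_mul_cancel₀ hκ, C_1]

theorem map_zero_quarticQ (C4 C6 : ℂ[X]) :
    (quarticQ C4 C6).map (evalRingHom (0 : ℂ)) =
      X ^ 4 - 6 * C (C4.eval 0) * X ^ 2 - 8 * C (C6.eval 0) * X - 3 * C (C4.eval 0) ^ 2 := by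
  simp [quarticQ, C_ofNat]

theorem quarticQ_separable (C4 C6 : ℂ[X]) (h : C4.eval 0 ^ 3 ≠ C6.eval 0 ^ 2) :
    ((quarticQ C4 C6).map (evalRingHom (0 : ℂ))).Separable := by
  rw [map_zero_quarticQ]
  exact quartic_separable _ _ h

/-- **Block G, G1 + G2 composed**: integer roots of the rescaled quartics for all large `k`
force a rational polynomial root of degree `≤ d`. -/
theorem exists_poly_root_quartic (C4 C6 : ℂ[X]) (d : ℕ) (hsep : C4.eval 0 ^ 3 ≠ C6.eval 0 ^ 2)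
    (M : ℕ) (hM : 0 < M) (k0 : ℕ)
    (hroot : ∀ k, k0 ≤ k → ∃ X c4' c6' : ℤ,
      (c4' : ℂ) = ((1 + M * k : ℕ) : ℂ) ^ (2 * d) *
        C4.eval ((M : ℂ) / ((1 + M * k : ℕ) : ℂ)) ∧
      (c6' : ℂ) = ((1 + M * k : ℕ) : ℂ) ^ (3 * d) *
        C6.eval ((M : ℂ) / ((1 + M * k : ℕ) : ℂ)) ∧
      X ^ 4 - 6 * c4' * X ^ 2 - 8 * c6' * X - 3 * c4' ^ 2 = 0) :
    ∃ Rq : ℚ[X], Rq.natDegree ≤ d ∧
      (Rq.map (algebraMap ℚ ℂ)) ^ 4 - 6 * C4 * (Rq.map (algebraMap ℚ ℂ)) ^ 2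
        - 8 * C6 * (Rq.map (algebraMap ℚ ℂ)) - 3 * C4 ^ 2 = 0 := by
  have hroot' : ∀ k, k0 ≤ k → ∃ X : ℤ,
      ((quarticQ C4 C6).map (Polynomial.evalRingHom ((M : ℂ) / ((1 + M * k : ℕ) : ℂ)))).IsRoot
        ((X : ℂ) / ((1 + M * k : ℕ) : ℂ) ^ d) := by
    intro k hk
    obtain ⟨X, c4', c6', h4, h6, hX⟩ := hroot k hk
    refine ⟨X, ?_⟩
    obtain ⟨n, hn⟩ : ∃ n : ℕ, n = 1 + M * k := ⟨_, rfl⟩
    rw [← hn] at h4 h6 ⊢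
    have hnpos : 0 < n := by omega
    have hnC : (n : ℂ) ≠ 0 := by exact_mod_cast hnpos.ne'
    obtain ⟨N, hN⟩ : ∃ N : ℂ, N = (n : ℂ) ^ d := ⟨_, rfl⟩
    have hN0 : N ≠ 0 := by rw [hN]; exact pow_ne_zero _ hnC
    rw [pow_mul', ← hN] at h4 h6
    rw [← hN]
    have e4 : C4.eval ((M : ℂ) / (n : ℂ)) = (c4' : ℂ) / N ^ 2 := by
      rw [h4]; field_simp
    have e6 : C6.eval ((M : ℂ) / (n : ℂ)) = (c6' : ℂ) / N ^ 3 := by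
      rw [h6]; field_simp
    rw [IsRoot, eval_map_quarticQ, e4, e6]
    have hXC : (X : ℂ) ^ 4 - 6 * (c4' : ℂ) * (X : ℂ) ^ 2 - 8 * (c6' : ℂ) * (X : ℂ)
        - 3 * (c4' : ℂ) ^ 2 = 0 := by exact_mod_cast congrArg (Int.cast : ℤ → ℂ) hX
    have e : ((X : ℂ) / N) ^ 4 - 6 * ((c4' : ℂ) / N ^ 2) * ((X : ℂ) / N) ^ 2
        - 8 * ((c6' : ℂ) / N ^ 3) * ((X : ℂ) / N) - 3 * ((c4' : ℂ) / N ^ 2) ^ 2 =
        ((X : ℂ) ^ 4 - 6 * (c4' : ℂ) * (X : ℂ) ^ 2 - 8 * (c6' : ℂ) * (X : ℂ)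
        - 3 * (c4' : ℂ) ^ 2) / N ^ 4 := by
      field_simp
    rw [e, hXC, zero_div]
  obtain ⟨Rq, hdeg, hR⟩ := exists_poly_root_of_int_roots (quarticQ C4 C6) d M hM
    ⟨_, H51.exists_approx_roots d (quarticQ C4 C6) (quarticQ_monic C4 C6)
      (quarticQ_separable C4 C6 hsep)⟩ k0 hroot'
  refine ⟨Rq, hdeg, ?_⟩
  rw [← eval_quarticQ]
  exact hR

/-- **Block G with G3 as a hypothesis**: if the quartic has no polynomial root of degree `≤ d`,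
then arbitrarily far out there is `k` such that the rescaled integer quartic at `n = 1 + M k`
has no integer root. -/
theorem exists_no_int_root_of_no_poly_root (C4 C6 : ℂ[X]) (d : ℕ)
    (hsep : C4.eval 0 ^ 3 ≠ C6.eval 0 ^ 2)
    (hno : ∀ Y : ℂ[X], Y.natDegree ≤ d → Y ^ 4 - 6 * C4 * Y ^ 2 - 8 * C6 * Y - 3 * C4 ^ 2 ≠ 0)
    (M : ℕ) (hM : 0 < M) (k0 : ℕ) :
    ∃ k, k0 ≤ k ∧ ∀ X c4' c6' : ℤ,
      (c4' : ℂ) = ((1 + M * k : ℕ) : ℂ) ^ (2 * d) *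
        C4.eval ((M : ℂ) / ((1 + M * k : ℕ) : ℂ)) →
      (c6' : ℂ) = ((1 + M * k : ℕ) : ℂ) ^ (3 * d) *
        C6.eval ((M : ℂ) / ((1 + M * k : ℕ) : ℂ)) →
      X ^ 4 - 6 * c4' * X ^ 2 - 8 * c6' * X - 3 * c4' ^ 2 ≠ 0 := by
  by_contra hcon
  have hroot : ∀ k, k0 ≤ k → ∃ X c4' c6' : ℤ,
      (c4' : ℂ) = ((1 + M * k : ℕ) : ℂ) ^ (2 * d) *
        C4.eval ((M : ℂ) / ((1 + M * k : ℕ) : ℂ)) ∧
      (c6' : ℂ) = ((1 + M * k : ℕ) : ℂ) ^ (3 * d) *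
        C6.eval ((M : ℂ) / ((1 + M * k : ℕ) : ℂ)) ∧
      X ^ 4 - 6 * c4' * X ^ 2 - 8 * c6' * X - 3 * c4' ^ 2 = 0 := by
    intro k hk
    by_contra hk'
    refine hcon ⟨k, hk, fun X c4' c6' h4 h6 hX => hk' ⟨X, c4', c6', h4, h6, hX⟩⟩
  obtain ⟨Rq, hdeg, hR⟩ := exists_poly_root_quartic C4 C6 d hsep M hM k0 hroot
  exact hno _ (natDegree_map_le.trans hdeg) hR

/-- **Block G complete (abstract data)**: `C4, C6, D, Th` with (F1), (F3), `C4 ≠ 0` at the roots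
of `D`, `deg D ≥ 11`, and `D'/4` not a root.  Then arbitrarily far out there is `k` such that
the integer quartic with `c4' = n^20 C4(M/n)`, `c6' = n^30 C6(M/n)`, `n = 1 + M k`, has no
integer root. -/
theorem exists_no_int_root (C4 C6 D Th : ℂ[X]) (kap : ℂ) (hk : kap ≠ 0)
    (hF1 : C4 ^ 3 - C6 ^ 2 = C kap * D ^ 5)
    (hF3 : C4 * derivative D - 12 * C6 = Th * D)
    (hC4 : ∀ c, D.IsRoot c → C4.eval c ≠ 0) (hdeg : 11 ≤ D.natDegree)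
    (hne : (derivative D) ^ 4 - 96 * C4 * (derivative D) ^ 2 - 512 * C6 * derivative D
      - 768 * C4 ^ 2 ≠ 0)
    (hsep : C4.eval 0 ^ 3 ≠ C6.eval 0 ^ 2) (M : ℕ) (hM : 0 < M) (k0 : ℕ) :
    ∃ k, k0 ≤ k ∧ ∀ X c4' c6' : ℤ,
      (c4' : ℂ) = ((1 + M * k : ℕ) : ℂ) ^ 20 * C4.eval ((M : ℂ) / ((1 + M * k : ℕ) : ℂ)) →
      (c6' : ℂ) = ((1 + M * k : ℕ) : ℂ) ^ 30 * C6.eval ((M : ℂ) / ((1 + M * k : ℕ) : ℂ)) →
      X ^ 4 - 6 * c4' * X ^ 2 - 8 * c6' * X - 3 * c4' ^ 2 ≠ 0 :=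
  exists_no_int_root_of_no_poly_root C4 C6 10 hsep
    (fun Y hY hroot => H48.no_poly_root C4 C6 D Th Y kap hk hF1 hF3 hC4 hdeg hne hY hroot)
    M hM k0

end Fermat.Agent.S52.H43
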