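import Mathlib
import Fermat.Prelude.Def_FLTPrelim_Modularity
import Fermat.Prelude.Def_FLTPrelim_GaloisRep
import Fermat.Prelude.Def_FLTPrelim_ModularRep
import Fermat.Agent.S51.Galois

set_option autoImplicit false

/-!
# S52, plan 4(a): mod-3 reducibility gives an integer root of the resolvent quartic

If the mod-3 representation of `W` is not irreducible, then the monic integer quartic
`X^4 - 6 c₄ X^2 - 8 c₆ X - 3 c₄^2` has an integer root (namely `12 x₀ + b₂` for a rational root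
`x₀` of the 3-division polynomial).
-/

namespace Fermat.Agent.S52.H28

open Polynomial

/-- The identity `Q(12 x + b₂) = 6912 ψ₃(x)` in any commutative ring. -/
theorem quartic_eq_psi3 {R : Type*} [CommRing R] (b2 b4 b6 b8 x : R)
    (hrel : 4 * b8 = b2 * b6 - b4 ^ 2) :
    (12 * x + b2) ^ 4 - 6 * (b2 ^ 2 - 24 * b4) * (12 * x + b2) ^ 2
        - 8 * (-b2 ^ 3 + 36 * b2 * b4 - 216 * b6) * (12 * x + b2)
        - 3 * (b2 ^ 2 - 24 * b4) ^ 2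
      = 6912 * (3 * x ^ 4 + b2 * x ^ 3 + 3 * b4 * x ^ 2 + 3 * b6 * x + b8) := by
  linear_combination (-1728 : R) * hrel

/-- A rational root of a monic integer quartic `X^4 - a X^2 - b X - c` is an integer. -/
theorem int_of_rat_root_quartic (a b c : ℤ) (q : ℚ)
    (h : q ^ 4 - (a : ℚ) * q ^ 2 - (b : ℚ) * q - (c : ℚ) = 0) : ∃ n : ℤ, (n : ℚ) = q := by
  have hint : IsIntegral ℤ q := by
    refine ⟨X ^ 4 + (-(C a * X ^ 2) - C b * X - C c), ?_, ?_⟩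
    · apply monic_X_pow_add
      refine lt_of_le_of_lt (b := ((2 : ℕ) : WithBot ℕ)) ?_ (by norm_num)
      compute_degree!
    · simp only [eval₂_add, eval₂_sub, eval₂_neg, eval₂_mul, eval₂_pow, eval₂_X, eval₂_C]
      simp only [eq_intCast]
      linear_combination h
  obtain ⟨n, hn⟩ := IsIntegrallyClosed.isIntegral_iff.mp hint
  exact ⟨n, by simpa using hn⟩

open WeierstrassCurve in
/-- Plan 4(a): a reducible mod-3 representation gives an integer root of the quartic. -/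
theorem exists_int_root_of_not_irreducible (W : WeierstrassCurve ℤ) (hΔ : W.Δ ≠ 0)
    (h : ¬ W.ModRepIsIrreducible 3) :
    ∃ X : ℤ, X ^ 4 - 6 * W.c₄ * X ^ 2 - 8 * W.c₆ * X - 3 * W.c₄ ^ 2 = 0 := by
  obtain ⟨x₀, hx₀⟩ := Fermat.Agent.S51.H80.exists_root3 W hΔ h
  have hb2 : (W.map (Int.castRingHom ℚ)).b₂ = ((W.b₂ : ℤ) : ℚ) := by
    rw [WeierstrassCurve.map_b₂]; rfl
  have hb4 : (W.map (Int.castRingHom ℚ)).b₄ = ((W.b₄ : ℤ) : ℚ) := by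
    rw [WeierstrassCurve.map_b₄]; rfl
  have hb6 : (W.map (Int.castRingHom ℚ)).b₆ = ((W.b₆ : ℤ) : ℚ) := by
    rw [WeierstrassCurve.map_b₆]; rfl
  have hb8 : (W.map (Int.castRingHom ℚ)).b₈ = ((W.b₈ : ℤ) : ℚ) := by
    rw [WeierstrassCurve.map_b₈]; rfl
  have hpsi : 3 * x₀ ^ 4 + ((W.b₂ : ℤ) : ℚ) * x₀ ^ 3 + 3 * ((W.b₄ : ℤ) : ℚ) * x₀ ^ 2
      + 3 * ((W.b₆ : ℤ) : ℚ) * x₀ + ((W.b₈ : ℤ) : ℚ) = 0 := by
    have := hx₀
    unfold Fermat.Agent.S51.H80.psi3 at this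
    rw [← hb2, ← hb4, ← hb6, ← hb8]
    exact this
  have hrel : 4 * ((W.b₈ : ℤ) : ℚ) = ((W.b₂ : ℤ) : ℚ) * ((W.b₆ : ℤ) : ℚ) - ((W.b₄ : ℤ) : ℚ) ^ 2 := by
    have := W.b_relation
    exact_mod_cast this
  have hc4 : ((W.c₄ : ℤ) : ℚ) = ((W.b₂ : ℤ) : ℚ) ^ 2 - 24 * ((W.b₄ : ℤ) : ℚ) := by
    rw [WeierstrassCurve.c₄]; push_cast; ring
  have hc6 : ((W.c₆ : ℤ) : ℚ) = -((W.b₂ : ℤ) : ℚ) ^ 3 + 36 * ((W.b₂ : ℤ) : ℚ) * ((W.b₄ : ℤ) : ℚ)
      - 216 * ((W.b₆ : ℤ) : ℚ) := by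
    rw [WeierstrassCurve.c₆]; push_cast; ring
  have key := quartic_eq_psi3 ((W.b₂ : ℤ) : ℚ) ((W.b₄ : ℤ) : ℚ) ((W.b₆ : ℤ) : ℚ)
    ((W.b₈ : ℤ) : ℚ) x₀ hrel
  rw [hpsi, mul_zero, ← hc4, ← hc6] at key
  obtain ⟨n, hn⟩ := int_of_rat_root_quartic (6 * W.c₄) (8 * W.c₆) (3 * W.c₄ ^ 2)
    (12 * x₀ + ((W.b₂ : ℤ) : ℚ)) (by push_cast; linear_combination key)
  refine ⟨n, ?_⟩
  have : ((n ^ 4 - 6 * W.c₄ * n ^ 2 - 8 * W.c₆ * n - 3 * W.c₄ ^ 2 : ℤ) : ℚ) = 0 := by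
    push_cast; rw [hn]; linear_combination key
  exact_mod_cast this

open WeierstrassCurve in
/-- Contrapositive form. -/
theorem modRepIsIrreducible_three_of_no_int_root (W : WeierstrassCurve ℤ) (hΔ : W.Δ ≠ 0)
    (h : ∀ X : ℤ, X ^ 4 - 6 * W.c₄ * X ^ 2 - 8 * W.c₆ * X - 3 * W.c₄ ^ 2 ≠ 0) :
    W.ModRepIsIrreducible 3 := by
  by_contra hne
  obtain ⟨X, hX⟩ := exists_int_root_of_not_irreducible W hΔ hne
  exact h X hX

open WeierstrassCurve in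
/-- Real-cast form (the `hroot` shape of the HIT node). -/
theorem exists_int_root_real_of_not_irreducible (W : WeierstrassCurve ℤ) (hΔ : W.Δ ≠ 0)
    (h : ¬ W.ModRepIsIrreducible 3) :
    ∃ X : ℤ, (X : ℝ) ^ 4 - 6 * ((W.c₄ : ℤ) : ℝ) * (X : ℝ) ^ 2 - 8 * ((W.c₆ : ℤ) : ℝ) * (X : ℝ)
      - 3 * ((W.c₄ : ℤ) : ℝ) ^ 2 = 0 := by
  obtain ⟨X, hX⟩ := exists_int_root_of_not_irreducible W hΔ h
  refine ⟨X, ?_⟩
  exact_mod_cast hX

end Fermat.Agent.S52.H28
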