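import Mathlib
import Fermat.Agent.S52.Lift_helper83

/-!
# S52: `famD = 0 ⇒ famC4 ≠ 0` in interface-free form (helper43)

Klein's covariant `n(w) = (f_v, -f_u)` (`kn1`, `kn2`), `det (w, n(w)) = -12 f(w)`, and the
consequence of Lift (node D) + (F2) + (B1) used twice in the plan:

* node B (semistability at `p ∤ M`): `p ∣ famD ⇒ p ∤ famC4`;
* node G3 (`hC4`): `C4 ≠ 0` at the roots of `D`.

The family values enter only through the two (F2)-type hypotheses, so the statements fit any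
shape of the Fam file.
-/

set_option autoImplicit false

namespace Fermat.Agent.S52.H43

open Fermat.Agent.S52.H83

section Forms

variable {R : Type*} [CommRing R]

/-- first component of Klein's covariant `n(w) = (f_v, -f_u)` (up to the factor fixed in the
plan): `u (U^2 + 66 U V - 11 V^2)`, `U = u^5`, `V = v^5`. -/
def kn1 (u v : R) : R := u * (u ^ 10 + 66 * u ^ 5 * v ^ 5 - 11 * v ^ 10)

/-- second component: `-v (11 U^2 + 66 U V - V^2)`. -/
def kn2 (u v : R) : R := -(v * (11 * u ^ 10 + 66 * u ^ 5 * v ^ 5 - v ^ 10))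

theorem klein_det (u v : R) : u * kn2 u v - v * kn1 u v = -12 * kf u v := by
  unfold kn1 kn2 kf
  ring

theorem map_kn1 {S : Type*} [CommRing S] (φ : R →+* S) (u v : R) :
    φ (kn1 u v) = kn1 (φ u) (φ v) := by
  simp [kn1, map_ofNat]

theorem map_kn2 {S : Type*} [CommRing S] (φ : R →+* S) (u v : R) :
    φ (kn2 u v) = kn2 (φ u) (φ v) := by
  simp [kn2, map_ofNat]

end Forms

section Field

variable {K : Type*} [Field K]

/-- the line `a w + b n(w)` through a point with `f(w) ≠ 0` never passes through `0`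
(for `(a, b) ≠ (0, 0)`, characteristic `≠ 2, 3`). -/
theorem line_ne_zero (h2 : (2 : K) ≠ 0) (h3 : (3 : K) ≠ 0) {u v a b : K} (hf : kf u v ≠ 0)
    (hab : a ≠ 0 ∨ b ≠ 0) :
    ¬ (a * u + b * kn1 u v = 0 ∧ a * v + b * kn2 u v = 0) := by
  rintro ⟨h1, h2'⟩
  have hdet := klein_det u v
  have h12 : (12 : K) ≠ 0 := by
    have : (12 : K) = 2 * 2 * 3 := by norm_num
    rw [this]
    exact mul_ne_zero (mul_ne_zero h2 h2) h3
  have hne : u * kn2 u v - v * kn1 u v ≠ 0 := by
    rw [hdet]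
    exact mul_ne_zero (neg_ne_zero.mpr h12) hf
  have ha : a * (u * kn2 u v - v * kn1 u v) = 0 := by
    linear_combination kn2 u v * h1 - kn1 u v * h2'
  have hb : b * (u * kn2 u v - v * kn1 u v) = 0 := by
    linear_combination u * h2' - v * h1
  rcases hab with h | h
  · exact h ((mul_eq_zero.mp ha).resolve_right hne)
  · exact h ((mul_eq_zero.mp hb).resolve_right hne)

/-- **Lift + (F2) + (B1)**: if `(c4', f-factor) = (C4v, Dv)` are the values of the family at
`(a, b) ≠ (0, 0)` over an algebraically closed field of characteristic `≠ 2, 3, 5` and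
`c4^3 ≠ c6^2`, then `Dv = 0` forces `C4v ≠ 0`. -/
theorem famC4_ne_zero_of_famD_eq_zero [IsAlgClosed K] (h2 : (2 : K) ≠ 0) (h3 : (3 : K) ≠ 0)
    (h5 : (5 : K) ≠ 0) (c4 c6 a b C4v Dv : K) (hd : c4 ^ 3 ≠ c6 ^ 2) (hab : a ≠ 0 ∨ b ≠ 0)
    (hF2H : ∀ u v : K, -kH u v = c4 → -kT u v = c6 →
      -kH (a * u + b * kn1 u v) (a * v + b * kn2 u v) = C4v)
    (hF2f : ∀ u v : K, -kH u v = c4 → -kT u v = c6 →
      kf (a * u + b * kn1 u v) (a * v + b * kn2 u v) = kf u v * Dv)
    (hD : Dv = 0) : C4v ≠ 0 := by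
  obtain ⟨u, v, hH, hT, hf⟩ := exists_klein_lift h2 h3 h5 c4 c6 hd
  intro hC
  have e1 : kH (a * u + b * kn1 u v) (a * v + b * kn2 u v) = 0 := by
    have := hF2H u v hH hT
    rw [hC] at this
    exact neg_eq_zero.mp this
  have e2 : kf (a * u + b * kn1 u v) (a * v + b * kn2 u v) = 0 := by
    rw [hF2f u v hH hT, hD, mul_zero]
  exact line_ne_zero h2 h3 hf hab (eq_zero_of_kf_kH h5 e2 e1)

end Field

/-- **Integer form for node B** (semistability input at a prime `p ∉ {2, 3, 5}`): the family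
values `C4v, Dv ∈ ℤ` at `(a, b)`, with the (F2)-type identities over
`AlgebraicClosure (ZMod p)`.  If `p ∤ c4^3 - c6^2` and `p ∤ b` (or `p ∤ a`), then `p ∣ Dv`
implies `p ∤ C4v`. -/
theorem not_dvd_famC4_of_dvd_famD (p : ℕ) [hp : Fact p.Prime] (hp2 : p ≠ 2) (hp3 : p ≠ 3)
    (hp5 : p ≠ 5) (c4 c6 a b C4v Dv : ℤ) (hd : ¬ (p : ℤ) ∣ c4 ^ 3 - c6 ^ 2)
    (hab : ¬ (p : ℤ) ∣ a ∨ ¬ (p : ℤ) ∣ b)
    (hF2H : ∀ u v : AlgebraicClosure (ZMod p), -kH u v = (c4 : AlgebraicClosure (ZMod p)) →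
      -kT u v = (c6 : AlgebraicClosure (ZMod p)) →
      -kH ((a : AlgebraicClosure (ZMod p)) * u + (b : AlgebraicClosure (ZMod p)) * kn1 u v)
        ((a : AlgebraicClosure (ZMod p)) * v + (b : AlgebraicClosure (ZMod p)) * kn2 u v) =
        (C4v : AlgebraicClosure (ZMod p)))
    (hF2f : ∀ u v : AlgebraicClosure (ZMod p), -kH u v = (c4 : AlgebraicClosure (ZMod p)) →
      -kT u v = (c6 : AlgebraicClosure (ZMod p)) →
      kf ((a : AlgebraicClosure (ZMod p)) * u + (b : AlgebraicClosure (ZMod p)) * kn1 u v)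
        ((a : AlgebraicClosure (ZMod p)) * v + (b : AlgebraicClosure (ZMod p)) * kn2 u v) =
        kf u v * (Dv : AlgebraicClosure (ZMod p)))
    (hD : (p : ℤ) ∣ Dv) : ¬ (p : ℤ) ∣ C4v := by
  have hcast : ∀ z : ℤ, ((z : AlgebraicClosure (ZMod p)) = 0 ↔ (p : ℤ) ∣ z) := by
    intro z
    have h1 : ((z : AlgebraicClosure (ZMod p))) =
        algebraMap (ZMod p) (AlgebraicClosure (ZMod p)) (z : ZMod p) := by
      rw [map_intCast]
    rw [h1, map_eq_zero_iff _ (algebraMap (ZMod p) (AlgebraicClosure (ZMod p))).injective,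
      ZMod.intCast_zmod_eq_zero_iff_dvd]
  have hnat : ∀ n : ℕ, n.Prime → n ≠ p → ((n : ℕ) : AlgebraicClosure (ZMod p)) ≠ 0 := by
    intro n hn hnp h0
    have h1 : ((n : ℤ) : AlgebraicClosure (ZMod p)) = 0 := by exact_mod_cast h0
    have h2 : (p : ℤ) ∣ (n : ℤ) := (hcast n).mp h1
    have h3 : p ∣ n := by exact_mod_cast h2
    exact hnp ((Nat.prime_dvd_prime_iff_eq hp.out hn).mp h3).symm
  have h2 : (2 : AlgebraicClosure (ZMod p)) ≠ 0 := by
    have := hnat 2 Nat.prime_two (Ne.symm hp2)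
    exact_mod_cast this
  have h3 : (3 : AlgebraicClosure (ZMod p)) ≠ 0 := by
    have := hnat 3 Nat.prime_three (Ne.symm hp3)
    exact_mod_cast this
  have h5 : (5 : AlgebraicClosure (ZMod p)) ≠ 0 := by
    have := hnat 5 Nat.prime_five (Ne.symm hp5)
    exact_mod_cast this
  have hd' : (c4 : AlgebraicClosure (ZMod p)) ^ 3 ≠ (c6 : AlgebraicClosure (ZMod p)) ^ 2 := by
    intro h
    apply hd
    rw [← hcast]
    push_cast
    rw [h, sub_self]
  have hab' : (a : AlgebraicClosure (ZMod p)) ≠ 0 ∨ (b : AlgebraicClosure (ZMod p)) ≠ 0 := by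
    rcases hab with h | h
    · exact Or.inl (fun h0 => h ((hcast a).mp h0))
    · exact Or.inr (fun h0 => h ((hcast b).mp h0))
  have key := famC4_ne_zero_of_famD_eq_zero h2 h3 h5 (c4 : AlgebraicClosure (ZMod p))
    (c6 : AlgebraicClosure (ZMod p)) (a : AlgebraicClosure (ZMod p))
    (b : AlgebraicClosure (ZMod p)) (C4v : AlgebraicClosure (ZMod p))
    (Dv : AlgebraicClosure (ZMod p)) hd' hab' hF2H hF2f ((hcast Dv).mpr hD)
  exact fun h => key ((hcast C4v).mpr h)

end Fermat.Agent.S52.H43
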