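import Mathlib
import Fermat.Prelude.Def_FLTPrelim_Modularity
import Fermat.Prelude.Def_FLTPrelim_ModularRep
import Fermat.Agent.S52.Bridge_helper83
import Fermat.Agent.S52.Lift_helper83
import Fermat.Agent.S52.Irr3_helper28
import Fermat.Agent.S52.Hit_helper43
import Fermat.Agent.S52.Asm_helper43
import Fermat.Agent.S52.KleinNonvanish_helper43

/-!
# S52: the frozen conclusion from the DATA INTERFACE of the Klein family (helper43)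

`switch_of_data`: the conclusion of the frozen statement S52 for every integral `W` with
`Δ ≠ 0`, semistable, from

* three ring-generic functions `C4 C6 D` (the family `famC4, famC6, famD` in the variables
  `c4 c6 a b`) commuting with ring homomorphisms,
* their values at `b = 0`, homogeneity of `C4, C6`, the identities (F1), (F2) for `H` and `f`,
* the three facts over `ℂ[X]` needed by node G3: (F3), `deg D ≥ 11`, `D'/4` is not a root,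
* the mod-5 congruence of point counts along the family over `ZMod ℓ` (blocks E + F).

Everything else (blocks B, C, D, G, IRR3 and the top assembly) is plugged in here.
-/

set_option autoImplicit false

open Polynomial WeierstrassCurve

namespace Fermat.Agent.S52.H43

open Fermat.Agent.S52.H83

/-- a prime not dividing `M` (`6^8 ∣ M`, `Δ ∣ M`) does not divide `c₄^3 - c₆^2 = 1728 Δ`. -/
theorem not_dvd_c_of_not_dvd (W : WeierstrassCurve ℤ) (M : ℤ) (hM6 : (6 : ℤ) ^ 8 ∣ M)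
    (hMΔ : W.Δ ∣ M) (p : ℕ) (hp : p.Prime) (hpM : ¬ (p : ℤ) ∣ M) :
    ¬ (p : ℤ) ∣ W.c₄ ^ 3 - W.c₆ ^ 2 := by
  intro h
  have hp' : Prime (p : ℤ) := Nat.prime_iff_prime_int.mp hp
  rw [← W.c_relation] at h
  rcases hp'.dvd_or_dvd h with h1 | h1
  · exact hpM ((h1.trans (by norm_num : (1728 : ℤ) ∣ 6 ^ 8)).trans hM6)
  · exact hpM (h1.trans hMΔ)

/-- **S52 from the data interface.** -/
theorem switch_of_data
    (C4 C6 D : ∀ (R : Type) [CommRing R], R → R → R → R → R)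
    (map_C4 : ∀ {R S : Type} [CommRing R] [CommRing S] (φ : R →+* S) (c4 c6 a b : R),
      φ (C4 R c4 c6 a b) = C4 S (φ c4) (φ c6) (φ a) (φ b))
    (map_C6 : ∀ {R S : Type} [CommRing R] [CommRing S] (φ : R →+* S) (c4 c6 a b : R),
      φ (C6 R c4 c6 a b) = C6 S (φ c4) (φ c6) (φ a) (φ b))
    (map_D : ∀ {R S : Type} [CommRing R] [CommRing S] (φ : R →+* S) (c4 c6 a b : R),
      φ (D R c4 c6 a b) = D S (φ c4) (φ c6) (φ a) (φ b))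
    (C4_zero : ∀ (R : Type) [CommRing R] (c4 c6 a : R), C4 R c4 c6 a 0 = c4 * a ^ 20)
    (C6_zero : ∀ (R : Type) [CommRing R] (c4 c6 a : R), C6 R c4 c6 a 0 = c6 * a ^ 30)
    (D_zero : ∀ (R : Type) [CommRing R] (c4 c6 a : R), D R c4 c6 a 0 = a ^ 12)
    (C4_smul : ∀ (R : Type) [CommRing R] (c4 c6 a b t : R),
      C4 R c4 c6 (t * a) (t * b) = t ^ 20 * C4 R c4 c6 a b)
    (C6_smul : ∀ (R : Type) [CommRing R] (c4 c6 a b t : R),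
      C6 R c4 c6 (t * a) (t * b) = t ^ 30 * C6 R c4 c6 a b)
    (F1 : ∀ (R : Type) [CommRing R] (c4 c6 a b : R),
      C4 R c4 c6 a b ^ 3 - C6 R c4 c6 a b ^ 2 = (c4 ^ 3 - c6 ^ 2) * D R c4 c6 a b ^ 5)
    (F2H : ∀ (R : Type) [CommRing R] (u v a b : R),
      -kH (a * u + b * kn1 u v) (a * v + b * kn2 u v) = C4 R (-kH u v) (-kT u v) a b)
    (F2f : ∀ (R : Type) [CommRing R] (u v a b : R),
      kf (a * u + b * kn1 u v) (a * v + b * kn2 u v) = kf u v * D R (-kH u v) (-kT u v) a b)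
    (F3 : ∀ c4 c6 : ℂ, ∃ Th : ℂ[X],
      C4 ℂ[X] (C c4) (C c6) 1 X * derivative (D ℂ[X] (C c4) (C c6) 1 X)
        - 12 * C6 ℂ[X] (C c4) (C c6) 1 X = Th * D ℂ[X] (C c4) (C c6) 1 X)
    (degD : ∀ c4 c6 : ℂ, c4 ^ 3 ≠ c6 ^ 2 → 11 ≤ (D ℂ[X] (C c4) (C c6) 1 X).natDegree)
    (hneD : ∀ c4 c6 : ℂ, c4 ^ 3 ≠ c6 ^ 2 →
      derivative (D ℂ[X] (C c4) (C c6) 1 X) ^ 4
        - 96 * C4 ℂ[X] (C c4) (C c6) 1 X * derivative (D ℂ[X] (C c4) (C c6) 1 X) ^ 2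
        - 512 * C6 ℂ[X] (C c4) (C c6) 1 X * derivative (D ℂ[X] (C c4) (C c6) 1 X)
        - 768 * C4 ℂ[X] (C c4) (C c6) 1 X ^ 2 ≠ 0)
    (mod5 : ∀ (ℓ : ℕ) [Fact ℓ.Prime], ℓ ≠ 2 → ℓ ≠ 3 → ℓ ≠ 5 → ∀ c4 c6 a b : ZMod ℓ,
      c4 ^ 3 ≠ c6 ^ 2 → D (ZMod ℓ) c4 c6 a b ≠ 0 →
      (5 : ℤ) ∣ (Nat.card (shortCurve c4 c6).toAffine.Point : ℤ) -
        (Nat.card (shortCurve (C4 (ZMod ℓ) c4 c6 a b)
          (C6 (ZMod ℓ) c4 c6 a b)).toAffine.Point : ℤ))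
    (W : WeierstrassCurve ℤ) (hΔ : W.Δ ≠ 0) (hW : W.IsSemistableModel) :
    ∃ W' : WeierstrassCurve ℤ, W'.Δ ≠ 0 ∧ W'.IsSemistableModel ∧ W'.ModRepIsIrreducible 3 ∧
      ∀ ℓ : ℕ, ℓ.Prime → W.IsGoodPrimeFor ℓ → W'.IsGoodPrimeFor ℓ → ℓ ≠ 5 →
        (5 : ℤ) ∣ (W'.apOfModel ℓ - W.apOfModel ℓ) := by
  classical
  -- the modulus
  obtain ⟨Mn, hMn⟩ : ∃ Mn : ℕ, Mn = 6 ^ 8 * 5 * W.Δ.natAbs := ⟨_, rfl⟩
  have hMpos : 0 < Mn := by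
    rw [hMn]
    have := Int.natAbs_pos.mpr hΔ
    positivity
  have hM6 : (6 : ℤ) ^ 8 ∣ (Mn : ℤ) := ⟨5 * (W.Δ.natAbs : ℤ), by rw [hMn]; push_cast; ring⟩
  have hM5 : (5 : ℤ) ∣ (Mn : ℤ) := ⟨6 ^ 8 * (W.Δ.natAbs : ℤ), by rw [hMn]; push_cast; ring⟩
  have hMΔ : W.Δ ∣ (Mn : ℤ) := by
    have h1 : W.Δ ∣ ((W.Δ.natAbs : ℕ) : ℤ) := Int.dvd_natAbs.mpr dvd_rfl
    have h2 : (Mn : ℤ) = (6 ^ 8 * 5 : ℤ) * ((W.Δ.natAbs : ℕ) : ℤ) := by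
      rw [hMn]
      norm_cast
    rw [h2]
    exact Dvd.dvd.mul_left h1 _
  -- casts into `ZMod Mn`
  have hcastM : ((Mn : ℤ) : ZMod Mn) = 0 := by
    rw [Int.cast_natCast, ZMod.natCast_self]
  have hcastn : ∀ k : ℕ, (((1 + Mn * k : ℕ) : ℤ) : ZMod Mn) = 1 := by
    intro k
    rw [Int.cast_natCast]
    push_cast
    rw [ZMod.natCast_self, zero_mul, add_zero]
  -- the three congruences
  have h4 : ∀ k : ℕ, (Mn : ℤ) ∣ C4 ℤ W.c₄ W.c₆ ((1 + Mn * k : ℕ) : ℤ) (Mn : ℤ) - W.c₄ := by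
    intro k
    rw [← ZMod.intCast_zmod_eq_zero_iff_dvd]
    have h := map_C4 (Int.castRingHom (ZMod Mn)) W.c₄ W.c₆ ((1 + Mn * k : ℕ) : ℤ) (Mn : ℤ)
    simp only [eq_intCast] at h
    rw [Int.cast_sub, h, hcastM, hcastn, C4_zero, one_pow, mul_one, sub_self]
  have h6 : ∀ k : ℕ, (Mn : ℤ) ∣ C6 ℤ W.c₄ W.c₆ ((1 + Mn * k : ℕ) : ℤ) (Mn : ℤ) - W.c₆ := by
    intro k
    rw [← ZMod.intCast_zmod_eq_zero_iff_dvd]
    have h := map_C6 (Int.castRingHom (ZMod Mn)) W.c₄ W.c₆ ((1 + Mn * k : ℕ) : ℤ) (Mn : ℤ)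
    simp only [eq_intCast] at h
    rw [Int.cast_sub, h, hcastM, hcastn, C6_zero, one_pow, mul_one, sub_self]
  have hd : ∀ k : ℕ, (Mn : ℤ) ∣ D ℤ W.c₄ W.c₆ ((1 + Mn * k : ℕ) : ℤ) (Mn : ℤ) - 1 := by
    intro k
    rw [← ZMod.intCast_zmod_eq_zero_iff_dvd]
    have h := map_D (Int.castRingHom (ZMod Mn)) W.c₄ W.c₆ ((1 + Mn * k : ℕ) : ℤ) (Mn : ℤ)
    simp only [eq_intCast] at h
    rw [Int.cast_sub, h, hcastM, hcastn, D_zero, one_pow, Int.cast_one, sub_self]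
  -- primes not dividing `Mn`
  have hp235 : ∀ p : ℕ, p.Prime → ¬ (p : ℤ) ∣ (Mn : ℤ) → p ≠ 2 ∧ p ≠ 3 ∧ p ≠ 5 := by
    intro p _ hpM
    refine ⟨?_, ?_, ?_⟩
    · rintro rfl
      exact hpM ((by norm_num : ((2 : ℕ) : ℤ) ∣ 6 ^ 8).trans hM6)
    · rintro rfl
      exact hpM ((by norm_num : ((3 : ℕ) : ℤ) ∣ 6 ^ 8).trans hM6)
    · rintro rfl
      exact hpM (by exact_mod_cast hM5)
  -- semistability input
  have hss : ∀ k : ℕ, ∀ p : ℕ, p.Prime → ¬ (p : ℤ) ∣ (Mn : ℤ) →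
      (p : ℤ) ∣ D ℤ W.c₄ W.c₆ ((1 + Mn * k : ℕ) : ℤ) (Mn : ℤ) →
      ¬ (p : ℤ) ∣ C4 ℤ W.c₄ W.c₆ ((1 + Mn * k : ℕ) : ℤ) (Mn : ℤ) := by
    intro k p hp hpM hpd
    obtain ⟨hp2, hp3, hp5⟩ := hp235 p hp hpM
    have : Fact p.Prime := ⟨hp⟩
    refine not_dvd_famC4_of_dvd_famD p hp2 hp3 hp5 W.c₄ W.c₆ ((1 + Mn * k : ℕ) : ℤ) (Mn : ℤ) _ _
      (not_dvd_c_of_not_dvd W _ hM6 hMΔ p hp hpM) (Or.inr hpM) ?_ ?_ hpd
    · intro u v hH hT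
      have h := map_C4 (Int.castRingHom (AlgebraicClosure (ZMod p))) W.c₄ W.c₆
        ((1 + Mn * k : ℕ) : ℤ) (Mn : ℤ)
      simp only [eq_intCast] at h
      rw [F2H, hH, hT, h]
    · intro u v hH hT
      have h := map_D (Int.castRingHom (AlgebraicClosure (ZMod p))) W.c₄ W.c₆
        ((1 + Mn * k : ℕ) : ℤ) (Mn : ℤ)
      simp only [eq_intCast] at h
      rw [F2f, hH, hT, h]
  -- block G
  have hhit : ∃ k : ℕ, ∀ X : ℤ,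
      X ^ 4 - 6 * C4 ℤ W.c₄ W.c₆ ((1 + Mn * k : ℕ) : ℤ) (Mn : ℤ) * X ^ 2
        - 8 * C6 ℤ W.c₄ W.c₆ ((1 + Mn * k : ℕ) : ℤ) (Mn : ℤ) * X
        - 3 * C4 ℤ W.c₄ W.c₆ ((1 + Mn * k : ℕ) : ℤ) (Mn : ℤ) ^ 2 ≠ 0 := by
    obtain ⟨c4C, hc4C⟩ : ∃ c4C : ℂ, c4C = (W.c₄ : ℂ) := ⟨_, rfl⟩
    obtain ⟨c6C, hc6C⟩ : ∃ c6C : ℂ, c6C = (W.c₆ : ℂ) := ⟨_, rfl⟩
    have hκ : c4C ^ 3 - c6C ^ 2 ≠ 0 := by
      have h1 : c4C ^ 3 - c6C ^ 2 = ((1728 * W.Δ : ℤ) : ℂ) := by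
        rw [W.c_relation, hc4C, hc6C]
        push_cast
        ring
      rw [h1]
      exact_mod_cast mul_ne_zero (by norm_num) hΔ
    have hκ' : c4C ^ 3 ≠ c6C ^ 2 := fun h => hκ (sub_eq_zero.mpr h)
    have ev4 : ∀ t : ℂ, (C4 ℂ[X] (C c4C) (C c6C) 1 X).eval t = C4 ℂ c4C c6C 1 t := by
      intro t
      have h := map_C4 (evalRingHom t) (C c4C) (C c6C) 1 X
      simpa using h
    have ev6 : ∀ t : ℂ, (C6 ℂ[X] (C c4C) (C c6C) 1 X).eval t = C6 ℂ c4C c6C 1 t := by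
      intro t
      have h := map_C6 (evalRingHom t) (C c4C) (C c6C) 1 X
      simpa using h
    have evD : ∀ t : ℂ, (D ℂ[X] (C c4C) (C c6C) 1 X).eval t = D ℂ c4C c6C 1 t := by
      intro t
      have h := map_D (evalRingHom t) (C c4C) (C c6C) 1 X
      simpa using h
    have hF1p : C4 ℂ[X] (C c4C) (C c6C) 1 X ^ 3 - C6 ℂ[X] (C c4C) (C c6C) 1 X ^ 2 =
        C (c4C ^ 3 - c6C ^ 2) * D ℂ[X] (C c4C) (C c6C) 1 X ^ 5 := by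
      rw [F1, C_sub, C_pow, C_pow]
    obtain ⟨Th, hTh⟩ := F3 c4C c6C
    have hC4 : ∀ c : ℂ, (D ℂ[X] (C c4C) (C c6C) 1 X).IsRoot c →
        (C4 ℂ[X] (C c4C) (C c6C) 1 X).eval c ≠ 0 := by
      intro c hc
      rw [ev4]
      refine famC4_ne_zero_of_famD_eq_zero (K := ℂ) two_ne_zero three_ne_zero (by norm_num)
        c4C c6C 1 c _ (D ℂ c4C c6C 1 c) hκ' (Or.inl one_ne_zero) ?_ ?_ ?_
      · intro u v hH hT
        rw [F2H, hH, hT]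
      · intro u v hH hT
        rw [F2f, hH, hT]
      · rw [← evD]
        exact hc
    have hsep : (C4 ℂ[X] (C c4C) (C c6C) 1 X).eval 0 ^ 3 ≠
        (C6 ℂ[X] (C c4C) (C c6C) 1 X).eval 0 ^ 2 := by
      rw [ev4, ev6, C4_zero, C6_zero, one_pow, one_pow, mul_one, mul_one]
      exact hκ'
    obtain ⟨k, -, hk⟩ := exists_no_int_root _ _ _ Th (c4C ^ 3 - c6C ^ 2) hκ hF1p hTh hC4
      (degD c4C c6C hκ') (hneD c4C c6C hκ') hsep Mn hMpos 0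
    refine ⟨k, fun X => hk X _ _ ?_ ?_⟩
    · obtain ⟨n, hn⟩ : ∃ n : ℕ, n = 1 + Mn * k := ⟨_, rfl⟩
      rw [← hn]
      have hnC : (n : ℂ) ≠ 0 := by
        have : 0 < n := by omega
        exact_mod_cast this.ne'
      have h := map_C4 (Int.castRingHom ℂ) W.c₄ W.c₆ (n : ℤ) (Mn : ℤ)
      simp only [eq_intCast, Int.cast_natCast] at h
      rw [h, ev4, ← C4_smul, mul_one, mul_div_cancel₀ _ hnC, hc4C, hc6C]
    · obtain ⟨n, hn⟩ : ∃ n : ℕ, n = 1 + Mn * k := ⟨_, rfl⟩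
      rw [← hn]
      have hnC : (n : ℂ) ≠ 0 := by
        have : 0 < n := by omega
        exact_mod_cast this.ne'
      have h := map_C6 (Int.castRingHom ℂ) W.c₄ W.c₆ (n : ℤ) (Mn : ℤ)
      simp only [eq_intCast, Int.cast_natCast] at h
      rw [h, ev6, ← C6_smul, mul_one, mul_div_cancel₀ _ hnC, hc4C, hc6C]
  -- mod 5
  have hmod5 : ∀ k : ℕ, ∀ W' : WeierstrassCurve ℤ,
      W'.c₄ = C4 ℤ W.c₄ W.c₆ ((1 + Mn * k : ℕ) : ℤ) (Mn : ℤ) →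
      W'.c₆ = C6 ℤ W.c₄ W.c₆ ((1 + Mn * k : ℕ) : ℤ) (Mn : ℤ) →
      ∀ ℓ : ℕ, ℓ.Prime → ¬ (ℓ : ℤ) ∣ (Mn : ℤ) → ℓ ≠ 5 → W'.IsGoodPrimeFor ℓ →
        (5 : ℤ) ∣ W'.apOfModel ℓ - W.apOfModel ℓ := by
    intro k W' e4 e6 ℓ hℓ hℓM hℓ5 hgood
    obtain ⟨hℓ2, hℓ3, -⟩ := hp235 ℓ hℓ hℓM
    have : Fact ℓ.Prime := ⟨hℓ⟩
    have hℓ4 : ℓ ≠ 4 := by
      rintro rfl
      norm_num at hℓ
    have h5le : 5 ≤ ℓ := by
      have := hℓ.two_le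
      omega
    have hΔ' : W'.Δ = W.Δ * D ℤ W.c₄ W.c₆ ((1 + Mn * k : ℕ) : ℤ) (Mn : ℤ) ^ 5 :=
      H48.Δ_eq_mul_pow W W' _ (by rw [e4, e6]; exact F1 ℤ _ _ _ _)
    have hℓd : ¬ (ℓ : ℤ) ∣ D ℤ W.c₄ W.c₆ ((1 + Mn * k : ℕ) : ℤ) (Mn : ℤ) := by
      intro h
      apply hgood
      rw [hΔ']
      exact Dvd.dvd.mul_left (Dvd.dvd.pow h (by norm_num)) _
    have m4 := map_C4 (Int.castRingHom (ZMod ℓ)) W.c₄ W.c₆ ((1 + Mn * k : ℕ) : ℤ) (Mn : ℤ)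
    have m6 := map_C6 (Int.castRingHom (ZMod ℓ)) W.c₄ W.c₆ ((1 + Mn * k : ℕ) : ℤ) (Mn : ℤ)
    have mD := map_D (Int.castRingHom (ZMod ℓ)) W.c₄ W.c₆ ((1 + Mn * k : ℕ) : ℤ) (Mn : ℤ)
    simp only [eq_intCast] at m4 m6 mD
    have hdisc : ((W.c₄ : ℤ) : ZMod ℓ) ^ 3 ≠ ((W.c₆ : ℤ) : ZMod ℓ) ^ 2 := by
      intro h
      apply not_dvd_c_of_not_dvd W _ hM6 hMΔ ℓ hℓ hℓM
      rw [← ZMod.intCast_zmod_eq_zero_iff_dvd]
      push_cast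
      rw [h, sub_self]
    have hDne : D (ZMod ℓ) ((W.c₄ : ℤ) : ZMod ℓ) ((W.c₆ : ℤ) : ZMod ℓ)
        ((((1 + Mn * k : ℕ) : ℤ)) : ZMod ℓ) (((Mn : ℤ)) : ZMod ℓ) ≠ 0 := by
      rw [← mD]
      intro h
      exact hℓd ((ZMod.intCast_zmod_eq_zero_iff_dvd _ ℓ).mp h)
    have key := mod5 ℓ hℓ2 hℓ3 hℓ5 _ _ _ _ hdisc hDne
    rw [← m4, ← m6] at key
    rw [apOfModel_eq_short W' ℓ hℓ h5le, apOfModel_eq_short W ℓ hℓ h5le, e4, e6]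
    have hrw : ∀ a b : ℤ, ((ℓ : ℤ) + 1 - b) - ((ℓ : ℤ) + 1 - a) = a - b := by
      intro a b
      ring
    rw [hrw]
    exact key
  exact switch_of_family W hΔ hW (Mn : ℤ) hM6 hMΔ _ _ _ h4 h6 hd (fun k => F1 ℤ _ _ _ _) hss hhit
    (fun W' hΔ' h => H28.modRepIsIrreducible_three_of_no_int_root W' hΔ' h) hmod5

end Fermat.Agent.S52.H43
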