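import Mathlib
import Fermat.Agent.S52.KleinData_helper29

/-!
# S52, node F1 (concrete half): the twelve Klein sections (helper29)

Universal polynomial sections `secX r z u v l`, `secY r z u v l` (`l : Lbl`, twelve labels;
`r = 1/5`, `z` a primitive fifth root of unity) of the `5`-torsion of
`y² = x³ + 27 H(u,v) x + 54 T(u,v)`:

* `sec_curve`   : they lie on the curve;
* `sec_psi5`    : their `x`-coordinates are roots of the fifth division polynomial;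
* `secX_injective` : the twelve `x`-coordinates are pairwise distinct when `f(u,v) ≠ 0`
  (characteristic `∉ {2,3,5}`);
* `disc_ne_zero`: the discriminant condition;
* `map_secX`, `map_secY` : compatibility with ring homomorphisms.
-/

set_option autoImplicit false

namespace Fermat.Agent.S52.H29

/-- labels of the twelve `x`-sections: `ξ₀`, `ξ₀ ∘ J`, and the `T`-translates of the integral
section and of its `J`-translate -/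
inductive Lbl : Type
  | Z : Lbl
  | I : Lbl
  | A (k : Fin 5) : Lbl
  | B (k : Fin 5) : Lbl
  deriving DecidableEq

section Sec

variable {R : Type*} [CommRing R]

/-- the twelve `x`-sections -/
def secX (r z u v : R) : Lbl → R
  | .Z => r * X0 (z + z ^ 4) (u ^ 5) (v ^ 5)
  | .I => r * X0 (z + z ^ 4) (v ^ 5) (-(u ^ 5))
  | .A k => xS ((z ^ (k : ℕ)) ^ 3 * u) ((z ^ (k : ℕ)) ^ 2 * v)
  | .B k => xS ((z ^ (k : ℕ)) ^ 2 * v) (-((z ^ (k : ℕ)) ^ 3 * u))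

/-- the twelve `y`-sections -/
def secY (r z u v : R) : Lbl → R
  | .Z => r ^ 2 * (1 + 2 * (z + z ^ 4)) * (z - z ^ 4) * C0 (z + z ^ 4) (u ^ 5) (v ^ 5)
  | .I => r ^ 2 * (1 + 2 * (z + z ^ 4)) * (z - z ^ 4) * C0 (z + z ^ 4) (v ^ 5) (-(u ^ 5))
  | .A k => yS ((z ^ (k : ℕ)) ^ 3 * u) ((z ^ (k : ℕ)) ^ 2 * v)
  | .B k => yS ((z ^ (k : ℕ)) ^ 2 * v) (-((z ^ (k : ℕ)) ^ 3 * u))

theorem map_kF {R' : Type*} [CommRing R'] (φ : R →+* R') (u v : R) :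
    φ (kF u v) = kF (φ u) (φ v) := by
  simp [kF, gUV, map_ofNat]

theorem map_kH {R' : Type*} [CommRing R'] (φ : R →+* R') (u v : R) :
    φ (kH u v) = kH (φ u) (φ v) := by
  simp [kH, hUV, map_ofNat]

theorem map_kT {R' : Type*} [CommRing R'] (φ : R →+* R') (u v : R) :
    φ (kT u v) = kT (φ u) (φ v) := by
  simp [kT, tUV, map_ofNat]

theorem map_secX {R' : Type*} [CommRing R'] (φ : R →+* R') (r z u v : R) (l : Lbl) :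
    φ (secX r z u v l) = secX (φ r) (φ z) (φ u) (φ v) l := by
  cases l <;> simp [secX, X0, xS, gUV, map_ofNat]

theorem map_secY {R' : Type*} [CommRing R'] (φ : R →+* R') (r z u v : R) (l : Lbl) :
    φ (secY r z u v l) = secY (φ r) (φ z) (φ u) (φ v) l := by
  cases l <;> simp [secY, C0, yS, map_ofNat]

/-! ### invariance of the forms -/

theorem pow5_shift3 (ω u : R) (hω : ω ^ 5 = 1) : (ω ^ 3 * u) ^ 5 = u ^ 5 := by
  linear_combination (u ^ 5 * (ω ^ 10 + ω ^ 5 + 1)) * hω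

theorem pow5_shift2 (ω v : R) (hω : ω ^ 5 = 1) : (ω ^ 2 * v) ^ 5 = v ^ 5 := by
  linear_combination (v ^ 5 * (ω ^ 5 + 1)) * hω

theorem pow5_neg_shift3 (ω u : R) (hω : ω ^ 5 = 1) : (-(ω ^ 3 * u)) ^ 5 = -(u ^ 5) := by
  linear_combination (-(u ^ 5 * (ω ^ 10 + ω ^ 5 + 1))) * hω

theorem hUV_J (U V : R) : hUV V (-U) = hUV U V := by unfold hUV; ring

theorem tUV_J (U V : R) : tUV V (-U) = tUV U V := by unfold tUV; ring

theorem gUV_J (U V : R) : gUV V (-U) = -gUV U V := by unfold gUV; ring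

theorem X0_neg (τ U V : R) : X0 τ (-U) (-V) = X0 τ U V := by unfold X0 gUV; ring

theorem kH_shift (ω u v : R) (hω : ω ^ 5 = 1) : kH (ω ^ 3 * u) (ω ^ 2 * v) = kH u v := by
  unfold kH; rw [pow5_shift3 ω u hω, pow5_shift2 ω v hω]

theorem kT_shift (ω u v : R) (hω : ω ^ 5 = 1) : kT (ω ^ 3 * u) (ω ^ 2 * v) = kT u v := by
  unfold kT; rw [pow5_shift3 ω u hω, pow5_shift2 ω v hω]

theorem kF_shift (ω u v : R) (hω : ω ^ 5 = 1) : kF (ω ^ 3 * u) (ω ^ 2 * v) = kF u v := by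
  unfold kF; rw [pow5_shift3 ω u hω, pow5_shift2 ω v hω]
  linear_combination (u * v * gUV (u ^ 5) (v ^ 5)) * hω

theorem kH_J (u v : R) : kH v (-u) = kH u v := by
  unfold kH hUV; ring

theorem kT_J (u v : R) : kT v (-u) = kT u v := by
  unfold kT tUV; ring

theorem kF_J (u v : R) : kF v (-u) = kF u v := by
  unfold kF gUV; ring

theorem kH_shiftJ (ω u v : R) (hω : ω ^ 5 = 1) : kH (ω ^ 2 * v) (-(ω ^ 3 * u)) = kH u v := by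
  unfold kH; rw [pow5_neg_shift3 ω u hω, pow5_shift2 ω v hω, hUV_J]

theorem kT_shiftJ (ω u v : R) (hω : ω ^ 5 = 1) : kT (ω ^ 2 * v) (-(ω ^ 3 * u)) = kT u v := by
  unfold kT; rw [pow5_neg_shift3 ω u hω, pow5_shift2 ω v hω, tUV_J]

theorem kF_shiftJ (ω u v : R) (hω : ω ^ 5 = 1) : kF (ω ^ 2 * v) (-(ω ^ 3 * u)) = kF u v := by
  unfold kF; rw [pow5_neg_shift3 ω u hω, pow5_shift2 ω v hω, gUV_J]
  linear_combination (u * v * gUV (u ^ 5) (v ^ 5)) * hω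

/-! ### scalar relations coming from `Φ₅(z) = 0` -/

theorem tau_rel (z : R) (hz : z ^ 4 + z ^ 3 + z ^ 2 + z + 1 = 0) :
    (z + z ^ 4) ^ 2 + (z + z ^ 4) - 1 = 0 := by
  linear_combination (z ^ 4 - z ^ 3 + 2 * z - 1) * hz

theorem e_rel (z : R) (hz : z ^ 4 + z ^ 3 + z ^ 2 + z + 1 = 0) :
    (z - z ^ 4) ^ 2 = -((z + z ^ 4) + 3) := by
  linear_combination (z ^ 4 - z ^ 3 - 2 * z + 3) * hz

theorem sqrt5_rel (z : R) (hz : z ^ 4 + z ^ 3 + z ^ 2 + z + 1 = 0) :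
    (1 + 2 * (z + z ^ 4)) ^ 2 = 5 := by
  linear_combination 4 * tau_rel z hz

theorem z_pow_five (z : R) (hz : z ^ 4 + z ^ 3 + z ^ 2 + z + 1 = 0) : z ^ 5 = 1 := by
  linear_combination (z - 1) * hz

theorem z_pow_pow_five (z : R) (hz : z ^ 4 + z ^ 3 + z ^ 2 + z + 1 = 0) (k : ℕ) :
    (z ^ k) ^ 5 = 1 := by
  rw [← pow_mul, mul_comm, pow_mul, z_pow_five z hz, one_pow]

/-! ### the sections lie on the curve and are roots of `ψ₅` -/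

theorem curve_scale (r s e X C h t : R) (hr : 5 * r = 1) (hs : s ^ 2 = 5)
    (hEQ : e ^ 2 * C ^ 2 = X ^ 3 + 675 * h * X + 6750 * t) :
    (r ^ 2 * s * e * C) ^ 2 = (r * X) ^ 3 + 27 * h * (r * X) + 54 * t := by
  linear_combination (5 * r ^ 4) * hEQ + (r ^ 4 * e ^ 2 * C ^ 2) * hs
    + (r ^ 3 * X ^ 3 + 27 * h * r * X * (25 * r ^ 2 + 5 * r + 1)
        + 54 * t * (125 * r ^ 3 + 25 * r ^ 2 + 5 * r + 1)) * hr

theorem psi5_scale (r X h t : R) (hr : 5 * r = 1) (hP : psi5s X (675 * h) (6750 * t) = 0) :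
    psi5s (r * X) (27 * h) (54 * t) = 0 := by
  have h1 : (27 : R) * h = r ^ 2 * (675 * h) := by
    linear_combination (-(h * (135 * r + 27))) * hr
  have h2 : (54 : R) * t = r ^ 3 * (6750 * t) := by
    linear_combination (-(t * (1350 * r ^ 2 + 270 * r + 54))) * hr
  rw [h1, h2, psi5s_smul, hP, mul_zero]

theorem eq_X0' (z U V : R) (hz : z ^ 4 + z ^ 3 + z ^ 2 + z + 1 = 0) :
    (z - z ^ 4) ^ 2 * C0 (z + z ^ 4) U V ^ 2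
      = X0 (z + z ^ 4) U V ^ 3 + 675 * hUV U V * X0 (z + z ^ 4) U V + 6750 * tUV U V := by
  rw [e_rel z hz]
  exact eq_X0 (z + z ^ 4) U V (tau_rel z hz)

/-- the sections lie on `y² = x³ + 27 H x + 54 T` -/
theorem sec_curve (r z u v : R) (hr : 5 * r = 1) (hz : z ^ 4 + z ^ 3 + z ^ 2 + z + 1 = 0)
    (l : Lbl) :
    secY r z u v l ^ 2 = secX r z u v l ^ 3 + 27 * kH u v * secX r z u v l + 54 * kT u v := by
  cases l with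
  | Z =>
    exact curve_scale r _ _ _ _ _ _ hr (sqrt5_rel z hz) (eq_X0' z (u ^ 5) (v ^ 5) hz)
  | I =>
    have h := curve_scale r _ _ _ _ _ _ hr (sqrt5_rel z hz) (eq_X0' z (v ^ 5) (-(u ^ 5)) hz)
    rw [hUV_J, tUV_J] at h
    exact h
  | A k =>
    have hω := z_pow_pow_five z hz (k : ℕ)
    have h := eq_xS ((z ^ (k : ℕ)) ^ 3 * u) ((z ^ (k : ℕ)) ^ 2 * v)
    rw [kH_shift _ u v hω, kT_shift _ u v hω] at h
    exact h
  | B k =>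
    have hω := z_pow_pow_five z hz (k : ℕ)
    have h := eq_xS ((z ^ (k : ℕ)) ^ 2 * v) (-((z ^ (k : ℕ)) ^ 3 * u))
    rw [kH_shiftJ _ u v hω, kT_shiftJ _ u v hω] at h
    exact h

/-- the `x`-sections are roots of the fifth division polynomial -/
theorem sec_psi5 (r z u v : R) (hr : 5 * r = 1) (hz : z ^ 4 + z ^ 3 + z ^ 2 + z + 1 = 0)
    (l : Lbl) : psi5s (secX r z u v l) (27 * kH u v) (54 * kT u v) = 0 := by
  cases l with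
  | Z =>
    exact psi5_scale r _ _ _ hr (psi5_X0 (z + z ^ 4) (u ^ 5) (v ^ 5) (tau_rel z hz))
  | I =>
    have h := psi5_scale r _ _ _ hr (psi5_X0 (z + z ^ 4) (v ^ 5) (-(u ^ 5)) (tau_rel z hz))
    rw [hUV_J, tUV_J] at h
    exact h
  | A k =>
    have hω := z_pow_pow_five z hz (k : ℕ)
    have h := psi5_xS ((z ^ (k : ℕ)) ^ 3 * u) ((z ^ (k : ℕ)) ^ 2 * v)
    rw [kH_shift _ u v hω, kT_shift _ u v hω] at h
    exact h
  | B k =>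
    have hω := z_pow_pow_five z hz (k : ℕ)
    have h := psi5_xS ((z ^ (k : ℕ)) ^ 2 * v) (-((z ^ (k : ℕ)) ^ 3 * u))
    rw [kH_shiftJ _ u v hω, kT_shiftJ _ u v hω] at h
    exact h

end Sec

section Field

variable {K : Type*} [Field K]

/-- the discriminant condition `4 a₄³ + 27 a₆² ≠ 0` for `a₄ = 27 H`, `a₆ = 54 T` -/
theorem disc_ne_zero (h2 : (2 : K) ≠ 0) (h3 : (3 : K) ≠ 0) (u v : K) (hf : kF u v ≠ 0) :
    4 * (27 * kH u v) ^ 3 + 27 * (54 * kT u v) ^ 2 ≠ 0 := by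
  have h : 4 * (27 * kH u v) ^ 3 + 27 * (54 * kT u v) ^ 2 = 2 ^ 8 * 3 ^ 12 * kF u v ^ 5 := by
    linear_combination 78732 * klein_rel u v
  rw [h]
  exact mul_ne_zero (mul_ne_zero (pow_ne_zero 8 h2) (pow_ne_zero 12 h3)) (pow_ne_zero 5 hf)

theorem c36_ne_zero (h2 : (2 : K) ≠ 0) (h3 : (3 : K) ≠ 0) : (36 : K) ≠ 0 := by
  have : (36 : K) = 2 ^ 2 * 3 ^ 2 := by norm_num
  rw [this]; exact mul_ne_zero (pow_ne_zero 2 h2) (pow_ne_zero 2 h3)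

theorem c180_ne_zero (h2 : (2 : K) ≠ 0) (h3 : (3 : K) ≠ 0) (h5 : (5 : K) ≠ 0) :
    (180 : K) ≠ 0 := by
  have : (180 : K) = 2 ^ 2 * 3 ^ 2 * 5 := by norm_num
  rw [this]; exact mul_ne_zero (mul_ne_zero (pow_ne_zero 2 h2) (pow_ne_zero 2 h3)) h5

/-! ### base inequalities -/

theorem ne_ZI (h2 : (2 : K) ≠ 0) (h3 : (3 : K) ≠ 0) (h5 : (5 : K) ≠ 0) (r τ u v : K)
    (hr : 5 * r = 1) (hs : (1 + 2 * τ) ^ 2 = 5) (hf : kF u v ≠ 0) :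
    r * X0 τ (u ^ 5) (v ^ 5) ≠ r * X0 τ (v ^ 5) (-(u ^ 5)) := by
  intro h
  have hr0 : r ≠ 0 := by rintro rfl; simp at hr
  have h0 : X0 τ (u ^ 5) (v ^ 5) - X0 τ (v ^ 5) (-(u ^ 5)) = 0 := by
    have : r * (X0 τ (u ^ 5) (v ^ 5) - X0 τ (v ^ 5) (-(u ^ 5))) = 0 := by linear_combination h
    rcases mul_eq_zero.mp this with h' | h'
    · exact absurd h' hr0
    · exact h'
  have key := diff_ZI τ u v
  rw [h0, zero_mul] at key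
  have hs0 : (1 + 2 * τ) ≠ 0 := by
    intro h'; rw [h'] at hs; apply h5; rw [← hs]; ring
  exact (mul_ne_zero (mul_ne_zero (c36_ne_zero h2 h3) hs0) (pow_ne_zero 2 hf)) key.symm

theorem ne_ZA (h2 : (2 : K) ≠ 0) (h3 : (3 : K) ≠ 0) (h5 : (5 : K) ≠ 0) (r τ u v : K)
    (hr : 5 * r = 1) (hτ : τ ^ 2 + τ - 1 = 0) (hf : kF u v ≠ 0) :
    r * X0 τ (u ^ 5) (v ^ 5) ≠ xS u v := by
  intro h
  have h0 : X0 τ (u ^ 5) (v ^ 5) - 5 * xS u v = 0 := by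
    linear_combination 5 * h - X0 τ (u ^ 5) (v ^ 5) * hr
  have key := diff_ZA τ u v hτ
  rw [h0, zero_mul] at key
  exact (mul_ne_zero (c180_ne_zero h2 h3 h5) (pow_ne_zero 2 hf)) key.symm

theorem ne_IA (h2 : (2 : K) ≠ 0) (h3 : (3 : K) ≠ 0) (h5 : (5 : K) ≠ 0) (r τ u v : K)
    (hr : 5 * r = 1) (hτ : τ ^ 2 + τ - 1 = 0) (hf : kF u v ≠ 0) :
    r * X0 τ (v ^ 5) (-(u ^ 5)) ≠ xS u v := by
  intro h
  have h0 : X0 τ (v ^ 5) (-(u ^ 5)) - 5 * xS u v = 0 := by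
    linear_combination 5 * h - X0 τ (v ^ 5) (-(u ^ 5)) * hr
  have key := diff_IA τ u v hτ
  rw [h0, zero_mul] at key
  exact (mul_ne_zero (c180_ne_zero h2 h3 h5) (pow_ne_zero 2 hf)) key.symm

theorem ne_AA (h2 : (2 : K) ≠ 0) (h3 : (3 : K) ≠ 0) (h5 : (5 : K) ≠ 0) (ω u v : K)
    (hω5 : ω ^ 5 = 1) (hω1 : ω ≠ 1) (hf : kF u v ≠ 0) :
    xS (ω ^ 3 * u) (ω ^ 2 * v) ≠ xS u v := by
  intro h
  have hω : ω ^ 4 + ω ^ 3 + ω ^ 2 + ω + 1 = 0 := by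
    have : (ω - 1) * (ω ^ 4 + ω ^ 3 + ω ^ 2 + ω + 1) = 0 := by linear_combination hω5
    rcases mul_eq_zero.mp this with h' | h'
    · exact absurd (sub_eq_zero.mp h') hω1
    · exact h'
  have key := diff_AA ω u v hω
  rw [h, sub_self, zero_mul] at key
  exact (mul_ne_zero (c180_ne_zero h2 h3 h5) (pow_ne_zero 2 hf)) key.symm

theorem ne_AB (h2 : (2 : K) ≠ 0) (h3 : (3 : K) ≠ 0) (ω u v : K)
    (hω5 : ω ^ 5 = 1) (hf : kF u v ≠ 0) :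
    xS u v ≠ xS (ω ^ 2 * v) (-(ω ^ 3 * u)) := by
  intro h
  have key := diff_AB ω u v hω5
  rw [h, sub_self, zero_mul] at key
  exact (mul_ne_zero (c36_ne_zero h2 h3) (pow_ne_zero 2 hf)) key.symm

/-! ### general position of the translates -/

/-- two `A`-translates with different fifth roots of unity are different -/
theorem ne_AA' (h2 : (2 : K) ≠ 0) (h3 : (3 : K) ≠ 0) (h5 : (5 : K) ≠ 0) (ω₁ ω₂ u v : K)
    (h₁ : ω₁ ^ 5 = 1) (h₂ : ω₂ ^ 5 = 1) (hne : ω₁ ≠ ω₂) (hf : kF u v ≠ 0) :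
    xS (ω₁ ^ 3 * u) (ω₁ ^ 2 * v) ≠ xS (ω₂ ^ 3 * u) (ω₂ ^ 2 * v) := by
  have hω5 : (ω₁ * ω₂ ^ 4) ^ 5 = 1 := by
    linear_combination (ω₂ ^ 20) * h₁ + (ω₂ ^ 15 + ω₂ ^ 10 + ω₂ ^ 5 + 1) * h₂
  have hω1 : ω₁ * ω₂ ^ 4 ≠ 1 := by
    intro h
    apply hne
    linear_combination ω₂ * h - ω₁ * h₂
  have hf' : kF (ω₂ ^ 3 * u) (ω₂ ^ 2 * v) ≠ 0 := by rw [kF_shift ω₂ u v h₂]; exact hf
  have key := ne_AA h2 h3 h5 (ω₁ * ω₂ ^ 4) (ω₂ ^ 3 * u) (ω₂ ^ 2 * v) hω5 hω1 hf'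
  have e1 : (ω₁ * ω₂ ^ 4) ^ 3 * (ω₂ ^ 3 * u) = ω₁ ^ 3 * u := by
    linear_combination (ω₁ ^ 3 * u * (ω₂ ^ 10 + ω₂ ^ 5 + 1)) * h₂
  have e2 : (ω₁ * ω₂ ^ 4) ^ 2 * (ω₂ ^ 2 * v) = ω₁ ^ 2 * v := by
    linear_combination (ω₁ ^ 2 * v * (ω₂ ^ 5 + 1)) * h₂
  rw [e1, e2] at key
  exact key

/-- two `B`-translates with different fifth roots of unity are different -/
theorem ne_BB' (h2 : (2 : K) ≠ 0) (h3 : (3 : K) ≠ 0) (h5 : (5 : K) ≠ 0) (ω₁ ω₂ u v : K)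
    (h₁ : ω₁ ^ 5 = 1) (h₂ : ω₂ ^ 5 = 1) (hne : ω₁ ≠ ω₂) (hf : kF u v ≠ 0) :
    xS (ω₁ ^ 2 * v) (-(ω₁ ^ 3 * u)) ≠ xS (ω₂ ^ 2 * v) (-(ω₂ ^ 3 * u)) := by
  have g₁ : (ω₁ ^ 4) ^ 5 = 1 := by
    linear_combination (ω₁ ^ 15 + ω₁ ^ 10 + ω₁ ^ 5 + 1) * h₁
  have g₂ : (ω₂ ^ 4) ^ 5 = 1 := by
    linear_combination (ω₂ ^ 15 + ω₂ ^ 10 + ω₂ ^ 5 + 1) * h₂
  have gne : ω₁ ^ 4 ≠ ω₂ ^ 4 := by
    intro h
    apply hne
    have h16 : ω₁ ^ 16 = ω₂ ^ 16 := by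
      have : (ω₁ ^ 4) ^ 4 = (ω₂ ^ 4) ^ 4 := by rw [h]
      linear_combination this
    linear_combination h16 - (ω₁ * (ω₁ ^ 10 + ω₁ ^ 5 + 1)) * h₁
      + (ω₂ * (ω₂ ^ 10 + ω₂ ^ 5 + 1)) * h₂
  have hf' : kF v (-u) ≠ 0 := by rw [kF_J]; exact hf
  have key := ne_AA' h2 h3 h5 (ω₁ ^ 4) (ω₂ ^ 4) v (-u) g₁ g₂ gne hf'
  have e1 : (ω₁ ^ 4) ^ 3 * v = ω₁ ^ 2 * v := by
    linear_combination (ω₁ ^ 2 * v * (ω₁ ^ 5 + 1)) * h₁
  have e2 : (ω₁ ^ 4) ^ 2 * (-u) = -(ω₁ ^ 3 * u) := by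
    linear_combination (-(ω₁ ^ 3 * u)) * h₁
  have e3 : (ω₂ ^ 4) ^ 3 * v = ω₂ ^ 2 * v := by
    linear_combination (ω₂ ^ 2 * v * (ω₂ ^ 5 + 1)) * h₂
  have e4 : (ω₂ ^ 4) ^ 2 * (-u) = -(ω₂ ^ 3 * u) := by
    linear_combination (-(ω₂ ^ 3 * u)) * h₂
  rw [e1, e2, e3, e4] at key
  exact key

/-- an `A`-translate differs from every `B`-translate -/
theorem ne_AB' (h2 : (2 : K) ≠ 0) (h3 : (3 : K) ≠ 0) (ω₁ ω₂ u v : K)
    (h₁ : ω₁ ^ 5 = 1) (h₂ : ω₂ ^ 5 = 1) (hf : kF u v ≠ 0) :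
    xS (ω₁ ^ 3 * u) (ω₁ ^ 2 * v) ≠ xS (ω₂ ^ 2 * v) (-(ω₂ ^ 3 * u)) := by
  have hω5 : (ω₂ * ω₁ ^ 4) ^ 5 = 1 := by
    linear_combination (ω₁ ^ 20) * h₂ + (ω₁ ^ 15 + ω₁ ^ 10 + ω₁ ^ 5 + 1) * h₁
  have hf' : kF (ω₁ ^ 3 * u) (ω₁ ^ 2 * v) ≠ 0 := by rw [kF_shift ω₁ u v h₁]; exact hf
  have key := ne_AB h2 h3 (ω₂ * ω₁ ^ 4) (ω₁ ^ 3 * u) (ω₁ ^ 2 * v) hω5 hf'
  have e1 : (ω₂ * ω₁ ^ 4) ^ 2 * (ω₁ ^ 2 * v) = ω₂ ^ 2 * v := by
    linear_combination (ω₂ ^ 2 * v * (ω₁ ^ 5 + 1)) * h₁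
  have e2 : (ω₂ * ω₁ ^ 4) ^ 3 * (ω₁ ^ 3 * u) = ω₂ ^ 3 * u := by
    linear_combination (ω₂ ^ 3 * u * (ω₁ ^ 10 + ω₁ ^ 5 + 1)) * h₁
  rw [e1, e2] at key
  exact key

theorem ne_ZA' (h2 : (2 : K) ≠ 0) (h3 : (3 : K) ≠ 0) (h5 : (5 : K) ≠ 0) (r τ ω u v : K)
    (hr : 5 * r = 1) (hτ : τ ^ 2 + τ - 1 = 0) (hω : ω ^ 5 = 1) (hf : kF u v ≠ 0) :
    r * X0 τ (u ^ 5) (v ^ 5) ≠ xS (ω ^ 3 * u) (ω ^ 2 * v) := by
  have hf' : kF (ω ^ 3 * u) (ω ^ 2 * v) ≠ 0 := by rw [kF_shift ω u v hω]; exact hf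
  have key := ne_ZA h2 h3 h5 r τ (ω ^ 3 * u) (ω ^ 2 * v) hr hτ hf'
  rw [pow5_shift3 ω u hω, pow5_shift2 ω v hω] at key
  exact key

theorem ne_IA' (h2 : (2 : K) ≠ 0) (h3 : (3 : K) ≠ 0) (h5 : (5 : K) ≠ 0) (r τ ω u v : K)
    (hr : 5 * r = 1) (hτ : τ ^ 2 + τ - 1 = 0) (hω : ω ^ 5 = 1) (hf : kF u v ≠ 0) :
    r * X0 τ (v ^ 5) (-(u ^ 5)) ≠ xS (ω ^ 3 * u) (ω ^ 2 * v) := by
  have hf' : kF (ω ^ 3 * u) (ω ^ 2 * v) ≠ 0 := by rw [kF_shift ω u v hω]; exact hf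
  have key := ne_IA h2 h3 h5 r τ (ω ^ 3 * u) (ω ^ 2 * v) hr hτ hf'
  rw [pow5_shift3 ω u hω, pow5_shift2 ω v hω] at key
  exact key

theorem ne_ZB' (h2 : (2 : K) ≠ 0) (h3 : (3 : K) ≠ 0) (h5 : (5 : K) ≠ 0) (r τ ω u v : K)
    (hr : 5 * r = 1) (hτ : τ ^ 2 + τ - 1 = 0) (hω : ω ^ 5 = 1) (hf : kF u v ≠ 0) :
    r * X0 τ (u ^ 5) (v ^ 5) ≠ xS (ω ^ 2 * v) (-(ω ^ 3 * u)) := by
  have hf' : kF (ω ^ 2 * v) (-(ω ^ 3 * u)) ≠ 0 := by rw [kF_shiftJ ω u v hω]; exact hf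
  have key := ne_IA h2 h3 h5 r τ (ω ^ 2 * v) (-(ω ^ 3 * u)) hr hτ hf'
  rw [pow5_neg_shift3 ω u hω, pow5_shift2 ω v hω, X0_neg] at key
  exact key

theorem ne_IB' (h2 : (2 : K) ≠ 0) (h3 : (3 : K) ≠ 0) (h5 : (5 : K) ≠ 0) (r τ ω u v : K)
    (hr : 5 * r = 1) (hτ : τ ^ 2 + τ - 1 = 0) (hω : ω ^ 5 = 1) (hf : kF u v ≠ 0) :
    r * X0 τ (v ^ 5) (-(u ^ 5)) ≠ xS (ω ^ 2 * v) (-(ω ^ 3 * u)) := by
  have hf' : kF (ω ^ 2 * v) (-(ω ^ 3 * u)) ≠ 0 := by rw [kF_shiftJ ω u v hω]; exact hf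
  have key := ne_ZA h2 h3 h5 r τ (ω ^ 2 * v) (-(ω ^ 3 * u)) hr hτ hf'
  rw [pow5_neg_shift3 ω u hω, pow5_shift2 ω v hω] at key
  exact key

/-- the powers `z^k`, `k < 5`, of a root of `Φ₅` are pairwise distinct (characteristic `≠ 5`) -/
theorem z_pow_injective (h5 : (5 : K) ≠ 0) (z : K) (hz : z ^ 4 + z ^ 3 + z ^ 2 + z + 1 = 0)
    (k m : Fin 5) (h : z ^ (k : ℕ) = z ^ (m : ℕ)) : k = m := by
  have : NeZero ((5 : ℕ) : K) := ⟨by exact_mod_cast h5⟩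
  have : Fact (Nat.Prime 5) := ⟨by norm_num⟩
  have hroot : (Polynomial.cyclotomic 5 K).IsRoot z := by
    rw [Polynomial.cyclotomic_prime, Polynomial.IsRoot.def]
    simp only [Finset.sum_range_succ, Finset.range_zero, Finset.sum_empty, Polynomial.eval_add,
      Polynomial.eval_pow, Polynomial.eval_X, Polynomial.eval_one, zero_add, pow_zero, pow_one]
    linear_combination hz
  have hprim : IsPrimitiveRoot z 5 := Polynomial.isRoot_cyclotomic_iff.mp hroot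
  exact Fin.ext (hprim.pow_inj k.isLt m.isLt h)

/-- the twelve `x`-sections are pairwise distinct when `f(u,v) ≠ 0` -/
theorem secX_injective (h2 : (2 : K) ≠ 0) (h3 : (3 : K) ≠ 0) (h5 : (5 : K) ≠ 0) (r z u v : K)
    (hr : 5 * r = 1) (hz : z ^ 4 + z ^ 3 + z ^ 2 + z + 1 = 0) (hf : kF u v ≠ 0) :
    Function.Injective (secX r z u v) := by
  have hτ := tau_rel z hz
  have hs := sqrt5_rel z hz
  have hp := z_pow_pow_five z hz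
  intro l l' h
  cases l with
  | Z =>
    cases l' with
    | Z => rfl
    | I => exact absurd h (ne_ZI h2 h3 h5 r _ u v hr hs hf)
    | A k => exact absurd h (ne_ZA' h2 h3 h5 r _ _ u v hr hτ (hp k) hf)
    | B k => exact absurd h (ne_ZB' h2 h3 h5 r _ _ u v hr hτ (hp k) hf)
  | I =>
    cases l' with
    | Z => exact absurd h.symm (ne_ZI h2 h3 h5 r _ u v hr hs hf)
    | I => rfl
    | A k => exact absurd h (ne_IA' h2 h3 h5 r _ _ u v hr hτ (hp k) hf)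
    | B k => exact absurd h (ne_IB' h2 h3 h5 r _ _ u v hr hτ (hp k) hf)
  | A k =>
    cases l' with
    | Z => exact absurd h.symm (ne_ZA' h2 h3 h5 r _ _ u v hr hτ (hp k) hf)
    | I => exact absurd h.symm (ne_IA' h2 h3 h5 r _ _ u v hr hτ (hp k) hf)
    | A m =>
      by_cases hkm : k = m
      · rw [hkm]
      · exact absurd h (ne_AA' h2 h3 h5 _ _ u v (hp k) (hp m)
          (fun h' => hkm (z_pow_injective h5 z hz k m h')) hf)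
    | B m => exact absurd h (ne_AB' h2 h3 _ _ u v (hp k) (hp m) hf)
  | B k =>
    cases l' with
    | Z => exact absurd h.symm (ne_ZB' h2 h3 h5 r _ _ u v hr hτ (hp k) hf)
    | I => exact absurd h.symm (ne_IB' h2 h3 h5 r _ _ u v hr hτ (hp k) hf)
    | A m => exact absurd h.symm (ne_AB' h2 h3 _ _ u v (hp m) (hp k) hf)
    | B m =>
      by_cases hkm : k = m
      · rw [hkm]
      · exact absurd h (ne_BB' h2 h3 h5 _ _ u v (hp k) (hp m)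
          (fun h' => hkm (z_pow_injective h5 z hz k m h')) hf)

end Field

/-! ### labels as `Fin 12` -/

/-- an enumeration of the twelve labels -/
def lbl (i : Fin 12) : Lbl :=
  if h0 : (i : ℕ) = 0 then .Z
  else if h1 : (i : ℕ) = 1 then .I
  else if h7 : (i : ℕ) < 7 then .A ⟨(i : ℕ) - 2, by omega⟩
  else .B ⟨(i : ℕ) - 7, by omega⟩

theorem lbl_injective : Function.Injective lbl := by
  intro i j h
  revert h
  revert i j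
  decide

end Fermat.Agent.S52.H29
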