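import Mathlib
import Fermat.Agent.S51.TorsSub

/-!
# S52, node F1 (Struct), interface-free core  (helper34)

`24` distinct nonsingular points whose `x`-coordinates are roots of the fifth division
polynomial are exactly the nonzero `5`-torsion points (characteristic `≠ 5`).

* `fiveTors_ncard_le`            : at most `24` nonzero `5`-torsion points;
* `fiveTorsion_iff_of_sections`  : the general statement for an index type of cardinality `24`;
* `fiveTorsion_iff_of_short`     : the `Fin 12 × Bool` version for a short Weierstrass curve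
  (`12` roots `ξ i` of `ψ₅` with square roots `η i`, sign given by the `Bool`).
-/

set_option autoImplicit false
set_option linter.unusedSectionVars false

open WeierstrassCurve WeierstrassCurve.Affine Polynomial

namespace Fermat.Agent.S52.H34

open Fermat.Agent.S51.H80

variable {K : Type*} [Field K] [DecidableEq K] {E : WeierstrassCurve.Affine K}

/-- the set of nonzero `5`-torsion points -/
def fiveSet (E : WeierstrassCurve.Affine K) : Set E.Point := {P | P ≠ 0 ∧ (5 : ℕ) • P = 0}

lemma mem_fiveSet {P : E.Point} : P ∈ fiveSet E ↔ P ≠ 0 ∧ (5 : ℕ) • P = 0 := Iff.rfl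

/-- There are at most `24` nonzero `5`-torsion points. -/
lemma fiveTors_ncard_le (h5 : (5 : K) ≠ 0) :
    (fiveSet E).Finite ∧ (fiveSet E).ncard ≤ 24 := by
  have h5' : ((5 : ℕ) : K) ≠ 0 := by exact_mod_cast h5
  have hne : WeierstrassCurve.preΨ' E 5 ≠ 0 := WeierstrassCurve.preΨ'_ne_zero E h5'
  have key := finite_of_roots (E := E) hne {P : E.Point | (5 : ℕ) • P = 0} (by
    intro P hP x y h hPe
    rw [eval_preΨ'_five]
    have hP' : (5 : ℕ) • P = 0 := hP
    rw [hPe] at hP'
    exact (psi5_eq_zero_of_five_nsmul h hP').1)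
  have hdeg : (WeierstrassCurve.preΨ' E 5).natDegree ≤ 12 := by
    have := WeierstrassCurve.natDegree_preΨ'_le E 5
    have h2 : (5 ^ 2 - if Even 5 then 4 else 1) / 2 = 12 := by decide
    rw [h2] at this
    exact this
  have hsub : fiveSet E ⊆ {P : E.Point | (5 : ℕ) • P = 0} \ {0} := by
    intro P hP
    exact ⟨hP.2, hP.1⟩
  have hfin : (fiveSet E).Finite := (key.1.sdiff).subset hsub
  refine ⟨hfin, ?_⟩
  have h0 : (0 : E.Point) ∈ {P : E.Point | (5 : ℕ) • P = 0} := by
    show (5 : ℕ) • (0 : E.Point) = 0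
    exact smul_zero _
  have h1 : ({P : E.Point | (5 : ℕ) • P = 0} \ {0}).ncard + 1
      = {P : E.Point | (5 : ℕ) • P = 0}.ncard := Set.ncard_sdiff_singleton_add_one h0 key.1
  have h2 : (fiveSet E).ncard ≤ ({P : E.Point | (5 : ℕ) • P = 0} \ {0}).ncard :=
    Set.ncard_le_ncard hsub key.1.sdiff
  have h3 := key.2
  omega

/-- **F1-core.** `24` distinct nonsingular points whose `x`-coordinates are roots of `ψ₅`
are exactly the nonzero `5`-torsion points. -/
theorem fiveTorsion_iff_of_sections (E : WeierstrassCurve.Affine K) (h5 : (5 : K) ≠ 0)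
    {ι : Type*} [Fintype ι] (hcard : Fintype.card ι = 24) (x y : ι → K)
    (hns : ∀ i, E.Nonsingular (x i) (y i)) (hpsi : ∀ i, psi5 E (x i) = 0)
    (hinj : Function.Injective fun i => (x i, y i)) (P : E.Point) :
    (P ≠ 0 ∧ (5 : ℕ) • P = 0) ↔ ∃ i, P = Point.some (x i) (y i) (hns i) := by
  classical
  set sec : ι → E.Point := fun i => Point.some (x i) (y i) (hns i) with hsec
  have hsec_inj : Function.Injective sec := by
    intro i j hij
    have := Point.some.inj hij
    exact hinj (Prod.ext this.1 this.2)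
  have hsub : Set.range sec ⊆ fiveSet E := by
    rintro _ ⟨i, rfl⟩
    exact ⟨Point.some_ne_zero (hns i), five_nsmul_of_psi5 (hns i) (hpsi i)⟩
  obtain ⟨hfin, hle⟩ := fiveTors_ncard_le (E := E) h5
  have hrange : (Set.range sec).ncard = 24 := by
    rw [← Set.image_univ, Set.ncard_image_of_injective _ hsec_inj, Set.ncard_univ,
      Nat.card_eq_fintype_card, hcard]
  have heq : Set.range sec = fiveSet E :=
    Set.eq_of_subset_of_ncard_le hsub (by rw [hrange]; exact hle) hfin
  constructor
  · intro hP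
    have : P ∈ Set.range sec := by rw [heq]; exact hP
    obtain ⟨i, hi⟩ := this
    exact ⟨i, hi.symm⟩
  · rintro ⟨i, rfl⟩
    exact hsub ⟨i, rfl⟩

/-! ### The short Weierstrass version with signs -/

/-- the short Weierstrass curve `y² = x³ + a₄ x + a₆` -/
def shortW (a₄ a₆ : K) : WeierstrassCurve.Affine K := ⟨0, 0, 0, a₄, a₆⟩

lemma shortW_equation {a₄ a₆ x y : K} :
    (shortW a₄ a₆).Equation x y ↔ y ^ 2 = x ^ 3 + a₄ * x + a₆ := by
  rw [WeierstrassCurve.Affine.equation_iff]
  simp only [shortW]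
  constructor <;> intro h <;> linear_combination h

lemma shortW_negY {a₄ a₆ x y : K} : (shortW a₄ a₆).negY x y = -y := by
  simp [WeierstrassCurve.Affine.negY, shortW]

/-- on a short curve with nonzero discriminant (characteristic `≠ 2`) every point of the
equation is nonsingular -/
lemma shortW_nonsingular {a₄ a₆ : K} (h2 : (2 : K) ≠ 0) (hΔ : 4 * a₄ ^ 3 + 27 * a₆ ^ 2 ≠ 0)
    {x y : K} (h : (shortW a₄ a₆).Equation x y) : (shortW a₄ a₆).Nonsingular x y := by
  have h' := shortW_equation.mp h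
  rw [WeierstrassCurve.Affine.nonsingular_iff]
  refine ⟨h, ?_⟩
  simp only [shortW]
  by_contra hcon
  push Not at hcon
  obtain ⟨h1, h3⟩ := hcon
  have hy : y = 0 := by
    have : (2 : K) * y = 0 := by linear_combination h3
    rcases mul_eq_zero.mp this with h | h
    · exact absurd h h2
    · exact h
  apply hΔ
  subst hy
  have e1 : a₄ = -3 * x ^ 2 := by linear_combination -h1
  have e2 : a₆ = 2 * x ^ 3 := by
    have : (0 : K) ^ 2 = x ^ 3 + a₄ * x + a₆ := h'
    rw [e1] at this
    linear_combination -this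
  rw [e1, e2]; ring

/-- the fifth division polynomial of a short curve, expanded -/
lemma psi5_shortW (a₄ a₆ x : K) :
    psi5 (shortW a₄ a₆) x = 5 * x ^ 12 + 62 * a₄ * x ^ 10 + 380 * a₆ * x ^ 9 - 105 * a₄ ^ 2 * x ^ 8
      + 240 * a₄ * a₆ * x ^ 7 + (-300 * a₄ ^ 3 - 240 * a₆ ^ 2) * x ^ 6 - 696 * a₄ ^ 2 * a₆ * x ^ 5
      + (-125 * a₄ ^ 4 - 1920 * a₄ * a₆ ^ 2) * x ^ 4 + (-80 * a₄ ^ 3 * a₆ - 1600 * a₆ ^ 3) * x ^ 3
      + (-50 * a₄ ^ 5 - 240 * a₄ ^ 2 * a₆ ^ 2) * x ^ 2 + (-100 * a₄ ^ 4 * a₆ - 640 * a₄ * a₆ ^ 3) * x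
      + (a₄ ^ 6 - 32 * a₄ ^ 3 * a₆ ^ 2 - 256 * a₆ ^ 4) := by
  simp only [psi5, pre4, dupD, psi3, shortW, WeierstrassCurve.b₂, WeierstrassCurve.b₄,
    WeierstrassCurve.b₆, WeierstrassCurve.b₈]
  ring

/-- the `y`-coordinate of the section with label `(i, sign)` -/
def signY (η : Fin 12 → K) (j : Fin 12 × Bool) : K := bif j.2 then -η j.1 else η j.1

@[simp] lemma signY_false (η : Fin 12 → K) (i : Fin 12) : signY η (i, false) = η i := rfl
@[simp] lemma signY_true (η : Fin 12 → K) (i : Fin 12) : signY η (i, true) = -η i := rfl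

lemma signY_sq (η : Fin 12 → K) (j : Fin 12 × Bool) : signY η j ^ 2 = η j.1 ^ 2 := by
  rcases j with ⟨i, _ | _⟩ <;> simp [signY]

section Short

variable {a₄ a₆ : K} (h2 : (2 : K) ≠ 0) (h5 : (5 : K) ≠ 0)
  (hΔ : 4 * a₄ ^ 3 + 27 * a₆ ^ 2 ≠ 0) (ξ η : Fin 12 → K)
  (hcurve : ∀ i, η i ^ 2 = ξ i ^ 3 + a₄ * ξ i + a₆)
  (hpsi : ∀ i, psi5 (shortW a₄ a₆) (ξ i) = 0)

include h2 hΔ hcurve in
lemma short_sections_nonsingular (j : Fin 12 × Bool) :
    (shortW a₄ a₆).Nonsingular (ξ j.1) (signY η j) :=
  shortW_nonsingular h2 hΔ (shortW_equation.mpr (by rw [signY_sq]; exact hcurve j.1))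

include h2 hΔ hcurve hpsi in
/-- the `y`-coordinate of a nonzero `5`-torsion point is nonzero -/
lemma short_eta_ne_zero (i : Fin 12) : η i ≠ 0 := by
  intro h0
  have hns := short_sections_nonsingular h2 hΔ ξ η hcurve (i, false)
  have h5P := five_nsmul_of_psi5 hns (hpsi i)
  set P := Point.some _ _ hns with hP
  have hneg : -P = P := by
    rw [hP, Point.neg_some]
    congr 1
    rw [shortW_negY]
    simp [h0]
  have h2P : P + P = 0 := by
    nth_rw 1 [← hneg]; exact neg_add_cancel P
  have : P = 0 := by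
    have e : (5 : ℕ) • P = (P + P) + (P + P) + P := by abel
    rw [e, h2P, add_zero, zero_add] at h5P
    exact h5P
  exact Point.some_ne_zero hns this

include h2 hΔ hcurve hpsi in
lemma short_sections_injective (hinj : Function.Injective ξ) :
    Function.Injective fun j : Fin 12 × Bool => (ξ j.1, signY η j) := by
  rintro ⟨i, b⟩ ⟨i', b'⟩ h
  have h1 : ξ i = ξ i' := congrArg Prod.fst h
  have hi : i = i' := hinj h1
  subst hi
  have h3 : signY η (i, b) = signY η (i, b') := congrArg Prod.snd h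
  have hne := short_eta_ne_zero h2 hΔ ξ η hcurve hpsi i
  have hne' : η i ≠ -η i := by
    intro h4
    have : (2 : K) * η i = 0 := by linear_combination h4
    rcases mul_eq_zero.mp this with h | h
    · exact h2 h
    · exact hne h
  rcases b with _ | _ <;> rcases b' with _ | _
  · rfl
  · exact absurd h3 (by simpa using hne')
  · exact absurd h3.symm (by simpa using hne')
  · rfl

include h2 h5 hΔ hcurve hpsi in
/-- **F1-core, short form.** For a short curve `y² = x³ + a₄ x + a₆` (characteristic `≠ 2, 5`,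
nonzero discriminant), twelve distinct roots `ξ i` of `ψ₅` with `η i ^ 2 = ξ i ^ 3 + a₄ ξ i + a₆`
give all `24` nonzero `5`-torsion points `(ξ i, ± η i)`. -/
theorem fiveTorsion_iff_of_short (hinj : Function.Injective ξ) (P : (shortW a₄ a₆).Point) :
    (P ≠ 0 ∧ (5 : ℕ) • P = 0) ↔ ∃ j : Fin 12 × Bool,
      P = Point.some (ξ j.1) (signY η j) (short_sections_nonsingular h2 hΔ ξ η hcurve j) := by
  refine fiveTorsion_iff_of_sections (shortW a₄ a₆) h5 (ι := Fin 12 × Bool) (by simp)
    (fun j => ξ j.1) (signY η) (short_sections_nonsingular h2 hΔ ξ η hcurve)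
    (fun j => hpsi j.1) (short_sections_injective h2 hΔ ξ η hcurve hpsi hinj) P

include h2 hΔ hcurve hpsi in
/-- the labelling `j ↦ (ξ j.1, ± η j.1)` of points is injective -/
theorem short_points_injective (hinj : Function.Injective ξ) :
    Function.Injective fun j : Fin 12 × Bool =>
      Point.some (ξ j.1) (signY η j) (short_sections_nonsingular h2 hΔ ξ η hcurve j) := by
  intro j j' h
  have := Point.some.inj h
  exact short_sections_injective h2 hΔ ξ η hcurve hpsi hinj (Prod.ext this.1 this.2)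

end Short

end Fermat.Agent.S52.H34
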