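import Mathlib
import Fermat.Agent.S52.KleinSec_helper29
import Fermat.Agent.S52.Struct_helper34

/-!
# S52, node F1 (concrete): the Klein sections are exactly the nonzero `5`-torsion (helper29)

For a field `K` of characteristic `∉ {2, 3, 5}`, a root `z` of `X⁴ + X³ + X² + X + 1`,
`r = 1/5`, and `(u, v)` with `f(u,v) ≠ 0`, the `24` points `(kX r z j u v, kY r z j u v)`,
`j : Fin 12 × Bool`, are exactly the nonzero `5`-torsion points of
`y² = x³ + 27 H(u,v) x + 54 T(u,v)`.  The sections are universal polynomials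
(`kX_eval`, `kY_eval`: polynomial along polynomial curves; `map_kX`, `map_kY`).
-/

set_option autoImplicit false
set_option linter.unusedSectionVars false

open WeierstrassCurve WeierstrassCurve.Affine Polynomial

namespace Fermat.Agent.S52.H29

open Fermat.Agent.S52.H34

section Universal

variable {R : Type*} [CommRing R]

/-- the `x`-coordinate of the section with label `j : Fin 12 × Bool` -/
def kX (r z : R) (j : Fin 12 × Bool) (u v : R) : R := secX r z u v (lbl j.1)

/-- the `y`-coordinate of the section with label `j : Fin 12 × Bool` (the `Bool` is the sign) -/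
def kY (r z : R) (j : Fin 12 × Bool) (u v : R) : R :=
  bif j.2 then -secY r z u v (lbl j.1) else secY r z u v (lbl j.1)

theorem map_kX {R' : Type*} [CommRing R'] (φ : R →+* R') (r z : R) (j : Fin 12 × Bool)
    (u v : R) : φ (kX r z j u v) = kX (φ r) (φ z) j (φ u) (φ v) :=
  map_secX φ r z u v _

theorem map_kY {R' : Type*} [CommRing R'] (φ : R →+* R') (r z : R) (j : Fin 12 × Bool)
    (u v : R) : φ (kY r z j u v) = kY (φ r) (φ z) j (φ u) (φ v) := by
  rcases j with ⟨i, _ | _⟩
  · exact map_secY φ r z u v _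
  · simp only [kY, cond_true, map_neg]
    rw [map_secY φ r z u v _]

/-- the sections are polynomial along polynomial curves -/
theorem kX_eval (r z : R) (j : Fin 12 × Bool) (p q : R[X]) (s : R) :
    (kX (C r) (C z) j p q).eval s = kX r z j (p.eval s) (q.eval s) := by
  have h := map_kX (Polynomial.evalRingHom s) (C r) (C z) j p q
  simpa using h

theorem kY_eval (r z : R) (j : Fin 12 × Bool) (p q : R[X]) (s : R) :
    (kY (C r) (C z) j p q).eval s = kY r z j (p.eval s) (q.eval s) := by
  have h := map_kY (Polynomial.evalRingHom s) (C r) (C z) j p q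
  simpa using h

theorem kF_eval (p q : R[X]) (s : R) : (kF p q).eval s = kF (p.eval s) (q.eval s) := by
  have h := map_kF (Polynomial.evalRingHom s) p q
  simpa using h

theorem kH_eval (p q : R[X]) (s : R) : (kH p q).eval s = kH (p.eval s) (q.eval s) := by
  have h := map_kH (Polynomial.evalRingHom s) p q
  simpa using h

theorem kT_eval (p q : R[X]) (s : R) : (kT p q).eval s = kT (p.eval s) (q.eval s) := by
  have h := map_kT (Polynomial.evalRingHom s) p q
  simpa using h

end Universal

section Field

variable {K : Type*} [Field K] [DecidableEq K]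

theorem psi5s_eq (a₄ a₆ x : K) : Fermat.Agent.S51.H80.psi5 (shortW a₄ a₆) x = psi5s x a₄ a₆ := by
  rw [psi5_shortW]; rfl

theorem kY_eq_signY (r z : K) (u v : K) (j : Fin 12 × Bool) :
    kY r z j u v = signY (fun i => secY r z u v (lbl i)) j := rfl

/-- **F1, concrete.** The `24` Klein sections are exactly the nonzero `5`-torsion points. -/
theorem klein_struct (h2 : (2 : K) ≠ 0) (h3 : (3 : K) ≠ 0) (h5 : (5 : K) ≠ 0) (r z : K)
    (hr : 5 * r = 1) (hz : z ^ 4 + z ^ 3 + z ^ 2 + z + 1 = 0) (u v : K) (hf : kF u v ≠ 0) :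
    ∃ hns : ∀ j : Fin 12 × Bool,
        (shortW (27 * kH u v) (54 * kT u v)).Nonsingular (kX r z j u v) (kY r z j u v),
      (∀ i j : Fin 12 × Bool, kX r z i u v = kX r z j u v → kY r z i u v = kY r z j u v → i = j) ∧
      ∀ P : (shortW (27 * kH u v) (54 * kT u v)).Point,
        (P ≠ 0 ∧ (5 : ℕ) • P = 0) ↔ ∃ j, P = Point.some _ _ (hns j) := by
  have hΔ := disc_ne_zero h2 h3 u v hf
  have hcurve : ∀ i : Fin 12, (fun i => secY r z u v (lbl i)) i ^ 2
      = (fun i => secX r z u v (lbl i)) i ^ 3 + 27 * kH u v * (fun i => secX r z u v (lbl i)) i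
        + 54 * kT u v := fun i => sec_curve r z u v hr hz (lbl i)
  have hpsi : ∀ i : Fin 12, Fermat.Agent.S51.H80.psi5 (shortW (27 * kH u v) (54 * kT u v))
      ((fun i => secX r z u v (lbl i)) i) = 0 := by
    intro i
    rw [psi5s_eq]
    exact sec_psi5 r z u v hr hz (lbl i)
  have hinj : Function.Injective (fun i : Fin 12 => secX r z u v (lbl i)) :=
    (secX_injective h2 h3 h5 r z u v hr hz hf).comp lbl_injective
  refine ⟨short_sections_nonsingular h2 hΔ _ _ hcurve, ?_, ?_⟩
  · intro i j hx hy
    exact short_sections_injective h2 hΔ _ _ hcurve hpsi hinj (Prod.ext hx hy)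
  · intro P
    exact fiveTorsion_iff_of_short h2 h5 hΔ _ _ hcurve hpsi hinj P

/-- a root of `Φ₅` exists over an algebraically closed field -/
theorem exists_root_phi5 (K : Type*) [Field K] [IsAlgClosed K] :
    ∃ z : K, z ^ 4 + z ^ 3 + z ^ 2 + z + 1 = 0 := by
  have hdeg : (X ^ 4 + X ^ 3 + X ^ 2 + X + 1 : K[X]).degree = 4 := by compute_degree!
  obtain ⟨z, hz⟩ := IsAlgClosed.exists_root (X ^ 4 + X ^ 3 + X ^ 2 + X + 1 : K[X])
    (by rw [hdeg]; norm_num)
  refine ⟨z, ?_⟩
  simpa using hz

end Field

end Fermat.Agent.S52.H29
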