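import Mathlib
import Fermat.Agent.S52.KleinStruct_helper29
import Fermat.Agent.S52.Lift_helper83
import Fermat.Agent.S52.Transfer_helper82

/-!
# S52: the Klein section system in the landed vocabulary (helper29)

`klein_struct` restated with helper83's Klein forms `H83.kf`, `H83.kH`, `H83.kT` and
helper82's short curve `H82.sh`; polynomiality of the sections along polynomial curves.
-/

set_option autoImplicit false
set_option linter.unusedSectionVars false

open WeierstrassCurve WeierstrassCurve.Affine Polynomial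

namespace Fermat.Agent.S52.H29

section Forms

variable {R : Type*} [CommRing R]

theorem kF_eq_kf (u v : R) : kF u v = H83.kf u v := by
  unfold kF gUV H83.kf; ring

theorem kH_eq_kH (u v : R) : kH u v = H83.kH u v := by
  unfold kH hUV H83.kH; ring

theorem kT_eq_kT (u v : R) : kT u v = H83.kT u v := by
  unfold kT tUV H83.kT; ring

/-- the `x`-sections are polynomial functions along polynomial curves -/
theorem exists_poly_kX (r z : R) (j : Fin 12 × Bool) (U V : R[X]) :
    ∃ p : R[X], ∀ s : R, kX r z j (U.eval s) (V.eval s) = p.eval s :=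
  ⟨kX (C r) (C z) j U V, fun s => (kX_eval r z j U V s).symm⟩

/-- the `y`-sections are polynomial functions along polynomial curves -/
theorem exists_poly_kY (r z : R) (j : Fin 12 × Bool) (U V : R[X]) :
    ∃ p : R[X], ∀ s : R, kY r z j (U.eval s) (V.eval s) = p.eval s :=
  ⟨kY (C r) (C z) j U V, fun s => (kY_eval r z j U V s).symm⟩

end Forms

section Field

variable {K : Type*} [Field K] [DecidableEq K]

/-- **F1, concrete**, in the landed vocabulary (`H83` Klein forms, `H82.sh`). -/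
theorem klein_struct_sh (h2 : (2 : K) ≠ 0) (h3 : (3 : K) ≠ 0) (h5 : (5 : K) ≠ 0) (r z : K)
    (hr : 5 * r = 1) (hz : z ^ 4 + z ^ 3 + z ^ 2 + z + 1 = 0) (u v : K) (hf : H83.kf u v ≠ 0) :
    ∃ hns : ∀ j : Fin 12 × Bool,
        (H82.sh (27 * H83.kH u v) (54 * H83.kT u v)).toAffine.Nonsingular
          (kX r z j u v) (kY r z j u v),
      (∀ i j : Fin 12 × Bool, kX r z i u v = kX r z j u v → kY r z i u v = kY r z j u v → i = j) ∧
      ∀ P : (H82.sh (27 * H83.kH u v) (54 * H83.kT u v)).toAffine.Point,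
        (P ≠ 0 ∧ (5 : ℕ) • P = 0) ↔ ∃ j, P = Point.some _ _ (hns j) := by
  have hf' : kF u v ≠ 0 := by rw [kF_eq_kf]; exact hf
  have h := klein_struct h2 h3 h5 r z hr hz u v hf'
  rw [kH_eq_kH, kT_eq_kT] at h
  exact h

/-- the same with `r = 5⁻¹` -/
theorem klein_struct_sh' (h2 : (2 : K) ≠ 0) (h3 : (3 : K) ≠ 0) (h5 : (5 : K) ≠ 0) (z : K)
    (hz : z ^ 4 + z ^ 3 + z ^ 2 + z + 1 = 0) (u v : K) (hf : H83.kf u v ≠ 0) :
    ∃ hns : ∀ j : Fin 12 × Bool,
        (H82.sh (27 * H83.kH u v) (54 * H83.kT u v)).toAffine.Nonsingular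
          (kX (5 : K)⁻¹ z j u v) (kY (5 : K)⁻¹ z j u v),
      (∀ i j : Fin 12 × Bool, kX (5 : K)⁻¹ z i u v = kX (5 : K)⁻¹ z j u v →
        kY (5 : K)⁻¹ z i u v = kY (5 : K)⁻¹ z j u v → i = j) ∧
      ∀ P : (H82.sh (27 * H83.kH u v) (54 * H83.kT u v)).toAffine.Point,
        (P ≠ 0 ∧ (5 : ℕ) • P = 0) ↔ ∃ j, P = Point.some _ _ (hns j) :=
  klein_struct_sh h2 h3 h5 _ z (mul_inv_cancel₀ h5) hz u v hf

end Field

end Fermat.Agent.S52.H29
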