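import Mathlib

/-!
# S52, node F3 (Frobenius equivariance of polynomial section systems) — abstract core

Setting: a field `K` of characteristic `ℓ` with surjective Frobenius, a family of short
Weierstrass curves `E_s : y² = x³ + A(s) x + B(s)` whose coefficient polynomials `A, B ∈ K[s]`
are fixed by the coefficientwise Frobenius (e.g. they come from `(ZMod ℓ)[s]`), and a system of
polynomial sections `(X i, Y i)`, `i : ι`, which for every good parameter `s` (`g(s) ≠ 0`)
enumerates the nonzero `n`-torsion points of `E_s`.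

Main result `frobenius_perm`: there is a map `π : ι → ι` with
`(X i).map Frob = X (π i)` and `(Y i).map Frob = Y (π i)` as polynomials.  Consequently, at every
Frobenius-fixed parameter `s` one has `Frob (P_i(s)) = P_{π i}(s)` with the *same* `π`.

Ingredients: `ptMap` (the semilinear map on points induced by a ring homomorphism of fields),
`isSysAt_conj` (the Frobenius conjugate of a section system is a section system) and
`exists_perm_of_two_systems` (two section systems of the same family differ by a constant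
relabelling: pigeonhole + identity principle).
-/

set_option autoImplicit false

open Polynomial WeierstrassCurve WeierstrassCurve.Affine

namespace Fermat.Agent.S52.H44

section PtMap

variable {F K : Type*} [Field F] [Field K] [DecidableEq F] [DecidableEq K]

/-- The group homomorphism on points induced by a ring homomorphism of fields
(semilinear version of Mathlib's `Point.map`; no algebra instances involved). -/
noncomputable def ptMap (W : Affine F) (φ : F →+* K) : W.Point →+ (W.map φ).Point where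
  toFun P := match P with
    | 0 => 0
    | Point.some _ _ h => Point.some _ _ ((W.map_nonsingular φ.injective ..).mpr h)
  map_zero' := rfl
  map_add' := by
    rintro (_ | ⟨x₁, y₁, h₁⟩) (_ | ⟨x₂, y₂, h₂⟩)
    any_goals rfl
    by_cases hxy : x₁ = x₂ ∧ y₁ = W.negY x₂ y₂
    · rw [Point.add_of_Y_eq hxy.left hxy.right,
        Point.add_of_Y_eq (congr_arg _ hxy.left) <| by rw [hxy.right, map_negY]]
    · simpa only [Point.add_some hxy, ← map_addX, ← map_addY, ← map_slope] using
        (Point.add_some fun h ↦ hxy ⟨φ.injective h.1, φ.injective (W.map_negY φ .. ▸ h).2⟩).symm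

lemma ptMap_some (W : Affine F) (φ : F →+* K) {x y : F} (h : W.Nonsingular x y) :
    ptMap W φ (Point.some x y h) =
      Point.some (φ x) (φ y) ((W.map_nonsingular φ.injective ..).mpr h) := rfl

lemma ptMap_injective (W : Affine F) (φ : F →+* K) : Function.Injective (ptMap W φ) := by
  rintro (_ | _) (_ | _) h
  any_goals contradiction
  · rfl
  · simpa only [Point.some.injEq] using
      ⟨φ.injective (Point.some.inj h).left, φ.injective (Point.some.inj h).right⟩

lemma ptMap_surjective (W : Affine F) (φ : F →+* K) (hφ : Function.Surjective φ) :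
    Function.Surjective (ptMap W φ) := by
  rintro (_ | ⟨x', y', h'⟩)
  · exact ⟨0, rfl⟩
  · obtain ⟨x, rfl⟩ := hφ x'
    obtain ⟨y, rfl⟩ := hφ y'
    exact ⟨Point.some x y ((W.map_nonsingular φ.injective ..).mp h'), rfl⟩

/-- `ptMap` transported along an equality identifying the target curve. -/
noncomputable def ptMapTo (φ : F →+* K) {W : Affine F} {W' : Affine K} (h : W.map φ = W') :
    W.Point →+ W'.Point :=
  h ▸ ptMap W φ

omit [DecidableEq F] [DecidableEq K] in
lemma nonsingular_of_map_eq (φ : F →+* K) {W : Affine F} {W' : Affine K} (h : W.map φ = W')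
    {x y : F} (hns : W.Nonsingular x y) : W'.Nonsingular (φ x) (φ y) := by
  subst h; exact (W.map_nonsingular φ.injective ..).mpr hns

lemma ptMapTo_some (φ : F →+* K) {W : Affine F} {W' : Affine K} (h : W.map φ = W')
    {x y : F} (hns : W.Nonsingular x y) :
    ptMapTo φ h (Point.some x y hns) = Point.some (φ x) (φ y) (nonsingular_of_map_eq φ h hns) := by
  subst h; rfl

lemma ptMapTo_injective (φ : F →+* K) {W : Affine F} {W' : Affine K} (h : W.map φ = W') :
    Function.Injective (ptMapTo φ h) := by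
  subst h; exact ptMap_injective W φ

lemma ptMapTo_surjective (φ : F →+* K) (hφ : Function.Surjective φ) {W : Affine F}
    {W' : Affine K} (h : W.map φ = W') : Function.Surjective (ptMapTo φ h) := by
  subst h; exact ptMap_surjective W φ hφ

end PtMap

/-- The short Weierstrass curve `y² = x³ + a x + b`. -/
abbrev shortW {K : Type*} [CommRing K] (a b : K) : Affine K :=
  (⟨0, 0, 0, a, b⟩ : WeierstrassCurve K)

lemma shortW_map {F K : Type*} [CommRing F] [CommRing K] (φ : F →+* K) (a b : F) :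
    (shortW a b).map φ = shortW (φ a) (φ b) := by
  ext <;> simp [shortW, WeierstrassCurve.map]

section Sys

variable {K : Type*} [Field K] [DecidableEq K]

/-- `(X, Y)` is a system of polynomial sections which, at the parameter `s`, enumerates the
nonzero `n`-torsion points of `E_s : y² = x³ + A(s) x + B(s)`. -/
def IsSysAt (A B : K[X]) (n : ℕ) {ι : Type*} (X Y : ι → K[X]) (s : K) : Prop :=
  ∃ hns : ∀ i, (shortW (A.eval s) (B.eval s)).Nonsingular ((X i).eval s) ((Y i).eval s),
    ∀ P : (shortW (A.eval s) (B.eval s)).Point,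
      (P ≠ 0 ∧ n • P = 0) ↔ ∃ i, P = Point.some _ _ (hns i)

/-- Two section systems for the same family differ by a constant relabelling
(pigeonhole over the infinitely many good parameters + identity principle). -/
theorem exists_perm_of_two_systems [Infinite K] {ι : Type*} [Finite ι] (A B : K[X]) (n : ℕ)
    (X Y X' Y' : ι → K[X]) (g g' : K[X]) (hg : g ≠ 0) (hg' : g' ≠ 0)
    (hsys : ∀ s, g.eval s ≠ 0 → IsSysAt A B n X Y s)
    (hsys' : ∀ s, g'.eval s ≠ 0 → IsSysAt A B n X' Y' s) :
    ∃ π : ι → ι, ∀ i, X' i = X (π i) ∧ Y' i = Y (π i) := by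
  classical
  have key : ∀ i, ∃ j, X' i = X j ∧ Y' i = Y j := by
    intro i
    have hS : {s : K | (g * g').eval s ≠ 0}.Infinite := by
      have hfin : {s : K | (g * g').IsRoot s}.Finite :=
        Polynomial.finite_setOfPred_isRoot (mul_ne_zero hg hg')
      have h1 := Set.Infinite.sdiff (Set.infinite_univ (α := K)) hfin
      refine h1.mono ?_
      intro s hs
      exact hs.2
    have hcov : {s : K | (g * g').eval s ≠ 0} ⊆
        ⋃ j, {s : K | (X' i - X j).IsRoot s ∧ (Y' i - Y j).IsRoot s} := by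
      intro s hs
      have hs' : g.eval s * g'.eval s ≠ 0 := by simpa [eval_mul] using hs
      obtain ⟨hns, h⟩ := hsys s (left_ne_zero_of_mul hs')
      obtain ⟨hns', h'⟩ := hsys' s (right_ne_zero_of_mul hs')
      obtain ⟨j, hj⟩ := (h _).mp ((h' _).mpr ⟨i, rfl⟩)
      have hj' := Point.some.inj hj
      refine Set.mem_iUnion.mpr ⟨j, ?_, ?_⟩
      · simp [IsRoot, hj'.1]
      · simp [IsRoot, hj'.2]
    obtain ⟨j, hj⟩ : ∃ j, {s : K | (X' i - X j).IsRoot s ∧ (Y' i - Y j).IsRoot s}.Infinite := by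
      by_contra hcon
      exact (hS.mono hcov) (Set.finite_iUnion fun j =>
        Set.not_infinite.mp (fun hj => hcon ⟨j, hj⟩))
    refine ⟨j, ?_, ?_⟩
    · exact sub_eq_zero.mp
        (Polynomial.eq_zero_of_infinite_isRoot _ (hj.mono fun s hs => hs.1))
    · exact sub_eq_zero.mp
        (Polynomial.eq_zero_of_infinite_isRoot _ (hj.mono fun s hs => hs.2))
  choose π hπ using key
  exact ⟨π, hπ⟩

/-- The Frobenius conjugate of a section system is a section system (at the Frobenius image of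
the parameter), provided the coefficients of the family are Frobenius-fixed. -/
theorem isSysAt_conj (ℓ : ℕ) [Fact ℓ.Prime] [CharP K ℓ]
    (hperf : Function.Surjective (frobenius K ℓ)) (A B : K[X])
    (hA : A.map (frobenius K ℓ) = A) (hB : B.map (frobenius K ℓ) = B) (n : ℕ)
    {ι : Type*} (X Y : ι → K[X]) (s : K) (h : IsSysAt A B n X Y s) :
    IsSysAt A B n (fun i => (X i).map (frobenius K ℓ)) (fun i => (Y i).map (frobenius K ℓ))
      (frobenius K ℓ s) := by
  set φ : K →+* K := frobenius K ℓ with hφ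
  have hAs : φ (A.eval s) = A.eval (φ s) := by
    conv_rhs => rw [← hA]
    rw [Polynomial.eval_map_apply]
  have hBs : φ (B.eval s) = B.eval (φ s) := by
    conv_rhs => rw [← hB]
    rw [Polynomial.eval_map_apply]
  have hE : (shortW (A.eval s) (B.eval s)).map φ = shortW (A.eval (φ s)) (B.eval (φ s)) := by
    rw [shortW_map, hAs, hBs]
  obtain ⟨hns, hiff⟩ := h
  have hns' : ∀ i, (shortW (A.eval (φ s)) (B.eval (φ s))).Nonsingular
      (((X i).map φ).eval (φ s)) (((Y i).map φ).eval (φ s)) := by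
    intro i
    rw [Polynomial.eval_map_apply, Polynomial.eval_map_apply]
    exact nonsingular_of_map_eq φ hE (hns i)
  refine ⟨hns', ?_⟩
  have hinj := ptMapTo_injective φ hE
  have hsurj := ptMapTo_surjective φ hperf hE
  have himg : ∀ i, ptMapTo φ hE (Point.some _ _ (hns i)) = Point.some _ _ (hns' i) := by
    intro i
    rw [ptMapTo_some]
    simp only [Polynomial.eval_map_apply]
  intro P'
  obtain ⟨P, rfl⟩ := hsurj P'
  rw [← map_nsmul, map_ne_zero_iff _ hinj, map_eq_zero_iff _ hinj, hiff P]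
  constructor
  · rintro ⟨i, rfl⟩
    exact ⟨i, himg i⟩
  · rintro ⟨i, hi⟩
    exact ⟨i, hinj (hi.trans (himg i).symm)⟩

/-- **F3 core.** For a family with Frobenius-fixed coefficients, the coefficientwise Frobenius
permutes the sections of any section system by a constant relabelling `π`. -/
theorem frobenius_perm (ℓ : ℕ) [Fact ℓ.Prime] [CharP K ℓ] [Infinite K]
    (hperf : Function.Surjective (frobenius K ℓ)) {ι : Type*} [Finite ι] (A B : K[X])
    (hA : A.map (frobenius K ℓ) = A) (hB : B.map (frobenius K ℓ) = B) (n : ℕ)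
    (X Y : ι → K[X]) (g : K[X]) (hg : g ≠ 0)
    (hsys : ∀ s, g.eval s ≠ 0 → IsSysAt A B n X Y s) :
    ∃ π : ι → ι, ∀ i, (X i).map (frobenius K ℓ) = X (π i) ∧
      (Y i).map (frobenius K ℓ) = Y (π i) := by
  refine exists_perm_of_two_systems A B n X Y _ _ g (g.map (frobenius K ℓ)) hg
    ((Polynomial.map_ne_zero_iff (frobenius_inj K ℓ)).mpr hg) hsys ?_
  intro s' hs'
  obtain ⟨s, rfl⟩ := hperf s'
  rw [Polynomial.eval_map_apply] at hs'
  exact isSysAt_conj ℓ hperf A B hA hB n X Y s
    (hsys s (fun h0 => hs' (by rw [h0, map_zero])))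

/-- Pointwise form of `frobenius_perm`: at every Frobenius-fixed parameter `s` the `ℓ`-th powers
of the coordinates of the `i`-th section are the coordinates of the `π i`-th section. -/
theorem frobenius_perm_eval (ℓ : ℕ) [Fact ℓ.Prime] [CharP K ℓ] [Infinite K]
    (hperf : Function.Surjective (frobenius K ℓ)) {ι : Type*} [Finite ι] (A B : K[X])
    (hA : A.map (frobenius K ℓ) = A) (hB : B.map (frobenius K ℓ) = B) (n : ℕ)
    (X Y : ι → K[X]) (g : K[X]) (hg : g ≠ 0)
    (hsys : ∀ s, g.eval s ≠ 0 → IsSysAt A B n X Y s) :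
    ∃ π : ι → ι, ∀ i, ∀ s : K, s ^ ℓ = s →
      ((X i).eval s) ^ ℓ = (X (π i)).eval s ∧ ((Y i).eval s) ^ ℓ = (Y (π i)).eval s := by
  obtain ⟨π, hπ⟩ := frobenius_perm ℓ hperf A B hA hB n X Y g hg hsys
  refine ⟨π, fun i s hs => ?_⟩
  have hs' : frobenius K ℓ s = s := by rw [frobenius_def, hs]
  constructor
  · rw [← (hπ i).1, ← frobenius_def, ← Polynomial.eval_map_apply, hs']
  · rw [← (hπ i).2, ← frobenius_def, ← Polynomial.eval_map_apply, hs']

omit [DecidableEq K] in
/-- Polynomials coming from `(ZMod ℓ)[X]` are fixed by the coefficientwise Frobenius. -/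
lemma map_frobenius_map_algebraMap (ℓ : ℕ) [Fact ℓ.Prime] [CharP K ℓ] [Algebra (ZMod ℓ) K]
    (A₀ : (ZMod ℓ)[X]) :
    (A₀.map (algebraMap (ZMod ℓ) K)).map (frobenius K ℓ) = A₀.map (algebraMap (ZMod ℓ) K) := by
  rw [Polynomial.map_map]
  congr 1
  ext c
  simp only [RingHom.comp_apply, frobenius_def, ← map_pow, ZMod.pow_card]

omit [DecidableEq K] in
/-- The evaluation of a Frobenius-fixed polynomial at a Frobenius-fixed point is
Frobenius-fixed. -/
lemma eval_pow_of_fixed (ℓ : ℕ) [Fact ℓ.Prime] [CharP K ℓ] (A : K[X])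
    (hA : A.map (frobenius K ℓ) = A) {s : K} (hs : s ^ ℓ = s) : (A.eval s) ^ ℓ = A.eval s := by
  have hs' : frobenius K ℓ s = s := by rw [frobenius_def, hs]
  conv_rhs => rw [← hA, ← hs', Polynomial.eval_map_apply, frobenius_def]

/-- The Frobenius endomorphism of the group of points of a short Weierstrass curve with
Frobenius-fixed coefficients. -/
noncomputable def frobPt (ℓ : ℕ) [Fact ℓ.Prime] [CharP K ℓ] {a b : K} (ha : a ^ ℓ = a)
    (hb : b ^ ℓ = b) : (shortW a b).Point →+ (shortW a b).Point :=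
  ptMapTo (frobenius K ℓ) (by rw [shortW_map, frobenius_def, frobenius_def, ha, hb])

lemma frobPt_some (ℓ : ℕ) [Fact ℓ.Prime] [CharP K ℓ] {a b : K} (ha : a ^ ℓ = a)
    (hb : b ^ ℓ = b) {x y : K} (h : (shortW a b).Nonsingular x y) :
    ∃ h' : (shortW a b).Nonsingular (x ^ ℓ) (y ^ ℓ),
      frobPt ℓ ha hb (Point.some x y h) = Point.some (x ^ ℓ) (y ^ ℓ) h' :=
  ⟨_, ptMapTo_some _ _ h⟩

lemma frobPt_injective (ℓ : ℕ) [Fact ℓ.Prime] [CharP K ℓ] {a b : K} (ha : a ^ ℓ = a)
    (hb : b ^ ℓ = b) : Function.Injective (frobPt ℓ ha hb) :=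
  ptMapTo_injective _ _

/-- **F3, assembled.**  Let `s₀, s₁` be Frobenius-fixed good parameters and let
`ψ : E_{s₀} → E_{s₁}` be any label-preserving map (`ψ (P_i(s₀)) = P_i(s₁)`, `ψ 0 = 0`).  Then
`ψ` commutes with the Frobenius endomorphisms on the `n`-torsion of `E_{s₀}`. -/
theorem frob_equivariant (ℓ : ℕ) [Fact ℓ.Prime] [CharP K ℓ] [Infinite K]
    (hperf : Function.Surjective (frobenius K ℓ)) {ι : Type*} [Finite ι] (A B : K[X])
    (hA : A.map (frobenius K ℓ) = A) (hB : B.map (frobenius K ℓ) = B) (n : ℕ)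
    (X Y : ι → K[X]) (g : K[X]) (hg : g ≠ 0)
    (hsys : ∀ s, g.eval s ≠ 0 → IsSysAt A B n X Y s)
    (s₀ s₁ : K) (hs₀ : s₀ ^ ℓ = s₀) (hs₁ : s₁ ^ ℓ = s₁)
    (hg₀ : g.eval s₀ ≠ 0) (hg₁ : g.eval s₁ ≠ 0)
    (ψ : (shortW (A.eval s₀) (B.eval s₀)).Point → (shortW (A.eval s₁) (B.eval s₁)).Point)
    (hψ0 : ψ 0 = 0)
    (hψ : ∀ i (h₀ : (shortW (A.eval s₀) (B.eval s₀)).Nonsingular ((X i).eval s₀) ((Y i).eval s₀))
      (h₁ : (shortW (A.eval s₁) (B.eval s₁)).Nonsingular ((X i).eval s₁) ((Y i).eval s₁)),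
      ψ (Point.some _ _ h₀) = Point.some _ _ h₁)
    (Q : (shortW (A.eval s₀) (B.eval s₀)).Point) (hQ : n • Q = 0) :
    ψ (frobPt ℓ (eval_pow_of_fixed ℓ A hA hs₀) (eval_pow_of_fixed ℓ B hB hs₀) Q) =
      frobPt ℓ (eval_pow_of_fixed ℓ A hA hs₁) (eval_pow_of_fixed ℓ B hB hs₁) (ψ Q) := by
  obtain ⟨π, hπ⟩ := frobenius_perm_eval ℓ hperf A B hA hB n X Y g hg hsys
  obtain ⟨hns₀, hiff₀⟩ := hsys s₀ hg₀
  obtain ⟨hns₁, -⟩ := hsys s₁ hg₁
  by_cases hQ0 : Q = 0
  · subst hQ0
    rw [map_zero, hψ0, map_zero]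
  · obtain ⟨i, rfl⟩ := (hiff₀ Q).mp ⟨hQ0, hQ⟩
    rw [hψ i (hns₀ i) (hns₁ i)]
    obtain ⟨h₀', e₀⟩ := frobPt_some ℓ (eval_pow_of_fixed ℓ A hA hs₀)
      (eval_pow_of_fixed ℓ B hB hs₀) (hns₀ i)
    obtain ⟨h₁', e₁⟩ := frobPt_some ℓ (eval_pow_of_fixed ℓ A hA hs₁)
      (eval_pow_of_fixed ℓ B hB hs₁) (hns₁ i)
    rw [e₀, e₁]
    have k₀ : Point.some _ _ h₀' = Point.some _ _ (hns₀ (π i)) := by
      simp only [Point.some.injEq]
      exact hπ i s₀ hs₀
    have k₁ : Point.some _ _ h₁' = Point.some _ _ (hns₁ (π i)) := by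
      simp only [Point.some.injEq]
      exact hπ i s₁ hs₁
    rw [k₀, k₁]
    exact hψ (π i) _ _

end Sys

end Fermat.Agent.S52.H44
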