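import Mathlib

/-!
# S52, node F2 (PolyFam): polynomial families of torsion sections

Abstract "continuity" lemma used to transport the `5`-torsion along a line of the Klein family.

* `IsPolyFun f` : `f : K → K` is a polynomial function (closed under `+ * - ^`, constants, `id`,
  composition; identity principle `IsPolyFun.eq_of_infinite`).
* Setting: a family `E s` of short Weierstrass curves (`a₁ = a₂ = a₃ = 0`, `a₄ = A s` polynomial
  in `s`), polynomial sections `(X i s, Y i s)` (`i : ι`, `ι` finite) which, for every `s` in an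
  infinite set `S`, enumerate injectively the nonzero elements of a subgroup `G s` of `E s`.
* `exists_negTable`  : `-P_i = P_{ν i}` identically (as polynomial identities),
* `exists_addTable`  : `P_i(s) + P_j(s) = P_{τ i j}(s)` (or `0`) for all `s ∈ S`, `τ` independent
  of `s`,
* `exists_addEquiv`  : for `s₀ s₁ ∈ S` the label-preserving bijection `G s₀ ≃+ G s₁`,
* `exists_relabel`   : two such systems of sections differ by a constant relabelling.
-/

set_option autoImplicit false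

open Polynomial

namespace Fermat.Agent.S52.H14

section PolyFun

variable {K : Type*} [Field K]

/-- `f : K → K` is a polynomial function. -/
def IsPolyFun (f : K → K) : Prop := ∃ p : K[X], ∀ s, f s = p.eval s

namespace IsPolyFun

lemma const (c : K) : IsPolyFun (fun _ : K => c) := ⟨C c, fun s => by simp⟩

lemma id : IsPolyFun (fun s : K => s) := ⟨X, fun s => by simp⟩

lemma eval (p : K[X]) : IsPolyFun (fun s : K => p.eval s) := ⟨p, fun _ => rfl⟩

lemma add {f g : K → K} (hf : IsPolyFun f) (hg : IsPolyFun g) :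
    IsPolyFun (fun s => f s + g s) := by
  obtain ⟨p, hp⟩ := hf
  obtain ⟨q, hq⟩ := hg
  exact ⟨p + q, fun s => by simp only [hp, hq, eval_add]⟩

lemma mul {f g : K → K} (hf : IsPolyFun f) (hg : IsPolyFun g) :
    IsPolyFun (fun s => f s * g s) := by
  obtain ⟨p, hp⟩ := hf
  obtain ⟨q, hq⟩ := hg
  exact ⟨p * q, fun s => by simp only [hp, hq, eval_mul]⟩

lemma neg {f : K → K} (hf : IsPolyFun f) : IsPolyFun (fun s => -f s) := by
  obtain ⟨p, hp⟩ := hf
  exact ⟨-p, fun s => by simp only [hp, eval_neg]⟩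

lemma sub {f g : K → K} (hf : IsPolyFun f) (hg : IsPolyFun g) :
    IsPolyFun (fun s => f s - g s) := by
  obtain ⟨p, hp⟩ := hf
  obtain ⟨q, hq⟩ := hg
  exact ⟨p - q, fun s => by simp only [hp, hq, eval_sub]⟩

lemma pow {f : K → K} (hf : IsPolyFun f) (n : ℕ) : IsPolyFun (fun s => f s ^ n) := by
  obtain ⟨p, hp⟩ := hf
  exact ⟨p ^ n, fun s => by simp only [hp, eval_pow]⟩

lemma comp {f g : K → K} (hf : IsPolyFun f) (hg : IsPolyFun g) :
    IsPolyFun (fun s => f (g s)) := by
  obtain ⟨p, hp⟩ := hf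
  obtain ⟨q, hq⟩ := hg
  exact ⟨p.comp q, fun s => by simp only [hp, hq, eval_comp]⟩

lemma congr {f g : K → K} (hg : IsPolyFun g) (h : ∀ s, f s = g s) : IsPolyFun f := by
  obtain ⟨q, hq⟩ := hg
  exact ⟨q, fun s => by rw [h, hq]⟩

lemma natCast_mul (n : ℕ) {f : K → K} (hf : IsPolyFun f) : IsPolyFun (fun s => (n : K) * f s) :=
  (const (n : K)).mul hf

/-- Evaluating a fixed multivariate polynomial at polynomial functions gives a polynomial
function (e.g. a binary form along a line `s ↦ w₀ + s • w₁`). -/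
lemma mvEval {σ : Type*} (p : MvPolynomial σ K) {g : σ → K → K} (hg : ∀ i, IsPolyFun (g i)) :
    IsPolyFun (fun s => MvPolynomial.eval (fun i => g i s) p) := by
  induction p using MvPolynomial.induction_on with
  | C a => exact (const a).congr fun s => by simp
  | add p q hp hq => exact (hp.add hq).congr fun s => by simp
  | mul_X p i hp => exact (hp.mul (hg i)).congr fun s => by simp

/-- Identity principle: a polynomial function vanishing on an infinite set vanishes everywhere. -/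
lemma eq_zero_of_infinite {f : K → K} (hf : IsPolyFun f) {T : Set K} (hT : T.Infinite)
    (h : ∀ s ∈ T, f s = 0) (s : K) : f s = 0 := by
  obtain ⟨p, hp⟩ := hf
  have hp0 : p = 0 := by
    apply Polynomial.eq_zero_of_infinite_isRoot
    refine hT.mono fun t ht => ?_
    show p.eval t = 0
    rw [← hp]; exact h t ht
  rw [hp, hp0, eval_zero]

/-- Two polynomial functions agreeing on an infinite set agree everywhere. -/
lemma eq_of_infinite {f g : K → K} (hf : IsPolyFun f) (hg : IsPolyFun g) {T : Set K}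
    (hT : T.Infinite) (h : ∀ s ∈ T, f s = g s) (s : K) : f s = g s := by
  have := eq_zero_of_infinite (hf.sub hg) hT (fun t ht => by simp only [h t ht, sub_self]) s
  exact sub_eq_zero.mp this

end IsPolyFun

/-- Pigeonhole: if every point of an infinite set has one of finitely many labels, one label
occurs infinitely often. -/
lemma exists_infinite_label {α : Type*} {S : Set α} (hS : S.Infinite) {ι : Type*} [Finite ι]
    {p : α → ι → Prop} (h : ∀ s ∈ S, ∃ i, p s i) : ∃ i, {s | s ∈ S ∧ p s i}.Infinite := by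
  by_contra hcon
  push Not at hcon
  apply hS
  have hfin : (⋃ i, {s | s ∈ S ∧ p s i}).Finite := Set.finite_iUnion fun i => hcon i
  refine hfin.subset fun s hs => ?_
  obtain ⟨i, hi⟩ := h s hs
  exact Set.mem_iUnion.mpr ⟨i, hs, hi⟩

end PolyFun

end Fermat.Agent.S52.H14

namespace Fermat.Agent.S52.H14

section ShortCurve

open WeierstrassCurve WeierstrassCurve.Affine

variable {K : Type*} [Field K] [DecidableEq K]

/-- Chord formula on a short Weierstrass curve, cleared of denominators. -/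
lemma add_eq_some_iff_of_X_ne {W : WeierstrassCurve K} (h1 : W.a₁ = 0) (h2 : W.a₂ = 0)
    (h3 : W.a₃ = 0) {x₁ y₁ x₂ y₂ x₃ y₃ : K} (p₁ : W.toAffine.Nonsingular x₁ y₁)
    (p₂ : W.toAffine.Nonsingular x₂ y₂) (p₃ : W.toAffine.Nonsingular x₃ y₃) (hx : x₁ ≠ x₂) :
    Point.some _ _ p₁ + Point.some _ _ p₂ = Point.some _ _ p₃ ↔
      (x₃ + x₁ + x₂) * (x₁ - x₂) ^ 2 = (y₁ - y₂) ^ 2 ∧
        (y₃ + y₁) * (x₁ - x₂) = -(y₁ - y₂) * (x₃ - x₁) := by
  have hd : x₁ - x₂ ≠ 0 := sub_ne_zero.mpr hx
  rw [Point.add_of_X_ne hx, Point.some.injEq]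
  simp only [addY, negAddY, addX, negY, slope_of_X_ne hx, h1, h2, h3, zero_mul, add_zero,
    sub_zero]
  set ℓ := (y₁ - y₂) / (x₁ - x₂) with hℓdef
  have hℓ : ℓ * (x₁ - x₂) = y₁ - y₂ := div_mul_cancel₀ _ hd
  rw [← hℓ]
  constructor
  · rintro ⟨hx3, hy3⟩
    subst hx3
    subst hy3
    constructor <;> ring
  · rintro ⟨hx3, hy3⟩
    have hx3' : x₃ + x₁ + x₂ = ℓ ^ 2 := by
      have : (x₃ + x₁ + x₂ - ℓ ^ 2) * (x₁ - x₂) ^ 2 = 0 := by linear_combination hx3
      rcases mul_eq_zero.mp this with h | h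
      · exact sub_eq_zero.mp h
      · exact absurd ((pow_eq_zero_iff two_ne_zero).mp h) hd
    have hy3' : y₃ + y₁ = -ℓ * (x₃ - x₁) := by
      have : (y₃ + y₁ + ℓ * (x₃ - x₁)) * (x₁ - x₂) = 0 := by linear_combination hy3
      rcases mul_eq_zero.mp this with h | h
      · linear_combination h
      · exact absurd h hd
    constructor
    · linear_combination -hx3'
    · have e : ℓ ^ 2 - x₁ - x₂ = x₃ := by linear_combination -hx3'
      rw [e]
      linear_combination -hy3'

/-- Tangent formula on a short Weierstrass curve, cleared of denominators. -/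
lemma add_self_eq_some_iff {W : WeierstrassCurve K} (h1 : W.a₁ = 0) (h2 : W.a₂ = 0)
    (h3 : W.a₃ = 0) (h2K : (2 : K) ≠ 0) {x₁ y₁ x₃ y₃ : K} (p₁ : W.toAffine.Nonsingular x₁ y₁)
    (p₃ : W.toAffine.Nonsingular x₃ y₃) (hy : y₁ ≠ 0) :
    Point.some _ _ p₁ + Point.some _ _ p₁ = Point.some _ _ p₃ ↔
      (x₃ + 2 * x₁) * (2 * y₁) ^ 2 = (3 * x₁ ^ 2 + W.a₄) ^ 2 ∧
        (y₃ + y₁) * (2 * y₁) = -(3 * x₁ ^ 2 + W.a₄) * (x₃ - x₁) := by
  have hd : 2 * y₁ ≠ 0 := mul_ne_zero h2K hy
  have hyne : y₁ ≠ W.toAffine.negY x₁ y₁ := by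
    simp only [negY, h1, h3, zero_mul, sub_zero]
    intro h
    apply hd
    linear_combination h
  rw [Point.add_self_of_Y_ne hyne, Point.some.injEq]
  simp only [addY, negAddY, addX, negY, slope_of_Y_ne rfl hyne, h1, h2, h3, zero_mul, mul_zero,
    add_zero, sub_zero]
  have hden : y₁ - -y₁ = 2 * y₁ := by ring
  rw [hden]
  set ℓ := (3 * x₁ ^ 2 + W.a₄) / (2 * y₁) with hℓdef
  have hℓ : ℓ * (2 * y₁) = 3 * x₁ ^ 2 + W.a₄ := div_mul_cancel₀ _ hd
  rw [← hℓ]
  constructor
  · rintro ⟨hx3, hy3⟩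
    subst hx3
    subst hy3
    constructor <;> ring
  · rintro ⟨hx3, hy3⟩
    have hx3' : x₃ + 2 * x₁ = ℓ ^ 2 := by
      have : (x₃ + 2 * x₁ - ℓ ^ 2) * (2 * y₁) ^ 2 = 0 := by linear_combination hx3
      rcases mul_eq_zero.mp this with h | h
      · exact sub_eq_zero.mp h
      · exact absurd ((pow_eq_zero_iff two_ne_zero).mp h) hd
    have hy3' : y₃ + y₁ = -ℓ * (x₃ - x₁) := by
      have : (y₃ + y₁ + ℓ * (x₃ - x₁)) * (2 * y₁) = 0 := by linear_combination hy3
      rcases mul_eq_zero.mp this with h | h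
      · linear_combination h
      · exact absurd h hd
    constructor
    · linear_combination -hx3'
    · have e : ℓ ^ 2 - x₁ - x₁ = x₃ := by linear_combination -hx3'
      rw [e]
      linear_combination -hy3'

end ShortCurve

section Family

open WeierstrassCurve WeierstrassCurve.Affine

variable {K : Type*} [Field K] [DecidableEq K]

/-- A polynomial system of sections `(X i s, Y i s)`, `i : ι`, of a family `E s` of short
Weierstrass curves (`a₁ = a₂ = a₃ = 0`, `a₄ = A s` a polynomial function of `s`) which for every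
`s ∈ S` enumerates injectively the nonzero elements of the subgroup `G s` of `E s`. -/
structure SecSys (E : K → WeierstrassCurve K) (A : K → K) (S : Set K)
    (G : ∀ s, AddSubgroup (E s).toAffine.Point) {ι : Type*} (X Y : ι → K → K) : Prop where
  a1 : ∀ s, (E s).a₁ = 0
  a2 : ∀ s, (E s).a₂ = 0
  a3 : ∀ s, (E s).a₃ = 0
  a4 : ∀ s, (E s).a₄ = A s
  polyA : IsPolyFun A
  polyX : ∀ i, IsPolyFun (X i)
  polyY : ∀ i, IsPolyFun (Y i)
  ns : ∀ s ∈ S, ∀ i, (E s).toAffine.Nonsingular (X i s) (Y i s)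
  inj : ∀ s ∈ S, ∀ i j, X i s = X j s → Y i s = Y j s → i = j
  mem : ∀ s (hs : s ∈ S) (P : (E s).toAffine.Point),
    P ∈ G s ↔ P = 0 ∨ ∃ i, P = Point.some _ _ (ns s hs i)

namespace SecSys

variable {E : K → WeierstrassCurve K} {A : K → K} {S : Set K}
  {G : ∀ s, AddSubgroup (E s).toAffine.Point} {ι : Type*} {X Y : ι → K → K}

/-- The `i`-th point of the system at the parameter `s ∈ S`. -/
def pt (h : SecSys E A S G X Y) {s : K} (hs : s ∈ S) (i : ι) : (E s).toAffine.Point :=
  Point.some _ _ (h.ns s hs i)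

lemma pt_ne_zero (h : SecSys E A S G X Y) {s : K} (hs : s ∈ S) (i : ι) : h.pt hs i ≠ 0 :=
  Point.some_ne_zero _

lemma pt_mem (h : SecSys E A S G X Y) {s : K} (hs : s ∈ S) (i : ι) : h.pt hs i ∈ G s :=
  (h.mem s hs _).mpr (Or.inr ⟨i, rfl⟩)

lemma eq_zero_or_eq_pt (h : SecSys E A S G X Y) {s : K} (hs : s ∈ S) {P : (E s).toAffine.Point}
    (hP : P ∈ G s) : P = 0 ∨ ∃ i, P = h.pt hs i :=
  (h.mem s hs P).mp hP

lemma pt_eq_pt_iff (h : SecSys E A S G X Y) {s : K} (hs : s ∈ S) {i j : ι} :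
    h.pt hs i = h.pt hs j ↔ X i s = X j s ∧ Y i s = Y j s := by
  unfold pt
  rw [Point.some.injEq]

lemma pt_injective (h : SecSys E A S G X Y) {s : K} (hs : s ∈ S) :
    Function.Injective (h.pt hs) := fun i j hij =>
  h.inj s hs i j ((h.pt_eq_pt_iff hs).mp hij).1 ((h.pt_eq_pt_iff hs).mp hij).2

lemma neg_pt_eq_pt_iff (h : SecSys E A S G X Y) {s : K} (hs : s ∈ S) {i j : ι} :
    -h.pt hs i = h.pt hs j ↔ X j s = X i s ∧ Y j s = -Y i s := by
  unfold pt
  rw [Point.neg_some, Point.some.injEq]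
  simp only [negY, h.a1 s, h.a3 s, zero_mul, sub_zero]
  constructor
  · rintro ⟨h1, h2⟩; exact ⟨h1.symm, h2.symm⟩
  · rintro ⟨h1, h2⟩; exact ⟨h1.symm, h2.symm⟩

/-- **Negation table.** -/
theorem exists_negTable [Finite ι] (h : SecSys E A S G X Y) (hS : S.Infinite) :
    ∃ ν : ι → ι, ∀ i s, X (ν i) s = X i s ∧ Y (ν i) s = -Y i s := by
  have key : ∀ i, ∃ j, ∀ s, X j s = X i s ∧ Y j s = -Y i s := by
    intro i
    have h1 : ∀ s ∈ S, ∃ j, X j s = X i s ∧ Y j s = -Y i s := by
      intro s hs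
      have hmem : -h.pt hs i ∈ G s := (G s).neg_mem (h.pt_mem hs i)
      rcases h.eq_zero_or_eq_pt hs hmem with h0 | ⟨j, hj⟩
      · exact absurd (neg_eq_zero.mp h0) (h.pt_ne_zero hs i)
      · exact ⟨j, (h.neg_pt_eq_pt_iff hs).mp hj⟩
    obtain ⟨j, hj⟩ := exists_infinite_label hS h1
    refine ⟨j, fun s => ⟨?_, ?_⟩⟩
    · exact IsPolyFun.eq_of_infinite (h.polyX j) (h.polyX i) hj (fun t ht => ht.2.1) s
    · exact IsPolyFun.eq_of_infinite (h.polyY j) (h.polyY i).neg hj (fun t ht => ht.2.2) s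
  choose ν hν using key
  exact ⟨ν, hν⟩

/-- **Addition table.** The sum of two points of the system is given by a table which does not
depend on the parameter. -/
theorem exists_addTable [Finite ι] (h : SecSys E A S G X Y) (hS : S.Infinite)
    (h2K : (2 : K) ≠ 0) :
    ∃ τ : ι → ι → Option ι, ∀ s (hs : s ∈ S) (i j : ι),
      h.pt hs i + h.pt hs j = (τ i j).elim 0 (h.pt hs) := by
  obtain ⟨ν, hν⟩ := h.exists_negTable hS
  have hnegpt : ∀ s (hs : s ∈ S) i, -h.pt hs i = h.pt hs (ν i) := fun s hs i =>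
    (h.neg_pt_eq_pt_iff hs).mpr (hν i s)
  have key : ∀ i j, ∃ o : Option ι, ∀ s (hs : s ∈ S),
      h.pt hs i + h.pt hs j = o.elim 0 (h.pt hs) := by
    intro i j
    by_cases hj : j = ν i
    · refine ⟨none, fun s hs => ?_⟩
      subst hj
      rw [← hnegpt s hs i, add_neg_cancel]
      rfl
    · have hne : ∀ s (hs : s ∈ S), h.pt hs i + h.pt hs j ≠ 0 := by
        intro s hs h0
        have h1 : h.pt hs j = -h.pt hs i := eq_neg_of_add_eq_zero_right h0
        rw [hnegpt s hs i] at h1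
        exact hj (h.pt_injective hs h1)
      have h1 : ∀ s ∈ S, ∃ k, ∀ hs : s ∈ S, h.pt hs i + h.pt hs j = h.pt hs k := by
        intro s hs
        have hmem : h.pt hs i + h.pt hs j ∈ G s := (G s).add_mem (h.pt_mem hs i) (h.pt_mem hs j)
        rcases h.eq_zero_or_eq_pt hs hmem with h0 | ⟨k, hk⟩
        · exact absurd h0 (hne s hs)
        · exact ⟨k, fun _ => hk⟩
      obtain ⟨k, hk⟩ := exists_infinite_label hS h1
      refine ⟨some k, fun s hs => ?_⟩
      show h.pt hs i + h.pt hs j = h.pt hs k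
      by_cases hij : j = i
      · subst hij
        have hy0 : ∀ t ∈ S, Y j t ≠ 0 := by
          intro t ht h0
          apply hj
          apply h.inj t ht
          · exact (hν j t).1.symm
          · rw [(hν j t).2, h0, neg_zero]
        have hiff : ∀ t (ht : t ∈ S), h.pt ht j + h.pt ht j = h.pt ht k ↔
            (X k t + 2 * X j t) * (2 * Y j t) ^ 2 = (3 * X j t ^ 2 + A t) ^ 2 ∧
              (Y k t + Y j t) * (2 * Y j t) = -(3 * X j t ^ 2 + A t) * (X k t - X j t) := by
          intro t ht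
          unfold pt
          rw [add_self_eq_some_iff (h.a1 t) (h.a2 t) (h.a3 t) h2K _ _ (hy0 t ht), h.a4 t]
        rw [hiff s hs]
        have c2 : IsPolyFun (fun _ : K => (2 : K)) := IsPolyFun.const 2
        have c3 : IsPolyFun (fun _ : K => (3 : K)) := IsPolyFun.const 3
        have pN : IsPolyFun (fun t => 3 * X j t ^ 2 + A t) :=
          (c3.mul ((h.polyX j).pow 2)).add h.polyA
        have pD : IsPolyFun (fun t => 2 * Y j t) := c2.mul (h.polyY j)
        constructor
        · exact IsPolyFun.eq_of_infinite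
            (((h.polyX k).add (c2.mul (h.polyX j))).mul (pD.pow 2)) (pN.pow 2) hk
            (fun t ht => ((hiff t ht.1).mp (ht.2 ht.1)).1) s
        · exact IsPolyFun.eq_of_infinite
            (((h.polyY k).add (h.polyY j)).mul pD) (pN.neg.mul ((h.polyX k).sub (h.polyX j))) hk
            (fun t ht => ((hiff t ht.1).mp (ht.2 ht.1)).2) s
      · have hx : ∀ t ∈ S, X i t ≠ X j t := by
          intro t ht hxe
          rcases Y_eq_of_X_eq (h.ns t ht i).1 (h.ns t ht j).1 hxe with hy | hy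
          · exact hij (h.inj t ht i j hxe hy).symm
          · apply hj
            apply h.inj t ht
            · rw [(hν i t).1, hxe]
            · rw [(hν i t).2, hy]
              simp only [negY, h.a1 t, h.a3 t, zero_mul, sub_zero, neg_neg]
        have hiff : ∀ t (ht : t ∈ S), h.pt ht i + h.pt ht j = h.pt ht k ↔
            (X k t + X i t + X j t) * (X i t - X j t) ^ 2 = (Y i t - Y j t) ^ 2 ∧
              (Y k t + Y i t) * (X i t - X j t) = -(Y i t - Y j t) * (X k t - X i t) := by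
          intro t ht
          unfold pt
          rw [add_eq_some_iff_of_X_ne (h.a1 t) (h.a2 t) (h.a3 t) _ _ _ (hx t ht)]
        rw [hiff s hs]
        have pDx : IsPolyFun (fun t => X i t - X j t) := (h.polyX i).sub (h.polyX j)
        have pDy : IsPolyFun (fun t => Y i t - Y j t) := (h.polyY i).sub (h.polyY j)
        constructor
        · exact IsPolyFun.eq_of_infinite
            ((((h.polyX k).add (h.polyX i)).add (h.polyX j)).mul (pDx.pow 2)) (pDy.pow 2) hk
            (fun t ht => ((hiff t ht.1).mp (ht.2 ht.1)).1) s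
        · exact IsPolyFun.eq_of_infinite
            (((h.polyY k).add (h.polyY i)).mul pDx) (pDy.neg.mul ((h.polyX k).sub (h.polyX i))) hk
            (fun t ht => ((hiff t ht.1).mp (ht.2 ht.1)).2) s
  choose τ hτ using key
  exact ⟨τ, fun s hs i j => hτ i j s hs⟩

/-- Restriction of a system to a smaller parameter set. -/
lemma mono (h : SecSys E A S G X Y) {S' : Set K} (hS' : S' ⊆ S) : SecSys E A S' G X Y where
  a1 := h.a1
  a2 := h.a2
  a3 := h.a3
  a4 := h.a4
  polyA := h.polyA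
  polyX := h.polyX
  polyY := h.polyY
  ns := fun s hs i => h.ns s (hS' hs) i
  inj := fun s hs => h.inj s (hS' hs)
  mem := fun s hs P => h.mem s (hS' hs) P

/-- The enumeration `Option ι → G s` (`none ↦ 0`, `some i ↦ P_i(s)`). -/
def enum (h : SecSys E A S G X Y) {s : K} (hs : s ∈ S) : Option ι → G s
  | none => 0
  | some i => ⟨h.pt hs i, h.pt_mem hs i⟩

@[simp] lemma enum_none (h : SecSys E A S G X Y) {s : K} (hs : s ∈ S) : h.enum hs none = 0 := rfl

@[simp] lemma coe_enum_some (h : SecSys E A S G X Y) {s : K} (hs : s ∈ S) (i : ι) :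
    ((h.enum hs (some i) : G s) : (E s).toAffine.Point) = h.pt hs i := rfl

lemma enum_bijective (h : SecSys E A S G X Y) {s : K} (hs : s ∈ S) :
    Function.Bijective (h.enum hs) := by
  constructor
  · rintro (_ | i) (_ | j) hij
    · rfl
    · exact absurd (congrArg Subtype.val hij).symm (h.pt_ne_zero hs j)
    · exact absurd (congrArg Subtype.val hij) (h.pt_ne_zero hs i)
    · exact congrArg some (h.pt_injective hs (congrArg Subtype.val hij))
  · rintro ⟨P, hP⟩
    rcases h.eq_zero_or_eq_pt hs hP with h0 | ⟨i, hi⟩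
    · exact ⟨none, Subtype.ext h0.symm⟩
    · exact ⟨some i, Subtype.ext hi.symm⟩

/-- Extension of an addition table to `Option ι`. -/
def tab (τ : ι → ι → Option ι) : Option ι → Option ι → Option ι
  | none, b => b
  | some i, none => some i
  | some i, some j => τ i j

lemma enum_add (h : SecSys E A S G X Y) {τ : ι → ι → Option ι}
    (hτ : ∀ s (hs : s ∈ S) (i j : ι), h.pt hs i + h.pt hs j = (τ i j).elim 0 (h.pt hs))
    {s : K} (hs : s ∈ S) (a b : Option ι) :
    h.enum hs a + h.enum hs b = h.enum hs (tab τ a b) := by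
  rcases a with _ | i
  · simp [tab]
  · rcases b with _ | j
    · simp [tab]
    · apply Subtype.ext
      show h.pt hs i + h.pt hs j = ((h.enum hs (τ i j) : G s) : (E s).toAffine.Point)
      rw [hτ s hs i j]
      rcases τ i j with _ | k <;> rfl

/-- **Transport.** For two parameters `s₀, s₁ ∈ S` the label-preserving bijection
`G s₀ → G s₁` (`0 ↦ 0`, `P_i(s₀) ↦ P_i(s₁)`) is an isomorphism of groups. -/
theorem exists_addEquiv [Finite ι] (h : SecSys E A S G X Y) (hS : S.Infinite)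
    (h2K : (2 : K) ≠ 0) {s₀ s₁ : K} (hs₀ : s₀ ∈ S) (hs₁ : s₁ ∈ S) :
    ∃ φ : G s₀ ≃+ G s₁, ∀ i : ι,
      ((φ ⟨h.pt hs₀ i, h.pt_mem hs₀ i⟩ : G s₁) : (E s₁).toAffine.Point) = h.pt hs₁ i := by
  obtain ⟨τ, hτ⟩ := h.exists_addTable hS h2K
  let e₀ : Option ι ≃ G s₀ := Equiv.ofBijective _ (h.enum_bijective hs₀)
  let e₁ : Option ι ≃ G s₁ := Equiv.ofBijective _ (h.enum_bijective hs₁)
  have he₀ : ∀ a, e₀ a = h.enum hs₀ a := fun _ => rfl
  have he₁ : ∀ a, e₁ a = h.enum hs₁ a := fun _ => rfl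
  refine ⟨AddEquiv.mk' (e₀.symm.trans e₁) ?_, ?_⟩
  · intro x y
    obtain ⟨a, rfl⟩ := e₀.surjective x
    obtain ⟨b, rfl⟩ := e₀.surjective y
    have hab : e₀ a + e₀ b = e₀ (tab τ a b) := by
      rw [he₀, he₀, he₀]; exact h.enum_add hτ hs₀ a b
    rw [hab]
    simp only [Equiv.trans_apply, Equiv.symm_apply_apply]
    rw [he₁, he₁, he₁]
    exact (h.enum_add hτ hs₁ a b).symm
  · intro i
    show ((e₁ (e₀.symm ⟨h.pt hs₀ i, h.pt_mem hs₀ i⟩) : G s₁) : (E s₁).toAffine.Point) =
      h.pt hs₁ i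
    have : e₀.symm ⟨h.pt hs₀ i, h.pt_mem hs₀ i⟩ = some i := by
      rw [Equiv.symm_apply_eq]; rfl
    rw [this]
    rfl

/-- A label-preserving additive bijection intertwines any two maps acting on the labels by the
same permutation (e.g. the Frobenius maps of the two fibres). -/
theorem addEquiv_comm (h : SecSys E A S G X Y) {s₀ s₁ : K} (hs₀ : s₀ ∈ S) (hs₁ : s₁ ∈ S)
    (φ : G s₀ ≃+ G s₁)
    (hφ : ∀ i : ι, ((φ ⟨h.pt hs₀ i, h.pt_mem hs₀ i⟩ : G s₁) : (E s₁).toAffine.Point) = h.pt hs₁ i)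
    (F₀ : (E s₀).toAffine.Point → (E s₀).toAffine.Point)
    (F₁ : (E s₁).toAffine.Point → (E s₁).toAffine.Point) (π : ι → ι)
    (hF₀ : F₀ 0 = 0) (hF₁ : F₁ 0 = 0)
    (hπ₀ : ∀ i, F₀ (h.pt hs₀ i) = h.pt hs₀ (π i)) (hπ₁ : ∀ i, F₁ (h.pt hs₁ i) = h.pt hs₁ (π i))
    (x y : G s₀) (hxy : (y : (E s₀).toAffine.Point) = F₀ x) :
    ((φ y : G s₁) : (E s₁).toAffine.Point) = F₁ (φ x) := by
  obtain ⟨P, hP⟩ := x
  rcases h.eq_zero_or_eq_pt hs₀ hP with h0 | ⟨i, hi⟩
  · subst h0
    have hx0 : (⟨0, hP⟩ : G s₀) = 0 := rfl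
    have hy0 : y = 0 := Subtype.ext (by rw [hxy]; exact hF₀)
    rw [hx0, hy0, map_zero]
    exact hF₁.symm
  · subst hi
    have hy : y = ⟨h.pt hs₀ (π i), h.pt_mem hs₀ (π i)⟩ := Subtype.ext (by rw [hxy]; exact hπ₀ i)
    rw [hy, hφ, hφ, hπ₁]

/-- **Relabelling.** Two systems of sections enumerating the same subgroups differ by a constant
relabelling: the identities hold for ALL parameters. -/
theorem exists_relabel [Finite ι] {ι' : Type*} {X' Y' : ι' → K → K} (h : SecSys E A S G X Y)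
    (h' : SecSys E A S G X' Y') (hS : S.Infinite) :
    ∃ π : ι' → ι, ∀ i' s, X' i' s = X (π i') s ∧ Y' i' s = Y (π i') s := by
  have key : ∀ i', ∃ i, ∀ s, X' i' s = X i s ∧ Y' i' s = Y i s := by
    intro i'
    have h1 : ∀ s ∈ S, ∃ i, X' i' s = X i s ∧ Y' i' s = Y i s := by
      intro s hs
      rcases h.eq_zero_or_eq_pt hs (h'.pt_mem hs i') with h0 | ⟨i, hi⟩
      · exact absurd h0 (h'.pt_ne_zero hs i')
      · refine ⟨i, ?_⟩
        unfold pt at hi
        rw [Point.some.injEq] at hi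
        exact hi
    obtain ⟨i, hi⟩ := exists_infinite_label hS h1
    refine ⟨i, fun s => ⟨?_, ?_⟩⟩
    · exact IsPolyFun.eq_of_infinite (h'.polyX i') (h.polyX i) hi (fun t ht => ht.2.1) s
    · exact IsPolyFun.eq_of_infinite (h'.polyY i') (h.polyY i) hi (fun t ht => ht.2.2) s
  choose π hπ using key
  exact ⟨π, hπ⟩

/-- Pointwise form of `exists_relabel`. -/
lemma pt_eq_pt_of_relabel {ι' : Type*} {X' Y' : ι' → K → K} (h : SecSys E A S G X Y)
    (h' : SecSys E A S G X' Y') {π : ι' → ι}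
    (hπ : ∀ i' s, X' i' s = X (π i') s ∧ Y' i' s = Y (π i') s) {s : K} (hs : s ∈ S) (i' : ι') :
    h'.pt hs i' = h.pt hs (π i') := by
  unfold pt
  rw [Point.some.injEq]
  exact hπ i' s

end SecSys

end Family

end Fermat.Agent.S52.H14
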