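import Mathlib
import Fermat.Agent.S52.PolyFam_helper14
import Fermat.Agent.S52.FrobPerm_helper44

/-!
# S52, node F3 (Frobenius equivariance), stated on `H14.SecSys`

Let `h : H14.SecSys E A S G X Y` be a section system (node F2, `PolyFam_helper14`) over a field
`K` of characteristic `ℓ` with surjective Frobenius, for a family `E` which is compatible with
Frobenius (`(E s).map Frob = E (s ^ ℓ)`, i.e. the coefficient functions have coefficients in
`𝔽_ℓ`) and subgroups `G s` compatible with Frobenius (e.g. the `n`-torsion subgroups).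

* `secSys_frobConj`: the Frobenius conjugate sections `s ↦ (X i (σ s)) ^ ℓ`, `σ = Frob⁻¹`,
  form a section system again (on `Frob '' S`).  No Klein data is needed for this.
* `secSys_exists_frob_relabel`: there is a constant `π : ι → ι` with
  `X i s ^ ℓ = X (π i) (s ^ ℓ)` and `Y i s ^ ℓ = Y (π i) (s ^ ℓ)` for ALL `s : K`.
* `secSys_frob_pt`: hence at a Frobenius-fixed parameter `s ∈ S` every map `F` on the points of
  `E s` acting by `(x, y) ↦ (x ^ ℓ, y ^ ℓ)` (e.g. `H50.frobPt`) satisfies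
  `F (h.pt hs i) = h.pt hs (π i)` — these are the hypotheses `hπ₀`, `hπ₁` of
  `H47.secSys_dvd_sub_of_frob` (node F4) and of `H14.SecSys.addEquiv_comm`.
-/

set_option autoImplicit false

open Polynomial WeierstrassCurve WeierstrassCurve.Affine

namespace Fermat.Agent.S52.H44

open Fermat.Agent.S52.H14

section FrobSec

variable {K : Type*} [Field K]

/-- The Frobenius conjugate `s ↦ f (σ s) ^ ℓ` (`σ` an inverse of Frobenius) of a polynomial
function is a polynomial function. -/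
lemma isPolyFun_frobConj (ℓ : ℕ) [Fact ℓ.Prime] [CharP K ℓ] (σ : K → K)
    (hσ : ∀ s, σ s ^ ℓ = s) {f : K → K} (hf : IsPolyFun f) :
    IsPolyFun (fun s => f (σ s) ^ ℓ) := by
  obtain ⟨p, hp⟩ := hf
  refine ⟨p.map (frobenius K ℓ), fun s => ?_⟩
  have hs : s = frobenius K ℓ (σ s) := by rw [frobenius_def, hσ]
  conv_rhs => rw [hs, Polynomial.eval_map_apply, frobenius_def]
  show f (σ s) ^ ℓ = _
  rw [hp]

variable [DecidableEq K]
variable {E : K → WeierstrassCurve K} {A : K → K} {S : Set K}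
  {G : ∀ s, AddSubgroup (E s).toAffine.Point} {ι : Type*} {X Y : ι → K → K}

/-- The Frobenius conjugate of a section system is a section system. -/
theorem secSys_frobConj (h : SecSys E A S G X Y) (ℓ : ℕ) [Fact ℓ.Prime] [CharP K ℓ]
    (σ : K → K) (hσ : ∀ s, σ s ^ ℓ = s)
    (hE : ∀ s, (E s).toAffine.map (frobenius K ℓ) = (E (s ^ ℓ)).toAffine)
    (hG : ∀ s (P : (E s).toAffine.Point),
      ptMapTo (frobenius K ℓ) (hE s) P ∈ G (s ^ ℓ) ↔ P ∈ G s) :
    SecSys E A {s | σ s ∈ S} G (fun i s => X i (σ s) ^ ℓ) (fun i s => Y i (σ s) ^ ℓ) := by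
  have hσ' : ∀ t, σ (t ^ ℓ) = t := fun t => frobenius_inj K ℓ (by
    rw [frobenius_def, frobenius_def, hσ])
  have hsurj : Function.Surjective (frobenius K ℓ) := fun s => ⟨σ s, by rw [frobenius_def, hσ]⟩
  have hns : ∀ s ∈ {s | σ s ∈ S}, ∀ i,
      (E s).toAffine.Nonsingular (X i (σ s) ^ ℓ) (Y i (σ s) ^ ℓ) := by
    intro s hs i
    have h1 := nonsingular_of_map_eq (frobenius K ℓ) (hE (σ s)) (h.ns (σ s) hs i)
    rw [hσ s] at h1
    simpa only [frobenius_def] using h1
  refine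
    { a1 := h.a1
      a2 := h.a2
      a3 := h.a3
      a4 := h.a4
      polyA := h.polyA
      polyX := fun i => isPolyFun_frobConj ℓ σ hσ (h.polyX i)
      polyY := fun i => isPolyFun_frobConj ℓ σ hσ (h.polyY i)
      ns := hns
      inj := ?_
      mem := ?_ }
  · intro s hs i j hx hy
    refine h.inj (σ s) hs i j (frobenius_inj K ℓ ?_) (frobenius_inj K ℓ ?_)
    · simpa only [frobenius_def] using hx
    · simpa only [frobenius_def] using hy
  · intro s hs P
    obtain ⟨t, rfl⟩ : ∃ t, t ^ ℓ = s := ⟨σ s, hσ s⟩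
    have ht : t ∈ S := by
      have := hs
      rwa [Set.mem_ofPred_eq, hσ'] at this
    have hinj := ptMapTo_injective (frobenius K ℓ) (hE t)
    obtain ⟨Q, rfl⟩ := ptMapTo_surjective (frobenius K ℓ) hsurj (hE t) P
    have himg : ∀ i, ptMapTo (frobenius K ℓ) (hE t) (Point.some _ _ (h.ns t ht i)) =
        Point.some _ _ (hns (t ^ ℓ) hs i) := by
      intro i
      rw [ptMapTo_some]
      simp only [frobenius_def, hσ']
    rw [hG t Q, h.mem t ht Q, map_eq_zero_iff _ hinj]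
    constructor
    · rintro (h0 | ⟨i, rfl⟩)
      · exact Or.inl h0
      · exact Or.inr ⟨i, himg i⟩
    · rintro (h0 | ⟨i, hi⟩)
      · exact Or.inl h0
      · exact Or.inr ⟨i, hinj (hi.trans (himg i).symm)⟩

/-- **F3 on `SecSys`.** The Frobenius acts on the sections of a section system by a constant
relabelling `π`; the identities hold for all parameters. -/
theorem secSys_exists_frob_relabel [Finite ι] (h : SecSys E A S G X Y) (ℓ : ℕ) [Fact ℓ.Prime]
    [CharP K ℓ] (hperf : Function.Surjective (frobenius K ℓ))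
    (hE : ∀ s, (E s).toAffine.map (frobenius K ℓ) = (E (s ^ ℓ)).toAffine)
    (hG : ∀ s (P : (E s).toAffine.Point),
      ptMapTo (frobenius K ℓ) (hE s) P ∈ G (s ^ ℓ) ↔ P ∈ G s)
    (hS : (S ∩ {s | ∃ t ∈ S, t ^ ℓ = s}).Infinite) :
    ∃ π : ι → ι, ∀ i s, X i s ^ ℓ = X (π i) (s ^ ℓ) ∧ Y i s ^ ℓ = Y (π i) (s ^ ℓ) := by
  choose σ hσ0 using hperf
  have hσ : ∀ s, σ s ^ ℓ = s := fun s => by rw [← frobenius_def, hσ0]
  have hσ' : ∀ t, σ (t ^ ℓ) = t := fun t => frobenius_inj K ℓ (by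
    rw [frobenius_def, frobenius_def, hσ])
  have h' := secSys_frobConj h ℓ σ hσ hE hG
  have hset : {s | ∃ t ∈ S, t ^ ℓ = s} = {s | σ s ∈ S} := by
    ext s
    constructor
    · rintro ⟨t, ht, rfl⟩
      simpa only [Set.mem_ofPred_eq, hσ'] using ht
    · intro hs
      exact ⟨σ s, hs, hσ s⟩
  rw [hset] at hS
  obtain ⟨π, hπ⟩ := (h.mono Set.inter_subset_left).exists_relabel
    (h'.mono Set.inter_subset_right) hS
  refine ⟨π, fun i s => ?_⟩
  have := hπ i (s ^ ℓ)
  simpa only [hσ'] using this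

omit [DecidableEq K] in
/-- For a cofinite parameter set `S` the set `S ∩ Frob '' S` is infinite. -/
lemma inter_frob_infinite [Infinite K] (ℓ : ℕ) [Fact ℓ.Prime] [CharP K ℓ]
    (hperf : Function.Surjective (frobenius K ℓ)) {S : Set K} (hfin : Sᶜ.Finite) :
    (S ∩ {s | ∃ t ∈ S, t ^ ℓ = s}).Infinite := by
  have hsub : (S ∩ {s | ∃ t ∈ S, t ^ ℓ = s})ᶜ ⊆ Sᶜ ∪ (fun t => t ^ ℓ) '' Sᶜ := by
    intro s hs
    by_cases hsS : s ∈ S
    · right
      obtain ⟨t, ht⟩ := hperf s
      rw [frobenius_def] at ht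
      refine ⟨t, fun htS => hs ⟨hsS, t, htS, ht⟩, ht⟩
    · left
      exact hsS
  have hfin' : (S ∩ {s | ∃ t ∈ S, t ^ ℓ = s})ᶜ.Finite :=
    (hfin.union (hfin.image _)).subset hsub
  have := hfin'.infinite_compl
  rwa [compl_compl] at this

/-- Torsion subgroups are compatible with Frobenius. -/
lemma frob_mem_iff_of_torsion (ℓ : ℕ) [Fact ℓ.Prime] [CharP K ℓ]
    (hE : ∀ s, (E s).toAffine.map (frobenius K ℓ) = (E (s ^ ℓ)).toAffine) (n : ℕ)
    (hGn : ∀ s (P : (E s).toAffine.Point), P ∈ G s ↔ n • P = 0)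
    (s : K) (P : (E s).toAffine.Point) :
    ptMapTo (frobenius K ℓ) (hE s) P ∈ G (s ^ ℓ) ↔ P ∈ G s := by
  rw [hGn, hGn, ← map_nsmul, map_eq_zero_iff _ (ptMapTo_injective _ _)]

/-- At a Frobenius-fixed parameter, any map acting on affine points by
`(x, y) ↦ (x ^ ℓ, y ^ ℓ)` permutes the labelled points by `π`. -/
theorem secSys_frob_pt (h : SecSys E A S G X Y) {ℓ : ℕ} {π : ι → ι}
    (hπ : ∀ i s, X i s ^ ℓ = X (π i) (s ^ ℓ) ∧ Y i s ^ ℓ = Y (π i) (s ^ ℓ))
    {s : K} (hs : s ∈ S) (hsl : s ^ ℓ = s)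
    (F : (E s).toAffine.Point → (E s).toAffine.Point)
    (hF : ∀ (x y : K) (hxy : (E s).toAffine.Nonsingular x y),
      ∃ h' : (E s).toAffine.Nonsingular (x ^ ℓ) (y ^ ℓ),
        F (Point.some x y hxy) = Point.some (x ^ ℓ) (y ^ ℓ) h') (i : ι) :
    F (h.pt hs i) = h.pt hs (π i) := by
  unfold SecSys.pt
  obtain ⟨h', e⟩ := hF _ _ (h.ns s hs i)
  rw [e, Point.some.injEq]
  have := hπ i s
  rw [hsl] at this
  exact this

/-- **F3, packaged.** For a Frobenius-compatible family with cofinite good set and subgroups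
`G s` = the `n`-torsion: one relabelling `π` describes the action of every Frobenius-type map at
every Frobenius-fixed good parameter. -/
theorem secSys_exists_frob_perm [Finite ι] [Infinite K] (h : SecSys E A S G X Y) (ℓ : ℕ)
    [Fact ℓ.Prime] [CharP K ℓ] (hperf : Function.Surjective (frobenius K ℓ))
    (hE : ∀ s, (E s).toAffine.map (frobenius K ℓ) = (E (s ^ ℓ)).toAffine) (n : ℕ)
    (hGn : ∀ s (P : (E s).toAffine.Point), P ∈ G s ↔ n • P = 0) (hfin : Sᶜ.Finite) :
    ∃ π : ι → ι, ∀ (s : K) (hs : s ∈ S), s ^ ℓ = s →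
      ∀ F : (E s).toAffine.Point → (E s).toAffine.Point,
      (∀ (x y : K) (hxy : (E s).toAffine.Nonsingular x y),
        ∃ h' : (E s).toAffine.Nonsingular (x ^ ℓ) (y ^ ℓ),
          F (Point.some x y hxy) = Point.some (x ^ ℓ) (y ^ ℓ) h') →
      ∀ i, F (h.pt hs i) = h.pt hs (π i) := by
  obtain ⟨π, hπ⟩ := secSys_exists_frob_relabel h ℓ hperf hE
    (frob_mem_iff_of_torsion ℓ hE n hGn) (inter_frob_infinite ℓ hperf hfin)
  exact ⟨π, fun s hs hsl F hF i => secSys_frob_pt h hπ hs hsl F hF i⟩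

end FrobSec

end Fermat.Agent.S52.H44
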