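import Mathlib
import Fermat.Agent.S52.PolyFam_helper14

/-!
# S52, node F4 (ModFive), abstract core

Consumer of `H14.SecSys` (node F2, `PolyFam_helper14`).  Given a section system `h` enumerating
the nonzero elements of subgroups `G s` killed by an odd prime `n`, two parameters `s₀ s₁ ∈ S`,
and maps `F₀`, `F₁` on the points of the two fibres which

* permute the labelled points in the same way (`π`), and
* satisfy `2 • (F (F P) - a • F P + l • P) = 0` with `a = a₀`, resp. `a = a₁`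
  (the shape of `H50.transfer`, node E6),

we get `n ∣ a₀ - a₁` (`secSys_dvd_sub_of_frob`).
-/

set_option autoImplicit false
set_option linter.unusedSectionVars false

open WeierstrassCurve WeierstrassCurve.Affine

namespace Fermat.Agent.S52.H47

/-- An element killed by `2` and by an odd number vanishes. -/
lemma eq_zero_of_two_nsmul_of_odd_nsmul {G : Type*} [AddCommGroup G] {n : ℕ} (hn : Odd n) {T : G}
    (h2 : (2 : ℕ) • T = 0) (hT : n • T = 0) : T = 0 := by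
  obtain ⟨k, hk⟩ := hn
  have h3 : n • T = k • ((2 : ℕ) • T) + T := by
    rw [hk, add_nsmul, one_nsmul, mul_nsmul]
  rw [hT, h2, nsmul_zero, zero_add] at h3
  exact h3.symm

/-- If `m • B = 0` for a nonzero element `B` killed by a prime `n`, then `n ∣ m`. -/
lemma prime_dvd_of_zsmul_eq_zero {G : Type*} [AddCommGroup G] {n : ℕ} (hn : n.Prime) {B : G}
    (hB0 : B ≠ 0) (hB : n • B = 0) {m : ℤ} (hm : m • B = 0) : (n : ℤ) ∣ m := by
  have h1 : addOrderOf B ∣ n := addOrderOf_dvd_of_nsmul_eq_zero hB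
  rcases (Nat.dvd_prime hn).mp h1 with h2 | h2
  · exact absurd (AddMonoid.addOrderOf_eq_one_iff.mp h2) hB0
  · rw [← h2]
    exact (addOrderOf_dvd_iff_zsmul_eq_zero).mpr hm

/-- Purely group-theoretic core: `G₀ ≤ M₀`, `G₁ ≤ M₁` subgroups killed by an odd prime `n`,
`φ : G₀ ≃+ G₁`, three elements `A B C` of `G₀` with `2 • (A - a₀ • B + l • C) = 0` in `M₀` and
`2 • (φ A - a₁ • φ B + l • φ C) = 0` in `M₁`, `φ B ≠ 0`.  Then `n ∣ a₀ - a₁`. -/
theorem prime_dvd_sub_of_addEquiv {M₀ M₁ : Type*} [AddCommGroup M₀] [AddCommGroup M₁]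
    {G₀ : AddSubgroup M₀} {G₁ : AddSubgroup M₁} {n : ℕ} (hn : n.Prime) (hn2 : n ≠ 2)
    (hG₀ : ∀ P ∈ G₀, n • P = 0) (hG₁ : ∀ P ∈ G₁, n • P = 0) (φ : G₀ ≃+ G₁)
    (A B C : G₀) (a₀ a₁ l : ℤ)
    (h₀ : (2 : ℕ) • ((A : M₀) - a₀ • (B : M₀) + l • (C : M₀)) = 0)
    (h₁ : (2 : ℕ) • ((φ A : M₁) - a₁ • (φ B : M₁) + l • (φ C : M₁)) = 0)
    (hB : (φ B : M₁) ≠ 0) : (n : ℤ) ∣ a₀ - a₁ := by
  have hodd : Odd n := hn.odd_of_ne_two hn2
  -- the relation in `G₀`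
  have r₀ : A - a₀ • B + l • C = 0 := by
    apply Subtype.ext
    rw [AddSubgroup.coe_add, AddSubgroup.coe_sub, AddSubgroup.coe_zsmul, AddSubgroup.coe_zsmul,
      AddSubgroup.coe_zero]
    refine eq_zero_of_two_nsmul_of_odd_nsmul hodd h₀ ?_
    have := hG₀ _ (A - a₀ • B + l • C).2
    rwa [AddSubgroup.coe_add, AddSubgroup.coe_sub, AddSubgroup.coe_zsmul,
      AddSubgroup.coe_zsmul] at this
  -- transported to `G₁`
  have r₀' : (φ A : M₁) - a₀ • (φ B : M₁) + l • (φ C : M₁) = 0 := by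
    have e := congrArg (fun x : G₁ => (x : M₁)) (congrArg φ r₀)
    simp only [map_add, map_sub, map_zsmul, map_zero] at e
    rwa [AddSubgroup.coe_add, AddSubgroup.coe_sub, AddSubgroup.coe_zsmul, AddSubgroup.coe_zsmul,
      AddSubgroup.coe_zero] at e
  -- the relation in `G₁`
  have r₁ : (φ A : M₁) - a₁ • (φ B : M₁) + l • (φ C : M₁) = 0 := by
    refine eq_zero_of_two_nsmul_of_odd_nsmul hodd h₁ ?_
    have := hG₁ _ (φ A - a₁ • φ B + l • φ C).2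
    rwa [AddSubgroup.coe_add, AddSubgroup.coe_sub, AddSubgroup.coe_zsmul,
      AddSubgroup.coe_zsmul] at this
  have hdiff : (a₁ - a₀) • (φ B : M₁) = 0 := by
    have : (a₁ - a₀) • (φ B : M₁) =
        ((φ A : M₁) - a₀ • (φ B : M₁) + l • (φ C : M₁))
        - ((φ A : M₁) - a₁ • (φ B : M₁) + l • (φ C : M₁)) := by
      rw [sub_smul]; abel
    rw [this, r₀', r₁, sub_zero]
  exact (dvd_sub_comm).mp (prime_dvd_of_zsmul_eq_zero hn hB (hG₁ _ (φ B).2) hdiff)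

section SecSysCore

open Fermat.Agent.S52.H14

variable {K : Type*} [Field K] [DecidableEq K]
variable {E : K → WeierstrassCurve K} {A : K → K} {S : Set K}
  {G : ∀ s, AddSubgroup (E s).toAffine.Point} {ι : Type*} {X Y : ι → K → K}

/-- **(F4, abstract core)** Let `h` be a section system whose subgroups `G s₀`, `G s₁` are killed
by an odd prime `n`, and let `F₀`, `F₁` be maps on the points of the fibres at `s₀ s₁ ∈ S` which
permute the labelled points in the same way (`π`) and satisfy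
`2 • (F (F P) - a • F P + l • P) = 0` with `a = a₀`, resp. `a = a₁`, on the labelled points.
Then `n ∣ a₀ - a₁`. -/
theorem secSys_dvd_sub_of_frob [Finite ι] [Nonempty ι] (h : SecSys E A S G X Y) (hS : S.Infinite)
    (h2K : (2 : K) ≠ 0) {n : ℕ} (hn : n.Prime) (hn2 : n ≠ 2) {s₀ s₁ : K} (hs₀ : s₀ ∈ S)
    (hs₁ : s₁ ∈ S) (hG₀ : ∀ P ∈ G s₀, n • P = 0) (hG₁ : ∀ P ∈ G s₁, n • P = 0)
    (F₀ : (E s₀).toAffine.Point → (E s₀).toAffine.Point)
    (F₁ : (E s₁).toAffine.Point → (E s₁).toAffine.Point) (π : ι → ι)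
    (hπ₀ : ∀ i, F₀ (h.pt hs₀ i) = h.pt hs₀ (π i)) (hπ₁ : ∀ i, F₁ (h.pt hs₁ i) = h.pt hs₁ (π i))
    (a₀ a₁ l : ℤ)
    (hc₀ : ∀ i, (2 : ℕ) • (F₀ (F₀ (h.pt hs₀ i)) - a₀ • F₀ (h.pt hs₀ i) + l • h.pt hs₀ i) = 0)
    (hc₁ : ∀ i, (2 : ℕ) • (F₁ (F₁ (h.pt hs₁ i)) - a₁ • F₁ (h.pt hs₁ i) + l • h.pt hs₁ i) = 0) :
    (n : ℤ) ∣ a₀ - a₁ := by
  obtain ⟨i⟩ := ‹Nonempty ι›
  obtain ⟨φ, hφ⟩ := h.exists_addEquiv hS h2K hs₀ hs₁
  refine prime_dvd_sub_of_addEquiv hn hn2 hG₀ hG₁ φ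
    ⟨h.pt hs₀ (π (π i)), h.pt_mem hs₀ _⟩ ⟨h.pt hs₀ (π i), h.pt_mem hs₀ _⟩
    ⟨h.pt hs₀ i, h.pt_mem hs₀ _⟩ a₀ a₁ l ?_ ?_ ?_
  · have := hc₀ i
    rwa [hπ₀, hπ₀] at this
  · rw [hφ, hφ, hφ]
    have := hc₁ i
    rwa [hπ₁, hπ₁] at this
  · rw [hφ]
    exact h.pt_ne_zero hs₁ _

end SecSysCore

end Fermat.Agent.S52.H47
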