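import Mathlib
import Fermat.Agent.S52.FrobSec_helper44
import Fermat.Agent.S52.ModFive_helper47
import Fermat.Agent.S52.FrobChar_helper82

/-!
# S52, node F4 (ModFive) in point-count form: F2 + F3 + F4-core + FROBCHAR

`modFive_card`: let `K` be an infinite field of characteristic `ℓ ≠ 2` with surjective
Frobenius, `j0 : ZMod ℓ →+* K`, and `E_s : y² = x³ + A(s) x + B(s)` a family of short curves over
`K` whose coefficient functions commute with Frobenius.  Let `h` be a section system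
(`H14.SecSys`, node F2) enumerating the nonzero `n`-torsion (`n` an odd prime) on a cofinite
parameter set `S`, and let `s₀, s₁ ∈ S` be Frobenius-fixed parameters at which the fibres are the
base changes of `y² = x³ + A₀ x + B₀`, resp. `y² = x³ + A₁ x + B₁`, over `ZMod ℓ` (both with
nonzero discriminant).  Then

`n ∣ #E₁(𝔽_ℓ) - #E₀(𝔽_ℓ)`   (`Nat.card` of Mathlib's point types).

Inputs: `secSys_exists_frob_perm` (F3, `FrobSec_helper44`), `H47.secSys_dvd_sub_of_frob`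
(F4 core), `H82.frobChar` (block E).
-/

set_option autoImplicit false

open Polynomial WeierstrassCurve WeierstrassCurve.Affine

namespace Fermat.Agent.S52.H44

open Fermat.Agent.S52.H14

section Card

variable {K : Type*} [Field K]

/-- The family of short curves with coefficient functions `A`, `B` is compatible with Frobenius
as soon as `A` and `B` are. -/
lemma shFam_map_frobenius (ℓ : ℕ) [Fact ℓ.Prime] [CharP K ℓ] (A B : K → K)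
    (hA : ∀ s, A (s ^ ℓ) = A s ^ ℓ) (hB : ∀ s, B (s ^ ℓ) = B s ^ ℓ) (s : K) :
    ((fun s => (⟨0, 0, 0, A s, B s⟩ : WeierstrassCurve K)) s).toAffine.map (frobenius K ℓ) =
      ((fun s => (⟨0, 0, 0, A s, B s⟩ : WeierstrassCurve K)) (s ^ ℓ)).toAffine := by
  have := shortW_map (frobenius K ℓ) (A s) (B s)
  rw [frobenius_def, frobenius_def, ← hA, ← hB] at this
  exact this

/-- In characteristic `ℓ ≠ 2` the element `2` is nonzero. -/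
lemma two_ne_zero_of_charP (ℓ : ℕ) [Fact ℓ.Prime] [CharP K ℓ] (hl2 : ℓ ≠ 2) : (2 : K) ≠ 0 := by
  intro h
  have h2 : ((2 : ℕ) : K) = 0 := by exact_mod_cast h
  have hdvd : ℓ ∣ 2 := (CharP.cast_eq_zero_iff K ℓ 2).mp h2
  have hp : ℓ.Prime := Fact.out
  rcases (Nat.dvd_prime Nat.prime_two).mp hdvd with h1 | h1
  · exact hp.ne_one h1
  · exact hl2 h1

variable [DecidableEq K]

/-- **F4, point-count form.** See the module docstring. -/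
theorem modFive_card (ℓ : ℕ) [Fact ℓ.Prime] (hl2 : ℓ ≠ 2) [CharP K ℓ] [Infinite K]
    (hperf : Function.Surjective (frobenius K ℓ)) (j0 : ZMod ℓ →+* K)
    {n : ℕ} (hn : n.Prime) (hn2 : n ≠ 2)
    (A B : K → K) (hA : ∀ s, A (s ^ ℓ) = A s ^ ℓ) (hB : ∀ s, B (s ^ ℓ) = B s ^ ℓ)
    {S : Set K} (hfin : Sᶜ.Finite)
    {G : ∀ s, AddSubgroup (⟨0, 0, 0, A s, B s⟩ : WeierstrassCurve K).toAffine.Point}
    (hG : ∀ s (P : (⟨0, 0, 0, A s, B s⟩ : WeierstrassCurve K).toAffine.Point),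
      P ∈ G s ↔ n • P = 0)
    {ι : Type*} [Finite ι] [Nonempty ι] {X Y : ι → K → K}
    (h : SecSys (fun s => (⟨0, 0, 0, A s, B s⟩ : WeierstrassCurve K)) A S G X Y)
    {s₀ s₁ : K} (hs₀ : s₀ ∈ S) (hs₁ : s₁ ∈ S) (hsl₀ : s₀ ^ ℓ = s₀) (hsl₁ : s₁ ^ ℓ = s₁)
    (A₀ B₀ A₁ B₁ : ZMod ℓ) (hA₀ : A s₀ = j0 A₀) (hB₀ : B s₀ = j0 B₀)
    (hA₁ : A s₁ = j0 A₁) (hB₁ : B s₁ = j0 B₁)
    (hd₀ : 4 * A₀ ^ 3 + 27 * B₀ ^ 2 ≠ 0) (hd₁ : 4 * A₁ ^ 3 + 27 * B₁ ^ 2 ≠ 0) :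
    (n : ℤ) ∣ (Nat.card (⟨0, 0, 0, A₁, B₁⟩ : WeierstrassCurve (ZMod ℓ)).toAffine.Point : ℤ) -
      (Nat.card (⟨0, 0, 0, A₀, B₀⟩ : WeierstrassCurve (ZMod ℓ)).toAffine.Point : ℤ) := by
  have h2K : (2 : K) ≠ 0 := two_ne_zero_of_charP ℓ hl2
  obtain ⟨π, hπ⟩ := secSys_exists_frob_perm h ℓ hperf (shFam_map_frobenius ℓ A B hA hB) n hG
    hfin
  have hSinf : S.Infinite := by
    have := hfin.infinite_compl
    rwa [compl_compl] at this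
  have ha₀ : A s₀ ^ ℓ = A s₀ := by rw [← hA, hsl₀]
  have hb₀ : B s₀ ^ ℓ = B s₀ := by rw [← hB, hsl₀]
  have ha₁ : A s₁ ^ ℓ = A s₁ := by rw [← hA, hsl₁]
  have hb₁ : B s₁ ^ ℓ = B s₁ := by rw [← hB, hsl₁]
  have key := H47.secSys_dvd_sub_of_frob h hSinf h2K hn hn2 hs₀ hs₁
    (fun P hP => (hG _ P).mp hP) (fun P hP => (hG _ P).mp hP)
    (H82.frobPt ℓ ha₀ hb₀) (H82.frobPt ℓ ha₁ hb₁) π
    (hπ s₀ hs₀ hsl₀ _ (fun x y hxy => H82.frobPt_some ℓ ha₀ hb₀ hxy))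
    (hπ s₁ hs₁ hsl₁ _ (fun x y hxy => H82.frobPt_some ℓ ha₁ hb₁ hxy))
    ((ℓ : ℤ) + 1 - (Nat.card (H82.sh A₀ B₀).toAffine.Point : ℤ))
    ((ℓ : ℤ) + 1 - (Nat.card (H82.sh A₁ B₁).toAffine.Point : ℤ)) (ℓ : ℤ)
    (fun i => H82.frobChar ℓ hl2 A₀ B₀ hd₀ j0 hA₀ hB₀ ha₀ hb₀ _)
    (fun i => H82.frobChar ℓ hl2 A₁ B₁ hd₁ j0 hA₁ hB₁ ha₁ hb₁ _)
  have e : ((ℓ : ℤ) + 1 - (Nat.card (H82.sh A₀ B₀).toAffine.Point : ℤ)) -
      ((ℓ : ℤ) + 1 - (Nat.card (H82.sh A₁ B₁).toAffine.Point : ℤ)) =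
      (Nat.card (⟨0, 0, 0, A₁, B₁⟩ : WeierstrassCurve (ZMod ℓ)).toAffine.Point : ℤ) -
      (Nat.card (⟨0, 0, 0, A₀, B₀⟩ : WeierstrassCurve (ZMod ℓ)).toAffine.Point : ℤ) := by
    show _ = (Nat.card (H82.sh A₁ B₁).toAffine.Point : ℤ) -
      (Nat.card (H82.sh A₀ B₀).toAffine.Point : ℤ)
    ring
  rw [e] at key
  exact key

end Card

end Fermat.Agent.S52.H44
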