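import Mathlib
import Fermat.Agent.S52.ModFiveCard_helper44
import Fermat.Agent.S52.Bridge_helper83

/-!
# S52, node F4: final instantiation along the Klein line, abstract over the data

`modFive_line` : let `l ∉ {2, 3}` be a prime, `K` an infinite field of characteristic `l` with
surjective Frobenius and `j0 : ZMod l →+* K`.  Given

* Klein forms `kH kT kf : K → K → K` with `kT² + kH³ = 1728 kf⁵`, and `kn1 kn2 : K → K → K`
  (the components of `n(w)`),
* the family `f4 f6 fD` over `ZMod l` and `F4 F6 FD` over `K` (compatible with `j0`, and `F4`,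
  `F6` compatible with the Frobenius of `K`), with the three identities (F2),
* the lift `(c4, c6) = (-kH, -kT)(u, v)`,
* sections `X Y : ι → K → K → K` enumerating injectively the nonzero `5`-torsion of
  `y² = x³ + 27 kH(u,v) x + 54 kT(u,v)` whenever `kf u v ≠ 0` (node F1),
* polynomiality of all these along polynomial curves `s ↦ (U s, V s)`,

then for `c4 c6 a b : ZMod l` with `c4³ ≠ c6²`, `fD c4 c6 a b ≠ 0`:
`5 ∣ #E'(𝔽_l) - #E(𝔽_l)` for `E : y² = x³ - 27 c4 x - 54 c6` and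
`E' : y² = x³ - 27 f4(c4,c6,a,b) x - 54 f6(c4,c6,a,b)`.

`modFive_apOfModel` : the same statement for two integral models `W`, `W'` in terms of
`apOfModel` (through node C, `H83.apOfModel_eq_short`), which is the shape of `hmod5` of
`H43.switch_of_family`.

Proof: `H44.modFive_card` along the line `w(s) = (1 + s (a - 1)) w₀ + s b n(w₀)`.
-/

set_option autoImplicit false

open Polynomial WeierstrassCurve WeierstrassCurve.Affine

namespace Fermat.Agent.S52.H28

open Fermat.Agent.S52.H14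

section PolyHelpers

variable {K : Type*} [Field K]

/-- A two-variable function which lifts to polynomials compatibly with evaluation is polynomial
along polynomial curves.  (For a ring-generic `g` with a `map_g` lemma: `gP := g`,
`hg := fun s p q => map_g (Polynomial.evalRingHom s) p q`.) -/
lemma isPolyFun_comp₂ (g : K → K → K) (gP : K[X] → K[X] → K[X])
    (hg : ∀ (s : K) (p q : K[X]), (gP p q).eval s = g (p.eval s) (q.eval s))
    (U V : K → K) (hU : IsPolyFun U) (hV : IsPolyFun V) :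
    IsPolyFun (fun s => g (U s) (V s)) := by
  obtain ⟨p, hp⟩ := hU
  obtain ⟨q, hq⟩ := hV
  exact ⟨gP p q, fun s => by
    show g (U s) (V s) = _
    rw [hg, hp, hq]⟩

/-- The good set of a polynomial function which is nonzero somewhere is cofinite. -/
lemma finite_compl_of_isPolyFun {g : K → K} (hg : IsPolyFun g) {s₀ : K} (h0 : g s₀ ≠ 0) :
    ({s : K | g s ≠ 0}ᶜ).Finite := by
  obtain ⟨p, hp⟩ := hg
  have hp0 : p ≠ 0 := by
    rintro rfl
    exact h0 (by rw [hp, eval_zero])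
  have hfin : {s : K | p.IsRoot s}.Finite := Polynomial.finite_setOfPred_isRoot hp0
  refine hfin.subset ?_
  intro s hs
  have hs' : ¬ g s ≠ 0 := hs
  have h1 : g s = 0 := not_not.mp hs'
  show p.eval s = 0
  rw [← hp, h1]

end PolyHelpers

section Consts

variable (l : ℕ) [Fact l.Prime] (K : Type*) [Field K] [CharP K l]

/-- `2 ≠ 0` in characteristic `l ≠ 2`. -/
lemma c2_ne_zero (hl2 : l ≠ 2) : (2 : K) ≠ 0 := by
  intro h
  have h' : ((2 : ℕ) : K) = 0 := by exact_mod_cast h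
  have hdvd : l ∣ 2 := (CharP.cast_eq_zero_iff K l 2).mp h'
  have hp : l.Prime := Fact.out
  exact hl2 ((Nat.prime_dvd_prime_iff_eq hp Nat.prime_two).mp hdvd)

/-- `3 ≠ 0` in characteristic `l ≠ 3`. -/
lemma c3_ne_zero (hl3 : l ≠ 3) : (3 : K) ≠ 0 := by
  intro h
  have h' : ((3 : ℕ) : K) = 0 := by exact_mod_cast h
  have hdvd : l ∣ 3 := (CharP.cast_eq_zero_iff K l 3).mp h'
  have hp : l.Prime := Fact.out
  exact hl3 ((Nat.prime_dvd_prime_iff_eq hp Nat.prime_three).mp hdvd)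

/-- `5 ≠ 0` in characteristic `l ≠ 5`. -/
lemma c5_ne_zero (hl5 : l ≠ 5) : (5 : K) ≠ 0 := by
  intro h
  have h' : ((5 : ℕ) : K) = 0 := by exact_mod_cast h
  have hdvd : l ∣ 5 := (CharP.cast_eq_zero_iff K l 5).mp h'
  have hp : l.Prime := Fact.out
  exact hl5 ((Nat.prime_dvd_prime_iff_eq hp Nat.prime_five).mp hdvd)

/-- `1728 ≠ 0` in characteristic `l ∉ {2, 3}`. -/
lemma c1728_ne_zero (hl2 : l ≠ 2) (hl3 : l ≠ 3) : (1728 : K) ≠ 0 := by
  have e : (1728 : K) = 2 ^ 6 * 3 ^ 3 := by norm_num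
  rw [e]
  exact mul_ne_zero (pow_ne_zero _ (c2_ne_zero l K hl2)) (pow_ne_zero _ (c3_ne_zero l K hl3))

/-- The discriminant of `y² = x³ - 27 c4 x - 54 c6` is nonzero when `c4³ ≠ c6²`
(`l ∉ {2, 3}`). -/
lemma disc_short_ne_zero (hl2 : l ≠ 2) (hl3 : l ≠ 3) {c4 c6 : K} (hd : c4 ^ 3 ≠ c6 ^ 2) :
    4 * (-27 * c4) ^ 3 + 27 * (-54 * c6) ^ 2 ≠ 0 := by
  intro h
  have e : (2 : K) ^ 2 * 3 ^ 9 * (c4 ^ 3 - c6 ^ 2) = 0 := by
    linear_combination (-1 : K) * h
  have h23 : (2 : K) ^ 2 * 3 ^ 9 ≠ 0 :=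
    mul_ne_zero (pow_ne_zero _ (c2_ne_zero l K hl2)) (pow_ne_zero _ (c3_ne_zero l K hl3))
  exact hd (sub_eq_zero.mp ((mul_eq_zero.mp e).resolve_left h23))

end Consts

section Line

variable (l : ℕ) [Fact l.Prime] {K : Type*} [Field K] [DecidableEq K] [CharP K l] [Infinite K]

/-- **(F4, final instantiation along the Klein line; abstract over the data.)**
See the module docstring. -/
theorem modFive_line (hl2 : l ≠ 2) (hl3 : l ≠ 3)
    (hperf : Function.Surjective (frobenius K l)) (j0 : ZMod l →+* K)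
    (kH kT kf kn1 kn2 : K → K → K)
    (f4 f6 fD : ZMod l → ZMod l → ZMod l → ZMod l → ZMod l)
    (F4 F6 FD : K → K → K → K → K)
    (hj4 : ∀ x y z w, j0 (f4 x y z w) = F4 (j0 x) (j0 y) (j0 z) (j0 w))
    (hj6 : ∀ x y z w, j0 (f6 x y z w) = F6 (j0 x) (j0 y) (j0 z) (j0 w))
    (hjD : ∀ x y z w, j0 (fD x y z w) = FD (j0 x) (j0 y) (j0 z) (j0 w))
    (hfr4 : ∀ x y z w, frobenius K l (F4 x y z w) =
      F4 (frobenius K l x) (frobenius K l y) (frobenius K l z) (frobenius K l w))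
    (hfr6 : ∀ x y z w, frobenius K l (F6 x y z w) =
      F6 (frobenius K l x) (frobenius K l y) (frobenius K l z) (frobenius K l w))
    (hrel : ∀ u v, kT u v ^ 2 + kH u v ^ 3 = 1728 * kf u v ^ 5)
    (hF2H : ∀ u v a b, -kH (a * u + b * kn1 u v) (a * v + b * kn2 u v) =
      F4 (-kH u v) (-kT u v) a b)
    (hF2T : ∀ u v a b, -kT (a * u + b * kn1 u v) (a * v + b * kn2 u v) =
      F6 (-kH u v) (-kT u v) a b)
    (hF2f : ∀ u v a b, kf (a * u + b * kn1 u v) (a * v + b * kn2 u v) =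
      kf u v * FD (-kH u v) (-kT u v) a b)
    (hlift : ∀ c4 c6 : K, c4 ^ 3 ≠ c6 ^ 2 → ∃ u v, -kH u v = c4 ∧ -kT u v = c6)
    (hpH : ∀ U V : K → K, IsPolyFun U → IsPolyFun V → IsPolyFun (fun s => kH (U s) (V s)))
    (hpf : ∀ U V : K → K, IsPolyFun U → IsPolyFun V → IsPolyFun (fun s => kf (U s) (V s)))
    {ι : Type*} [Finite ι] [Nonempty ι] (X Y : ι → K → K → K)
    (hpX : ∀ (i : ι) (U V : K → K), IsPolyFun U → IsPolyFun V →
      IsPolyFun (fun s => X i (U s) (V s)))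
    (hpY : ∀ (i : ι) (U V : K → K), IsPolyFun U → IsPolyFun V →
      IsPolyFun (fun s => Y i (U s) (V s)))
    (hstruct : ∀ u v : K, kf u v ≠ 0 →
      ∃ hns : ∀ i, (⟨0, 0, 0, 27 * kH u v, 54 * kT u v⟩ : WeierstrassCurve K).toAffine.Nonsingular
          (X i u v) (Y i u v),
        (∀ i j, X i u v = X j u v → Y i u v = Y j u v → i = j) ∧
        ∀ P : (⟨0, 0, 0, 27 * kH u v, 54 * kT u v⟩ : WeierstrassCurve K).toAffine.Point,
          (P ≠ 0 ∧ 5 • P = 0) ↔ ∃ i, P = Point.some _ _ (hns i))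
    (c4 c6 a b : ZMod l) (hd : c4 ^ 3 ≠ c6 ^ 2) (hD : fD c4 c6 a b ≠ 0) :
    (5 : ℤ) ∣
      (Nat.card (⟨0, 0, 0, -27 * f4 c4 c6 a b, -54 * f6 c4 c6 a b⟩ :
        WeierstrassCurve (ZMod l)).toAffine.Point : ℤ) -
      (Nat.card (⟨0, 0, 0, -27 * c4, -54 * c6⟩ : WeierstrassCurve (ZMod l)).toAffine.Point : ℤ) := by
  have hp : l.Prime := Fact.out
  have hj0 : Function.Injective j0 := j0.injective
  have h1728 : (1728 : K) ≠ 0 := c1728_ne_zero l K hl2 hl3
  -- the lift of `(c4, c6)`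
  have hdK : j0 c4 ^ 3 ≠ j0 c6 ^ 2 := by
    rw [← map_pow, ← map_pow]
    exact fun h => hd (hj0 h)
  obtain ⟨u0, v0, hH0, hT0⟩ := hlift (j0 c4) (j0 c6) hdK
  -- `kf ≠ 0` as soon as `(-kH)³ ≠ (-kT)²`
  have hkf : ∀ u v : K, (-kH u v) ^ 3 ≠ (-kT u v) ^ 2 → kf u v ≠ 0 := by
    intro u v hne hf
    apply hne
    have h := hrel u v
    rw [hf] at h
    linear_combination (-1 : K) * h
  have hf0 : kf u0 v0 ≠ 0 := hkf u0 v0 (by rw [hH0, hT0]; exact hdK)
  -- the line through the lift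
  set U : K → K := fun s => (1 + s * (j0 a - 1)) * u0 + (s * j0 b) * kn1 u0 v0 with hU
  set V : K → K := fun s => (1 + s * (j0 a - 1)) * v0 + (s * j0 b) * kn2 u0 v0 with hV
  have hUp : IsPolyFun U :=
    (((IsPolyFun.const (1 : K)).add (IsPolyFun.id.mul (IsPolyFun.const (j0 a - 1)))).mul
      (IsPolyFun.const u0)).add ((IsPolyFun.id.mul (IsPolyFun.const (j0 b))).mul
      (IsPolyFun.const (kn1 u0 v0)))
  have hVp : IsPolyFun V :=
    (((IsPolyFun.const (1 : K)).add (IsPolyFun.id.mul (IsPolyFun.const (j0 a - 1)))).mul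
      (IsPolyFun.const v0)).add ((IsPolyFun.id.mul (IsPolyFun.const (j0 b))).mul
      (IsPolyFun.const (kn2 u0 v0)))
  -- the family
  set A : K → K := fun s => 27 * kH (U s) (V s) with hA
  set B : K → K := fun s => 54 * kT (U s) (V s) with hB
  have hAF : ∀ s, A s = -27 * F4 (j0 c4) (j0 c6) (1 + s * (j0 a - 1)) (s * j0 b) := by
    intro s
    have h := hF2H u0 v0 (1 + s * (j0 a - 1)) (s * j0 b)
    rw [hH0, hT0] at h
    show 27 * kH (U s) (V s) = _
    rw [← h]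
    ring
  have hBF : ∀ s, B s = -54 * F6 (j0 c4) (j0 c6) (1 + s * (j0 a - 1)) (s * j0 b) := by
    intro s
    have h := hF2T u0 v0 (1 + s * (j0 a - 1)) (s * j0 b)
    rw [hH0, hT0] at h
    show 54 * kT (U s) (V s) = _
    rw [← h]
    ring
  have hfF : ∀ s, kf (U s) (V s) =
      kf u0 v0 * FD (j0 c4) (j0 c6) (1 + s * (j0 a - 1)) (s * j0 b) := by
    intro s
    have h := hF2f u0 v0 (1 + s * (j0 a - 1)) (s * j0 b)
    rw [hH0, hT0] at h
    exact h
  have hfrj : ∀ c : ZMod l, frobenius K l (j0 c) = j0 c := fun c => by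
    rw [frobenius_def]; exact H82.ringHom_zmod_pow j0 c
  have hfrA : ∀ s, A (s ^ l) = A s ^ l := by
    intro s
    rw [hAF, hAF]
    have e : (-27 * F4 (j0 c4) (j0 c6) (1 + s * (j0 a - 1)) (s * j0 b)) ^ l =
        frobenius K l (-27 * F4 (j0 c4) (j0 c6) (1 + s * (j0 a - 1)) (s * j0 b)) := rfl
    rw [e, map_mul, map_neg, map_ofNat, hfr4, hfrj, hfrj, map_add, map_one, map_mul, map_mul,
      map_sub, map_one, hfrj, hfrj, frobenius_def]
  have hfrB : ∀ s, B (s ^ l) = B s ^ l := by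
    intro s
    rw [hBF, hBF]
    have e : (-54 * F6 (j0 c4) (j0 c6) (1 + s * (j0 a - 1)) (s * j0 b)) ^ l =
        frobenius K l (-54 * F6 (j0 c4) (j0 c6) (1 + s * (j0 a - 1)) (s * j0 b)) := rfl
    rw [e, map_mul, map_neg, map_ofNat, hfr6, hfrj, hfrj, map_add, map_one, map_mul, map_mul,
      map_sub, map_one, hfrj, hfrj, frobenius_def]
  -- the good set
  set S : Set K := {s | kf (U s) (V s) ≠ 0} with hS
  have hU0 : U 0 = u0 := by simp [hU]
  have hV0 : V 0 = v0 := by simp [hV]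
  have hs0 : (0 : K) ∈ S := by
    show kf (U 0) (V 0) ≠ 0
    rw [hU0, hV0]
    exact hf0
  have hs1 : (1 : K) ∈ S := by
    show kf (U 1) (V 1) ≠ 0
    rw [hfF]
    have e : FD (j0 c4) (j0 c6) (1 + 1 * (j0 a - 1)) (1 * j0 b) = j0 (fD c4 c6 a b) := by
      rw [hjD]; congr 1 <;> ring
    rw [e]
    exact mul_ne_zero hf0 (fun h => hD (hj0 (by rw [h, map_zero])))
  have hfin : Sᶜ.Finite :=
    finite_compl_of_isPolyFun (g := fun s => kf (U s) (V s)) (hpf U V hUp hVp) (s₀ := 0) hs0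
  -- the section system
  have hsec : SecSys (fun s => (⟨0, 0, 0, A s, B s⟩ : WeierstrassCurve K)) A S
      (fun s => (nsmulAddMonoidHom (α := (⟨0, 0, 0, A s, B s⟩ :
        WeierstrassCurve K).toAffine.Point) 5).ker)
      (fun i s => X i (U s) (V s)) (fun i s => Y i (U s) (V s)) :=
    { a1 := fun _ => rfl
      a2 := fun _ => rfl
      a3 := fun _ => rfl
      a4 := fun _ => rfl
      polyA := (IsPolyFun.const (27 : K)).mul (hpH U V hUp hVp)
      polyX := fun i => hpX i U V hUp hVp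
      polyY := fun i => hpY i U V hUp hVp
      ns := fun s hs i => (hstruct (U s) (V s) hs).choose i
      inj := fun s hs => (hstruct (U s) (V s) hs).choose_spec.1
      mem := by
        intro s hs P
        have hiff := (hstruct (U s) (V s) hs).choose_spec.2 P
        rw [AddMonoidHom.mem_ker, nsmulAddMonoidHom_apply]
        constructor
        · intro hP
          by_cases h0 : P = 0
          · exact Or.inl h0
          · exact Or.inr (hiff.mp ⟨h0, hP⟩)
        · rintro (h0 | hi)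
          · rw [h0, nsmul_zero]
          · exact (hiff.mpr hi).2 }
  -- the two special fibres
  have hA0 : A 0 = j0 (-27 * c4) := by
    show 27 * kH (U 0) (V 0) = _
    rw [hU0, hV0, map_mul, map_neg, map_ofNat, ← hH0]
    ring
  have hB0 : B 0 = j0 (-54 * c6) := by
    show 54 * kT (U 0) (V 0) = _
    rw [hU0, hV0, map_mul, map_neg, map_ofNat, ← hT0]
    ring
  have hA1 : A 1 = j0 (-27 * f4 c4 c6 a b) := by
    rw [hAF, map_mul, map_neg, map_ofNat, hj4]
    congr 2 <;> ring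
  have hB1 : B 1 = j0 (-54 * f6 c4 c6 a b) := by
    rw [hBF, map_mul, map_neg, map_ofNat, hj6]
    congr 2 <;> ring
  -- the two discriminants
  have hd0 : 4 * (-27 * c4) ^ 3 + 27 * (-54 * c6) ^ 2 ≠ 0 :=
    disc_short_ne_zero l (ZMod l) hl2 hl3 hd
  have hd1' : f4 c4 c6 a b ^ 3 ≠ f6 c4 c6 a b ^ 2 := by
    intro h
    have hs1' : kf (U 1) (V 1) ≠ 0 := hs1
    apply hs1'
    have hr := hrel (U 1) (V 1)
    have e4 : -kH (U 1) (V 1) = j0 (f4 c4 c6 a b) := by
      have h1 := hA1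
      rw [map_mul, map_neg, map_ofNat] at h1
      have h2 : (27 : K) * kH (U 1) (V 1) = -27 * j0 (f4 c4 c6 a b) := h1
      have h27 : (27 : K) ≠ 0 := by
        have e : (27 : K) = 3 ^ 3 := by norm_num
        rw [e]; exact pow_ne_zero _ (c3_ne_zero l K hl3)
      apply mul_left_cancel₀ h27
      linear_combination (-1 : K) * h2
    have e6 : -kT (U 1) (V 1) = j0 (f6 c4 c6 a b) := by
      have h1 := hB1
      rw [map_mul, map_neg, map_ofNat] at h1
      have h2 : (54 : K) * kT (U 1) (V 1) = -54 * j0 (f6 c4 c6 a b) := h1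
      have h54 : (54 : K) ≠ 0 := by
        have e : (54 : K) = 2 * 3 ^ 3 := by norm_num
        rw [e]
        exact mul_ne_zero (c2_ne_zero l K hl2) (pow_ne_zero _ (c3_ne_zero l K hl3))
      apply mul_left_cancel₀ h54
      linear_combination (-1 : K) * h2
    have hK : j0 (f4 c4 c6 a b) ^ 3 = j0 (f6 c4 c6 a b) ^ 2 := by
      rw [← map_pow, ← map_pow, h]
    have h5 : (1728 : K) * kf (U 1) (V 1) ^ 5 = 0 := by
      rw [← hr]
      have e4' : kH (U 1) (V 1) = -j0 (f4 c4 c6 a b) := by rw [← e4]; ring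
      have e6' : kT (U 1) (V 1) = -j0 (f6 c4 c6 a b) := by rw [← e6]; ring
      rw [e4', e6']
      linear_combination (-1 : K) * hK
    exact pow_eq_zero_iff (n := 5) (by norm_num) |>.mp ((mul_eq_zero.mp h5).resolve_left h1728)
  have hd1 : 4 * (-27 * f4 c4 c6 a b) ^ 3 + 27 * (-54 * f6 c4 c6 a b) ^ 2 ≠ 0 :=
    disc_short_ne_zero l (ZMod l) hl2 hl3 hd1'
  have key := H44.modFive_card l hl2 hperf j0 (n := 5) (by norm_num) (by norm_num) A B hfrA hfrB
    hfin (G := fun s => (nsmulAddMonoidHom (α := (⟨0, 0, 0, A s, B s⟩ :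
        WeierstrassCurve K).toAffine.Point) 5).ker)
    (fun s P => by rw [AddMonoidHom.mem_ker, nsmulAddMonoidHom_apply]) hsec hs0 hs1
    (zero_pow hp.ne_zero) (one_pow l) (-27 * c4) (-54 * c6) (-27 * f4 c4 c6 a b)
    (-54 * f6 c4 c6 a b) hA0 hB0 hA1 hB1 hd0 hd1
  exact_mod_cast key

end Line

section Model

/-- A prime not dividing a multiple of `6 ^ 8` is at least `5`. -/
lemma five_le_of_not_dvd {l : ℕ} (hl : l.Prime) {M : ℤ} (hM6 : (6 : ℤ) ^ 8 ∣ M)
    (hlM : ¬ (l : ℤ) ∣ M) : 5 ≤ l := by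
  have h6 : ¬ (l : ℤ) ∣ 6 := fun h => hlM ((h.trans (dvd_pow_self (6 : ℤ) (by norm_num))).trans hM6)
  have h6' : ¬ l ∣ 6 := fun h => h6 (by exact_mod_cast Int.natCast_dvd_natCast.mpr h)
  have h2 : l ≠ 2 := by rintro rfl; exact h6' (by norm_num)
  have h3 : l ≠ 3 := by rintro rfl; exact h6' (by norm_num)
  have h4 : l ≠ 4 := by rintro rfl; exact absurd hl (by norm_num)
  have := hl.two_le
  omega

/-- `c₄³ ≠ c₆²` modulo a prime `l ≥ 5` of good reduction. -/
lemma c4_cube_ne_c6_sq_of_good (W : WeierstrassCurve ℤ) (l : ℕ) [Fact l.Prime] (hl5 : 5 ≤ l)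
    (hW : W.IsGoodPrimeFor l) :
    ((W.c₄ : ℤ) : ZMod l) ^ 3 ≠ ((W.c₆ : ℤ) : ZMod l) ^ 2 := by
  intro h
  have hl2 : l ≠ 2 := by omega
  have hl3 : l ≠ 3 := by omega
  have hrel : ((1728 * W.Δ : ℤ) : ZMod l) = ((W.c₄ ^ 3 - W.c₆ ^ 2 : ℤ) : ZMod l) :=
    congrArg (Int.cast : ℤ → ZMod l) W.c_relation
  have h0 : ((1728 * W.Δ : ℤ) : ZMod l) = 0 := by
    rw [hrel]; push_cast; rw [h, sub_self]
  rw [Int.cast_mul] at h0
  have h1728 : ((1728 : ℤ) : ZMod l) ≠ 0 := by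
    have := c1728_ne_zero l (ZMod l) hl2 hl3
    exact_mod_cast this
  have hΔ : ((W.Δ : ℤ) : ZMod l) = 0 := (mul_eq_zero.mp h0).resolve_left h1728
  exact hW ((ZMod.intCast_zmod_eq_zero_iff_dvd _ _).mp hΔ)

/-- **(hmod5 from the line statement.)**  For two integral models `W`, `W'` with good reduction
at a prime `l ≥ 5` such that the invariants of `W'` modulo `l` are the values of the family at
the invariants of `W` modulo `l`: `5 ∣ a_l(W') - a_l(W)`, provided (F1) and the conclusion of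
`modFive_line` hold over `ZMod l`. -/
theorem modFive_apOfModel (W W' : WeierstrassCurve ℤ) (l : ℕ) [Fact l.Prime] (hl5 : 5 ≤ l)
    (hW : W.IsGoodPrimeFor l) (hW' : W'.IsGoodPrimeFor l)
    (f4 f6 fD : ZMod l → ZMod l → ZMod l → ZMod l → ZMod l)
    (hF1 : ∀ c4 c6 a b : ZMod l,
      f4 c4 c6 a b ^ 3 - f6 c4 c6 a b ^ 2 = (c4 ^ 3 - c6 ^ 2) * fD c4 c6 a b ^ 5)
    (hline : ∀ c4 c6 a b : ZMod l, c4 ^ 3 ≠ c6 ^ 2 → fD c4 c6 a b ≠ 0 →
      (5 : ℤ) ∣
        (Nat.card (⟨0, 0, 0, -27 * f4 c4 c6 a b, -54 * f6 c4 c6 a b⟩ :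
          WeierstrassCurve (ZMod l)).toAffine.Point : ℤ) -
        (Nat.card (⟨0, 0, 0, -27 * c4, -54 * c6⟩ :
          WeierstrassCurve (ZMod l)).toAffine.Point : ℤ))
    (a b : ZMod l)
    (h4 : ((W'.c₄ : ℤ) : ZMod l) = f4 ((W.c₄ : ℤ) : ZMod l) ((W.c₆ : ℤ) : ZMod l) a b)
    (h6 : ((W'.c₆ : ℤ) : ZMod l) = f6 ((W.c₄ : ℤ) : ZMod l) ((W.c₆ : ℤ) : ZMod l) a b) :
    (5 : ℤ) ∣ W'.apOfModel l - W.apOfModel l := by
  have hl : l.Prime := Fact.out
  have hd := c4_cube_ne_c6_sq_of_good W l hl5 hW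
  have hd' := c4_cube_ne_c6_sq_of_good W' l hl5 hW'
  have hD : fD ((W.c₄ : ℤ) : ZMod l) ((W.c₆ : ℤ) : ZMod l) a b ≠ 0 := by
    intro h0
    apply hd'
    have h := hF1 ((W.c₄ : ℤ) : ZMod l) ((W.c₆ : ℤ) : ZMod l) a b
    rw [h0, ← h4, ← h6] at h
    have h' : ((W'.c₄ : ℤ) : ZMod l) ^ 3 - ((W'.c₆ : ℤ) : ZMod l) ^ 2 = 0 := by
      rw [h]; ring
    exact sub_eq_zero.mp h'
  have key := hline _ _ a b hd hD
  rw [← h4, ← h6] at key
  have e := H83.apOfModel_eq_short W l hl hl5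
  have e' := H83.apOfModel_eq_short W' l hl hl5
  have e1 : W'.apOfModel l - W.apOfModel l =
      -((Nat.card (⟨0, 0, 0, -27 * ((W'.c₄ : ℤ) : ZMod l), -54 * ((W'.c₆ : ℤ) : ZMod l)⟩ :
          WeierstrassCurve (ZMod l)).toAffine.Point : ℤ) -
        (Nat.card (⟨0, 0, 0, -27 * ((W.c₄ : ℤ) : ZMod l), -54 * ((W.c₆ : ℤ) : ZMod l)⟩ :
          WeierstrassCurve (ZMod l)).toAffine.Point : ℤ)) := by
    rw [e, e']
    show _ = -((Nat.card (H83.shortCurve ((W'.c₄ : ℤ) : ZMod l)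
      ((W'.c₆ : ℤ) : ZMod l)).toAffine.Point : ℤ) - (Nat.card (H83.shortCurve ((W.c₄ : ℤ) : ZMod l)
      ((W.c₆ : ℤ) : ZMod l)).toAffine.Point : ℤ))
    ring
  rw [e1]
  exact (dvd_neg).mpr key

end Model

end Fermat.Agent.S52.H28
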