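import Mathlib
import Fermat.Agent.S52.ModFiveLine_helper28
import Fermat.Agent.S52.KleinBridge_helper29
import Fermat.Agent.S52.Fam_helper48

/-!
# S52: the mod-5 congruence of point counts for the Klein family (concrete instance)

`mod5_of_klein` : for a prime `l ∉ {2, 3, 5}` and `c4 c6 a b : ZMod l` with `c4³ ≠ c6²`,
`famD c4 c6 a b ≠ 0`:

`5 ∣ #E(𝔽_l) - #E'(𝔽_l)`,  `E = shortCurve c4 c6`,
`E' = shortCurve (famC4 c4 c6 a b) (famC6 c4 c6 a b)`,

given the three identities (F2) of the family `H48.famC4 / famC6 / famD` over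
`AlgebraicClosure (ZMod l)`.  This is the `mod5` hypothesis of `H43.switch_of_data`.

Inputs: `H28.modFive_line` (blocks E, F2, F3, F4), `H29.klein_struct_sh'` (Klein sections,
node F1), `H83.exists_klein_lift` (node D).
-/

set_option autoImplicit false

open Polynomial WeierstrassCurve WeierstrassCurve.Affine

namespace Fermat.Agent.S52.H28

open Fermat.Agent.S52.H14

section MapFam

variable {R S : Type*} [CommRing R] [CommRing S]

/-- `famC4` commutes with ring homomorphisms. -/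
theorem map_famC4 (φ : R →+* S) (c4 c6 a b : R) :
    φ (H48.famC4 c4 c6 a b) = H48.famC4 (φ c4) (φ c6) (φ a) (φ b) := by
  simp only [H48.famC4, H48.famC4_0, H48.famC4_1, H48.famC4_2, H48.famC4_3, map_add, map_sub,
    map_mul, map_pow, map_neg, map_ofNat]

/-- `famC6` commutes with ring homomorphisms. -/
theorem map_famC6 (φ : R →+* S) (c4 c6 a b : R) :
    φ (H48.famC6 c4 c6 a b) = H48.famC6 (φ c4) (φ c6) (φ a) (φ b) := by
  simp only [H48.famC6, H48.famC6_0, H48.famC6_1, H48.famC6_2, H48.famC6_3, H48.famC6_4,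
    H48.famC6_5, map_add, map_sub, map_mul, map_pow, map_neg, map_ofNat]

/-- `famD` commutes with ring homomorphisms. -/
theorem map_famD (φ : R →+* S) (c4 c6 a b : R) :
    φ (H48.famD c4 c6 a b) = H48.famD (φ c4) (φ c6) (φ a) (φ b) := by
  simp only [H48.famD, H48.famD_0, H48.famD_1, map_add, map_sub, map_mul, map_pow, map_neg, map_one,
    map_ofNat]

end MapFam

section Inst

/-- **The mod-5 congruence for the Klein family**, from the identities (F2) over
`AlgebraicClosure (ZMod l)`. -/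
theorem mod5_of_klein (l : ℕ) [Fact l.Prime] (hl2 : l ≠ 2) (hl3 : l ≠ 3) (hl5 : l ≠ 5)
    (F2H : ∀ u v a b : AlgebraicClosure (ZMod l),
      H48.famC4 (-H83.kH u v) (-H83.kT u v) a b =
        -H83.kH (a * u + b * H48.nU u v) (a * v + b * H48.nV u v))
    (F2T : ∀ u v a b : AlgebraicClosure (ZMod l),
      H48.famC6 (-H83.kH u v) (-H83.kT u v) a b =
        -H83.kT (a * u + b * H48.nU u v) (a * v + b * H48.nV u v))
    (F2f : ∀ u v a b : AlgebraicClosure (ZMod l),
      H83.kf (a * u + b * H48.nU u v) (a * v + b * H48.nV u v) =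
        H83.kf u v * H48.famD (-H83.kH u v) (-H83.kT u v) a b)
    (c4 c6 a b : ZMod l) (hd : c4 ^ 3 ≠ c6 ^ 2) (hD : H48.famD c4 c6 a b ≠ 0) :
    (5 : ℤ) ∣ (Nat.card (H83.shortCurve c4 c6).toAffine.Point : ℤ) -
      (Nat.card (H83.shortCurve (H48.famC4 c4 c6 a b)
        (H48.famC6 c4 c6 a b)).toAffine.Point : ℤ) := by
  classical
  have h2 : (2 : AlgebraicClosure (ZMod l)) ≠ 0 := c2_ne_zero l _ hl2
  have h3 : (3 : AlgebraicClosure (ZMod l)) ≠ 0 := c3_ne_zero l _ hl3
  have h5 : (5 : AlgebraicClosure (ZMod l)) ≠ 0 := c5_ne_zero l _ hl5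
  obtain ⟨z, hz⟩ := H29.exists_root_phi5 (AlgebraicClosure (ZMod l))
  have key := modFive_line l hl2 hl3 (K := AlgebraicClosure (ZMod l))
    (bijective_frobenius (AlgebraicClosure (ZMod l)) l).2
    (algebraMap (ZMod l) (AlgebraicClosure (ZMod l)))
    H83.kH H83.kT H83.kf H48.nU H48.nV H48.famC4 H48.famC6 H48.famD H48.famC4 H48.famC6 H48.famD
    (map_famC4 _) (map_famC6 _) (map_famD _) (map_famC4 _) (map_famC6 _)
    H83.klein_rel (fun u v a b => (F2H u v a b).symm) (fun u v a b => (F2T u v a b).symm) F2f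
    (fun c4 c6 hd => by
      obtain ⟨u, v, h1, h2', _⟩ := H83.exists_klein_lift h2 h3 h5 c4 c6 hd
      exact ⟨u, v, h1, h2'⟩)
    (isPolyFun_comp₂ H83.kH H83.kH (fun s p q => by
      rw [← H29.kH_eq_kH, ← H29.kH_eq_kH, H29.kH_eval]))
    (isPolyFun_comp₂ H83.kf H83.kf (fun s p q => by
      rw [← H29.kF_eq_kf, ← H29.kF_eq_kf, H29.kF_eval]))
    (fun (j : Fin 12 × Bool) u v => H29.kX (5 : AlgebraicClosure (ZMod l))⁻¹ z j u v)
    (fun (j : Fin 12 × Bool) u v => H29.kY (5 : AlgebraicClosure (ZMod l))⁻¹ z j u v)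
    (fun j => isPolyFun_comp₂ _
      (fun p q => H29.kX (C (5 : AlgebraicClosure (ZMod l))⁻¹) (C z) j p q)
      (fun s p q => H29.kX_eval _ z j p q s))
    (fun j => isPolyFun_comp₂ _
      (fun p q => H29.kY (C (5 : AlgebraicClosure (ZMod l))⁻¹) (C z) j p q)
      (fun s p q => H29.kY_eval _ z j p q s))
    (fun u v hf => H29.klein_struct_sh' h2 h3 h5 z hz u v hf)
    c4 c6 a b hd hD
  exact (dvd_sub_comm).mp key

end Inst

end Fermat.Agent.S52.H28
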