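import Mathlib
import Fermat.Agent.S52.DegM1_helper28

/-!
# S52, node E3 (Comp): composition `Σ_Q` on the twisted curve, degree multiplicativity (M2)

Stated against the definitions of node E2 (`H28.H28.rdeg`, `H28.fF`, `H28.twist`, `H28.dPt`).
Main results: `sigma` (an `AddMonoidHom` for every `Q`), `d_sigma`, `sigma_G0`,
`sigma_Phi_comm`, `sigma_Phi_Phi` and `hcomp` (the composition hypothesis of the E5 core).
-/

namespace Fermat.Agent.S52.H03

open Polynomial WeierstrassCurve WeierstrassCurve.Affine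

noncomputable section

variable {K : Type*} [Field K]

theorem rdeg_eq_finrank (r : RatFunc K) :
    H28.rdeg r = Module.finrank (IntermediateField.adjoin K {r}) (RatFunc K) :=
  (RatFunc.finrank_eq_max_natDegree r).symm

theorem rdeg_C (c : K) : H28.rdeg (RatFunc.C c) = 0 := by
  simp [H28.rdeg]

theorem rdeg_X : H28.rdeg (RatFunc.X : RatFunc K) = 1 := by
  simp [H28.rdeg]

theorem rdeg_eq_zero_iff (r : RatFunc K) : H28.rdeg r = 0 ↔ ∃ c, r = RatFunc.C c := by
  rw [H28.rdeg, Nat.max_eq_zero_iff, ← RatFunc.eq_C_iff]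

theorem transcendental_of_rdeg_pos {ξ : RatFunc K} (h : 0 < H28.rdeg ξ) : Transcendental K ξ :=
  RatFunc.transcendental_of_ne_C ξ (fun hc => by
    rw [← rdeg_eq_zero_iff] at hc; omega)

/-- Substitution `t ↦ ξ` as a `K`-algebra endomorphism of `K(t)`, for `ξ` non-constant. -/
def subst (ξ : RatFunc K) (h : 0 < H28.rdeg ξ) : RatFunc K →ₐ[K] RatFunc K :=
  RatFunc.liftAlgHom (Polynomial.aeval ξ)
    (nonZeroDivisors_le_comap_nonZeroDivisors_of_injective _
      (transcendental_iff_injective.mp (transcendental_of_rdeg_pos h)))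

theorem subst_algebraMap (ξ : RatFunc K) (h : 0 < H28.rdeg ξ) (p : K[X]) :
    subst ξ h (algebraMap K[X] (RatFunc K) p) = Polynomial.aeval ξ p := by
  have := RatFunc.liftAlgHom_apply_div (Polynomial.aeval ξ)
    (nonZeroDivisors_le_comap_nonZeroDivisors_of_injective _
      (transcendental_iff_injective.mp (transcendental_of_rdeg_pos h))) p 1
  simpa [subst] using this

@[simp] theorem subst_X (ξ : RatFunc K) (h : 0 < H28.rdeg ξ) : subst ξ h RatFunc.X = ξ := by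
  rw [← RatFunc.algebraMap_X, subst_algebraMap, Polynomial.aeval_X]

@[simp] theorem subst_C (ξ : RatFunc K) (h : 0 < H28.rdeg ξ) (c : K) :
    subst ξ h (RatFunc.C c) = RatFunc.C c := by
  rw [← RatFunc.algebraMap_eq_C, AlgHom.commutes]

theorem subst_injective (ξ : RatFunc K) (h : 0 < H28.rdeg ξ) : Function.Injective (subst ξ h) :=
  (subst ξ h).toRingHom.injective

/-- Two `K`-algebra homs out of `K(t)` that agree at `t` are equal. -/
theorem ratfunc_algHom_ext {L : Type*} [Field L] [Algebra K L] (φ ψ : RatFunc K →ₐ[K] L)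
    (h : φ RatFunc.X = ψ RatFunc.X) : φ = ψ := by
  have hp : ∀ p : K[X], φ (algebraMap K[X] (RatFunc K) p) = ψ (algebraMap K[X] (RatFunc K) p) := by
    intro p
    have h1 : (φ.comp (Algebra.ofId K[X] (RatFunc K) |>.restrictScalars K)) =
        (ψ.comp (Algebra.ofId K[X] (RatFunc K) |>.restrictScalars K)) := by
      apply Polynomial.algHom_ext
      simpa [Algebra.ofId_apply] using h
    exact congrArg (fun f => f p) h1
  ext r
  induction r using RatFunc.induction_on with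
  | f p q hq => rw [map_div₀, map_div₀, hp, hp]

theorem subst_apply (ξ : RatFunc K) (h : 0 < H28.rdeg ξ) (r : RatFunc K) :
    subst ξ h r = Polynomial.aeval ξ r.num / Polynomial.aeval ξ r.denom := by
  conv_lhs => rw [← RatFunc.num_div_denom r]
  rw [map_div₀, subst_algebraMap, subst_algebraMap]

/-- Degree multiplicativity for composition of rational functions. -/
theorem rdeg_subst (ξ : RatFunc K) (h : 0 < H28.rdeg ξ) (r : RatFunc K) :
    H28.rdeg (subst ξ h r) = H28.rdeg r * H28.rdeg ξ := by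
  rw [rdeg_eq_finrank, rdeg_eq_finrank r, rdeg_eq_finrank ξ]
  have h1 : IntermediateField.adjoin K {subst ξ h r} =
      (IntermediateField.adjoin K {r}).map (subst ξ h) := by
    rw [IntermediateField.adjoin_map, Set.image_singleton]
  have h2 : IntermediateField.adjoin K {ξ} =
      (⊤ : IntermediateField K (RatFunc K)).map (subst ξ h) := by
    rw [← RatFunc.adjoin_X, IntermediateField.adjoin_map, Set.image_singleton, subst_X]
  have hle : (IntermediateField.adjoin K {r}).map (subst ξ h) ≤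
      (⊤ : IntermediateField K (RatFunc K)).map (subst ξ h) :=
    IntermediateField.map_mono _ le_top
  rw [h1, h2, ← IntermediateField.relfinrank_mul_finrank_top hle,
    IntermediateField.relfinrank_map_map, IntermediateField.relfinrank_top_right]

theorem rdeg_subst_pos (ξ : RatFunc K) (h : 0 < H28.rdeg ξ) (r : RatFunc K) (hr : 0 < H28.rdeg r) :
    0 < H28.rdeg (subst ξ h r) := by
  rw [rdeg_subst]; exact Nat.mul_pos hr h

theorem subst_subst (ξ η : RatFunc K) (h : 0 < H28.rdeg ξ) (hη : 0 < H28.rdeg η) (r : RatFunc K) :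
    subst (subst ξ h η) (rdeg_subst_pos ξ h η hη) r = subst ξ h (subst η hη r) := by
  have : subst (subst ξ h η) (rdeg_subst_pos ξ h η hη) = (subst ξ h).comp (subst η hη) := by
    apply ratfunc_algHom_ext
    simp
  rw [this]; rfl

theorem subst_X_self (r : RatFunc K) (h : 0 < H28.rdeg (RatFunc.X : RatFunc K)) :
    subst RatFunc.X h r = r := by
  have : subst (RatFunc.X : RatFunc K) h = AlgHom.id K (RatFunc K) := by
    apply ratfunc_algHom_ext
    simp
  rw [this]; rfl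

/-! ## Frobenius substitution over `ZMod l` -/

theorem rdeg_X_pow (n : ℕ) : H28.rdeg ((RatFunc.X : RatFunc K) ^ n) = n := by
  have h : (RatFunc.X : RatFunc K) ^ n = algebraMap K[X] (RatFunc K) (Polynomial.X ^ n) := by
    rw [map_pow, RatFunc.algebraMap_X]
  rw [H28.rdeg, h, RatFunc.num_algebraMap, RatFunc.denom_algebraMap]
  simp

theorem subst_X_pow_card (l : ℕ) [Fact l.Prime] (h : 0 < H28.rdeg ((RatFunc.X : RatFunc (ZMod l)) ^ l))
    (r : RatFunc (ZMod l)) : subst (RatFunc.X ^ l) h r = r ^ l := by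
  let φ : RatFunc (ZMod l) →ₐ[ZMod l] RatFunc (ZMod l) :=
    { frobenius (RatFunc (ZMod l)) l with
      commutes' := fun c => by
        show (algebraMap (ZMod l) (RatFunc (ZMod l)) c) ^ l = _
        rw [← map_pow, ZMod.pow_card] }
  have : subst (RatFunc.X ^ l) h = φ := by
    apply ratfunc_algHom_ext
    rw [subst_X]
    rfl
  rw [this]
  rfl

/-! ## Semilinear scaling maps between short Weierstrass curves -/

/-- Hypotheses for a semilinear scaling map between short Weierstrass curves: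
`(x, y) ↦ (s² σ x, s³ σ y)`. -/
structure ShortScale {F F' : Type*} [Field F] [Field F'] (W : WeierstrassCurve F)
    (W' : WeierstrassCurve F') (σ : F →+* F') (s : F') : Prop where
  a₁ : W.a₁ = 0
  a₂ : W.a₂ = 0
  a₃ : W.a₃ = 0
  a₁' : W'.a₁ = 0
  a₂' : W'.a₂ = 0
  a₃' : W'.a₃ = 0
  a₄ : W'.a₄ = s ^ 4 * σ W.a₄
  a₆ : W'.a₆ = s ^ 6 * σ W.a₆
  ne : s ≠ 0

namespace ShortScale

variable {F F' : Type*} [Field F] [Field F'] {W : WeierstrassCurve F}
  {W' : WeierstrassCurve F'} {σ : F →+* F'} {s : F'}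

theorem equation (h : ShortScale W W' σ s) {x y : F} (hxy : W.toAffine.Equation x y) :
    W'.toAffine.Equation (s ^ 2 * σ x) (s ^ 3 * σ y) := by
  rw [Affine.equation_iff] at hxy ⊢
  rw [h.a₁, h.a₂, h.a₃] at hxy
  rw [h.a₁', h.a₂', h.a₃', h.a₄, h.a₆]
  have := congrArg σ hxy
  simp only [map_add, map_mul, map_pow, map_zero] at this
  linear_combination s ^ 6 * this

theorem nonsingular (h : ShortScale W W' σ s) {x y : F} (hxy : W.toAffine.Nonsingular x y) :
    W'.toAffine.Nonsingular (s ^ 2 * σ x) (s ^ 3 * σ y) := by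
  rw [Affine.nonsingular_iff] at hxy ⊢
  refine ⟨h.equation hxy.1, ?_⟩
  have h2 := hxy.2
  rw [h.a₁, h.a₂, h.a₃] at h2
  rw [h.a₁', h.a₂', h.a₃', h.a₄]
  have hs := h.ne
  rcases h2 with h2 | h2
  · left
    intro hc
    apply h2
    apply σ.injective
    have h4 : s ^ 4 ≠ 0 := pow_ne_zero _ hs
    apply mul_left_cancel₀ h4
    simp only [map_add, map_mul, map_pow, map_zero, map_ofNat]
    linear_combination hc
  · right
    intro hc
    apply h2
    apply σ.injective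
    have h3 : s ^ 3 ≠ 0 := pow_ne_zero _ hs
    apply mul_left_cancel₀ h3
    simp only [map_mul, map_zero, map_sub, map_neg]
    linear_combination hc

theorem negY (h : ShortScale W W' σ s) (x y : F) :
    W'.toAffine.negY (s ^ 2 * σ x) (s ^ 3 * σ y) = s ^ 3 * σ (W.toAffine.negY x y) := by
  simp only [Affine.negY, h.a₁, h.a₃, h.a₁', h.a₃', map_sub, map_neg, map_mul, map_zero]
  ring

theorem div_scale {a b c d k : F'} (hk : k ≠ 0) (ha : a = k * c) (hb : b = k * d) :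
    a / b = c / d := by
  rw [ha, hb, mul_div_mul_left _ _ hk]

theorem addX (h : ShortScale W W' σ s) (x₁ x₂ ℓ : F) :
    W'.toAffine.addX (s ^ 2 * σ x₁) (s ^ 2 * σ x₂) (s * σ ℓ) =
      s ^ 2 * σ (W.toAffine.addX x₁ x₂ ℓ) := by
  simp only [Affine.addX, h.a₁, h.a₂, h.a₁', h.a₂', map_sub, map_add, map_mul, map_pow, map_zero]
  ring

theorem addY (h : ShortScale W W' σ s) (x₁ x₂ y₁ ℓ : F) :
    W'.toAffine.addY (s ^ 2 * σ x₁) (s ^ 2 * σ x₂) (s ^ 3 * σ y₁) (s * σ ℓ) =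
      s ^ 3 * σ (W.toAffine.addY x₁ x₂ y₁ ℓ) := by
  simp only [Affine.addY, Affine.negAddY, Affine.negY, Affine.addX, h.a₁, h.a₂, h.a₃, h.a₁',
    h.a₂', h.a₃', map_sub, map_add, map_mul, map_pow, map_zero, map_neg]
  ring

variable [DecidableEq F] [DecidableEq F']

theorem slope (h : ShortScale W W' σ s) (x₁ x₂ y₁ y₂ : F) :
    W'.toAffine.slope (s ^ 2 * σ x₁) (s ^ 2 * σ x₂) (s ^ 3 * σ y₁) (s ^ 3 * σ y₂) =
      s * σ (W.toAffine.slope x₁ x₂ y₁ y₂) := by
  have hs := h.ne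
  have h2 : s ^ 2 ≠ 0 := pow_ne_zero _ hs
  have h3 : s ^ 3 ≠ 0 := pow_ne_zero _ hs
  by_cases hx : x₁ = x₂
  · subst hx
    by_cases hy : y₁ = W.toAffine.negY x₁ y₂
    · rw [Affine.slope_of_Y_eq rfl hy, Affine.slope_of_Y_eq rfl (by rw [h.negY, hy]), map_zero,
        mul_zero]
    · have hy' : s ^ 3 * σ y₁ ≠ W'.toAffine.negY (s ^ 2 * σ x₁) (s ^ 3 * σ y₂) := by
        rw [h.negY]
        intro hc
        exact hy (σ.injective (mul_left_cancel₀ h3 hc))
      rw [Affine.slope_of_Y_ne rfl hy, Affine.slope_of_Y_ne rfl hy', h.negY, map_div₀,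
        ← mul_div_assoc]
      refine div_scale h3 ?_ ?_
      · simp only [h.a₁, h.a₂, h.a₁', h.a₂', h.a₄, map_sub, map_add, map_mul, map_pow, map_zero,
          map_ofNat]
        ring
      · simp only [map_sub]
        ring
  · have hx' : s ^ 2 * σ x₁ ≠ s ^ 2 * σ x₂ := fun hc =>
      hx (σ.injective (mul_left_cancel₀ h2 hc))
    rw [Affine.slope_of_X_ne hx, Affine.slope_of_X_ne hx', map_div₀, ← mul_div_assoc]
    refine div_scale h2 ?_ ?_
    · simp only [map_sub]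
      ring
    · simp only [map_sub]
      ring

/-- The semilinear scaling map on points. -/
def toFun (h : ShortScale W W' σ s) : W.toAffine.Point → W'.toAffine.Point
  | .zero => 0
  | .some _ _ hxy => .some _ _ (h.nonsingular hxy)

/-- The semilinear scaling map `(x, y) ↦ (s² σ x, s³ σ y)` as a group homomorphism. -/
def hom (h : ShortScale W W' σ s) : W.toAffine.Point →+ W'.toAffine.Point where
  toFun := h.toFun
  map_zero' := rfl
  map_add' := by
    rintro (_ | ⟨x₁, y₁, h₁⟩) (_ | ⟨x₂, y₂, h₂⟩)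
    any_goals rfl
    have hs := h.ne
    have h2 : s ^ 2 ≠ 0 := pow_ne_zero _ hs
    have h3 : s ^ 3 ≠ 0 := pow_ne_zero _ hs
    by_cases hxy : x₁ = x₂ ∧ y₁ = W.toAffine.negY x₂ y₂
    · rw [Point.add_of_Y_eq hxy.1 hxy.2]
      show (0 : W'.toAffine.Point) = Point.some _ _ _ + Point.some _ _ _
      rw [Point.add_of_Y_eq (by rw [hxy.1]) (by rw [h.negY, hxy.2])]
    · have hxy' : ¬ (s ^ 2 * σ x₁ = s ^ 2 * σ x₂ ∧
          s ^ 3 * σ y₁ = W'.toAffine.negY (s ^ 2 * σ x₂) (s ^ 3 * σ y₂)) := by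
        rintro ⟨hc1, hc2⟩
        rw [h.negY] at hc2
        exact hxy ⟨σ.injective (mul_left_cancel₀ h2 hc1), σ.injective (mul_left_cancel₀ h3 hc2)⟩
      rw [Point.add_some hxy]
      show Point.some _ _ _ = Point.some _ _ _ + Point.some _ _ _
      rw [Point.add_some hxy']
      simp only [Point.some.injEq]
      rw [h.slope, h.addX, h.addY]
      exact ⟨rfl, rfl⟩

@[simp] theorem hom_zero (h : ShortScale W W' σ s) : h.hom (0 : W.toAffine.Point) = 0 := rfl

theorem hom_some (h : ShortScale W W' σ s) {x y : F} (hxy : W.toAffine.Nonsingular x y) :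
    h.hom (.some x y hxy) = .some (s ^ 2 * σ x) (s ^ 3 * σ y) (h.nonsingular hxy) := rfl

theorem hom_injective (h : ShortScale W W' σ s) : Function.Injective h.hom := by
  have hs := h.ne
  have h2 : s ^ 2 ≠ 0 := pow_ne_zero _ hs
  have h3 : s ^ 3 ≠ 0 := pow_ne_zero _ hs
  rintro (_ | ⟨x₁, y₁, h₁⟩) (_ | ⟨x₂, y₂, h₂⟩) hP
  · rfl
  · exact absurd hP (by rw [hom_some]; exact (Point.some_ne_zero _).symm)
  · exact absurd hP (by rw [hom_some]; exact (Point.some_ne_zero _))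
  · rw [hom_some, hom_some, Point.some.injEq] at hP
    obtain ⟨e1, e2⟩ := hP
    have e1' := σ.injective (mul_left_cancel₀ h2 e1)
    have e2' := σ.injective (mul_left_cancel₀ h3 e2)
    subst e1' e2'
    rfl

end ShortScale

/-! ## The twisted curve over `K(t)` and composition -/

section Twist

variable (A B : K)

theorem subst_cub (ξ : RatFunc K) (h : 0 < H28.rdeg ξ) :
    subst ξ h (H28.fF A B) = ξ ^ 3 + RatFunc.C A * ξ + RatFunc.C B := by
  rw [H28.fF_eq]
  simp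

/-- In `(ξ, η) = (x / f, y / f²)` coordinates the twisted curve is `f η² = ξ³ + A ξ + B`. -/
theorem twist_equation_div {x y : RatFunc K} (h : (H28.twist A B).toAffine.Equation x y) :
    (x / H28.fF A B) ^ 3 + RatFunc.C A * (x / H28.fF A B) + RatFunc.C B = y ^ 2 / H28.fF A B ^ 3 := by
  rw [H28.twist_equation_iff] at h
  have hf := H28.fF_ne_zero A B
  rw [h]
  field_simp

theorem y_ne_zero_of_rdeg_pos {x y : RatFunc K} (h : (H28.twist A B).toAffine.Equation x y)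
    (hd : 0 < H28.rdeg (x / H28.fF A B)) : y ≠ 0 := by
  intro hy
  have h1 := twist_equation_div A B h
  rw [hy] at h1
  have h2 : Polynomial.aeval (x / H28.fF A B) (H28.fPoly A B) = 0 := by
    simp only [H28.fPoly, map_add, map_mul, map_pow, Polynomial.aeval_X, Polynomial.aeval_C,
      RatFunc.algebraMap_eq_C]
    rw [h1]; simp
  exact transcendental_of_rdeg_pos hd ⟨_, H28.fPoly_ne_zero A B, h2⟩

theorem shortScale_sigma {xQ yQ : RatFunc K} (hQ : (H28.twist A B).toAffine.Equation xQ yQ)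
    (hd : 0 < H28.rdeg (xQ / H28.fF A B)) :
    ShortScale (H28.twist A B) (H28.twist A B) (subst (xQ / H28.fF A B) hd).toRingHom
      (H28.fF A B ^ 2 / yQ) := by
  have hf := H28.fF_ne_zero A B
  have hy := y_ne_zero_of_rdeg_pos A B hQ hd
  have hσ : subst (xQ / H28.fF A B) hd (H28.fF A B) = yQ ^ 2 / H28.fF A B ^ 3 := by
    rw [subst_cub, twist_equation_div A B hQ]
  refine ⟨rfl, rfl, rfl, rfl, rfl, rfl, ?_, ?_, div_ne_zero (pow_ne_zero _ hf) hy⟩
  · show RatFunc.C A * H28.fF A B ^ 2 = _ * subst (xQ / H28.fF A B) hd (RatFunc.C A * H28.fF A B ^ 2)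
    rw [map_mul, map_pow, subst_C, hσ]
    field_simp
  · show RatFunc.C B * H28.fF A B ^ 3 = _ * subst (xQ / H28.fF A B) hd (RatFunc.C B * H28.fF A B ^ 3)
    rw [map_mul, map_pow, subst_C, hσ]
    field_simp

variable [DecidableEq (RatFunc K)]

/-- Composition `Σ_Q : P ↦ P ∘ Q` on the twisted curve (zero map if `d(Q) = 0`). -/
def sigma : (H28.twist A B).toAffine.Point →
    ((H28.twist A B).toAffine.Point →+ (H28.twist A B).toAffine.Point)
  | .zero => 0
  | .some xQ _ hQ =>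
    if hd : 0 < H28.rdeg (xQ / H28.fF A B) then (shortScale_sigma A B hQ.1 hd).hom else 0

theorem sigma_some {xQ yQ : RatFunc K} (hQ : (H28.twist A B).toAffine.Nonsingular xQ yQ)
    (hd : 0 < H28.rdeg (xQ / H28.fF A B)) :
    sigma A B (.some xQ yQ hQ) = (shortScale_sigma A B hQ.1 hd).hom := by
  simp only [sigma, dif_pos hd]

theorem sigma_some_some {xQ yQ : RatFunc K} (hQ : (H28.twist A B).toAffine.Nonsingular xQ yQ)
    (hd : 0 < H28.rdeg (xQ / H28.fF A B)) {x y : RatFunc K}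
    (h : (H28.twist A B).toAffine.Nonsingular x y) :
    sigma A B (.some xQ yQ hQ) (.some x y h) =
      .some ((H28.fF A B ^ 2 / yQ) ^ 2 * subst (xQ / H28.fF A B) hd x)
        ((H28.fF A B ^ 2 / yQ) ^ 3 * subst (xQ / H28.fF A B) hd y)
        ((shortScale_sigma A B hQ.1 hd).nonsingular h) := by
  rw [sigma_some A B hQ hd]
  rfl

theorem sigma_of_d_eq_zero (Q : (H28.twist A B).toAffine.Point) (hQ : H28.dPt A B Q = 0) :
    sigma A B Q = 0 := by
  rcases Q with _ | ⟨xQ, yQ, hQ'⟩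
  · rfl
  · have : ¬ 0 < H28.rdeg (xQ / H28.fF A B) := by
      rw [H28.dPt_some] at hQ; omega
    simp only [sigma, dif_neg this]

/-- (M2) degree multiplicativity: `d(Σ_Q P) = d(P) d(Q)`. -/
theorem d_sigma (Q P : (H28.twist A B).toAffine.Point) :
    H28.dPt A B (sigma A B Q P) = H28.dPt A B P * H28.dPt A B Q := by
  by_cases hQ0 : H28.dPt A B Q = 0
  · rw [sigma_of_d_eq_zero A B Q hQ0, hQ0, Nat.mul_zero]; rfl
  rcases Q with _ | ⟨xQ, yQ, hQ⟩
  · exact absurd rfl hQ0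
  have hd : 0 < H28.rdeg (xQ / H28.fF A B) := Nat.pos_of_ne_zero hQ0
  rcases P with _ | ⟨x, y, h⟩
  · show H28.dPt A B (sigma A B _ 0) = H28.dPt A B 0 * _
    rw [map_zero, H28.dPt_zero, Nat.zero_mul]
  rw [sigma_some_some A B hQ hd h, H28.dPt_some, H28.dPt_some, H28.dPt_some, ← rdeg_subst _ hd]
  congr 1
  have hf := H28.fF_ne_zero A B
  have hy := y_ne_zero_of_rdeg_pos A B hQ.1 hd
  have hσ : subst (xQ / H28.fF A B) hd (H28.fF A B) = yQ ^ 2 / H28.fF A B ^ 3 := by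
    rw [subst_cub, twist_equation_div A B hQ.1]
  rw [map_div₀, hσ]
  field_simp

/-- `Σ_Q(G₀) = Q` where `G₀ = (t f, f²)`. -/
theorem sigma_G0 (Q : (H28.twist A B).toAffine.Point) (hQ : 0 < H28.dPt A B Q)
    (hG : (H28.twist A B).toAffine.Nonsingular (RatFunc.X * H28.fF A B) (H28.fF A B ^ 2)) :
    sigma A B Q (.some _ _ hG) = Q := by
  rcases Q with _ | ⟨xQ, yQ, hQ'⟩
  · exact absurd hQ (lt_irrefl 0)
  have hd : 0 < H28.rdeg (xQ / H28.fF A B) := hQ
  have hf := H28.fF_ne_zero A B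
  have hy := y_ne_zero_of_rdeg_pos A B hQ'.1 hd
  have hσ : subst (xQ / H28.fF A B) hd (H28.fF A B) = yQ ^ 2 / H28.fF A B ^ 3 := by
    rw [subst_cub, twist_equation_div A B hQ'.1]
  rw [sigma_some_some A B hQ' hd hG, Point.some.injEq]
  constructor
  · rw [map_mul, subst_X, hσ]
    field_simp
  · rw [map_pow, hσ]
    field_simp

end Twist

/-! ## Frobenius point: `Σ_Q(Φ) = Σ_Φ(Q)` over `ZMod l` -/

theorem subst_congr {ξ ξ' : RatFunc K} (e : ξ = ξ') (h : 0 < H28.rdeg ξ) (h' : 0 < H28.rdeg ξ')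
    (r : RatFunc K) : subst ξ h r = subst ξ' h' r := by
  subst e; rfl

theorem frob_alg1 {F : Type*} [Field F] (f y x : F) (hf : f ≠ 0) (hy : y ≠ 0) (l m : ℕ)
    (hl : l = 2 * m + 1) :
    (f ^ 2 / y) ^ 2 * ((x / f) ^ l * (y ^ 2 / f ^ 3)) = (f ^ 2 / f ^ (m + 2)) ^ 2 * x ^ l := by
  subst hl
  have h0 : f ^ 2 / f ^ (m + 2) = 1 / f ^ m := by
    rw [div_eq_div_iff (pow_ne_zero _ hf) (pow_ne_zero _ hf)]; ring
  rw [h0, div_pow, div_pow, div_pow, div_mul_div_comm, div_mul_div_comm, div_mul_eq_mul_div,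
    div_eq_div_iff (by positivity) (by positivity)]
  ring

theorem frob_alg2 {F : Type*} [Field F] (f y : F) (hf : f ≠ 0) (hy : y ≠ 0) (l m : ℕ)
    (hl : l = 2 * m + 1) :
    (f ^ 2 / y) ^ 3 * (y ^ 2 / f ^ 3) ^ (m + 2) = (f ^ 2 / f ^ (m + 2)) ^ 3 * y ^ l := by
  subst hl
  have h0 : f ^ 2 / f ^ (m + 2) = 1 / f ^ m := by
    rw [div_eq_div_iff (pow_ne_zero _ hf) (pow_ne_zero _ hf)]; ring
  rw [h0, div_pow, div_pow, div_pow, div_mul_div_comm, div_mul_eq_mul_div,
    div_eq_div_iff (by positivity) (by positivity)]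
  ring

theorem frob_alg3 {F : Type*} [Field F] (f x : F) (hf : f ≠ 0) (l m : ℕ)
    (hl : l = 2 * m + 1) :
    (f ^ 2 / f ^ (m + 2)) ^ 2 * (x ^ l * f) ^ l = x ^ (l ^ 2) * f := by
  subst hl
  have h0 : f ^ 2 / f ^ (m + 2) = 1 / f ^ m := by
    rw [div_eq_div_iff (pow_ne_zero _ hf) (pow_ne_zero _ hf)]; ring
  rw [h0, div_pow, div_mul_eq_mul_div, div_eq_iff (by positivity)]
  ring

theorem frob_alg4 {F : Type*} [Field F] (f : F) (hf : f ≠ 0) (l m : ℕ)
    (hl : l = 2 * m + 1) :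
    (f ^ 2 / f ^ (m + 2)) ^ 3 * (f ^ (m + 2)) ^ l = f ^ (2 * m ^ 2 + 2 * m + 2) := by
  subst hl
  have h0 : f ^ 2 / f ^ (m + 2) = 1 / f ^ m := by
    rw [div_eq_div_iff (pow_ne_zero _ hf) (pow_ne_zero _ hf)]; ring
  rw [h0, div_pow, div_mul_eq_mul_div, div_eq_iff (by positivity)]
  ring

section Frob

variable (l m : ℕ) [Fact l.Prime] (A B : ZMod l) [DecidableEq (RatFunc (ZMod l))]

/-- `Σ_Φ` is the Frobenius twist: explicit formula, `Φ = (t^l f, f^(m+2))`, `l = 2m+1`. -/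
theorem sigma_Phi_some
    (hΦ : (H28.twist A B).toAffine.Nonsingular (RatFunc.X ^ l * H28.fF A B) (H28.fF A B ^ (m + 2)))
    {x y : RatFunc (ZMod l)} (h : (H28.twist A B).toAffine.Nonsingular x y)
    (h' : (H28.twist A B).toAffine.Nonsingular ((H28.fF A B ^ 2 / H28.fF A B ^ (m + 2)) ^ 2 * x ^ l)
      ((H28.fF A B ^ 2 / H28.fF A B ^ (m + 2)) ^ 3 * y ^ l)) :
    sigma A B (.some _ _ hΦ) (.some x y h) = .some _ _ h' := by
  have hf := H28.fF_ne_zero A B
  have hl0 : 0 < l := (Fact.out : l.Prime).pos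
  have e : RatFunc.X ^ l * H28.fF A B / H28.fF A B = RatFunc.X ^ l := mul_div_cancel_right₀ _ hf
  have hd' : 0 < H28.rdeg ((RatFunc.X : RatFunc (ZMod l)) ^ l) := by rw [rdeg_X_pow]; exact hl0
  have hd : 0 < H28.rdeg (RatFunc.X ^ l * H28.fF A B / H28.fF A B) := by rw [e]; exact hd'
  rw [sigma_some_some A B hΦ hd h, Point.some.injEq, subst_congr e hd hd', subst_congr e hd hd',
    subst_X_pow_card, subst_X_pow_card]
  exact ⟨rfl, rfl⟩

omit [DecidableEq (RatFunc (ZMod l))] in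
theorem d_Phi
    (hΦ : (H28.twist A B).toAffine.Nonsingular (RatFunc.X ^ l * H28.fF A B) (H28.fF A B ^ (m + 2))) :
    H28.dPt A B (.some _ _ hΦ) = l := by
  rw [H28.dPt_some, mul_div_cancel_right₀ _ (H28.fF_ne_zero A B), rdeg_X_pow]

/-- (M2) `Σ_Q(Φ) = Σ_Φ(Q)`. -/
theorem sigma_Phi_comm (hl : l = 2 * m + 1) (Q : (H28.twist A B).toAffine.Point)
    (hQ : 0 < H28.dPt A B Q)
    (hΦ : (H28.twist A B).toAffine.Nonsingular (RatFunc.X ^ l * H28.fF A B) (H28.fF A B ^ (m + 2))) :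
    sigma A B Q (.some _ _ hΦ) = sigma A B (.some _ _ hΦ) Q := by
  rcases Q with _ | ⟨xQ, yQ, hQ'⟩
  · exact absurd hQ (lt_irrefl 0)
  have hd : 0 < H28.rdeg (xQ / H28.fF A B) := hQ
  have hf := H28.fF_ne_zero A B
  have hy := y_ne_zero_of_rdeg_pos A B hQ'.1 hd
  have hσ : subst (xQ / H28.fF A B) hd (H28.fF A B) = yQ ^ 2 / H28.fF A B ^ 3 := by
    rw [subst_cub, twist_equation_div A B hQ'.1]
  have key : ((H28.fF A B ^ 2 / yQ) ^ 2 * subst (xQ / H28.fF A B) hd (RatFunc.X ^ l * H28.fF A B) =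
      (H28.fF A B ^ 2 / H28.fF A B ^ (m + 2)) ^ 2 * xQ ^ l) ∧
      ((H28.fF A B ^ 2 / yQ) ^ 3 * subst (xQ / H28.fF A B) hd (H28.fF A B ^ (m + 2)) =
      (H28.fF A B ^ 2 / H28.fF A B ^ (m + 2)) ^ 3 * yQ ^ l) := by
    rw [map_mul, map_pow, map_pow, subst_X, hσ]
    exact ⟨frob_alg1 _ _ _ hf hy l m hl, frob_alg2 _ _ hf hy l m hl⟩
  have h' : (H28.twist A B).toAffine.Nonsingular ((H28.fF A B ^ 2 / H28.fF A B ^ (m + 2)) ^ 2 * xQ ^ l)
      ((H28.fF A B ^ 2 / H28.fF A B ^ (m + 2)) ^ 3 * yQ ^ l) := by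
    rw [← key.1, ← key.2]
    exact (shortScale_sigma A B hQ'.1 hd).nonsingular hΦ
  rw [sigma_Phi_some l m A B hΦ hQ' h', sigma_some_some A B hQ' hd hΦ, Point.some.injEq]
  exact key

/-- `Φ₂ := Σ_Φ(Φ) = (t^(l²) f, f^(2m²+2m+2))`. -/
theorem sigma_Phi_Phi (hl : l = 2 * m + 1)
    (hΦ : (H28.twist A B).toAffine.Nonsingular (RatFunc.X ^ l * H28.fF A B) (H28.fF A B ^ (m + 2)))
    (hΦ₂ : (H28.twist A B).toAffine.Nonsingular (RatFunc.X ^ (l ^ 2) * H28.fF A B)
      (H28.fF A B ^ (2 * m ^ 2 + 2 * m + 2))) :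
    sigma A B (.some _ _ hΦ) (.some _ _ hΦ) = .some _ _ hΦ₂ := by
  have hf := H28.fF_ne_zero A B
  have key : ((H28.fF A B ^ 2 / H28.fF A B ^ (m + 2)) ^ 2 * (RatFunc.X ^ l * H28.fF A B) ^ l =
      RatFunc.X ^ (l ^ 2) * H28.fF A B) ∧
      ((H28.fF A B ^ 2 / H28.fF A B ^ (m + 2)) ^ 3 * (H28.fF A B ^ (m + 2)) ^ l =
      H28.fF A B ^ (2 * m ^ 2 + 2 * m + 2)) :=
    ⟨frob_alg3 _ _ hf l m hl, frob_alg4 _ hf l m hl⟩
  have h' : (H28.twist A B).toAffine.Nonsingular
      ((H28.fF A B ^ 2 / H28.fF A B ^ (m + 2)) ^ 2 * (RatFunc.X ^ l * H28.fF A B) ^ l)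
      ((H28.fF A B ^ 2 / H28.fF A B ^ (m + 2)) ^ 3 * (H28.fF A B ^ (m + 2)) ^ l) := by
    rw [key.1, key.2]; exact hΦ₂
  rw [sigma_Phi_some l m A B hΦ hΦ h', Point.some.injEq]
  exact key

/-- **(M2), composition hypothesis of the E5 core.**  With `G₀ = (t f, f²)`,
`Φ = (t^l f, f^((l+3)/2))`, `Φ₂ = (t^(l²) f, f^((l²+3)/2))` on the twisted curve over
`𝔽_l(t)`:  `d(Φ₂ + (m+n) Φ + mn G₀) = d(Φ + m G₀) · d(Φ + n G₀)` whenever both factors are
positive.  (Proof: the left side is `Σ_{Φ + n G₀}(Φ + m G₀)`.) -/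
theorem hcomp {n₁ n₂ : ℕ} (hn₁ : 2 * n₁ = l + 3) (hn₂ : 2 * n₂ = l ^ 2 + 3)
    (hG : (H28.twist A B).toAffine.Nonsingular (RatFunc.X * H28.fF A B) (H28.fF A B ^ 2))
    (hΦ : (H28.twist A B).toAffine.Nonsingular (RatFunc.X ^ l * H28.fF A B) (H28.fF A B ^ n₁))
    (hΦ₂ : (H28.twist A B).toAffine.Nonsingular (RatFunc.X ^ (l ^ 2) * H28.fF A B)
      (H28.fF A B ^ n₂))
    (m n : ℤ)
    (_hm : 0 < H28.dPt A B (Point.some _ _ hΦ + m • Point.some _ _ hG))
    (hn : 0 < H28.dPt A B (Point.some _ _ hΦ + n • Point.some _ _ hG)) :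
    H28.dPt A B (Point.some _ _ hΦ₂ + (m + n) • Point.some _ _ hΦ +
        (m * n) • Point.some _ _ hG) =
      H28.dPt A B (Point.some _ _ hΦ + m • Point.some _ _ hG) *
        H28.dPt A B (Point.some _ _ hΦ + n • Point.some _ _ hG) := by
  have hl2 : 2 ≤ l := (Fact.out : l.Prime).two_le
  obtain ⟨k, rfl⟩ : ∃ k, n₁ = k + 2 := ⟨n₁ - 2, by omega⟩
  have hl : l = 2 * k + 1 := by omega
  have hsq : l ^ 2 = 4 * k ^ 2 + 4 * k + 1 := by rw [hl]; ring
  obtain rfl : n₂ = 2 * k ^ 2 + 2 * k + 2 := by omega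
  have hdΦ : 0 < H28.dPt A B (Point.some _ _ hΦ) := by
    rw [d_Phi l k A B hΦ]; omega
  rw [← d_sigma A B (Point.some _ _ hΦ + n • Point.some _ _ hG)
    (Point.some _ _ hΦ + m • Point.some _ _ hG)]
  congr 1
  rw [map_add, map_zsmul, sigma_G0 A B _ hn hG, sigma_Phi_comm l k A B hl _ hn hΦ, map_add,
    map_zsmul, sigma_G0 A B _ hdΦ hG, sigma_Phi_Phi l k A B hl hΦ hΦ₂]
  module

omit [DecidableEq (RatFunc (ZMod l))] in
/-- `d(Φ) = l` (any `y`-coordinate). -/
theorem dPt_Phi {y : RatFunc (ZMod l)}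
    (hΦ : (H28.twist A B).toAffine.Nonsingular (RatFunc.X ^ l * H28.fF A B) y) :
    H28.dPt A B (.some _ _ hΦ) = l := by
  rw [H28.dPt_some, mul_div_cancel_right₀ _ (H28.fF_ne_zero A B), rdeg_X_pow]

end Frob

end

end Fermat.Agent.S52.H03
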