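import Mathlib

/-!
# S52, node E2 (core): the degree identity behind Manin's `(M1)` (helper20)

Pure polynomial algebra over a field `K` (Mathlib only).

* `hgt r = max (deg num) (deg denom)` for `r : RatFunc K`, `hgt_div` for a coprime fraction;
* `hgt_add_hgt_of_vieta`: if `z₁, z₂ ∈ K(t)` are the two roots of a *primitive* quadratic
  `a₂ Z² + a₁ Z + a₀ ∈ K[t][Z]`, then `hgt z₁ + hgt z₂ = max (deg a₂) (deg a₁) (deg a₀)`;
* the Manin quadratic `qa2, qa1, qa0` attached to `x = p / q` and the base point `t`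
  on `y² = x³ + A x + B` (its roots are `x(P + G₀)`, `x(P - G₀)`): it is primitive
  (`qa_prim`) and its height is `2 * max (deg p) (deg q) + 2` (`qa_natDegree`).
-/

set_option autoImplicit false

noncomputable section

namespace Fermat.Agent.S52.H20

open Polynomial

variable {K : Type*} [Field K]

/-- The height of a rational function: `max (deg num) (deg denom)`. -/
def hgt (r : RatFunc K) : ℕ := max r.num.natDegree r.denom.natDegree

theorem natDegree_eq_of_dvd_dvd {p q : K[X]} (h1 : p ∣ q) (h2 : q ∣ p) :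
    p.natDegree = q.natDegree := by
  by_cases hq : q = 0
  · subst hq; rw [zero_dvd_iff] at h2; rw [h2]
  by_cases hp : p = 0
  · subst hp; rw [zero_dvd_iff] at h1; rw [h1]
  exact le_antisymm (natDegree_le_of_dvd h1 hq) (natDegree_le_of_dvd h2 hp)

theorem hgt_div {p q : K[X]} (hq : q ≠ 0) (h : IsCoprime p q) :
    hgt (algebraMap K[X] (RatFunc K) p / algebraMap K[X] (RatFunc K) q)
      = max p.natDegree q.natDegree := by
  set x := algebraMap K[X] (RatFunc K) p / algebraMap K[X] (RatFunc K) q with hx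
  have hrel : x.num * q = p * x.denom := (RatFunc.num_mul_eq_mul_denom_iff hq).mpr hx
  have hc := RatFunc.isCoprime_num_denom x
  have h1 : x.num ∣ p := hc.dvd_of_dvd_mul_right (Dvd.intro _ hrel)
  have h2 : p ∣ x.num := h.dvd_of_dvd_mul_right (Dvd.intro _ hrel.symm)
  have h3 : x.denom ∣ q := hc.symm.dvd_of_dvd_mul_left (Dvd.intro_left _ hrel.symm)
  have h4 : q ∣ x.denom := h.symm.dvd_of_dvd_mul_left (Dvd.intro_left _ hrel)
  rw [hgt, natDegree_eq_of_dvd_dvd h1 h2, natDegree_eq_of_dvd_dvd h3 h4]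

theorem natDegree_sub_le_of_le' {p q : K[X]} {n : ℕ} (hp : p.natDegree ≤ n) (hq : q.natDegree ≤ n) :
    (p - q).natDegree ≤ n :=
  (natDegree_sub_le p q).trans (max_le hp hq)

theorem hgt_zero : hgt (0 : RatFunc K) = 0 := by
  rw [hgt, RatFunc.num_zero, RatFunc.denom_zero]; simp

theorem hgt_algebraMap (p : K[X]) : hgt (algebraMap K[X] (RatFunc K) p) = p.natDegree := by
  rw [hgt, RatFunc.num_algebraMap, RatFunc.denom_algebraMap]; simp

/-- The height of the product of two linear forms `(v₁ Z - u₁)(v₂ Z - u₂)`. -/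
theorem triple_height (u1 v1 u2 v2 : K[X]) (hv1 : v1 ≠ 0) (hv2 : v2 ≠ 0) :
    max (v1 * v2).natDegree (max (u1 * v2 + u2 * v1).natDegree (u1 * u2).natDegree)
      = max u1.natDegree v1.natDegree + max u2.natDegree v2.natDegree := by
  apply le_antisymm
  · refine max_le ?_ (max_le ?_ ?_)
    · exact natDegree_mul_le.trans (add_le_add (le_max_right _ _) (le_max_right _ _))
    · refine (natDegree_add_le _ _).trans (max_le ?_ ?_)
      · exact natDegree_mul_le.trans (add_le_add (le_max_left _ _) (le_max_right _ _))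
      · exact natDegree_mul_le.trans
          ((add_le_add (le_max_left _ _) (le_max_right _ _)).trans (le_of_eq (add_comm _ _)))
    · exact natDegree_mul_le.trans (add_le_add (le_max_left _ _) (le_max_left _ _))
  · rcases le_or_gt u1.natDegree v1.natDegree with h1 | h1 <;>
      rcases le_or_gt u2.natDegree v2.natDegree with h2 | h2
    · rw [max_eq_right h1, max_eq_right h2, ← natDegree_mul hv1 hv2]
      exact le_max_left _ _
    · have hu2 : u2 ≠ 0 := by rintro rfl; simp at h2
      rw [max_eq_right h1, max_eq_left h2.le]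
      have hlt : (u1 * v2).natDegree < (u2 * v1).natDegree := by
        rw [natDegree_mul hu2 hv1]
        exact natDegree_mul_le.trans_lt (by omega)
      have : (u1 * v2 + u2 * v1).natDegree = u2.natDegree + v1.natDegree := by
        rw [natDegree_add_eq_right_of_natDegree_lt hlt, natDegree_mul hu2 hv1]
      refine le_trans ?_ (le_max_of_le_right (le_max_left _ _))
      rw [this, add_comm]
    · have hu1 : u1 ≠ 0 := by rintro rfl; simp at h1
      rw [max_eq_left h1.le, max_eq_right h2]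
      have hlt : (u2 * v1).natDegree < (u1 * v2).natDegree := by
        rw [natDegree_mul hu1 hv2]
        exact natDegree_mul_le.trans_lt (by omega)
      have : (u1 * v2 + u2 * v1).natDegree = u1.natDegree + v2.natDegree := by
        rw [natDegree_add_eq_left_of_natDegree_lt hlt, natDegree_mul hu1 hv2]
      refine le_trans ?_ (le_max_of_le_right (le_max_left _ _))
      rw [this]
    · have hu1 : u1 ≠ 0 := by rintro rfl; simp at h1
      have hu2 : u2 ≠ 0 := by rintro rfl; simp at h2
      rw [max_eq_left h1.le, max_eq_left h2.le, ← natDegree_mul hu1 hu2]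
      exact le_max_of_le_right (le_max_right _ _)

/-- **Gauss-lemma step.** If `z₁, z₂ ∈ K(t)` are the roots of a primitive quadratic
`a₂ Z² + a₁ Z + a₀` over `K[t]`, then `hgt z₁ + hgt z₂` is the height of the quadratic. -/
theorem hgt_add_hgt_of_vieta (a2 a1 a0 : K[X]) (z1 z2 : RatFunc K)
    (hprim : ∀ m : K[X], m ∣ a2 → m ∣ a1 → m ∣ a0 → IsUnit m)
    (hsum : algebraMap K[X] (RatFunc K) a2 * (z1 + z2) = - algebraMap K[X] (RatFunc K) a1)
    (hprod : algebraMap K[X] (RatFunc K) a2 * (z1 * z2) = algebraMap K[X] (RatFunc K) a0) :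
    hgt z1 + hgt z2 = max a2.natDegree (max a1.natDegree a0.natDegree) := by
  set u1 := z1.num with hu1
  set v1 := z1.denom with hv1
  set u2 := z2.num with hu2
  set v2 := z2.denom with hv2
  have hv1' : v1 ≠ 0 := RatFunc.denom_ne_zero z1
  have hv2' : v2 ≠ 0 := RatFunc.denom_ne_zero z2
  have hc1 : IsCoprime u1 v1 := RatFunc.isCoprime_num_denom z1
  have hc2 : IsCoprime u2 v2 := RatFunc.isCoprime_num_denom z2
  have hV1 : algebraMap K[X] (RatFunc K) v1 ≠ 0 := RatFunc.algebraMap_ne_zero hv1'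
  have hV2 : algebraMap K[X] (RatFunc K) v2 ≠ 0 := RatFunc.algebraMap_ne_zero hv2'
  have hz1 : z1 = algebraMap K[X] (RatFunc K) u1 / algebraMap K[X] (RatFunc K) v1 :=
    (RatFunc.num_div_denom z1).symm
  have hz2 : z2 = algebraMap K[X] (RatFunc K) u2 / algebraMap K[X] (RatFunc K) v2 :=
    (RatFunc.num_div_denom z2).symm
  -- the two relations in `K[t]`
  have R1 : a2 * (u1 * v2 + u2 * v1) = -(a1 * (v1 * v2)) := by
    apply RatFunc.algebraMap_injective K
    have := hsum
    rw [hz1, hz2] at this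
    simp only [map_mul, map_add, map_neg]
    field_simp at this
    linear_combination this
  have R0 : a2 * (u1 * u2) = a0 * (v1 * v2) := by
    apply RatFunc.algebraMap_injective K
    have := hprod
    rw [hz1, hz2] at this
    simp only [map_mul]
    field_simp at this
    linear_combination this
  -- `v1 ∣ a2`
  have d1 : v1 ∣ a2 * u2 := by
    have : v1 ∣ (a2 * u2) * u1 := ⟨a0 * v2, by linear_combination R0⟩
    exact hc1.symm.dvd_of_dvd_mul_right this
  have d2 : v1 ∣ a2 * v2 := by
    have : v1 ∣ (a2 * v2) * u1 := ⟨-(a1 * v2) - a2 * u2, by linear_combination R1⟩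
    exact hc1.symm.dvd_of_dvd_mul_right this
  have d3 : v1 ∣ a2 := by
    obtain ⟨α, β, hαβ⟩ := hc2
    have : a2 = α * (a2 * u2) + β * (a2 * v2) := by linear_combination (-a2) * hαβ
    rw [this]
    exact dvd_add (Dvd.dvd.mul_left d1 _) (Dvd.dvd.mul_left d2 _)
  obtain ⟨b, hb⟩ := d3
  have R0' : b * (u1 * u2) = a0 * v2 := by
    apply mul_left_cancel₀ hv1'
    rw [hb] at R0
    linear_combination R0
  have R1' : b * (u1 * v2 + u2 * v1) = -(a1 * v2) := by
    apply mul_left_cancel₀ hv1'
    rw [hb] at R1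
    linear_combination R1
  have e1 : v2 ∣ b * u1 := by
    have : v2 ∣ (b * u1) * u2 := ⟨a0, by linear_combination R0'⟩
    exact hc2.symm.dvd_of_dvd_mul_right this
  have e2 : v2 ∣ b * v1 := by
    have : v2 ∣ (b * v1) * u2 := ⟨-a1 - b * u1, by linear_combination R1'⟩
    exact hc2.symm.dvd_of_dvd_mul_right this
  have e3 : v2 ∣ b := by
    obtain ⟨α, β, hαβ⟩ := hc1
    have : b = α * (b * u1) + β * (b * v1) := by linear_combination (-b) * hαβ
    rw [this]
    exact dvd_add (Dvd.dvd.mul_left e1 _) (Dvd.dvd.mul_left e2 _)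
  obtain ⟨m, hm⟩ := e3
  have S2 : a2 = m * (v1 * v2) := by rw [hb, hm]; ring
  have S0 : a0 = m * (u1 * u2) := by
    apply mul_left_cancel₀ hv2'
    rw [hm] at R0'
    linear_combination -R0'
  have S1 : a1 = -(m * (u1 * v2 + u2 * v1)) := by
    apply mul_left_cancel₀ hv2'
    rw [hm] at R1'
    linear_combination R1'
  have hmu : IsUnit m := hprim m ⟨v1 * v2, S2⟩ ⟨-(u1 * v2 + u2 * v1), by rw [S1]; ring⟩
    ⟨u1 * u2, S0⟩
  obtain ⟨r, hr, rfl⟩ := Polynomial.isUnit_iff.mp hmu
  have hr0 : r ≠ 0 := hr.ne_zero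
  rw [S2, S0, S1, natDegree_neg, natDegree_C_mul hr0, natDegree_C_mul hr0, natDegree_C_mul hr0,
    triple_height u1 v1 u2 v2 hv1' hv2']
  rfl

/-! ### The Manin quadratic -/

/-- leading coefficient of the Manin quadratic: `(p - t q)²`. -/
def qa2 (p q : K[X]) : K[X] := (p - X * q) ^ 2

/-- middle coefficient of the Manin quadratic. -/
def qa1 (A B : K) (p q : K[X]) : K[X] :=
  C (-2 : K) * (p ^ 2 * X + p * q * X ^ 2 + C A * (p * q + X * q ^ 2) + C (2 * B) * q ^ 2)

/-- constant coefficient of the Manin quadratic. -/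
def qa0 (A B : K) (p q : K[X]) : K[X] :=
  (p * X - C A * q) ^ 2 - C (4 * B) * q * (p + X * q)

/-- the cubic `t³ + A t + B`. -/
def cubicPoly (A B : K) : K[X] := X ^ 3 + C A * X + C B

/-- the numerator `t⁴ - 2 A t² - 8 B t + A²` of the duplication formula. -/
def dupNum (A B : K) : K[X] := X ^ 4 - C (2 * A) * X ^ 2 - C (8 * B) * X + C (A ^ 2)

theorem dupNum_cubicPoly_identity (A B : K) :
    (C (3 : K) * X ^ 2 + C (4 * A)) * dupNum A B
      - (C (3 : K) * X ^ 3 - C (5 * A) * X - C (27 * B)) * cubicPoly A B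
      = C (4 * A ^ 3 + 27 * B ^ 2) := by
  simp only [dupNum, cubicPoly, map_mul, map_add, map_pow, map_ofNat]
  ring

theorem qa1_eq (A B : K) (p q : K[X]) :
    qa1 A B p q = C (-4 : K) * q ^ 2 * cubicPoly A B
      + (p - X * q) * (C (-2 : K) * (C (3 : K) * X ^ 2 * q + X * (p - X * q) + C A * q)) := by
  have h4 : (C (-4 : K) : K[X]) = C (-2 : K) * C (2 : K) := by rw [← C_mul]; norm_num
  have h3 : (C (3 : K) : K[X]) = 3 := map_ofNat C 3
  have h2 : (C (2 : K) : K[X]) = 2 := map_ofNat C 2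
  have h2B : (C (2 * B) : K[X]) = 2 * C B := by rw [C_mul, h2]
  simp only [qa1, cubicPoly, h4, h3, h2, h2B]
  ring

theorem qa0_eq (A B : K) (p q : K[X]) :
    qa0 A B p q = q ^ 2 * dupNum A B
      + (p - X * q) * (C (2 : K) * X ^ 3 * q - C (2 * A) * X * q + X ^ 2 * (p - X * q)
          - C (4 * B) * q) := by
  have h2 : (C (2 : K) : K[X]) = 2 := map_ofNat C 2
  have h4 : (C (4 : K) : K[X]) = 4 := map_ofNat C 4
  have h8 : (C (8 : K) : K[X]) = 8 := map_ofNat C 8
  have h2A : (C (2 * A) : K[X]) = 2 * C A := by rw [C_mul, h2]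
  have h4B : (C (4 * B) : K[X]) = 4 * C B := by rw [C_mul, h4]
  have h8B : (C (8 * B) : K[X]) = 8 * C B := by rw [C_mul, h8]
  have hA2 : (C (A ^ 2) : K[X]) = C A ^ 2 := by rw [C_pow]
  simp only [qa0, dupNum, h2, h2A, h4B, h8B, hA2]
  ring

/-- **Primitivity of the Manin quadratic.** -/
theorem qa_prim (A B : K) (h2 : (2 : K) ≠ 0) (hΔ : 4 * A ^ 3 + 27 * B ^ 2 ≠ 0) (p q : K[X])
    (hpq : IsCoprime p q) :
    ∀ m : K[X], m ∣ qa2 p q → m ∣ qa1 A B p q → m ∣ qa0 A B p q → IsUnit m := by
  intro m hm2 hm1 hm0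
  by_contra hmu
  -- an irreducible factor of `m`
  obtain ⟨π, hπ, hπm⟩ : ∃ π : K[X], Irreducible π ∧ π ∣ m := by
    by_cases hm : m = 0
    · exact ⟨X, irreducible_X, hm ▸ dvd_zero _⟩
    · exact WfDvdMonoid.exists_irreducible_factor hmu hm
  have hπp : Prime π := hπ.prime
  have hπ2 : π ∣ p - X * q := hπp.dvd_of_dvd_pow (hπm.trans hm2)
  have hπq : ¬ π ∣ q := by
    intro h
    have hp : π ∣ p := by
      have : p = (p - X * q) + X * q := by ring
      rw [this]
      exact dvd_add hπ2 (Dvd.dvd.mul_left h _)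
    exact hπ.not_isUnit (hpq.isUnit_of_dvd' hp h)
  have hunit : ∀ c : K, c ≠ 0 → ¬ π ∣ C c := by
    intro c hc h
    exact hπ.not_isUnit (isUnit_of_dvd_unit h (Polynomial.isUnit_C.mpr (Ne.isUnit hc)))
  have h4 : (4 : K) ≠ 0 := by
    have : (4 : K) = 2 * 2 := by norm_num
    rw [this]; exact mul_ne_zero h2 h2
  have hf : π ∣ cubicPoly A B := by
    have h1 : π ∣ C (-4 : K) * q ^ 2 * cubicPoly A B := by
      have := hπm.trans hm1
      rw [qa1_eq] at this
      exact (dvd_add_left (Dvd.dvd.mul_right hπ2 _)).mp this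
    rcases hπp.dvd_or_dvd h1 with h | h
    · rcases hπp.dvd_or_dvd h with h | h
      · exact absurd h (hunit _ (neg_ne_zero.mpr h4))
      · exact absurd (hπp.dvd_of_dvd_pow h) hπq
    · exact h
  have hg : π ∣ dupNum A B := by
    have h1 : π ∣ q ^ 2 * dupNum A B := by
      have := hπm.trans hm0
      rw [qa0_eq] at this
      exact (dvd_add_left (Dvd.dvd.mul_right hπ2 _)).mp this
    rcases hπp.dvd_or_dvd h1 with h | h
    · exact absurd (hπp.dvd_of_dvd_pow h) hπq
    · exact h
  have : π ∣ C (4 * A ^ 3 + 27 * B ^ 2) := by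
    rw [← dupNum_cubicPoly_identity]
    exact dvd_sub (Dvd.dvd.mul_left hg _) (Dvd.dvd.mul_left hf _)
  exact hunit _ hΔ this

/-- **Height of the Manin quadratic**: `2 * max (deg p) (deg q) + 2`. -/
theorem qa_natDegree (A B : K) (p q : K[X]) (hq : q ≠ 0) :
    max (qa2 p q).natDegree (max (qa1 A B p q).natDegree (qa0 A B p q).natDegree)
      = 2 * max p.natDegree q.natDegree + 2 := by
  set d := max p.natDegree q.natDegree with hd
  have hpd : p.natDegree ≤ d := le_max_left _ _
  have hqd : q.natDegree ≤ d := le_max_right _ _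
  have hX : (X : K[X]).natDegree ≤ 1 := natDegree_X_le
  have hXq : (X * q).natDegree = q.natDegree + 1 := by
    rw [natDegree_mul X_ne_zero hq, natDegree_X, add_comm]
  apply le_antisymm
  · refine max_le ?_ (max_le ?_ ?_)
    · -- qa2
      have h1 : (p - X * q).natDegree ≤ d + 1 :=
        natDegree_sub_le_of_le' (hpd.trans (Nat.le_succ _)) (by rw [hXq]; omega)
      calc (qa2 p q).natDegree ≤ 2 * (d + 1) := natDegree_pow_le_of_le 2 h1
        _ = 2 * d + 2 := by ring
    · -- qa1
      have t1 : (p ^ 2 * X).natDegree ≤ 2 * d + 2 :=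
        (natDegree_mul_le_of_le (natDegree_pow_le_of_le 2 hpd) hX).trans (by omega)
      have t2 : (p * q * X ^ 2).natDegree ≤ 2 * d + 2 :=
        (natDegree_mul_le_of_le (natDegree_mul_le_of_le hpd hqd)
          (natDegree_pow_le_of_le 2 hX)).trans (by omega)
      have t3 : (C A * (p * q + X * q ^ 2)).natDegree ≤ 2 * d + 2 := by
        refine (natDegree_C_mul_le _ _).trans (natDegree_add_le_of_degree_le ?_ ?_)
        · exact (natDegree_mul_le_of_le hpd hqd).trans (by omega)
        · exact (natDegree_mul_le_of_le hX (natDegree_pow_le_of_le 2 hqd)).trans (by omega)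
      have t4 : (C (2 * B) * q ^ 2).natDegree ≤ 2 * d + 2 :=
        (natDegree_C_mul_le _ _).trans ((natDegree_pow_le_of_le 2 hqd).trans (by omega))
      exact (natDegree_C_mul_le _ _).trans
        (natDegree_add_le_of_degree_le (natDegree_add_le_of_degree_le
          (natDegree_add_le_of_degree_le t1 t2) t3) t4)
    · -- qa0
      have s1 : ((p * X - C A * q) ^ 2).natDegree ≤ 2 * d + 2 := by
        have : (p * X - C A * q).natDegree ≤ d + 1 :=
          natDegree_sub_le_of_le' (natDegree_mul_le_of_le hpd hX)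
            ((natDegree_C_mul_le _ _).trans (hqd.trans (Nat.le_succ _)))
        exact (natDegree_pow_le_of_le 2 this).trans (by omega)
      have s2 : (C (4 * B) * q * (p + X * q)).natDegree ≤ 2 * d + 2 := by
        have h1 : (C (4 * B) * q).natDegree ≤ d := (natDegree_C_mul_le _ _).trans hqd
        have h2 : (p + X * q).natDegree ≤ d + 1 :=
          natDegree_add_le_of_degree_le (hpd.trans (Nat.le_succ _)) (by rw [hXq]; omega)
        exact (natDegree_mul_le_of_le h1 h2).trans (by omega)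
      exact natDegree_sub_le_of_le' s1 s2
  · rcases le_or_gt p.natDegree q.natDegree with h | h
    · -- `deg p ≤ deg q`: the leading coefficient wins
      have hdq : d = q.natDegree := max_eq_right h
      have h1 : (p - X * q).natDegree = q.natDegree + 1 := by
        rw [natDegree_sub_eq_right_of_natDegree_lt (by rw [hXq]; omega), hXq]
      have h2 : (qa2 p q).natDegree = 2 * d + 2 := by
        rw [qa2, natDegree_pow, h1, hdq]; ring
      exact h2 ▸ le_max_left _ _
    · -- `deg q < deg p`: the constant coefficient wins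
      have hdp : d = p.natDegree := max_eq_left h.le
      have hp : p ≠ 0 := by rintro rfl; simp at h
      have hpX : (p * X).natDegree = p.natDegree + 1 := by
        rw [natDegree_mul hp X_ne_zero, natDegree_X]
      have h1 : (p * X - C A * q).natDegree = p.natDegree + 1 := by
        rw [natDegree_sub_eq_left_of_natDegree_lt, hpX]
        rw [hpX]
        exact (natDegree_C_mul_le _ _).trans_lt (by omega)
      have s2 : (C (4 * B) * q * (p + X * q)).natDegree < ((p * X - C A * q) ^ 2).natDegree := by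
        rw [natDegree_pow, h1]
        have h1' : (C (4 * B) * q).natDegree ≤ q.natDegree := natDegree_C_mul_le _ _
        have h2' : (p + X * q).natDegree ≤ p.natDegree :=
          natDegree_add_le_of_degree_le le_rfl (by rw [hXq]; omega)
        exact (natDegree_mul_le_of_le h1' h2').trans_lt (by omega)
      have h2 : (qa0 A B p q).natDegree = 2 * d + 2 := by
        rw [qa0, natDegree_sub_eq_left_of_natDegree_lt s2, natDegree_pow, h1, hdp]; ring
      exact h2 ▸ le_max_of_le_right (le_max_right _ _)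

/-! ### The interface-free form of `(M1)` -/

theorem hgt_X : hgt (RatFunc.X : RatFunc K) = 1 := by
  rw [← RatFunc.algebraMap_X, hgt_algebraMap, natDegree_X]

/-- **`(M1)`, interface-free.** If `x, z₊, z₋ ∈ K(t)` satisfy the `x`-only addition relations
of `y² = x³ + A x + B` with respect to the base point `t` (i.e. `z₊, z₋` are the `x`-coordinates of
`P ± G₀` where `x(P) = x`, `x(G₀) = t`), then `hgt z₊ + hgt z₋ = 2 * hgt x + 2`. -/
theorem hgt_add_hgt_of_xrel (A B : K) (h2 : (2 : K) ≠ 0) (hΔ : 4 * A ^ 3 + 27 * B ^ 2 ≠ 0)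
    (x zp zm : RatFunc K)
    (hsum : (x - RatFunc.X) ^ 2 * (zp + zm)
      = 2 * ((x * RatFunc.X + RatFunc.C A) * (x + RatFunc.X) + 2 * RatFunc.C B))
    (hprod : (x - RatFunc.X) ^ 2 * (zp * zm)
      = (x * RatFunc.X - RatFunc.C A) ^ 2 - 4 * RatFunc.C B * (x + RatFunc.X)) :
    hgt zp + hgt zm = 2 * hgt x + 2 := by
  set p := x.num with hp
  set q := x.denom with hq
  have hq0 : q ≠ 0 := RatFunc.denom_ne_zero x
  have hQ : algebraMap K[X] (RatFunc K) q ≠ 0 := RatFunc.algebraMap_ne_zero hq0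
  have hx : x = algebraMap K[X] (RatFunc K) p / algebraMap K[X] (RatFunc K) q :=
    (RatFunc.num_div_denom x).symm
  have hxq : x * algebraMap K[X] (RatFunc K) q = algebraMap K[X] (RatFunc K) p := by
    rw [hx, div_mul_cancel₀ _ hQ]
  have hc2 : (RatFunc.C (2 : K) : RatFunc K) = 2 := map_ofNat _ 2
  have hc4 : (RatFunc.C (4 : K) : RatFunc K) = 4 := map_ofNat _ 4
  have e2 : algebraMap K[X] (RatFunc K) (qa2 p q)
      = algebraMap K[X] (RatFunc K) q ^ 2 * (x - RatFunc.X) ^ 2 := by
    simp only [qa2, map_pow, map_sub, map_mul, RatFunc.algebraMap_X]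
    rw [← hxq]; ring
  have e1 : algebraMap K[X] (RatFunc K) (qa1 A B p q)
      = -(algebraMap K[X] (RatFunc K) q ^ 2
          * (2 * ((x * RatFunc.X + RatFunc.C A) * (x + RatFunc.X) + 2 * RatFunc.C B))) := by
    simp only [qa1, map_pow, map_add, map_mul, map_neg, RatFunc.algebraMap_X, RatFunc.algebraMap_C,
      hc2]
    rw [← hxq]; ring
  have e0 : algebraMap K[X] (RatFunc K) (qa0 A B p q)
      = algebraMap K[X] (RatFunc K) q ^ 2
          * ((x * RatFunc.X - RatFunc.C A) ^ 2 - 4 * RatFunc.C B * (x + RatFunc.X)) := by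
    simp only [qa0, map_pow, map_add, map_sub, map_mul, RatFunc.algebraMap_X, RatFunc.algebraMap_C,
      hc4]
    rw [← hxq]; ring
  have key := hgt_add_hgt_of_vieta (qa2 p q) (qa1 A B p q) (qa0 A B p q) zp zm
    (qa_prim A B h2 hΔ p q (RatFunc.isCoprime_num_denom x))
    (by rw [e2, e1, mul_assoc, hsum, neg_neg])
    (by rw [e2, e0, mul_assoc, hprod])
  rw [key, qa_natDegree A B p q hq0]
  rfl

theorem natDegree_dupNum (A B : K) : (dupNum A B).natDegree = 4 := by
  have h : dupNum A B = X ^ 4 + (-(C (2 * A)) * X ^ 2 - C (8 * B) * X + C (A ^ 2)) := by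
    simp only [dupNum]; ring
  have hlt : (-(C (2 * A)) * X ^ 2 - C (8 * B) * X + C (A ^ 2) : K[X]).natDegree < 4 := by
    have t1 : (-(C (2 * A)) * X ^ 2 : K[X]).natDegree ≤ 2 := by
      rw [← C_neg]
      exact (natDegree_C_mul_le _ _).trans (natDegree_X_pow_le 2)
    have t2 : (C (8 * B) * X : K[X]).natDegree ≤ 2 :=
      (natDegree_C_mul_le _ _).trans (natDegree_X_le.trans (by norm_num))
    have t3 : (C (A ^ 2) : K[X]).natDegree ≤ 2 := by rw [natDegree_C]; exact Nat.zero_le _
    exact (natDegree_add_le_of_degree_le (natDegree_sub_le_of_le' t1 t2) t3).trans_lt (by norm_num)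
  rw [h, natDegree_add_eq_left_of_natDegree_lt (by rw [natDegree_X_pow]; exact hlt),
    natDegree_X_pow]

theorem natDegree_cubicPoly (A B : K) : (cubicPoly A B).natDegree = 3 := by
  have h : cubicPoly A B = X ^ 3 + (C A * X + C B) := by simp only [cubicPoly]; ring
  have hlt : (C A * X + C B : K[X]).natDegree < 3 := by
    have t1 : (C A * X : K[X]).natDegree ≤ 1 := (natDegree_C_mul_le _ _).trans natDegree_X_le
    have t2 : (C B : K[X]).natDegree ≤ 1 := by rw [natDegree_C]; exact Nat.zero_le _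
    exact (natDegree_add_le_of_degree_le t1 t2).trans_lt (by norm_num)
  rw [h, natDegree_add_eq_left_of_natDegree_lt (by rw [natDegree_X_pow]; exact hlt),
    natDegree_X_pow]

theorem isCoprime_dupNum_cubicPoly (A B : K) (hΔ : 4 * A ^ 3 + 27 * B ^ 2 ≠ 0) :
    IsCoprime (dupNum A B) (cubicPoly A B) := by
  refine ⟨C (4 * A ^ 3 + 27 * B ^ 2)⁻¹ * (C (3 : K) * X ^ 2 + C (4 * A)),
    -(C (4 * A ^ 3 + 27 * B ^ 2)⁻¹ * (C (3 : K) * X ^ 3 - C (5 * A) * X - C (27 * B))), ?_⟩
  have h := dupNum_cubicPoly_identity A B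
  have h1 : (C (4 * A ^ 3 + 27 * B ^ 2)⁻¹ * C (4 * A ^ 3 + 27 * B ^ 2) : K[X]) = 1 := by
    rw [← C_mul, inv_mul_cancel₀ hΔ, C_1]
  linear_combination (C (4 * A ^ 3 + 27 * B ^ 2)⁻¹ : K[X]) * h + h1

/-- The height of the `x`-coordinate `(t⁴ - 2At² - 8Bt + A²) / (4 (t³ + At + B))` of `2 G₀`. -/
theorem hgt_dup (A B : K) (h2 : (2 : K) ≠ 0) (hΔ : 4 * A ^ 3 + 27 * B ^ 2 ≠ 0) :
    hgt (algebraMap K[X] (RatFunc K) (dupNum A B)
      / algebraMap K[X] (RatFunc K) (C (4 : K) * cubicPoly A B)) = 4 := by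
  have h4 : (4 : K) ≠ 0 := by
    have : (4 : K) = 2 * 2 := by norm_num
    rw [this]; exact mul_ne_zero h2 h2
  have hf : cubicPoly A B ≠ 0 := by
    intro h
    have := natDegree_cubicPoly A B
    rw [h, natDegree_zero] at this
    exact absurd this (by norm_num)
  have hne : C (4 : K) * cubicPoly A B ≠ 0 := mul_ne_zero (C_ne_zero.mpr h4) hf
  have hcop : IsCoprime (dupNum A B) (C (4 : K) * cubicPoly A B) :=
    IsCoprime.mul_right ⟨0, C (4 : K)⁻¹, by rw [zero_mul, zero_add, ← C_mul, inv_mul_cancel₀ h4, C_1]⟩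
      (isCoprime_dupNum_cubicPoly A B hΔ)
  rw [hgt_div hne hcop, natDegree_dupNum, natDegree_C_mul h4, natDegree_cubicPoly]
  rfl

end Fermat.Agent.S52.H20
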