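import Mathlib
import Fermat.Agent.S52.Fam_helper48
import Fermat.Agent.S52.FamId_helper48

/-!
# S52: interface lemmas for the landed family data `Fam_helper48` (helper43)

Ring-hom compatibility, values at `b = 0`, homogeneity, the derivative of `famD(1, t)`,
the coefficient form of `famD(1, t)`, `deg D ≥ 11` and the `hne` fact (for `c4 ≠ 0`).
-/

set_option autoImplicit false

open Polynomial

namespace Fermat.Agent.S52.H43

open Fermat.Agent.S52.H48

section Generic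

variable {R S : Type*} [CommRing R] [CommRing S]

theorem map_famC4 (φ : R →+* S) (c4 c6 a b : R) :
    φ (famC4 c4 c6 a b) = famC4 (φ c4) (φ c6) (φ a) (φ b) := by
  simp only [famC4, famC4_0, famC4_1, famC4_2, famC4_3, map_add, map_sub, map_mul, map_pow,
    map_neg, map_ofNat]

theorem map_famC6 (φ : R →+* S) (c4 c6 a b : R) :
    φ (famC6 c4 c6 a b) = famC6 (φ c4) (φ c6) (φ a) (φ b) := by
  simp only [famC6, famC6_0, famC6_1, famC6_2, famC6_3, famC6_4, famC6_5, map_add, map_sub,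
    map_mul, map_pow, map_neg, map_ofNat]

theorem map_famD (φ : R →+* S) (c4 c6 a b : R) :
    φ (famD c4 c6 a b) = famD (φ c4) (φ c6) (φ a) (φ b) := by
  simp only [famD, famD_0, famD_1, map_add, map_sub, map_mul, map_pow, map_neg, map_ofNat,
    map_one]

theorem map_famDt (φ : R →+* S) (c4 c6 t : R) :
    φ (famDt c4 c6 t) = famDt (φ c4) (φ c6) (φ t) := by
  simp only [famDt, famDt_0, famDt_1, map_add, map_sub, map_mul, map_pow, map_neg, map_ofNat]

theorem map_famTheta (φ : R →+* S) (c4 c6 t : R) :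
    φ (famTheta c4 c6 t) = famTheta (φ c4) (φ c6) (φ t) := by
  simp only [famTheta, famTheta_0, famTheta_1, famTheta_2, famTheta_3, map_add, map_sub,
    map_mul, map_pow, map_neg, map_ofNat]

theorem famC4_zero (c4 c6 a : R) : famC4 c4 c6 a 0 = c4 * a ^ 20 := by
  simp only [famC4, famC4_0, famC4_1, famC4_2, famC4_3]
  ring

theorem famC6_zero (c4 c6 a : R) : famC6 c4 c6 a 0 = c6 * a ^ 30 := by
  simp only [famC6, famC6_0, famC6_1, famC6_2, famC6_3, famC6_4, famC6_5]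
  ring

theorem famD_zero (c4 c6 a : R) : famD c4 c6 a 0 = a ^ 12 := by
  simp only [famD, famD_0, famD_1]
  ring

theorem famC4_smul (c4 c6 a b t : R) :
    famC4 c4 c6 (t * a) (t * b) = t ^ 20 * famC4 c4 c6 a b := by
  simp only [famC4, famC4_0, famC4_1, famC4_2, famC4_3]
  ring

theorem famC6_smul (c4 c6 a b t : R) :
    famC6 c4 c6 (t * a) (t * b) = t ^ 30 * famC6 c4 c6 a b := by
  simp only [famC6, famC6_0, famC6_1, famC6_2, famC6_3, famC6_4, famC6_5]
  ring

theorem famD_smul (c4 c6 a b t : R) :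
    famD c4 c6 (t * a) (t * b) = t ^ 12 * famD c4 c6 a b := by
  simp only [famD, famD_0, famD_1]
  ring

/-- `famC4 0 c6 1 t / t`. -/
def gam0 (c6 t : R) : R :=
  -20 * c6 + 5700 * c6 ^ 2 * t ^ 3 + 182400 * c6 ^ 3 * t ^ 6 + 15808000 * c6 ^ 4 * t ^ 9
    - 58368000 * c6 ^ 5 * t ^ 12 + 583680000 * c6 ^ 6 * t ^ 15 + 655360000 * c6 ^ 7 * t ^ 18

/-- `famDt 0 c6 t / t^2`. -/
def del0 (c6 t : R) : R :=
  1320 * c6 - 63360 * c6 ^ 2 * t ^ 3 - 1267200 * c6 ^ 3 * t ^ 6 + 1228800 * c6 ^ 4 * t ^ 9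

theorem famC4_c4_zero (c6 t : R) : famC4 0 c6 1 t = t * gam0 c6 t := by
  simp only [famC4, famC4_0, famC4_1, famC4_2, famC4_3, gam0]
  ring

theorem famDt_c4_zero (c6 t : R) : famDt 0 c6 t = t ^ 2 * del0 c6 t := by
  simp only [famDt, famDt_0, famDt_1, del0]
  ring

end Generic

section Poly

variable {K : Type*} [CommRing K]

theorem eval_famC4 (c4 c6 t : K) :
    (famC4 (C c4) (C c6) 1 (X : K[X])).eval t = famC4 c4 c6 1 t := by
  have h := map_famC4 (evalRingHom t) (C c4) (C c6) 1 X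
  simpa using h

theorem eval_famC6 (c4 c6 t : K) :
    (famC6 (C c4) (C c6) 1 (X : K[X])).eval t = famC6 c4 c6 1 t := by
  have h := map_famC6 (evalRingHom t) (C c4) (C c6) 1 X
  simpa using h

theorem eval_famD (c4 c6 t : K) :
    (famD (C c4) (C c6) 1 (X : K[X])).eval t = famD c4 c6 1 t := by
  have h := map_famD (evalRingHom t) (C c4) (C c6) 1 X
  simpa using h

theorem eval_famDt (c4 c6 t : K) :
    (famDt (C c4) (C c6) (X : K[X])).eval t = famDt c4 c6 t := by
  have h := map_famDt (evalRingHom t) (C c4) (C c6) X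
  simpa using h

/-- `famDt` is the derivative of `famD(1, t)`. -/
theorem derivative_famD (c4 c6 : K) :
    derivative (famD (C c4) (C c6) 1 (X : K[X])) = famDt (C c4) (C c6) X := by
  simp only [famD, famD_0, famD_1, famDt, famDt_0, famDt_1, derivative_add, derivative_sub,
    derivative_mul, derivative_pow, derivative_C, derivative_X, derivative_one, derivative_neg,
    derivative_ofNat, Nat.cast_ofNat, C_ofNat]
  norm_num
  ring

/-- (F3) as an identity of polynomials in `t`. -/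
theorem fam_F3_poly (c4 c6 : K) :
    famC4 (C c4) (C c6) 1 (X : K[X]) * derivative (famD (C c4) (C c6) 1 (X : K[X]))
        - 12 * famC6 (C c4) (C c6) 1 (X : K[X])
      = famTheta (C c4) (C c6) (X : K[X]) * famD (C c4) (C c6) 1 (X : K[X]) := by
  rw [derivative_famD]
  exact fam_F3 (C c4) (C c6) X

/-- (F1) as an identity of polynomials in `t`. -/
theorem fam_F1_poly (c4 c6 : K) :
    famC4 (C c4) (C c6) 1 (X : K[X]) ^ 3 - famC6 (C c4) (C c6) 1 (X : K[X]) ^ 2
      = C (c4 ^ 3 - c6 ^ 2) * famD (C c4) (C c6) 1 (X : K[X]) ^ 5 := by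
  rw [fam_F1, C_sub, C_pow, C_pow]

/-- the coefficient form of `famD(1, t)`. -/
theorem famD_coeff_form (c4 c6 : K) :
    famD (C c4) (C c6) 1 (X : K[X]) =
      C 1 + C (-66 * c4) * X ^ 2 + C (440 * c6) * X ^ 3 + C (-1485 * c4 ^ 2) * X ^ 4
        + C (3168 * c4 * c6) * X ^ 5 + C (-10560 * c6 ^ 2 + 5940 * c4 ^ 3) * X ^ 6
        + C (4752 * c4 ^ 2 * c6) * X ^ 7 + C (63360 * c4 * c6 ^ 2 - 66825 * c4 ^ 4) * X ^ 8
        + C (-140800 * c6 ^ 3 + 142560 * c4 ^ 3 * c6) * X ^ 9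
        + C (133056 * c4 ^ 2 * c6 ^ 2 - 133650 * c4 ^ 5) * X ^ 10
        + C (-61440 * c4 * c6 ^ 3 + 61560 * c4 ^ 4 * c6) * X ^ 11
        + C (102400 * c6 ^ 4 - 193536 * c4 ^ 3 * c6 ^ 2 + 91125 * c4 ^ 6) * X ^ 12 := by
  simp only [famD, famD_0, famD_1, C_mul, C_add, C_sub, C_neg, C_pow, C_1, C_ofNat]
  ring

theorem coeff_famD_eleven (c4 c6 : K) :
    (famD (C c4) (C c6) 1 (X : K[X])).coeff 11 = -61440 * c4 * c6 ^ 3 + 61560 * c4 ^ 4 * c6 := by
  rw [famD_coeff_form]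
  simp only [coeff_add, coeff_C_mul, coeff_X_pow, coeff_C]
  norm_num

theorem coeff_famD_twelve (c4 c6 : K) :
    (famD (C c4) (C c6) 1 (X : K[X])).coeff 12 =
      102400 * c6 ^ 4 - 193536 * c4 ^ 3 * c6 ^ 2 + 91125 * c4 ^ 6 := by
  rw [famD_coeff_form]
  simp only [coeff_add, coeff_C_mul, coeff_X_pow, coeff_C]
  norm_num

end Poly

section Field

variable {K : Type*} [Field K] [CharZero K]

/-- `deg D ≥ 11` when `c4^3 ≠ c6^2`. -/
theorem natDegree_famD_ge (c4 c6 : K) (hd : c4 ^ 3 ≠ c6 ^ 2) :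
    11 ≤ (famD (C c4) (C c6) 1 (X : K[X])).natDegree := by
  by_contra hlt
  have hlt' : (famD (C c4) (C c6) 1 (X : K[X])).natDegree < 11 := not_le.mp hlt
  have h11 : (famD (C c4) (C c6) 1 (X : K[X])).coeff 11 = 0 :=
    coeff_eq_zero_of_natDegree_lt hlt'
  have h12 : (famD (C c4) (C c6) 1 (X : K[X])).coeff 12 = 0 :=
    coeff_eq_zero_of_natDegree_lt (by omega)
  rw [coeff_famD_eleven] at h11
  rw [coeff_famD_twelve] at h12
  have e11 : c4 * c6 * (513 * c4 ^ 3 - 512 * c6 ^ 2) = 0 := by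
    have h : (120 : K) * (c4 * c6 * (513 * c4 ^ 3 - 512 * c6 ^ 2)) = 0 := by
      linear_combination h11
    exact (mul_eq_zero.mp h).resolve_left (by norm_num)
  rcases mul_eq_zero.mp e11 with h | h
  · rcases mul_eq_zero.mp h with h4 | h6
    · rw [h4] at h12
      have h1 : (102400 : K) * c6 ^ 4 = 0 := by linear_combination h12
      have h2 : c6 ^ 4 = 0 := (mul_eq_zero.mp h1).resolve_left (by norm_num)
      have hc6 : c6 = 0 := (pow_eq_zero_iff (by norm_num)).mp h2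
      exact hd (by rw [h4, hc6]; ring)
    · rw [h6] at h12
      have h1 : (91125 : K) * c4 ^ 6 = 0 := by linear_combination h12
      have h2 : c4 ^ 6 = 0 := (mul_eq_zero.mp h1).resolve_left (by norm_num)
      have hc4 : c4 = 0 := (pow_eq_zero_iff (by norm_num)).mp h2
      exact hd (by rw [h6, hc4]; ring)
  · have h1 : (1728 : K) ^ 2 * c6 ^ 4 = 0 := by
      linear_combination (513 : K) ^ 2 * h12 - (46747125 * c4 ^ 3 - 52627968 * c6 ^ 2) * h
    have h2 : c6 ^ 4 = 0 := (mul_eq_zero.mp h1).resolve_left (by norm_num)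
    have hc6 : c6 = 0 := (pow_eq_zero_iff (by norm_num)).mp h2
    have h3 : (513 : K) * c4 ^ 3 = 0 := by
      rw [hc6] at h
      linear_combination h
    have hc4 : c4 ^ 3 = 0 := (mul_eq_zero.mp h3).resolve_left (by norm_num)
    exact hd (by rw [hc4, hc6]; ring)

/-- the `hne` fact of node G3 (`D'/4` is not a root of the quartic), for `c4 ≠ 0`. -/
theorem fam_hne (c4 c6 : K) (h4 : c4 ≠ 0) :
    derivative (famD (C c4) (C c6) 1 (X : K[X])) ^ 4
      - 96 * famC4 (C c4) (C c6) 1 (X : K[X]) * derivative (famD (C c4) (C c6) 1 (X : K[X])) ^ 2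
      - 512 * famC6 (C c4) (C c6) 1 (X : K[X]) * derivative (famD (C c4) (C c6) 1 (X : K[X]))
      - 768 * famC4 (C c4) (C c6) 1 (X : K[X]) ^ 2 ≠ 0 := by
  intro h
  have h0 := congrArg (eval 0) h
  rw [derivative_famD] at h0
  simp only [eval_sub, eval_mul, eval_pow, eval_ofNat, eval_zero, eval_famC4, eval_famC6,
    eval_famDt] at h0
  have hDt0 : famDt c4 c6 0 = 0 := by
    simp only [famDt, famDt_0, famDt_1]
    ring
  rw [hDt0, famC4_zero] at h0
  have h1 : (768 : K) * c4 ^ 2 = 0 := by linear_combination -h0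
  have h2 : c4 ^ 2 = 0 := (mul_eq_zero.mp h1).resolve_left (by norm_num)
  exact h4 ((pow_eq_zero_iff (by norm_num)).mp h2)

/-- the `hne` fact for `c4 = 0` (then `c6 ≠ 0`): the coefficient of `t^2` is `-983040 c6^2`. -/
theorem fam_hne_zero (c6 : K) (h6 : c6 ≠ 0) :
    derivative (famD (C 0) (C c6) 1 (X : K[X])) ^ 4
      - 96 * famC4 (C 0) (C c6) 1 (X : K[X]) * derivative (famD (C 0) (C c6) 1 (X : K[X])) ^ 2
      - 512 * famC6 (C 0) (C c6) 1 (X : K[X]) * derivative (famD (C 0) (C c6) 1 (X : K[X]))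
      - 768 * famC4 (C 0) (C c6) 1 (X : K[X]) ^ 2 ≠ 0 := by
  intro h
  have e4 : famC4 (C 0) (C c6) 1 (X : K[X]) = X * gam0 (C c6) X := by
    rw [C_0]
    exact famC4_c4_zero _ _
  have eD : derivative (famD (C 0) (C c6) 1 (X : K[X])) = X ^ 2 * del0 (C c6) X := by
    rw [derivative_famD, C_0]
    exact famDt_c4_zero _ _
  rw [eD, e4] at h
  have hfac : (X : K[X]) ^ 2 * (X ^ 6 * del0 (C c6) X ^ 4
      - 96 * X ^ 3 * gam0 (C c6) X * del0 (C c6) X ^ 2
      - 512 * famC6 (C 0) (C c6) 1 (X : K[X]) * del0 (C c6) X - 768 * gam0 (C c6) X ^ 2) = 0 := by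
    linear_combination h
  have hG := (mul_eq_zero.mp hfac).resolve_left (pow_ne_zero 2 X_ne_zero)
  have h0 := congrArg (eval 0) hG
  have eg : (gam0 (C c6) (X : K[X])).eval 0 = -20 * c6 := by
    simp [gam0]
  have ed : (del0 (C c6) (X : K[X])).eval 0 = 1320 * c6 := by
    simp [del0]
  simp only [eval_sub, eval_mul, eval_pow, eval_ofNat, eval_zero, eval_X, eval_famC6, eg, ed,
    famC6_zero] at h0
  have h1 : (983040 : K) * c6 ^ 2 = 0 := by linear_combination -h0
  have h2 : c6 ^ 2 = 0 := (mul_eq_zero.mp h1).resolve_left (by norm_num)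
  exact h6 ((pow_eq_zero_iff (by norm_num)).mp h2)

/-- the `hne` fact of node G3 for all `c4^3 ≠ c6^2`. -/
theorem fam_hne_all (c4 c6 : K) (hd : c4 ^ 3 ≠ c6 ^ 2) :
    derivative (famD (C c4) (C c6) 1 (X : K[X])) ^ 4
      - 96 * famC4 (C c4) (C c6) 1 (X : K[X]) * derivative (famD (C c4) (C c6) 1 (X : K[X])) ^ 2
      - 512 * famC6 (C c4) (C c6) 1 (X : K[X]) * derivative (famD (C c4) (C c6) 1 (X : K[X]))
      - 768 * famC4 (C c4) (C c6) 1 (X : K[X]) ^ 2 ≠ 0 := by
  by_cases h4 : c4 = 0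
  · subst h4
    refine fam_hne_zero c6 (fun h6 => hd ?_)
    rw [h6]
    ring
  · exact fam_hne c4 c6 h4

end Field

end Fermat.Agent.S52.H43
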