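import Mathlib
import Fermat.Agent.S52.Fam_helper48
import Fermat.Agent.S52.FamId_helper48
import Fermat.Agent.S52.FamKlein_helper48
import Fermat.Agent.S52.FamKleinSix_helper48
import Fermat.Agent.S52.FamMap_helper48
import Fermat.Agent.S52.FamDeg_helper82
import Fermat.Agent.S52.ModFiveInst_helper28
import Fermat.Agent.S52.Final_helper43

/-!
S52 (helper48): the data interface of `H43.switch_of_data` instantiated with the family
`famC4, famC6, famD` of `Fam_helper48`.  `switch` is the frozen conclusion of S52 for every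
integral Weierstrass model with `Δ ≠ 0` which is semistable.

Inputs: (F1), (F3) = `FamId_helper48`; (F2) for `H`, `f` = `FamKlein_helper48`; (F2) for `T` =
`FamKleinSix_helper48`; ring-hom compatibility and homogeneity = `FamMap_helper48`;
`degD`, `hneD` = `FamDeg_helper82`; the mod-5 congruence = `ModFiveInst_helper28`;
everything else is inside `Final_helper43`.
-/

set_option autoImplicit false

open Polynomial WeierstrassCurve

namespace Fermat.Agent.S52.H48

section Zero

variable {R : Type*} [CommRing R]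

theorem famC4_zero (c4 c6 a : R) : famC4 c4 c6 a 0 = c4 * a ^ 20 := by
  simp only [famC4, famC4_0, famC4_1, famC4_2, famC4_3]
  ring

theorem famC6_zero (c4 c6 a : R) : famC6 c4 c6 a 0 = c6 * a ^ 30 := by
  simp only [famC6, famC6_0, famC6_1, famC6_2, famC6_3, famC6_4, famC6_5]
  ring

theorem famD_zero (c4 c6 a : R) : famD c4 c6 a 0 = a ^ 12 := by
  simp only [famD, famD_0, famD_1]
  ring

theorem nU_eq_kn1 (u v : R) : nU u v = H43.kn1 u v := rfl

theorem nV_eq_kn2 (u v : R) : nV u v = H43.kn2 u v := rfl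

/-- (F2) for `H` in the shape of `H43.switch_of_data`. -/
theorem fam_F2H (u v a b : R) :
    -H83.kH (a * u + b * H43.kn1 u v) (a * v + b * H43.kn2 u v) =
      famC4 (-H83.kH u v) (-H83.kT u v) a b :=
  (famC4_klein u v a b).symm

/-- (F2) for `f` in the shape of `H43.switch_of_data`. -/
theorem fam_F2f (u v a b : R) :
    H83.kf (a * u + b * H43.kn1 u v) (a * v + b * H43.kn2 u v) =
      H83.kf u v * famD (-H83.kH u v) (-H83.kT u v) a b :=
  famD_klein u v a b

/-- (F3) as a polynomial identity with the derivative of `famD (C c4) (C c6) 1 X`. -/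
theorem fam_F3_poly (c4 c6 : R) :
    famC4 (C c4) (C c6) 1 X * derivative (famD (C c4) (C c6) 1 X : R[X])
        - 12 * famC6 (C c4) (C c6) 1 X =
      famTheta (C c4) (C c6) X * famD (C c4) (C c6) 1 X := by
  rw [derivative_famD]
  exact fam_F3 (C c4) (C c6) X

end Zero

/-- **The 3-5 switch** (the frozen conclusion of S52 without the unused hypothesis). -/
theorem switch (W : WeierstrassCurve ℤ) (hΔ : W.Δ ≠ 0) (hW : W.IsSemistableModel) :
    ∃ W' : WeierstrassCurve ℤ, W'.Δ ≠ 0 ∧ W'.IsSemistableModel ∧ W'.ModRepIsIrreducible 3 ∧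
      ∀ ℓ : ℕ, ℓ.Prime → W.IsGoodPrimeFor ℓ → W'.IsGoodPrimeFor ℓ → ℓ ≠ 5 →
        (5 : ℤ) ∣ (W'.apOfModel ℓ - W.apOfModel ℓ) :=
  H43.switch_of_data (fun _ _ => famC4) (fun _ _ => famC6) (fun _ _ => famD)
    (fun φ c4 c6 a b => map_famC4 φ c4 c6 a b)
    (fun φ c4 c6 a b => map_famC6 φ c4 c6 a b)
    (fun φ c4 c6 a b => map_famD φ c4 c6 a b)
    (fun _ _ c4 c6 a => famC4_zero c4 c6 a)
    (fun _ _ c4 c6 a => famC6_zero c4 c6 a)
    (fun _ _ c4 c6 a => famD_zero c4 c6 a)
    (fun _ _ c4 c6 a b t => famC4_smul c4 c6 t a b)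
    (fun _ _ c4 c6 a b t => famC6_smul c4 c6 t a b)
    (fun _ _ c4 c6 a b => fam_F1 c4 c6 a b)
    (fun _ _ u v a b => fam_F2H u v a b)
    (fun _ _ u v a b => fam_F2f u v a b)
    (fun c4 c6 => ⟨famTheta (C c4) (C c6) X, fam_F3_poly c4 c6⟩)
    (fun c4 c6 h => H82.degD c4 c6 h)
    (fun c4 c6 h => H82.hneD c4 c6 h)
    (fun ℓ _ h2 h3 h5 c4 c6 a b hd hD =>
      H28.mod5_of_klein ℓ h2 h3 h5 (fun u v a b => famC4_klein u v a b)
        (fun u v a b => famC6_klein u v a b) (fun u v a b => famD_klein u v a b) c4 c6 a b hd hD)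
    W hΔ hW

end Fermat.Agent.S52.H48
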