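import Mathlib
import Fermat.Agent.S52.Final_helper43
import Fermat.Agent.S52.FamIface_helper43

/-!
# S52 for the landed family data `Fam_helper48` (helper43)

`switch_of_klein_mod5`: the frozen conclusion of S52 with the family `H48.famC4/famC6/famD`,
from the two Klein identities (F2) for `H` and `f` and the mod-5 congruence of point counts.
-/

set_option autoImplicit false

open Polynomial WeierstrassCurve

namespace Fermat.Agent.S52.H43

open Fermat.Agent.S52.H83 Fermat.Agent.S52.H48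

/-- **S52 from (F2) and the mod-5 congruence**, for the landed family data. -/
theorem switch_of_klein_mod5
    (F2H : ∀ (R : Type) [CommRing R] (u v a b : R),
      famC4 (-kH u v) (-kT u v) a b = -kH (a * u + b * nU u v) (a * v + b * nV u v))
    (F2f : ∀ (R : Type) [CommRing R] (u v a b : R),
      kf (a * u + b * nU u v) (a * v + b * nV u v) = kf u v * famD (-kH u v) (-kT u v) a b)
    (mod5 : ∀ (ℓ : ℕ) [Fact ℓ.Prime], ℓ ≠ 2 → ℓ ≠ 3 → ℓ ≠ 5 → ∀ c4 c6 a b : ZMod ℓ,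
      c4 ^ 3 ≠ c6 ^ 2 → famD c4 c6 a b ≠ 0 →
      (5 : ℤ) ∣ (Nat.card (shortCurve c4 c6).toAffine.Point : ℤ) -
        (Nat.card (shortCurve (famC4 c4 c6 a b) (famC6 c4 c6 a b)).toAffine.Point : ℤ))
    (W : WeierstrassCurve ℤ) (hΔ : W.Δ ≠ 0) (hW : W.IsSemistableModel) :
    ∃ W' : WeierstrassCurve ℤ, W'.Δ ≠ 0 ∧ W'.IsSemistableModel ∧ W'.ModRepIsIrreducible 3 ∧
      ∀ ℓ : ℕ, ℓ.Prime → W.IsGoodPrimeFor ℓ → W'.IsGoodPrimeFor ℓ → ℓ ≠ 5 →
        (5 : ℤ) ∣ (W'.apOfModel ℓ - W.apOfModel ℓ) :=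
  switch_of_data (fun _ _ => famC4) (fun _ _ => famC6) (fun _ _ => famD)
    (fun φ c4 c6 a b => map_famC4 φ c4 c6 a b) (fun φ c4 c6 a b => map_famC6 φ c4 c6 a b)
    (fun φ c4 c6 a b => map_famD φ c4 c6 a b)
    (fun _ _ c4 c6 a => famC4_zero c4 c6 a) (fun _ _ c4 c6 a => famC6_zero c4 c6 a)
    (fun _ _ c4 c6 a => famD_zero c4 c6 a)
    (fun _ _ c4 c6 a b t => famC4_smul c4 c6 a b t)
    (fun _ _ c4 c6 a b t => famC6_smul c4 c6 a b t)
    (fun _ _ c4 c6 a b => fam_F1 c4 c6 a b)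
    (fun R _ u v a b => (F2H R u v a b).symm)
    (fun R _ u v a b => F2f R u v a b)
    (fun c4 c6 => ⟨famTheta (C c4) (C c6) X, fam_F3_poly c4 c6⟩)
    (fun c4 c6 hd => natDegree_famD_ge c4 c6 hd)
    (fun c4 c6 hd => fam_hne_all c4 c6 hd)
    mod5 W hΔ hW

end Fermat.Agent.S52.H43
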