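import Mathlib

/-!
# S52 node E6 (Transfer, Manin's (M5)) — helper50

* `twMap`: the semilinear scaling homomorphism `(x, y) ↦ (s² φ x, s³ φ y)` between short
  Weierstrass curves `y² = x³ + A x + B`.
* `transfer`: a relation `2 • (Φ₂ - a • Φ + l • G₀) = 0` between the three explicit points of the
  twisted curve over `𝔽_l(t)` gives `2 • (Fr² - a • Fr + l) = 0` on all points over any field
  of characteristic `l`.
-/

namespace Fermat.Agent.S52.H50

open Polynomial WeierstrassCurve WeierstrassCurve.Affine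

/-- The short Weierstrass curve `y² = x³ + A x + B`. -/
abbrev short (F : Type*) [CommRing F] (A B : F) : WeierstrassCurve.Affine F :=
  ⟨0, 0, 0, A, B⟩

section basic

variable {F : Type*} [Field F]

lemma short_equation_iff (A B x y : F) :
    (short F A B).Equation x y ↔ y ^ 2 = x ^ 3 + A * x + B := by
  rw [WeierstrassCurve.Affine.equation_iff]
  simp

lemma short_nonsingular_iff (A B x y : F) :
    (short F A B).Nonsingular x y ↔
      y ^ 2 = x ^ 3 + A * x + B ∧ (3 * x ^ 2 + A ≠ 0 ∨ y + y ≠ 0) := by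
  rw [WeierstrassCurve.Affine.nonsingular_iff, short_equation_iff]
  have h1 : ((short F A B).a₁ * y ≠ 3 * x ^ 2 + 2 * (short F A B).a₂ * x + (short F A B).a₄) ↔
      3 * x ^ 2 + A ≠ 0 := by
    simp [eq_comm]
  have h2 : (y ≠ -y - (short F A B).a₁ * x - (short F A B).a₃) ↔ y + y ≠ 0 := by
    simp [add_eq_zero_iff_eq_neg]
  rw [h1, h2]

end basic

section tw

variable {F₁ F₂ : Type*} [Field F₁] [Field F₂]

lemma tw_nonsingular_iff (φ : F₁ →+* F₂) {s : F₂} (hs : s ≠ 0) {A₁ B₁ : F₁} {A₂ B₂ : F₂}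
    (hA : A₂ = s ^ 4 * φ A₁) (hB : B₂ = s ^ 6 * φ B₁) (x y : F₁) :
    (short F₂ A₂ B₂).Nonsingular (s ^ 2 * φ x) (s ^ 3 * φ y) ↔ (short F₁ A₁ B₁).Nonsingular x y := by
  rw [short_nonsingular_iff, short_nonsingular_iff, hA, hB]
  have e1 : (s ^ 3 * φ y) ^ 2 = (s ^ 2 * φ x) ^ 3 + s ^ 4 * φ A₁ * (s ^ 2 * φ x) + s ^ 6 * φ B₁ ↔
      y ^ 2 = x ^ 3 + A₁ * x + B₁ := by
    rw [← φ.injective.eq_iff]
    simp only [map_add, map_mul, map_pow]
    constructor
    · intro h
      have h6 : s ^ 6 ≠ 0 := pow_ne_zero _ hs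
      apply mul_left_cancel₀ h6
      linear_combination h
    · intro h
      linear_combination s ^ 6 * h
  have e2 : 3 * (s ^ 2 * φ x) ^ 2 + s ^ 4 * φ A₁ ≠ 0 ↔ 3 * x ^ 2 + A₁ ≠ 0 := by
    have : 3 * (s ^ 2 * φ x) ^ 2 + s ^ 4 * φ A₁ = s ^ 4 * φ (3 * x ^ 2 + A₁) := by
      simp only [map_add, map_mul, map_pow, map_ofNat]
      ring
    rw [this, Ne, mul_eq_zero, not_or, map_eq_zero]
    simp [hs]
  have e3 : s ^ 3 * φ y + s ^ 3 * φ y ≠ 0 ↔ y + y ≠ 0 := by
    have : s ^ 3 * φ y + s ^ 3 * φ y = s ^ 3 * φ (y + y) := by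
      simp only [map_add]
      ring
    rw [this, Ne, mul_eq_zero, not_or, map_eq_zero]
    simp [hs]
  rw [e1, e2, e3]

lemma tw_negY (φ : F₁ →+* F₂) {s : F₂} (hs : s ≠ 0) (A₁ B₁ : F₁) (A₂ B₂ : F₂) (x₂ y₁ y₂ : F₁) :
    s ^ 3 * φ y₁ = (short F₂ A₂ B₂).negY (s ^ 2 * φ x₂) (s ^ 3 * φ y₂) ↔
      y₁ = (short F₁ A₁ B₁).negY x₂ y₂ := by
  have hs3 : s ^ 3 ≠ 0 := pow_ne_zero _ hs
  simp only [negY, sub_zero, zero_mul]
  constructor
  · intro h
    apply φ.injective
    apply mul_left_cancel₀ hs3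
    rw [h]; simp
  · intro h
    rw [h]; simp

lemma tw_addX (φ : F₁ →+* F₂) (s : F₂) (A₁ B₁ : F₁) (A₂ B₂ : F₂) (x₁ x₂ ℓ : F₁) :
    (short F₂ A₂ B₂).addX (s ^ 2 * φ x₁) (s ^ 2 * φ x₂) (s * φ ℓ) =
      s ^ 2 * φ ((short F₁ A₁ B₁).addX x₁ x₂ ℓ) := by
  simp only [addX, map_sub, map_pow, zero_mul, add_zero, sub_zero]
  ring

lemma tw_addY (φ : F₁ →+* F₂) (s : F₂) (A₁ B₁ : F₁) (A₂ B₂ : F₂) (x₁ x₂ y₁ ℓ : F₁) :
    (short F₂ A₂ B₂).addY (s ^ 2 * φ x₁) (s ^ 2 * φ x₂) (s ^ 3 * φ y₁) (s * φ ℓ) =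
      s ^ 3 * φ ((short F₁ A₁ B₁).addY x₁ x₂ y₁ ℓ) := by
  simp only [addY, negY, negAddY, addX, map_add, map_sub, map_mul, map_pow, map_neg,
    zero_mul, add_zero, sub_zero]
  ring

variable [DecidableEq F₁] [DecidableEq F₂]

lemma tw_slope (φ : F₁ →+* F₂) {s : F₂} (hs : s ≠ 0) {A₁ : F₁} (B₁ : F₁) {A₂ : F₂} (B₂ : F₂)
    (hA : A₂ = s ^ 4 * φ A₁) (x₁ x₂ y₁ y₂ : F₁) :
    (short F₂ A₂ B₂).slope (s ^ 2 * φ x₁) (s ^ 2 * φ x₂) (s ^ 3 * φ y₁) (s ^ 3 * φ y₂) =
      s * φ ((short F₁ A₁ B₁).slope x₁ x₂ y₁ y₂) := by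
  have hs2 : s ^ 2 ≠ 0 := pow_ne_zero _ hs
  have hs3 : s ^ 3 ≠ 0 := pow_ne_zero _ hs
  by_cases hx : x₁ = x₂
  · subst hx
    by_cases hy : y₁ = (short F₁ A₁ B₁).negY x₁ y₂
    · have hy' : s ^ 3 * φ y₁ = (short F₂ A₂ B₂).negY (s ^ 2 * φ x₁) (s ^ 3 * φ y₂) := by
        simp only [negY, sub_zero, zero_mul] at hy ⊢
        rw [hy]; simp
      rw [slope_of_Y_eq rfl hy, slope_of_Y_eq rfl hy']
      simp
    · have hy' : s ^ 3 * φ y₁ ≠ (short F₂ A₂ B₂).negY (s ^ 2 * φ x₁) (s ^ 3 * φ y₂) := by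
        simp only [negY, sub_zero, zero_mul] at hy ⊢
        intro h
        apply hy
        apply φ.injective
        apply mul_left_cancel₀ hs3
        rw [h]; simp
      rw [slope_of_Y_ne rfl hy, slope_of_Y_ne rfl hy']
      simp only [negY, mul_zero, sub_zero, zero_mul, map_div₀, map_add, map_sub, map_mul, map_pow,
        map_neg, map_ofNat, add_zero, hA]
      have hn : 3 * (s ^ 2 * φ x₁) ^ 2 + s ^ 4 * φ A₁ = s * (s ^ 3 * (3 * φ x₁ ^ 2 + φ A₁)) := by
        ring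
      have hd : s ^ 3 * φ y₁ - -(s ^ 3 * φ y₁) = s ^ 3 * (φ y₁ - -φ y₁) := by ring
      rw [hn, hd, mul_div_assoc, mul_div_mul_left _ _ hs3]
  · have hx' : s ^ 2 * φ x₁ ≠ s ^ 2 * φ x₂ := by
      intro h
      exact hx (φ.injective (mul_left_cancel₀ hs2 h))
    rw [slope_of_X_ne hx, slope_of_X_ne hx']
    have hd : φ x₁ - φ x₂ ≠ 0 := by
      intro h
      exact hx (φ.injective (sub_eq_zero.mp h))
    simp only [map_div₀, map_sub]
    field_simp

/-- The semilinear scaling homomorphism `(x, y) ↦ (s² φ x, s³ φ y)` from `y² = x³ + A₁ x + B₁`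
to `y² = x³ + A₂ x + B₂`, where `A₂ = s⁴ φ A₁` and `B₂ = s⁶ φ B₁`. -/
noncomputable def twMap (φ : F₁ →+* F₂) (s : F₂) (hs : s ≠ 0) {A₁ B₁ : F₁} {A₂ B₂ : F₂}
    (hA : A₂ = s ^ 4 * φ A₁) (hB : B₂ = s ^ 6 * φ B₁) :
    (short F₁ A₁ B₁).Point →+ (short F₂ A₂ B₂).Point where
  toFun P := match P with
    | .zero => 0
    | .some x y h => .some (s ^ 2 * φ x) (s ^ 3 * φ y) ((tw_nonsingular_iff φ hs hA hB x y).mpr h)
  map_zero' := rfl
  map_add' := by
    rintro (_ | ⟨x₁, y₁, h₁⟩) (_ | ⟨x₂, y₂, h₂⟩)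
    any_goals rfl
    have hs2 : s ^ 2 ≠ 0 := pow_ne_zero _ hs
    by_cases hxy : x₁ = x₂ ∧ y₁ = (short F₁ A₁ B₁).negY x₂ y₂
    · rw [Point.add_of_Y_eq hxy.left hxy.right]
      exact (Point.add_of_Y_eq (congr_arg (fun z => s ^ 2 * φ z) hxy.left)
        ((tw_negY φ hs A₁ B₁ A₂ B₂ x₂ y₁ y₂).mpr hxy.right)).symm
    · have hxy' : ¬(s ^ 2 * φ x₁ = s ^ 2 * φ x₂ ∧
          s ^ 3 * φ y₁ = (short F₂ A₂ B₂).negY (s ^ 2 * φ x₂) (s ^ 3 * φ y₂)) := by
        rintro ⟨h1, h2⟩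
        exact hxy ⟨φ.injective (mul_left_cancel₀ hs2 h1),
          (tw_negY φ hs A₁ B₁ A₂ B₂ x₂ y₁ y₂).mp h2⟩
      rw [Point.add_some hxy]
      refine Eq.trans ?_ (Point.add_some hxy').symm
      simp only [Point.some.injEq]
      rw [tw_slope φ hs B₁ B₂ hA, tw_addX φ s A₁ B₁ A₂ B₂, tw_addY φ s A₁ B₁ A₂ B₂]
      exact ⟨rfl, rfl⟩

@[simp]
lemma twMap_zero (φ : F₁ →+* F₂) (s : F₂) (hs : s ≠ 0) {A₁ B₁ : F₁} {A₂ B₂ : F₂}
    (hA : A₂ = s ^ 4 * φ A₁) (hB : B₂ = s ^ 6 * φ B₁) :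
    twMap φ s hs hA hB (Point.zero : (short F₁ A₁ B₁).Point) = 0 := rfl

lemma twMap_some (φ : F₁ →+* F₂) (s : F₂) (hs : s ≠ 0) {A₁ B₁ : F₁} {A₂ B₂ : F₂}
    (hA : A₂ = s ^ 4 * φ A₁) (hB : B₂ = s ^ 6 * φ B₁) {x y : F₁}
    (h : (short F₁ A₁ B₁).Nonsingular x y) :
    twMap φ s hs hA hB (Point.some x y h) =
      Point.some (s ^ 2 * φ x) (s ^ 3 * φ y) ((tw_nonsingular_iff φ hs hA hB x y).mpr h) := rfl

/-- Version of `twMap_some` with prescribed coordinates of the image. -/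
lemma twMap_some' (φ : F₁ →+* F₂) (s : F₂) (hs : s ≠ 0) {A₁ B₁ : F₁} {A₂ B₂ : F₂}
    (hA : A₂ = s ^ 4 * φ A₁) (hB : B₂ = s ^ 6 * φ B₁) {x y : F₁}
    (h : (short F₁ A₁ B₁).Nonsingular x y) {x' y' : F₂} (hx : x' = s ^ 2 * φ x)
    (hy : y' = s ^ 3 * φ y) (h' : (short F₂ A₂ B₂).Nonsingular x' y') :
    twMap φ s hs hA hB (Point.some x y h) = Point.some x' y' h' := by
  subst hx hy
  rfl

lemma twMap_injective (φ : F₁ →+* F₂) (s : F₂) (hs : s ≠ 0) {A₁ B₁ : F₁} {A₂ B₂ : F₂}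
    (hA : A₂ = s ^ 4 * φ A₁) (hB : B₂ = s ^ 6 * φ B₁) :
    Function.Injective (twMap φ s hs hA hB : (short F₁ A₁ B₁).Point → (short F₂ A₂ B₂).Point) := by
  have hs2 : s ^ 2 ≠ 0 := pow_ne_zero _ hs
  have hs3 : s ^ 3 ≠ 0 := pow_ne_zero _ hs
  rintro (_ | ⟨x₁, y₁, h₁⟩) (_ | ⟨x₂, y₂, h₂⟩) h
  · rfl
  · exact absurd h.symm (Point.some_ne_zero _)
  · exact absurd h (Point.some_ne_zero _)
  · rw [twMap_some, twMap_some, Point.some.injEq] at h
    rw [Point.some.injEq]
    exact ⟨φ.injective (mul_left_cancel₀ hs2 h.1), φ.injective (mul_left_cancel₀ hs3 h.2)⟩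

end tw

section frob

variable {K : Type*} [Field K]

/-- Nonsingularity is preserved by the `l`-th power map when the coefficients are fixed by it. -/
lemma frob_nonsingular (l : ℕ) [Fact l.Prime] [CharP K l] {A B : K} (hA : A ^ l = A)
    (hB : B ^ l = B) {x y : K} (h : (short K A B).Nonsingular x y) :
    (short K A B).Nonsingular (x ^ l) (y ^ l) := by
  have h' := (tw_nonsingular_iff (frobenius K l) (one_ne_zero (α := K)) (A₁ := A) (B₁ := B)
    (A₂ := A) (B₂ := B) (by simp [frobenius_def, hA]) (by simp [frobenius_def, hB]) x y).mpr h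
  simpa [frobenius_def] using h'

variable [DecidableEq K]

/-- The Frobenius endomorphism `(x, y) ↦ (x ^ l, y ^ l)` of the group of points of a short
Weierstrass curve whose coefficients are fixed by the `l`-th power map. -/
noncomputable def frobPt (l : ℕ) [Fact l.Prime] [CharP K l] {A B : K} (hA : A ^ l = A)
    (hB : B ^ l = B) : (short K A B).Point →+ (short K A B).Point :=
  twMap (frobenius K l) 1 one_ne_zero (by simp [frobenius_def, hA]) (by simp [frobenius_def, hB])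

@[simp]
lemma frobPt_zero (l : ℕ) [Fact l.Prime] [CharP K l] {A B : K} (hA : A ^ l = A)
    (hB : B ^ l = B) : frobPt l hA hB (Point.zero : (short K A B).Point) = 0 := rfl

lemma frobPt_some (l : ℕ) [Fact l.Prime] [CharP K l] {A B : K} (hA : A ^ l = A)
    (hB : B ^ l = B) {x y : K} (h : (short K A B).Nonsingular x y) :
    frobPt l hA hB (Point.some x y h) =
      Point.some (x ^ l) (y ^ l) (frob_nonsingular l hA hB h) :=
  twMap_some' _ _ _ _ _ h (by simp [frobenius_def]) (by simp [frobenius_def]) _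

lemma frobPt_frobPt_some (l : ℕ) [Fact l.Prime] [CharP K l] {A B : K} (hA : A ^ l = A)
    (hB : B ^ l = B) {x y : K} (h : (short K A B).Nonsingular x y)
    (h2 : (short K A B).Nonsingular (x ^ (l ^ 2)) (y ^ (l ^ 2))) :
    frobPt l hA hB (frobPt l hA hB (Point.some x y h)) = Point.some (x ^ (l ^ 2)) (y ^ (l ^ 2)) h2 := by
  rw [frobPt_some, frobPt_some, Point.some.injEq]
  constructor <;> ring

end frob

section transfer

variable {l : ℕ} [Fact l.Prime]

/-- The cubic `t³ + A t + B` as an element of `𝔽_l(t)`. -/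
noncomputable def fF (A B : ZMod l) : RatFunc (ZMod l) :=
  algebraMap (ZMod l)[X] (RatFunc (ZMod l)) (X ^ 3 + C A * X + C B)

/-- Evaluation of rational functions at an element `x` for which evaluation of polynomials is
injective. -/
noncomputable def evHom {K' : Type*} [Field K'] (ι₀ : ZMod l →+* K') (x : K')
    (hx : Function.Injective (Polynomial.eval₂RingHom ι₀ x)) : RatFunc (ZMod l) →+* K' :=
  IsFractionRing.lift (g := Polynomial.eval₂RingHom ι₀ x) hx

lemma evHom_algebraMap {K' : Type*} [Field K'] (ι₀ : ZMod l →+* K') (x : K')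
    (hx : Function.Injective (Polynomial.eval₂RingHom ι₀ x)) (p : (ZMod l)[X]) :
    evHom ι₀ x hx (algebraMap (ZMod l)[X] (RatFunc (ZMod l)) p) = p.eval₂ ι₀ x := by
  rw [evHom, IsFractionRing.lift_algebraMap]
  rfl

lemma evHom_X {K' : Type*} [Field K'] (ι₀ : ZMod l →+* K') (x : K')
    (hx : Function.Injective (Polynomial.eval₂RingHom ι₀ x)) :
    evHom ι₀ x hx RatFunc.X = x := by
  rw [← RatFunc.algebraMap_X, evHom_algebraMap, eval₂_X]

lemma evHom_C {K' : Type*} [Field K'] (ι₀ : ZMod l →+* K') (x : K')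
    (hx : Function.Injective (Polynomial.eval₂RingHom ι₀ x)) (c : ZMod l) :
    evHom ι₀ x hx (RatFunc.C c) = ι₀ c := by
  rw [← RatFunc.algebraMap_C, evHom_algebraMap, eval₂_C]

lemma evHom_fF {K' : Type*} [Field K'] (ι₀ : ZMod l →+* K') (x : K')
    (hx : Function.Injective (Polynomial.eval₂RingHom ι₀ x)) (A B : ZMod l) :
    evHom ι₀ x hx (fF A B) = x ^ 3 + ι₀ A * x + ι₀ B := by
  rw [fF, evHom_algebraMap]
  simp [eval₂_add, eval₂_mul, eval₂_pow]

lemma cubic_ne_zero (A B : ZMod l) : (X ^ 3 + C A * X + C B : (ZMod l)[X]) ≠ 0 := by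
  intro h
  have h3 := congrArg (fun p => p.coeff 3) h
  simp at h3

/-- The relation on the twisted curve, transported to a "generic" point. -/
lemma chi_generic {K' : Type*} [Field K'] [DecidableEq K'] (ι₀ : ZMod l →+* K')
    (A B : ZMod l) (a : ℤ) [DecidableEq (RatFunc (ZMod l))]
    {AF BF : RatFunc (ZMod l)} (hAF : AF = RatFunc.C A * fF A B ^ 2)
    (hBF : BF = RatFunc.C B * fF A B ^ 3)
    {xG yG xΦ yΦ xΨ yΨ : RatFunc (ZMod l)} {n₁ n₂ : ℕ} (hn₁ : 2 * n₁ = l + 3)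
    (hn₂ : 2 * n₂ = l ^ 2 + 3)
    (hxG : xG = RatFunc.X * fF A B) (hyG : yG = fF A B ^ 2)
    (hxΦ : xΦ = RatFunc.X ^ l * fF A B) (hyΦ : yΦ = fF A B ^ n₁)
    (hxΨ : xΨ = RatFunc.X ^ (l ^ 2) * fF A B) (hyΨ : yΨ = fF A B ^ n₂)
    (hG : (short _ AF BF).Nonsingular xG yG) (hΦ : (short _ AF BF).Nonsingular xΦ yΦ)
    (hΨ : (short _ AF BF).Nonsingular xΨ yΨ)
    (hrel : 2 • (Point.some xΨ yΨ hΨ - a • Point.some xΦ yΦ hΦ +
      (l : ℤ) • Point.some xG yG hG) = 0)
    {A' B' : K'} (hA' : A' = ι₀ A) (hB' : B' = ι₀ B)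
    {x y : K'} (hx : Function.Injective (Polynomial.eval₂RingHom ι₀ x))
    (h : (short K' A' B').Nonsingular x y)
    (h1 : (short K' A' B').Nonsingular (x ^ l) (y ^ l))
    (h2 : (short K' A' B').Nonsingular (x ^ (l ^ 2)) (y ^ (l ^ 2))) :
    2 • (Point.some _ _ h2 - a • Point.some _ _ h1 + (l : ℤ) • Point.some _ _ h) = 0 := by
  have hyx : y ^ 2 = x ^ 3 + ι₀ A * x + ι₀ B := by
    have := ((short_nonsingular_iff A' B' x y).mp h).1
    rw [this, hA', hB']
  have hf : evHom ι₀ x hx (fF A B) = y ^ 2 := by rw [evHom_fF, hyx]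
  have hy : y ≠ 0 := by
    intro h0
    have h1 : Polynomial.eval₂RingHom ι₀ x (X ^ 3 + C A * X + C B) = 0 := by
      have : Polynomial.eval₂RingHom ι₀ x (X ^ 3 + C A * X + C B) = x ^ 3 + ι₀ A * x + ι₀ B := by
        simp [eval₂_add, eval₂_mul, eval₂_pow]
      rw [this, ← hyx, h0]; simp
    exact cubic_ne_zero A B ((injective_iff_map_eq_zero _).mp hx _ h1)
  have hyi : y⁻¹ ≠ 0 := inv_ne_zero hy
  have hA2 : A' = y⁻¹ ^ 4 * evHom ι₀ x hx AF := by
    rw [hAF, map_mul, map_pow, hf, evHom_C, hA']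
    field_simp
  have hB2 : B' = y⁻¹ ^ 6 * evHom ι₀ x hx BF := by
    rw [hBF, map_mul, map_pow, hf, evHom_C, hB']
    field_simp
  have e0 : twMap (evHom ι₀ x hx) y⁻¹ hyi hA2 hB2 (Point.some xG yG hG) = Point.some x y h := by
    refine twMap_some' _ _ _ _ _ hG ?_ ?_ h
    · rw [hxG, map_mul, hf, evHom_X]
      field_simp
    · rw [hyG, map_pow, hf]
      field_simp
  have e1 : twMap (evHom ι₀ x hx) y⁻¹ hyi hA2 hB2 (Point.some xΦ yΦ hΦ) =
      Point.some (x ^ l) (y ^ l) h1 := by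
    refine twMap_some' _ _ _ _ _ hΦ ?_ ?_ h1
    · rw [hxΦ, map_mul, map_pow, hf, evHom_X]
      field_simp
    · rw [hyΦ, map_pow, hf, ← pow_mul, hn₁, pow_add]
      field_simp
  have e2 : twMap (evHom ι₀ x hx) y⁻¹ hyi hA2 hB2 (Point.some xΨ yΨ hΨ) =
      Point.some (x ^ (l ^ 2)) (y ^ (l ^ 2)) h2 := by
    refine twMap_some' _ _ _ _ _ hΨ ?_ ?_ h2
    · rw [hxΨ, map_mul, map_pow, hf, evHom_X]
      field_simp
    · rw [hyΨ, map_pow, hf, ← pow_mul, hn₂, pow_add]
      field_simp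
  have := congrArg (twMap (evHom ι₀ x hx) y⁻¹ hyi hA2 hB2) hrel
  rw [map_nsmul, map_add, map_sub, map_zsmul, map_zsmul, e0, e1, e2, map_zero] at this
  exact this

/-- Evaluation of polynomials over `ZMod l` at an element transcendental over `K` is
injective. -/
lemma eval₂_injective_of_transcendental {K K' : Type*} [Field K] [Field K'] [Algebra (ZMod l) K]
    [Algebra K K'] {x : K'} (hx : Transcendental K x) :
    Function.Injective
      (Polynomial.eval₂RingHom ((algebraMap K K').comp (algebraMap (ZMod l) K)) x) := by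
  rw [injective_iff_map_eq_zero]
  intro p hp
  have h1 : Polynomial.aeval x (p.map (algebraMap (ZMod l) K)) = 0 := by
    rw [Polynomial.aeval_def, Polynomial.eval₂_map]
    exact hp
  have h2 := (transcendental_iff.mp hx) _ h1
  exact (Polynomial.map_eq_zero_iff (algebraMap (ZMod l) K).injective).mp h2

/-- Core of the transfer: any extension `K'` of `K` containing a point of the curve with
transcendental `x`-coordinate will do. -/
lemma transfer_aux (hl2 : l ≠ 2) (A B : ZMod l) (a : ℤ) [DecidableEq (RatFunc (ZMod l))]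
    {AF BF : RatFunc (ZMod l)} (hAF : AF = RatFunc.C A * fF A B ^ 2)
    (hBF : BF = RatFunc.C B * fF A B ^ 3)
    {xG yG xΦ yΦ xΨ yΨ : RatFunc (ZMod l)} {n₁ n₂ : ℕ} (hn₁ : 2 * n₁ = l + 3)
    (hn₂ : 2 * n₂ = l ^ 2 + 3)
    (hxG : xG = RatFunc.X * fF A B) (hyG : yG = fF A B ^ 2)
    (hxΦ : xΦ = RatFunc.X ^ l * fF A B) (hyΦ : yΦ = fF A B ^ n₁)
    (hxΨ : xΨ = RatFunc.X ^ (l ^ 2) * fF A B) (hyΨ : yΨ = fF A B ^ n₂)
    (hG : (short _ AF BF).Nonsingular xG yG) (hΦ : (short _ AF BF).Nonsingular xΦ yΦ)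
    (hΨ : (short _ AF BF).Nonsingular xΨ yΨ)
    (hrel : 2 • (Point.some xΨ yΨ hΨ - a • Point.some xΦ yΦ hΦ +
      (l : ℤ) • Point.some xG yG hG) = 0)
    {K : Type*} [Field K] [DecidableEq K] [Algebra (ZMod l) K] {AK BK : K}
    (hAK : AK = algebraMap (ZMod l) K A) (hBK : BK = algebraMap (ZMod l) K B)
    {K' : Type*} [Field K'] [DecidableEq K'] [Algebra K K'] {x' y' : K'}
    (hx' : Transcendental K x')
    (hy' : y' ^ 2 = x' ^ 3 + algebraMap K K' AK * x' + algebraMap K K' BK)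
    {x y : K} (h : (short K AK BK).Nonsingular x y)
    (h1 : (short K AK BK).Nonsingular (x ^ l) (y ^ l))
    (h2 : (short K AK BK).Nonsingular (x ^ (l ^ 2)) (y ^ (l ^ 2))) :
    2 • (Point.some _ _ h2 - a • Point.some _ _ h1 + (l : ℤ) • Point.some _ _ h) = 0 := by
  classical
  -- notation
  set ι : K →+* K' := algebraMap K K' with hι
  set ι₀ : ZMod l →+* K' := ι.comp (algebraMap (ZMod l) K) with hι₀
  set A' : K' := ι AK with hA'
  set B' : K' := ι BK with hB'
  have hA'0 : A' = ι₀ A := by rw [hA', hAK]; rfl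
  have hB'0 : B' = ι₀ B := by rw [hB', hBK]; rfl
  have : CharP K' l := charP_of_injective_ringHom ι₀.injective l
  have hAl : A' ^ l = A' := by
    rw [hA'0, ← map_pow, ZMod.pow_card]
  have hBl : B' ^ l = B' := by
    rw [hB'0, ← map_pow, ZMod.pow_card]
  have h2ne : (2 : K') ≠ 0 := by
    intro h20
    have : ((2 : ℕ) : K') = 0 := by exact_mod_cast h20
    rw [CharP.cast_eq_zero_iff K' l] at this
    have hle := Nat.le_of_dvd (by norm_num) this
    have hge := (Fact.out : l.Prime).two_le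
    omega
  -- Frobenius and the endomorphism `χ` on `K'`-points
  set Fr := frobPt (K := K') l hAl hBl with hFr
  set χ : (short K' A' B').Point → (short K' A' B').Point :=
    fun P => 2 • (Fr (Fr P) - a • Fr P + (l : ℤ) • P) with hχ
  have hχadd : ∀ P Q, χ (P + Q) = χ P + χ Q := by
    intro P Q
    simp only [hχ, map_add, smul_add, smul_sub]
    abel
  -- `χ` kills generic points
  have hgen : ∀ (u v : K') (huv : (short K' A' B').Nonsingular u v), Transcendental K u →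
      χ (Point.some u v huv) = 0 := by
    intro u v huv hu
    have hinj := eval₂_injective_of_transcendental (l := l) hu
    have huv1 := frob_nonsingular l hAl hBl huv
    have huv2 : (short K' A' B').Nonsingular (u ^ (l ^ 2)) (v ^ (l ^ 2)) := by
      have := frob_nonsingular l hAl hBl huv1
      rwa [← pow_mul, ← pow_mul, ← sq] at this
    have := chi_generic ι₀ A B a hAF hBF hn₁ hn₂ hxG hyG hxΦ hyΦ hxΨ hyΨ hG hΦ hΨ hrel
      hA'0 hB'0 hinj huv huv1 huv2
    simp only [hχ]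
    rw [hFr, frobPt_frobPt_some l hAl hBl huv huv2, frobPt_some]
    exact this
  -- the subgroup of non-generic points
  set L := algebraicClosure K K' with hL
  set jL := twMap (algebraMap L K') 1 one_ne_zero
    (A₁ := algebraMap K L AK) (B₁ := algebraMap K L BK) (A₂ := A') (B₂ := B')
    (by rw [hA', hι]; simp [← IsScalarTower.algebraMap_apply])
    (by rw [hB', hι]; simp [← IsScalarTower.algebraMap_apply]) with hjL
  set incl := twMap ι 1 one_ne_zero (A₁ := AK) (B₁ := BK) (A₂ := A') (B₂ := B')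
    (by simp [hA']) (by simp [hB']) with hincl
  set inclL := twMap (algebraMap K L) 1 one_ne_zero (A₁ := AK) (B₁ := BK)
    (A₂ := algebraMap K L AK) (B₂ := algebraMap K L BK) (by simp) (by simp) with hinclL
  have hincl_mem : ∀ T, incl T ∈ jL.range := by
    intro T
    refine ⟨inclL T, ?_⟩
    rcases T with _ | ⟨u, v, huv⟩
    · rfl
    · rw [hinclL, hjL, hincl, twMap_some, twMap_some, twMap_some, Point.some.injEq]
      simp [hι, ← IsScalarTower.algebraMap_apply]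
  have hgen_not_mem : ∀ (u v : K') (huv : (short K' A' B').Nonsingular u v), Transcendental K u →
      Point.some u v huv ∉ jL.range := by
    rintro u v huv hu ⟨Q, hQ⟩
    rcases Q with _ | ⟨uL, vL, hQL⟩
    · exact Point.some_ne_zero _ hQ.symm
    · rw [hjL, twMap_some, Point.some.injEq] at hQ
      apply hu
      have : u = (uL : K') := by rw [← hQ.1]; simp
      rw [this]
      exact mem_algebraicClosure_iff.mp uL.2
  have hnot_mem_gen : ∀ P, P ∉ jL.range →
      ∃ (u v : K') (huv : (short K' A' B').Nonsingular u v), P = Point.some u v huv ∧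
        Transcendental K u := by
    intro P hP
    rcases P with _ | ⟨u, v, huv⟩
    · exact absurd (zero_mem _) hP
    · refine ⟨u, v, huv, rfl, ?_⟩
      intro hu
      apply hP
      have huL : u ∈ L := mem_algebraicClosure_iff.mpr hu
      have hveq := ((short_nonsingular_iff A' B' u v).mp huv).1
      have hvL : v ∈ L := by
        have hv2 : v ^ 2 ∈ L := by
          rw [hveq]
          refine add_mem (add_mem (pow_mem huL 3) (mul_mem ?_ huL)) ?_
          · exact L.algebraMap_mem AK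
          · exact L.algebraMap_mem BK
        rw [hL, mem_algebraicClosure_iff] at hv2 ⊢
        exact hv2.of_pow (by norm_num)
      have hns : (short L (algebraMap K L AK) (algebraMap K L BK)).Nonsingular ⟨u, huL⟩ ⟨v, hvL⟩ := by
        have := (tw_nonsingular_iff (algebraMap L K') (one_ne_zero (α := K'))
          (A₁ := algebraMap K L AK) (B₁ := algebraMap K L BK) (A₂ := A') (B₂ := B')
          (by rw [hA', hι]; simp [← IsScalarTower.algebraMap_apply])
          (by rw [hB', hι]; simp [← IsScalarTower.algebraMap_apply]) ⟨u, huL⟩ ⟨v, hvL⟩).mp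
        apply this
        simpa using huv
      refine ⟨Point.some _ _ hns, ?_⟩
      rw [hjL, twMap_some, Point.some.injEq]
      simp
  -- the generic point
  have hGns : (short K' A' B').Nonsingular x' y' := by
    rw [short_nonsingular_iff]
    refine ⟨hy', Or.inr ?_⟩
    have hy0 : y' ≠ 0 := by
      intro h0
      have hinj := eval₂_injective_of_transcendental (l := l) hx'
      have h1 : Polynomial.eval₂RingHom ι₀ x' (X ^ 3 + C A * X + C B) = 0 := by
        have : Polynomial.eval₂RingHom ι₀ x' (X ^ 3 + C A * X + C B) =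
            x' ^ 3 + ι₀ A * x' + ι₀ B := by
          simp [eval₂_add, eval₂_mul, eval₂_pow]
        rw [this, ← hA'0, ← hB'0, ← hy', h0]; simp
      exact cubic_ne_zero A B ((injective_iff_map_eq_zero _).mp hinj _ h1)
    intro h0
    have : (2 : K') * y' = 0 := by linear_combination h0
    rcases mul_eq_zero.mp this with h | h
    · exact h2ne h
    · exact hy0 h
  -- conclusion
  set T : (short K AK BK).Point := Point.some x y h with hT
  have hG' := hgen x' y' hGns hx'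
  have hsum_not_mem : Point.some x' y' hGns + incl T ∉ jL.range := by
    intro hmem
    apply hgen_not_mem x' y' hGns hx'
    have := sub_mem hmem (hincl_mem T)
    simpa using this
  obtain ⟨u, v, huv, hsum, hu⟩ := hnot_mem_gen _ hsum_not_mem
  have hsum0 : χ (Point.some x' y' hGns + incl T) = 0 := by
    rw [hsum]; exact hgen u v huv hu
  rw [hχadd, hG', zero_add] at hsum0
  -- `χ (incl T) = incl (…)`
  have hcomm1 : Fr (incl T) = incl (Point.some _ _ h1) := by
    rw [hT, hincl, twMap_some, twMap_some, hFr, frobPt_some, Point.some.injEq]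
    simp
  have hcomm2 : Fr (Fr (incl T)) = incl (Point.some _ _ h2) := by
    rw [hT, hincl, twMap_some, twMap_some, hFr]
    rw [frobPt_frobPt_some l hAl hBl _ (by
      have := (tw_nonsingular_iff ι (one_ne_zero (α := K')) (A₁ := AK) (B₁ := BK)
        (A₂ := A') (B₂ := B') (by simp [hA']) (by simp [hB']) (x ^ (l ^ 2)) (y ^ (l ^ 2))).mpr h2
      simpa using this), Point.some.injEq]
    simp
  have hfinal : incl (2 • (Point.some _ _ h2 - a • Point.some _ _ h1 +
      (l : ℤ) • Point.some _ _ h)) = incl 0 := by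
    rw [map_nsmul, map_add, map_sub, map_zsmul, map_zsmul, map_zero, ← hcomm1, ← hcomm2]
    exact hsum0
  exact twMap_injective _ _ _ _ _ hfinal

/-- **Transfer (Manin's (M5)), pointwise form.**  If the three explicit points
`G₀ = (t f, f²)`, `Φ = (t^l f, f^((l+3)/2))`, `Φ₂ = (t^(l²) f, f^((l²+3)/2))` of the twisted
curve `Y² = X³ + A f² X + B f³` over `𝔽_l(t)` (`f = t³ + A t + B`) satisfy
`2 • (Φ₂ - a • Φ + l • G₀) = 0`, then for every field `K` of characteristic `l` and every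
point `(x, y)` of `y² = x³ + A x + B` over `K`,
`2 • ((x^(l²), y^(l²)) - a • (x^l, y^l) + l • (x, y)) = 0`. -/
theorem transfer_pointwise (hl2 : l ≠ 2) (A B : ZMod l) (a : ℤ) [DecidableEq (RatFunc (ZMod l))]
    {AF BF : RatFunc (ZMod l)} (hAF : AF = RatFunc.C A * fF A B ^ 2)
    (hBF : BF = RatFunc.C B * fF A B ^ 3)
    {xG yG xΦ yΦ xΨ yΨ : RatFunc (ZMod l)} {n₁ n₂ : ℕ} (hn₁ : 2 * n₁ = l + 3)
    (hn₂ : 2 * n₂ = l ^ 2 + 3)
    (hxG : xG = RatFunc.X * fF A B) (hyG : yG = fF A B ^ 2)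
    (hxΦ : xΦ = RatFunc.X ^ l * fF A B) (hyΦ : yΦ = fF A B ^ n₁)
    (hxΨ : xΨ = RatFunc.X ^ (l ^ 2) * fF A B) (hyΨ : yΨ = fF A B ^ n₂)
    (hG : (short _ AF BF).Nonsingular xG yG) (hΦ : (short _ AF BF).Nonsingular xΦ yΦ)
    (hΨ : (short _ AF BF).Nonsingular xΨ yΨ)
    (hrel : 2 • (Point.some xΨ yΨ hΨ - a • Point.some xΦ yΦ hΦ +
      (l : ℤ) • Point.some xG yG hG) = 0)
    {K : Type*} [Field K] [DecidableEq K] [Algebra (ZMod l) K] {AK BK : K}
    (hAK : AK = algebraMap (ZMod l) K A) (hBK : BK = algebraMap (ZMod l) K B)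
    {x y : K} (h : (short K AK BK).Nonsingular x y)
    (h1 : (short K AK BK).Nonsingular (x ^ l) (y ^ l))
    (h2 : (short K AK BK).Nonsingular (x ^ (l ^ 2)) (y ^ (l ^ 2))) :
    2 • (Point.some _ _ h2 - a • Point.some _ _ h1 + (l : ℤ) • Point.some _ _ h) = 0 := by
  classical
  have hx' : Transcendental K
      (algebraMap (RatFunc K) (AlgebraicClosure (RatFunc K)) RatFunc.X) :=
    (transcendental_algebraMap_iff
      (algebraMap (RatFunc K) (AlgebraicClosure (RatFunc K))).injective).mpr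
      RatFunc.transcendental_X
  obtain ⟨y', hy'⟩ := IsAlgClosed.exists_pow_nat_eq
    ((algebraMap (RatFunc K) (AlgebraicClosure (RatFunc K)) RatFunc.X) ^ 3 +
      algebraMap K (AlgebraicClosure (RatFunc K)) AK *
        (algebraMap (RatFunc K) (AlgebraicClosure (RatFunc K)) RatFunc.X) +
      algebraMap K (AlgebraicClosure (RatFunc K)) BK) (n := 2) (by norm_num)
  exact transfer_aux hl2 A B a hAF hBF hn₁ hn₂ hxG hyG hxΦ hyΦ hxΨ hyΨ hG hΦ hΨ hrel hAK hBK
    hx' hy' h h1 h2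

/-- Elements in the image of `ZMod l` are fixed by the `l`-th power map. -/
lemma algebraMap_zmod_pow {K : Type*} [Field K] [Algebra (ZMod l) K] (c : ZMod l) :
    algebraMap (ZMod l) K c ^ l = algebraMap (ZMod l) K c := by
  rw [← map_pow, ZMod.pow_card]

/-- **Transfer (Manin's (M5)), homomorphism form**: `2 • (Fr² - a • Fr + l) = 0` on the points
of `y² = x³ + A x + B` over any field `K` of characteristic `l`. -/
theorem transfer (hl2 : l ≠ 2) (A B : ZMod l) (a : ℤ) [DecidableEq (RatFunc (ZMod l))]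
    {AF BF : RatFunc (ZMod l)} (hAF : AF = RatFunc.C A * fF A B ^ 2)
    (hBF : BF = RatFunc.C B * fF A B ^ 3)
    {xG yG xΦ yΦ xΨ yΨ : RatFunc (ZMod l)} {n₁ n₂ : ℕ} (hn₁ : 2 * n₁ = l + 3)
    (hn₂ : 2 * n₂ = l ^ 2 + 3)
    (hxG : xG = RatFunc.X * fF A B) (hyG : yG = fF A B ^ 2)
    (hxΦ : xΦ = RatFunc.X ^ l * fF A B) (hyΦ : yΦ = fF A B ^ n₁)
    (hxΨ : xΨ = RatFunc.X ^ (l ^ 2) * fF A B) (hyΨ : yΨ = fF A B ^ n₂)
    (hG : (short _ AF BF).Nonsingular xG yG) (hΦ : (short _ AF BF).Nonsingular xΦ yΦ)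
    (hΨ : (short _ AF BF).Nonsingular xΨ yΨ)
    (hrel : 2 • (Point.some xΨ yΨ hΨ - a • Point.some xΦ yΦ hΦ +
      (l : ℤ) • Point.some xG yG hG) = 0)
    {K : Type*} [Field K] [DecidableEq K] [Algebra (ZMod l) K] [CharP K l] {AK BK : K}
    (hAK : AK = algebraMap (ZMod l) K A) (hBK : BK = algebraMap (ZMod l) K B)
    (hAl : AK ^ l = AK) (hBl : BK ^ l = BK) (P : (short K AK BK).Point) :
    2 • (frobPt l hAl hBl (frobPt l hAl hBl P) - a • frobPt l hAl hBl P + (l : ℤ) • P) = 0 := by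
  rcases P with _ | ⟨x, y, h⟩
  · change 2 • (frobPt l hAl hBl (frobPt l hAl hBl 0) - a • frobPt l hAl hBl 0 +
      (l : ℤ) • (0 : (short K AK BK).Point)) = 0
    simp
  · have h1 := frob_nonsingular l hAl hBl h
    have h2 : (short K AK BK).Nonsingular (x ^ (l ^ 2)) (y ^ (l ^ 2)) := by
      have := frob_nonsingular l hAl hBl h1
      rwa [← pow_mul, ← pow_mul, ← sq] at this
    rw [frobPt_frobPt_some l hAl hBl h h2, frobPt_some]
    exact transfer_pointwise hl2 A B a hAF hBF hn₁ hn₂ hxG hyG hxΦ hyΦ hxΨ hyΨ hG hΦ hΨ hrel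
      hAK hBK h h1 h2

end transfer

end Fermat.Agent.S52.H50

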