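import Mathlib
import Fermat.Agent.S52.FrobChar_helper82
import Fermat.Agent.S52.Transfer_helper50

/-!
# S52, E-block: the relation on the twist and FROBCHAR in `Transfer_helper50`'s vocabulary

* `twist_relation` : the E5 output `2 • (Φ₂ - a • Φ + l • G₀) = 0` on the twisted curve over
  `F_l(t)`, with `a = l + 1 - #E(F_l)` (this is the `hrel` of `H50.transfer` and the `hchar` of
  `H82.frobChar_of_twist`), for arbitrary nonsingularity proofs.
* `frobChar_H50` : FROBCHAR for `H50.short` / `H50.frobPt`, i.e. literally the hypotheses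
  `hc₀`, `hc₁` of `H44.modFive_glue`.
-/

set_option autoImplicit false

open WeierstrassCurve WeierstrassCurve.Affine Polynomial

namespace Fermat.Agent.S52.H82

/-- The E5 output: `2 • (Φ₂ - a • Φ + l • G₀) = 0` on the twist, `a = l + 1 - #E(F_l)`. -/
theorem twist_relation (l : ℕ) [Fact l.Prime] (hl2 : l ≠ 2) (A B : ZMod l)
    (hdisc : 4 * A ^ 3 + 27 * B ^ 2 ≠ 0) [DecidableEq (RatFunc (ZMod l))]
    (hG : (H28.twist A B).toAffine.Nonsingular (RatFunc.X * H28.fF A B) (H28.fF A B ^ 2))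
    (hΦ : (H28.twist A B).toAffine.Nonsingular (RatFunc.X ^ l * H28.fF A B)
      (H28.fF A B ^ ((l + 3) / 2)))
    (hΦ2 : (H28.twist A B).toAffine.Nonsingular (RatFunc.X ^ (l ^ 2) * H28.fF A B)
      (H28.fF A B ^ ((l ^ 2 + 3) / 2))) :
    (2 : ℕ) • (Point.some _ _ hΦ2 -
      ((l : ℤ) + 1 - (Nat.card (sh A B).toAffine.Point : ℤ)) • Point.some _ _ hΦ +
      (l : ℤ) • Point.some _ _ hG) = 0 :=
  H76.two_nsmul_eq_zero_of_degree (H28.dPt A B) (Point.some _ _ hG)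
    (Point.some _ _ hΦ) (Point.some _ _ hΦ2) l _
    (H28.dPt_add_G0_add_dPt_sub_G0 (two_ne_zero_zmod l hl2) hdisc hG)
    H28.two_nsmul_eq_zero_of_dPt_eq_zero (H17.dPt_Phi l A B hΦ)
    (H17.dPt_Phi_sub_G0_int l A B hl2 hdisc hG hΦ)
    (fun m n hm hn => H79.hcomp_H28 hl2 A B hG hΦ hΦ2 m n hm hn)

/-- **FROBCHAR in `H50` vocabulary** (`H50.short`, `H50.frobPt`): literally `hc₀` / `hc₁` of
`H44.modFive_glue`, with `a = l + 1 - #E(F_l)`. -/
theorem frobChar_H50 (l : ℕ) [Fact l.Prime] (hl2 : l ≠ 2) (A B : ZMod l)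
    (hdisc : 4 * A ^ 3 + 27 * B ^ 2 ≠ 0)
    {K : Type*} [Field K] [DecidableEq K] [Algebra (ZMod l) K] [CharP K l] {AK BK : K}
    (hAK : AK = algebraMap (ZMod l) K A) (hBK : BK = algebraMap (ZMod l) K B)
    (hAl : AK ^ l = AK) (hBl : BK ^ l = BK) (P : (H50.short K AK BK).Point) :
    2 • (H50.frobPt l hAl hBl (H50.frobPt l hAl hBl P) -
      ((l : ℤ) + 1 - (Nat.card (H50.short (ZMod l) A B).Point : ℤ)) • H50.frobPt l hAl hBl P +
      (l : ℤ) • P) = 0 := by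
  classical
  have hlodd := (Fact.out : l.Prime).odd_of_ne_two hl2
  obtain ⟨k, hk⟩ := hlodd
  have hn₁ : 2 * ((l + 3) / 2) = l + 3 := by omega
  have hn₂ : 2 * ((l ^ 2 + 3) / 2) = l ^ 2 + 3 := by
    have : l ^ 2 + 3 = 2 * (2 * k ^ 2 + 2 * k + 2) := by rw [hk]; ring
    omega
  have hG := H28.nonsingular_G0 (two_ne_zero_zmod l hl2) A B
  have hΦ := H17.nonsingular_Phi_twist l A B hl2
  have hΦ2 := H17.nonsingular_Phi2_twist l A B hl2
  exact H50.transfer hl2 A B _ (AF := RatFunc.C A * H50.fF A B ^ 2)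
    (BF := RatFunc.C B * H50.fF A B ^ 3) rfl rfl hn₁ hn₂ rfl rfl rfl rfl rfl rfl hG hΦ hΦ2
    (twist_relation l hl2 A B hdisc hG hΦ hΦ2) hAK hBK hAl hBl P

end Fermat.Agent.S52.H82
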