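import Mathlib
import Fermat.Agent.S52.PolyFam_helper14
import Fermat.Agent.S52.FrobPerm_helper44
import Fermat.Agent.S52.ModFive_helper47
import Fermat.Agent.S52.Transfer_helper82
import Fermat.Agent.S52.FrobChar_helper82

/-!
# S52, node F4 (ModFive), family form

Glue of F2 (`H14.SecSys`), F3 (`H44.frobenius_perm_eval`) and the abstract F4 core
(`H47.secSys_dvd_sub_of_frob`), in the vocabulary of the E-block (`H82.sh`, `H82.frobPt`):

for a polynomial family `y² = x³ + A(s) x + B(s)` with Frobenius-fixed coefficients over a perfect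
infinite field `K` of characteristic `l`, a polynomial section system enumerating the nonzero
`n`-torsion (`n` an odd prime) on the good set `g(s) ≠ 0`, and two Frobenius-fixed good parameters
`s₀ s₁` at which `2 • (Fr² - a Fr + l) = 0` holds with `a = a₀`, resp. `a = a₁`:  `n ∣ a₀ - a₁`.
-/

set_option autoImplicit false
set_option linter.unusedSectionVars false

open Polynomial WeierstrassCurve WeierstrassCurve.Affine

namespace Fermat.Agent.S52.H47

/-- The subgroup of elements killed by `n`. -/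
def torsSub (n : ℕ) (G : Type*) [AddCommGroup G] : AddSubgroup G where
  carrier := {P | n • P = 0}
  zero_mem' := nsmul_zero n
  add_mem' := by
    intro a b ha hb
    show n • (a + b) = 0
    rw [nsmul_add, show n • a = 0 from ha, show n • b = 0 from hb, add_zero]
  neg_mem' := by
    intro a ha
    show n • (-a) = 0
    rw [smul_neg, show n • a = 0 from ha, neg_zero]

lemma mem_torsSub {n : ℕ} {G : Type*} [AddCommGroup G] {P : G} :
    P ∈ torsSub n G ↔ n • P = 0 := Iff.rfl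

section Family

variable (l : ℕ) [Fact l.Prime] {K : Type*} [Field K] [DecidableEq K] [CharP K l] [Infinite K]

/-- A polynomial section system in the sense of `H44.IsSysAt` (node F3), injective on labels, is
a section system in the sense of `H14.SecSys` (node F2) for the `n`-torsion subgroups. -/
theorem secSys_of_isSysAt (A B : K[X]) (n : ℕ) {ι : Type*} (X Y : ι → K[X]) (g : K[X])
    (hsys : ∀ s, g.eval s ≠ 0 → H44.IsSysAt A B n X Y s)
    (hinj : ∀ s, g.eval s ≠ 0 → ∀ i j, (X i).eval s = (X j).eval s →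
      (Y i).eval s = (Y j).eval s → i = j) :
    H14.SecSys (fun s => H82.sh (A.eval s) (B.eval s)) (fun s => A.eval s)
      {s | g.eval s ≠ 0}
      (fun s => torsSub n (H82.sh (A.eval s) (B.eval s)).toAffine.Point)
      (fun i s => (X i).eval s) (fun i s => (Y i).eval s) where
  a1 := fun _ => rfl
  a2 := fun _ => rfl
  a3 := fun _ => rfl
  a4 := fun _ => rfl
  polyA := H14.IsPolyFun.eval A
  polyX := fun i => H14.IsPolyFun.eval (X i)
  polyY := fun i => H14.IsPolyFun.eval (Y i)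
  ns := fun s hs i => (hsys s hs).choose i
  inj := fun s hs => hinj s hs
  mem := by
    intro s hs P
    have hiff := (hsys s hs).choose_spec P
    constructor
    · intro hP
      by_cases h0 : P = 0
      · exact Or.inl h0
      · exact Or.inr (hiff.mp ⟨h0, hP⟩)
    · rintro (h0 | hi)
      · rw [h0]; exact (torsSub n _).zero_mem
      · exact (hiff.mpr hi).2

/-- **(F4, family form)**  `n ∣ a₀ - a₁` for two Frobenius-fixed good parameters of a polynomial
family with a polynomial section system for the `n`-torsion (`n` an odd prime), where `a₀`, `a₁`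
are such that `2 • (Fr² - a Fr + l) = 0` on the two fibres. -/
theorem dvd_sub_of_family (hperf : Function.Surjective (frobenius K l)) (h2 : (2 : K) ≠ 0)
    {n : ℕ} (hn : n.Prime) (hn2 : n ≠ 2) (A B : K[X])
    (hA : A.map (frobenius K l) = A) (hB : B.map (frobenius K l) = B)
    {ι : Type*} [Finite ι] [Nonempty ι] (X Y : ι → K[X]) (g : K[X]) (hg : g ≠ 0)
    (hsys : ∀ s, g.eval s ≠ 0 → H44.IsSysAt A B n X Y s)
    (hinj : ∀ s, g.eval s ≠ 0 → ∀ i j, (X i).eval s = (X j).eval s →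
      (Y i).eval s = (Y j).eval s → i = j)
    (s₀ s₁ : K) (hs₀ : s₀ ^ l = s₀) (hs₁ : s₁ ^ l = s₁)
    (hg₀ : g.eval s₀ ≠ 0) (hg₁ : g.eval s₁ ≠ 0) (a₀ a₁ : ℤ)
    (hc₀ : ∀ (ha : A.eval s₀ ^ l = A.eval s₀) (hb : B.eval s₀ ^ l = B.eval s₀)
      (P : (H82.sh (A.eval s₀) (B.eval s₀)).toAffine.Point),
      (2 : ℕ) • (H82.frobPt l ha hb (H82.frobPt l ha hb P) - a₀ • H82.frobPt l ha hb P
        + (l : ℤ) • P) = 0)
    (hc₁ : ∀ (ha : A.eval s₁ ^ l = A.eval s₁) (hb : B.eval s₁ ^ l = B.eval s₁)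
      (P : (H82.sh (A.eval s₁) (B.eval s₁)).toAffine.Point),
      (2 : ℕ) • (H82.frobPt l ha hb (H82.frobPt l ha hb P) - a₁ • H82.frobPt l ha hb P
        + (l : ℤ) • P) = 0) :
    (n : ℤ) ∣ a₀ - a₁ := by
  have h := secSys_of_isSysAt A B n X Y g hsys hinj
  have hS : {s : K | g.eval s ≠ 0}.Infinite := by
    have hfin : {s : K | g.IsRoot s}.Finite := Polynomial.finite_setOfPred_isRoot hg
    have h1 := Set.Infinite.sdiff (Set.infinite_univ (α := K)) hfin
    refine h1.mono ?_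
    intro s hs
    exact hs.2
  obtain ⟨π, hπ⟩ := H44.frobenius_perm_eval l hperf A B hA hB n X Y g hg hsys
  have ha₀ := H44.eval_pow_of_fixed l A hA hs₀
  have hb₀ := H44.eval_pow_of_fixed l B hB hs₀
  have ha₁ := H44.eval_pow_of_fixed l A hA hs₁
  have hb₁ := H44.eval_pow_of_fixed l B hB hs₁
  have hms₀ : s₀ ∈ {s : K | g.eval s ≠ 0} := hg₀
  have hms₁ : s₁ ∈ {s : K | g.eval s ≠ 0} := hg₁
  -- Frobenius acts on the labels by `π`
  have hF : ∀ (s : K) (hs : s ∈ {s : K | g.eval s ≠ 0}) (hsl : s ^ l = s)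
      (ha : A.eval s ^ l = A.eval s) (hb : B.eval s ^ l = B.eval s) (i : ι),
      H82.frobPt l ha hb (h.pt hs i) = h.pt hs (π i) := by
    intro s hs hsl ha hb i
    obtain ⟨h', e⟩ := H82.frobPt_some l ha hb (h.ns s hs i)
    have e' : H82.frobPt l ha hb (h.pt hs i) = Point.some _ _ h' := e
    rw [e']
    show Point.some _ _ h' = Point.some _ _ (h.ns s hs (π i))
    rw [Point.some.injEq]
    exact hπ i s hsl
  refine secSys_dvd_sub_of_frob h hS h2 hn hn2 hms₀ hms₁ (fun P hP => hP) (fun P hP => hP)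
    (H82.frobPt l ha₀ hb₀) (H82.frobPt l ha₁ hb₁) π (hF s₀ hms₀ hs₀ ha₀ hb₀)
    (hF s₁ hms₁ hs₁ ha₁ hb₁) a₀ a₁ (l : ℤ) (fun i => hc₀ ha₀ hb₀ _) (fun i => hc₁ ha₁ hb₁ _)

/-- Polynomials coming from `(ZMod l)[X]` through a ring hom are fixed by the coefficientwise
Frobenius. -/
lemma map_frobenius_map_ringHom (j0 : ZMod l →+* K) (A₀ : (ZMod l)[X]) :
    (A₀.map j0).map (frobenius K l) = A₀.map j0 := by
  rw [Polynomial.map_map]
  congr 1
  ext c
  simp only [RingHom.comp_apply, frobenius_def, ← map_pow, ZMod.pow_card]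

/-- **(F4, family form over `ZMod l`, with FROBCHAR plugged in)**  Let
`E_t : y² = x³ + A₀(t) x + B₀(t)` be a polynomial family over `ZMod l` (`l ≠ 2`), `K` a perfect
infinite field of characteristic `l` (e.g. an algebraic closure of `ZMod l`), and `(X, Y)` a
polynomial section system over `K` enumerating injectively the nonzero `n`-torsion points of the
fibres over the good set `g(s) ≠ 0` (`n` an odd prime).  Then for any two good parameters
`t₀ t₁ : ZMod l` with nonsingular fibres, `n ∣ #E_{t₁}(ZMod l) - #E_{t₀}(ZMod l)`. -/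
theorem dvd_card_sub_card_of_family (hl2 : l ≠ 2) (hperf : Function.Surjective (frobenius K l))
    (h2 : (2 : K) ≠ 0) {n : ℕ} (hn : n.Prime) (hn2 : n ≠ 2) (j0 : ZMod l →+* K)
    (A₀ B₀ : (ZMod l)[X]) {ι : Type*} [Finite ι] [Nonempty ι] (X Y : ι → K[X]) (g : K[X])
    (hg : g ≠ 0)
    (hsys : ∀ s, g.eval s ≠ 0 → H44.IsSysAt (A₀.map j0) (B₀.map j0) n X Y s)
    (hinj : ∀ s, g.eval s ≠ 0 → ∀ i j, (X i).eval s = (X j).eval s →
      (Y i).eval s = (Y j).eval s → i = j)
    (t₀ t₁ : ZMod l) (hg₀ : g.eval (j0 t₀) ≠ 0) (hg₁ : g.eval (j0 t₁) ≠ 0)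
    (hd₀ : 4 * A₀.eval t₀ ^ 3 + 27 * B₀.eval t₀ ^ 2 ≠ 0)
    (hd₁ : 4 * A₀.eval t₁ ^ 3 + 27 * B₀.eval t₁ ^ 2 ≠ 0) :
    (n : ℤ) ∣ (Nat.card (H82.sh (A₀.eval t₁) (B₀.eval t₁)).toAffine.Point : ℤ)
      - (Nat.card (H82.sh (A₀.eval t₀) (B₀.eval t₀)).toAffine.Point : ℤ) := by
  have key := dvd_sub_of_family l hperf h2 hn hn2 (A₀.map j0) (B₀.map j0)
    (map_frobenius_map_ringHom l j0 A₀) (map_frobenius_map_ringHom l j0 B₀) X Y g hg hsys hinj
    (j0 t₀) (j0 t₁) (H82.ringHom_zmod_pow j0 t₀) (H82.ringHom_zmod_pow j0 t₁) hg₀ hg₁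
    ((l : ℤ) + 1 - (Nat.card (H82.sh (A₀.eval t₀) (B₀.eval t₀)).toAffine.Point : ℤ))
    ((l : ℤ) + 1 - (Nat.card (H82.sh (A₀.eval t₁) (B₀.eval t₁)).toAffine.Point : ℤ))
    (fun ha hb P => H82.frobChar l hl2 (A₀.eval t₀) (B₀.eval t₀) hd₀ j0
      (Polynomial.eval_map_apply j0 t₀) (Polynomial.eval_map_apply j0 t₀) ha hb P)
    (fun ha hb P => H82.frobChar l hl2 (A₀.eval t₁) (B₀.eval t₁) hd₁ j0
      (Polynomial.eval_map_apply j0 t₁) (Polynomial.eval_map_apply j0 t₁) ha hb P)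
  have e : ((l : ℤ) + 1 - (Nat.card (H82.sh (A₀.eval t₀) (B₀.eval t₀)).toAffine.Point : ℤ))
      - ((l : ℤ) + 1 - (Nat.card (H82.sh (A₀.eval t₁) (B₀.eval t₁)).toAffine.Point : ℤ))
      = (Nat.card (H82.sh (A₀.eval t₁) (B₀.eval t₁)).toAffine.Point : ℤ)
        - (Nat.card (H82.sh (A₀.eval t₀) (B₀.eval t₀)).toAffine.Point : ℤ) := by ring
  rwa [e] at key

end Family

end Fermat.Agent.S52.H47
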