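import Mathlib

/-!
# S52, node (HIT), analytic half: approximants and interpolation

Mathlib only.  For real polynomials `α`, `β` in `ε` consider the quartic
`q(x, ε) = x ^ 4 - 6 α(ε) x ^ 2 - 8 β(ε) x - 3 α(ε) ^ 2`.  If `α(0) ^ 3 ≠ β(0) ^ 2` (so that
`q(·, 0)` has simple roots) and if for every `k ≥ 1` the number `X_k / n ^ 10`, `n = 1 + M k`,
is a root of `q(·, M / n)` for some integer `X_k`, then `q` has a polynomial root `P(ε)` of
degree at most `10`.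
-/

namespace Fermat.Agent.S52.H05

open Polynomial

/-- The quartic as a function of `x` and `ε`. -/
noncomputable def qv (α β : ℝ[X]) (x ε : ℝ) : ℝ :=
  x ^ 4 - 6 * α.eval ε * x ^ 2 - 8 * β.eval ε * x - 3 * α.eval ε ^ 2

/-- The quartic on polynomials in `ε`. -/
noncomputable def QP (α β P : ℝ[X]) : ℝ[X] :=
  P ^ 4 - 6 * α * P ^ 2 - 8 * β * P - 3 * α ^ 2

theorem eval_QP (α β P : ℝ[X]) (ε : ℝ) : (QP α β P).eval ε = qv α β (P.eval ε) ε := by
  simp [QP, qv]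

/-- The derivative of `q(·, 0)` at a root, in closed form. -/
noncomputable def dq0 (α β : ℝ[X]) (ρ : ℝ) : ℝ := 4 * ρ ^ 3 - 12 * α.eval 0 * ρ - 8 * β.eval 0

theorem dq0_ne_zero (α β : ℝ[X]) (hsep : α.eval 0 ^ 3 ≠ β.eval 0 ^ 2) (ρ : ℝ)
    (hρ : qv α β ρ 0 = 0) : dq0 α β ρ ≠ 0 := by
  intro h
  apply hsep
  have key : (4 * ρ ^ 2 - 16 * α.eval 0) * qv α β ρ 0
      + (6 * β.eval 0 + 7 * α.eval 0 * ρ - ρ ^ 3) * dq0 α β ρ
      = 48 * (α.eval 0 ^ 3 - β.eval 0 ^ 2) := by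
    simp only [qv, dq0]
    ring
  rw [hρ, h] at key
  linarith

/-! ### Approximants -/

theorem exists_approximant (α β : ℝ[X]) (ρ : ℝ) (hρ : qv α β ρ 0 = 0) (hd : dq0 α β ρ ≠ 0) :
    ∀ m : ℕ, ∃ P : ℝ[X], P.natDegree ≤ m ∧ P.eval 0 = ρ ∧ X ^ (m + 1) ∣ QP α β P := by
  intro m
  induction m with
  | zero =>
    refine ⟨C ρ, by simp, by simp, ?_⟩
    rw [zero_add, pow_one, X_dvd_iff, coeff_zero_eq_eval_zero, eval_QP]
    simpa using hρ
  | succ m ih =>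
    obtain ⟨P, hdeg, h0, h, hh⟩ := ih
    set c : ℝ := -(h.eval 0) / dq0 α β ρ with hc
    set P' : ℝ[X] := P + C c * X ^ (m + 1) with hP'
    have h0' : P'.eval 0 = ρ := by
      simp [hP', h0]
    refine ⟨P', ?_, h0', ?_⟩
    · refine natDegree_add_le_of_degree_le (hdeg.trans (Nat.le_succ m)) ?_
      exact natDegree_C_mul_X_pow_le c (m + 1)
    · have hG : QP α β P' = X ^ (m + 1) * (h + C c *
          (P' ^ 3 + P' ^ 2 * P + P' * P ^ 2 + P ^ 3 - 6 * α * (P' + P) - 8 * β)) := by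
        have e1 : QP α β P' = QP α β P + (P' - P) *
            (P' ^ 3 + P' ^ 2 * P + P' * P ^ 2 + P ^ 3 - 6 * α * (P' + P) - 8 * β) := by
          simp only [QP]
          ring
        rw [e1, hh]
        have e2 : P' - P = C c * X ^ (m + 1) := by
          simp [hP']
        rw [e2]
        ring
      rw [hG, pow_succ X (m + 1)]
      refine mul_dvd_mul_left _ ?_
      rw [X_dvd_iff, coeff_zero_eq_eval_zero]
      simp only [eval_add, eval_mul, eval_C, eval_sub, eval_pow, eval_ofNat, h0', h0]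
      have hcd : c * dq0 α β ρ = -(h.eval 0) := by
        rw [hc]
        field_simp
      simp only [dq0] at hcd
      linear_combination hcd

/-! ### Roots near a simple root are close to the approximant -/

/-- The divided difference of the quartic in `x`. -/
noncomputable def Gv (α β : ℝ[X]) (x y ε : ℝ) : ℝ :=
  x ^ 3 + x ^ 2 * y + x * y ^ 2 + y ^ 3 - 6 * α.eval ε * (x + y) - 8 * β.eval ε

theorem qv_sub (α β : ℝ[X]) (x y ε : ℝ) :
    qv α β x ε - qv α β y ε = (x - y) * Gv α β x y ε := by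
  simp only [qv, Gv]
  ring

theorem continuous_qv (α β : ℝ[X]) : Continuous (fun p : ℝ × ℝ => qv α β p.1 p.2) := by
  unfold qv
  fun_prop

theorem approx_near (α β : ℝ[X]) (ρ : ℝ) (hd : dq0 α β ρ ≠ 0) (P : ℝ[X]) (hP0 : P.eval 0 = ρ)
    (m : ℕ) (hdiv : X ^ m ∣ QP α β P) :
    ∃ δ : ℝ, 0 < δ ∧ ∃ C : ℝ, ∀ ε x : ℝ, |ε| < δ → |x - ρ| < δ → qv α β x ε = 0 →
      |x - P.eval ε| ≤ C * |ε| ^ m := by
  obtain ⟨h, hh⟩ := hdiv
  have hcont : Continuous (fun p : ℝ × ℝ => Gv α β p.1 (P.eval p.2) p.2) := by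
    unfold Gv
    fun_prop
  have hg0 : Gv α β ρ (P.eval 0) 0 = dq0 α β ρ := by
    rw [hP0]
    simp only [Gv, dq0]
    ring
  have hdpos : 0 < |dq0 α β ρ| := abs_pos.mpr hd
  obtain ⟨δ1, hδ1, hδ1'⟩ := Metric.continuousAt_iff.mp (hcont.continuousAt (x := (ρ, (0 : ℝ))))
    (|dq0 α β ρ| / 2) (by positivity)
  obtain ⟨B, hB⟩ := (isCompact_Icc (a := (-1 : ℝ)) (b := 1)).exists_bound_of_continuousOn
    (f := fun ε => h.eval ε) h.continuous.continuousOn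
  refine ⟨min δ1 1, lt_min hδ1 one_pos, 2 * B / |dq0 α β ρ|, ?_⟩
  intro ε x hε hx hroot
  have hε1 : |ε| < 1 := lt_of_lt_of_le hε (min_le_right _ _)
  have hεδ : |ε| < δ1 := lt_of_lt_of_le hε (min_le_left _ _)
  have hxδ : |x - ρ| < δ1 := lt_of_lt_of_le hx (min_le_left _ _)
  have hdist : dist (x, ε) (ρ, (0 : ℝ)) < δ1 := by
    rw [Prod.dist_eq]
    simp only [Real.dist_eq, sub_zero]
    exact max_lt hxδ hεδ
  have h1 := hδ1' hdist
  simp only [Real.dist_eq] at h1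
  rw [hg0] at h1
  have hglow : |dq0 α β ρ| / 2 ≤ |Gv α β x (P.eval ε) ε| := by
    have h2 := abs_sub_abs_le_abs_sub (dq0 α β ρ) (Gv α β x (P.eval ε) ε)
    rw [abs_sub_comm] at h2
    linarith
  have hB' : |h.eval ε| ≤ B := by
    have h3 := hB ε ⟨(abs_lt.mp hε1).1.le, (abs_lt.mp hε1).2.le⟩
    simpa using h3
  have hq : qv α β (P.eval ε) ε = ε ^ m * h.eval ε := by
    rw [← eval_QP, hh]
    simp
  have hkey : (x - P.eval ε) * Gv α β x (P.eval ε) ε = -(ε ^ m * h.eval ε) := by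
    rw [← qv_sub, hroot, hq]
    ring
  have habs : |x - P.eval ε| * |Gv α β x (P.eval ε) ε| = |ε| ^ m * |h.eval ε| := by
    rw [← abs_mul, hkey, abs_neg, abs_mul, abs_pow]
  have hBnn : 0 ≤ B := le_trans (abs_nonneg _) hB'
  rw [div_mul_eq_mul_div, le_div_iff₀ hdpos]
  calc |x - P.eval ε| * |dq0 α β ρ| = 2 * (|x - P.eval ε| * (|dq0 α β ρ| / 2)) := by ring
    _ ≤ 2 * (|x - P.eval ε| * |Gv α β x (P.eval ε) ε|) := by gcongr
    _ = 2 * (|ε| ^ m * |h.eval ε|) := by rw [habs]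
    _ ≤ 2 * (|ε| ^ m * B) := by gcongr
    _ = 2 * B * |ε| ^ m := by ring

/-! ### All roots for small `ε` -/

theorem exists_pos_le_finset (Z : Finset ℝ) (δf : ℝ → ℝ) (h : ∀ ρ ∈ Z, 0 < δf ρ) :
    ∃ δm : ℝ, 0 < δm ∧ ∀ ρ ∈ Z, δm ≤ δf ρ := by
  classical
  induction Z using Finset.induction_on with
  | empty => exact ⟨1, one_pos, by simp⟩
  | insert a s ha ih =>
    obtain ⟨d, hd, hd'⟩ := ih (fun ρ hρ => h ρ (Finset.mem_insert_of_mem hρ))
    refine ⟨min d (δf a), lt_min hd (h a (Finset.mem_insert_self a s)), ?_⟩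
    intro ρ hρ
    rcases Finset.mem_insert.mp hρ with rfl | hρ
    · exact min_le_right _ _
    · exact (min_le_left _ _).trans (hd' ρ hρ)

theorem root_finset (α β : ℝ[X]) : ∃ Z : Finset ℝ, ∀ ρ : ℝ, ρ ∈ Z ↔ qv α β ρ 0 = 0 := by
  classical
  set q0 : ℝ[X] := X ^ 4 - C (6 * α.eval 0) * X ^ 2 - C (8 * β.eval 0) * X - C (3 * α.eval 0 ^ 2)
    with hq0
  have hev : ∀ x : ℝ, q0.eval x = qv α β x 0 := by
    intro x
    simp [hq0, qv]
  have hne : q0 ≠ 0 := by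
    intro h0
    have h : ∀ x : ℝ, qv α β x 0 = 0 := by
      intro x
      rw [← hev, h0, eval_zero]
    have ha := h 0
    have hb := h 1
    have hc := h (-1)
    simp only [qv] at ha hb hc
    nlinarith
  refine ⟨q0.roots.toFinset, fun ρ => ?_⟩
  rw [Multiset.mem_toFinset, mem_roots hne, IsRoot.def, hev]

theorem root_bound (α β : ℝ[X]) :
    ∃ R : ℝ, 0 < R ∧ ∀ ε x : ℝ, |ε| ≤ 1 → qv α β x ε = 0 → |x| ≤ R := by
  obtain ⟨A, hA⟩ := (isCompact_Icc (a := (-1 : ℝ)) (b := 1)).exists_bound_of_continuousOn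
    (f := fun ε => α.eval ε) α.continuous.continuousOn
  obtain ⟨B, hB⟩ := (isCompact_Icc (a := (-1 : ℝ)) (b := 1)).exists_bound_of_continuousOn
    (f := fun ε => β.eval ε) β.continuous.continuousOn
  have hA0 : 0 ≤ A := le_trans (norm_nonneg _) (hA 0 (by simp))
  have hB0 : 0 ≤ B := le_trans (norm_nonneg _) (hB 0 (by simp))
  refine ⟨1 + 6 * A + 8 * B + 3 * A ^ 2, by positivity, ?_⟩
  intro ε x hε hroot
  by_contra hcon
  push Not at hcon
  have hεm : ε ∈ Set.Icc (-1 : ℝ) 1 := abs_le.mp hε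
  have hAε : |α.eval ε| ≤ A := by simpa using hA ε hεm
  have hBε : |β.eval ε| ≤ B := by simpa using hB ε hεm
  set a := |x| with ha
  have h1 : 1 ≤ a := by nlinarith [sq_nonneg A]
  have e : x ^ 4 = 6 * α.eval ε * x ^ 2 + 8 * β.eval ε * x + 3 * α.eval ε ^ 2 := by
    simp only [qv] at hroot
    linarith
  have hle : a ^ 4 ≤ 6 * A * a ^ 2 + 8 * B * a + 3 * A ^ 2 := by
    calc a ^ 4 = |x ^ 4| := by rw [abs_pow]
      _ = |6 * α.eval ε * x ^ 2 + 8 * β.eval ε * x + 3 * α.eval ε ^ 2| := by rw [e]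
      _ ≤ |6 * α.eval ε * x ^ 2| + |8 * β.eval ε * x| + |3 * α.eval ε ^ 2| :=
          abs_add_three _ _ _
      _ = 6 * |α.eval ε| * a ^ 2 + 8 * |β.eval ε| * a + 3 * |α.eval ε| ^ 2 := by
          simp only [abs_mul, abs_pow, ha]
          norm_num
      _ ≤ 6 * A * a ^ 2 + 8 * B * a + 3 * A ^ 2 := by gcongr
  have ha2 : a ^ 2 ≤ a ^ 3 := pow_le_pow_right₀ h1 (by norm_num)
  have ha1 : a ≤ a ^ 3 := by simpa using pow_le_pow_right₀ h1 (by norm_num : 1 ≤ 3)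
  have ha0 : 1 ≤ a ^ 3 := one_le_pow₀ h1
  have ha3 : 0 < a ^ 3 := by positivity
  have t1 : 6 * A * a ^ 2 ≤ 6 * A * a ^ 3 := mul_le_mul_of_nonneg_left ha2 (by positivity)
  have t2 : 8 * B * a ≤ 8 * B * a ^ 3 := mul_le_mul_of_nonneg_left ha1 (by positivity)
  have t3 : 3 * A ^ 2 ≤ 3 * A ^ 2 * a ^ 3 := le_mul_of_one_le_right (by positivity) ha0
  have t4 : (1 + 6 * A + 8 * B + 3 * A ^ 2) * a ^ 3 < a * a ^ 3 :=
    mul_lt_mul_of_pos_right hcon ha3
  have t5 : a * a ^ 3 = a ^ 4 := by ring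
  have t6 : (1 + 6 * A + 8 * B + 3 * A ^ 2) * a ^ 3
      = a ^ 3 + 6 * A * a ^ 3 + 8 * B * a ^ 3 + 3 * A ^ 2 * a ^ 3 := by ring
  linarith

theorem exists_approx_family (α β : ℝ[X]) (hsep : α.eval 0 ^ 3 ≠ β.eval 0 ^ 2) (m : ℕ) :
    ∃ (Fam : Finset ℝ[X]) (C ε0 : ℝ), 0 < ε0 ∧ (∀ P ∈ Fam, P.natDegree ≤ m) ∧
      ∀ ε x : ℝ, |ε| ≤ ε0 → qv α β x ε = 0 →
        ∃ P ∈ Fam, |x - P.eval ε| ≤ C * |ε| ^ (m + 1) := by
  classical
  obtain ⟨Z, hZ⟩ := root_finset α β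
  have hall : ∀ ρ : ℝ, ∃ (P : ℝ[X]) (δ C : ℝ), ρ ∈ Z → (P.natDegree ≤ m ∧ 0 < δ ∧
      ∀ ε x : ℝ, |ε| < δ → |x - ρ| < δ → qv α β x ε = 0 →
        |x - P.eval ε| ≤ C * |ε| ^ (m + 1)) := by
    intro ρ
    by_cases hρ : ρ ∈ Z
    · have hρ0 := (hZ ρ).mp hρ
      have hd := dq0_ne_zero α β hsep ρ hρ0
      obtain ⟨P, hdeg, h0, hdiv⟩ := exists_approximant α β ρ hρ0 hd m
      obtain ⟨δ, hδ, C, hC⟩ := approx_near α β ρ hd P h0 (m + 1) hdiv
      exact ⟨P, δ, C, fun _ => ⟨hdeg, hδ, hC⟩⟩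
    · exact ⟨0, 0, 0, fun h => absurd h hρ⟩
  choose Pf δf Cf hf using hall
  obtain ⟨δm, hδm, hδm'⟩ := exists_pos_le_finset Z δf (fun ρ hρ => (hf ρ hρ).2.1)
  obtain ⟨R, hR, hRb⟩ := root_bound α β
  set K : Set ℝ := Set.Icc (-R) R ∩ ⋂ ρ ∈ Z, {x | δm ≤ |x - ρ|} with hK
  have hKc : IsCompact K := by
    refine isCompact_Icc.inter_right (isClosed_biInter fun ρ _ => ?_)
    exact isClosed_le continuous_const (by fun_prop)
  obtain ⟨μ, hμ, hμ'⟩ : ∃ μ : ℝ, 0 < μ ∧ ∀ y ∈ K, μ ≤ |qv α β y 0| := by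
    rcases K.eq_empty_or_nonempty with hKe | hKne
    · exact ⟨1, one_pos, by simp [hKe]⟩
    · have hcont : ContinuousOn (fun y => |qv α β y 0|) K := by
        have hc : Continuous (fun y => |qv α β y 0|) := by
          unfold qv
          fun_prop
        exact hc.continuousOn
      obtain ⟨x0, hx0, hmin⟩ := hKc.exists_isMinOn hKne hcont
      refine ⟨|qv α β x0 0|, ?_, fun y hy => hmin hy⟩
      rw [abs_pos]
      intro h0
      have hx0Z : x0 ∈ Z := (hZ x0).mpr h0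
      have h2 := hx0.2
      simp only [Set.mem_iInter, Set.mem_ofPred_eq] at h2
      have h3 := h2 x0 hx0Z
      simp only [sub_self, abs_zero] at h3
      linarith
  obtain ⟨ε1, hε1, huc'⟩ : ∃ ε1 : ℝ, 0 < ε1 ∧ ∀ x ε : ℝ, |x| ≤ R → |ε| ≤ 1 → |ε| < ε1 →
      |qv α β x ε - qv α β x 0| < μ := by
    have hcomp : IsCompact (Set.Icc (-R) R ×ˢ Set.Icc (-1 : ℝ) 1) :=
      isCompact_Icc.prod isCompact_Icc
    have hUC := hcomp.uniformContinuousOn_of_continuous (continuous_qv α β).continuousOn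
    obtain ⟨ε1, hε1, h⟩ := Metric.uniformContinuousOn_iff.mp hUC μ hμ
    refine ⟨ε1, hε1, fun x ε hx hε hε' => ?_⟩
    have h4 := h (x, ε) ⟨abs_le.mp hx, abs_le.mp hε⟩ (x, 0) ⟨abs_le.mp hx, by simp⟩ (by
      rw [Prod.dist_eq]
      simpa [Real.dist_eq] using hε')
    simpa [Real.dist_eq] using h4
  refine ⟨Z.image Pf, ∑ ρ ∈ Z, |Cf ρ|, min (1 / 2) (min (ε1 / 2) (δm / 2)),
    lt_min (by norm_num) (lt_min (half_pos hε1) (half_pos hδm)), ?_, ?_⟩
  · intro P hP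
    obtain ⟨ρ, hρ, rfl⟩ := Finset.mem_image.mp hP
    exact (hf ρ hρ).1
  · intro ε x hε hroot
    have hε1' : |ε| ≤ 1 := hε.trans ((min_le_left _ _).trans (by norm_num))
    have hε2 : |ε| < ε1 :=
      lt_of_le_of_lt (hε.trans ((min_le_right _ _).trans (min_le_left _ _))) (half_lt_self hε1)
    have hε3 : |ε| < δm :=
      lt_of_le_of_lt (hε.trans ((min_le_right _ _).trans (min_le_right _ _))) (half_lt_self hδm)
    have hxR : |x| ≤ R := hRb ε x hε1' hroot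
    have hxK : x ∉ K := by
      intro hxK
      have h1 := hμ' x hxK
      have h2 := huc' x ε hxR hε1' hε2
      rw [hroot, zero_sub, abs_neg] at h2
      linarith
    have hex : ∃ ρ ∈ Z, |x - ρ| < δm := by
      by_contra hcon
      push Not at hcon
      refine hxK ⟨abs_le.mp hxR, ?_⟩
      simp only [Set.mem_iInter, Set.mem_ofPred_eq]
      exact hcon
    obtain ⟨ρ, hρ, hxρ⟩ := hex
    refine ⟨Pf ρ, Finset.mem_image_of_mem _ hρ, ?_⟩
    have h1 := (hf ρ hρ).2.2 ε x (lt_of_lt_of_le hε3 (hδm' ρ hρ))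
      (lt_of_lt_of_le hxρ (hδm' ρ hρ)) hroot
    refine h1.trans (mul_le_mul_of_nonneg_right ?_ (by positivity))
    exact (le_abs_self _).trans
      (Finset.single_le_sum (f := fun ρ => |Cf ρ|) (fun _ _ => abs_nonneg _) hρ)

/-! ### Lagrange interpolation on a block of consecutive integers -/

theorem eval_basis (T : Finset ℕ) (t : ℕ) (x : ℝ) :
    (Lagrange.basis T (fun k : ℕ => (k : ℝ)) t).eval x
      = ∏ j ∈ T.erase t, (((t : ℝ) - j)⁻¹ * (x - j)) := by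
  simp [Lagrange.basis, Lagrange.basisDivisor, eval_prod]

theorem abs_eval_basis_le (T : Finset ℕ) (K N : ℕ) (hT : T ⊆ Finset.Ico K (K + N)) (t s : ℕ)
    (ht : t ∈ T) (hs : s ∈ Finset.Ico K (K + N)) :
    |(Lagrange.basis T (fun k : ℕ => (k : ℝ)) t).eval (s : ℝ)| ≤ (N : ℝ) ^ (T.card - 1) := by
  rw [eval_basis, Finset.abs_prod]
  calc ∏ j ∈ T.erase t, |((t : ℝ) - j)⁻¹ * ((s : ℝ) - j)| ≤ ∏ _j ∈ T.erase t, (N : ℝ) := by
        refine Finset.prod_le_prod (fun _ _ => abs_nonneg _) (fun j hj => ?_)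
        have hjT := Finset.mem_of_mem_erase hj
        have hjt : j ≠ t := Finset.ne_of_mem_erase hj
        have hjI := Finset.mem_Ico.mp (hT hjT)
        have htI := Finset.mem_Ico.mp (hT ht)
        have hsI := Finset.mem_Ico.mp hs
        rw [abs_mul, abs_inv]
        have h1 : (1 : ℝ) ≤ |(t : ℝ) - j| := by
          have h0 : (1 : ℤ) ≤ |(t : ℤ) - j| := by
            have hne : (t : ℤ) - j ≠ 0 := by omega
            exact Int.one_le_abs hne
          exact_mod_cast h0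
        have h2 : |(s : ℝ) - j| ≤ N := by
          have hs1 : (K : ℝ) ≤ s := by exact_mod_cast hsI.1
          have hs2 : (s : ℝ) ≤ K + N := by exact_mod_cast hsI.2.le
          have hj1 : (K : ℝ) ≤ j := by exact_mod_cast hjI.1
          have hj2 : (j : ℝ) ≤ K + N := by exact_mod_cast hjI.2.le
          rw [abs_le]
          constructor <;> linarith
        calc |(t : ℝ) - j|⁻¹ * |(s : ℝ) - j| ≤ 1 * N :=
              mul_le_mul (inv_le_one_of_one_le₀ h1) h2 (abs_nonneg _) zero_le_one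
          _ = N := one_mul _
    _ = (N : ℝ) ^ (T.card - 1) := by
        rw [Finset.prod_const, Finset.card_erase_of_mem ht]

theorem factorial_mul_eval_basis_int (T : Finset ℕ) (K N : ℕ) (hT : T ⊆ Finset.Ico K (K + N))
    (t s : ℕ) (ht : t ∈ T) :
    ∃ z : ℤ, (N.factorial : ℝ) ^ (T.card - 1)
      * (Lagrange.basis T (fun k : ℕ => (k : ℝ)) t).eval (s : ℝ) = z := by
  refine ⟨∏ j ∈ T.erase t, ((N.factorial : ℤ) / ((t : ℤ) - j)) * ((s : ℤ) - j), ?_⟩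
  rw [eval_basis, ← Finset.card_erase_of_mem ht, ← Finset.prod_const, ← Finset.prod_mul_distrib,
    Int.cast_prod]
  refine Finset.prod_congr rfl (fun j hj => ?_)
  have hjT := Finset.mem_of_mem_erase hj
  have hjt : j ≠ t := Finset.ne_of_mem_erase hj
  have hjI := Finset.mem_Ico.mp (hT hjT)
  have htI := Finset.mem_Ico.mp (hT ht)
  have hne : ((t : ℤ) - j) ≠ 0 := by omega
  have hdvd : ((t : ℤ) - j) ∣ (N.factorial : ℤ) := by
    rw [Int.dvd_natCast]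
    apply Nat.dvd_factorial
    · exact Int.natAbs_pos.mpr hne
    · omega
  have hne' : (((t : ℤ) - j : ℤ) : ℝ) ≠ 0 := by exact_mod_cast hne
  rw [Int.cast_mul, Int.cast_div hdvd hne']
  push_cast
  push_cast at hne'
  field_simp

theorem interp_eq (d : ℕ) (Q : ℝ[X]) (hQ : Q.natDegree ≤ d) (Xs : ℕ → ℤ) (K N : ℕ) (η : ℝ)
    (S : Finset ℕ) (hS : S ⊆ Finset.Ico K (K + N))
    (happ : ∀ k ∈ S, |(Xs k : ℝ) - Q.eval (k : ℝ)| ≤ η)
    (hη : (N.factorial : ℝ) ^ d * (η * (1 + (d + 1) * (N : ℝ) ^ d)) < 1)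
    (T : Finset ℕ) (hTS : T ⊆ S) (hTc : T.card = d + 1) :
    ∀ s ∈ S, (Lagrange.interpolate T (fun k : ℕ => (k : ℝ)) (fun k => (Xs k : ℝ))).eval (s : ℝ)
      = Xs s := by
  intro s hs
  have hinj : Set.InjOn (fun k : ℕ => (k : ℝ)) (T : Set ℕ) := Nat.cast_injective.injOn
  have hQdeg : Q.degree < (T.card : WithBot ℕ) := by
    rw [hTc]
    exact lt_of_le_of_lt (degree_le_of_natDegree_le hQ) (by exact_mod_cast Nat.lt_succ_self d)
  have hQeq := Lagrange.eq_interpolate hinj hQdeg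
  have hQs : Q.eval (s : ℝ) = ∑ t ∈ T, Q.eval (t : ℝ)
      * (Lagrange.basis T (fun k : ℕ => (k : ℝ)) t).eval (s : ℝ) := by
    conv_lhs => rw [hQeq, Lagrange.interpolate_apply]
    simp [eval_finsetSum]
  have hRs : (Lagrange.interpolate T (fun k : ℕ => (k : ℝ)) (fun k => (Xs k : ℝ))).eval (s : ℝ)
      = ∑ t ∈ T, (Xs t : ℝ) * (Lagrange.basis T (fun k : ℕ => (k : ℝ)) t).eval (s : ℝ) := by
    rw [Lagrange.interpolate_apply]
    simp [eval_finsetSum]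
  set R := Lagrange.interpolate T (fun k : ℕ => (k : ℝ)) (fun k => (Xs k : ℝ)) with hR
  have hb : ∀ t ∈ T, |(Lagrange.basis T (fun k : ℕ => (k : ℝ)) t).eval (s : ℝ)| ≤ (N : ℝ) ^ d := by
    intro t ht
    have h := abs_eval_basis_le T K N (hTS.trans hS) t s ht (hS hs)
    rwa [hTc, Nat.add_sub_cancel] at h
  have hz : ∀ t ∈ T, ∃ z : ℤ, (N.factorial : ℝ) ^ d
      * (Lagrange.basis T (fun k : ℕ => (k : ℝ)) t).eval (s : ℝ) = z := by
    intro t ht
    have h := factorial_mul_eval_basis_int T K N (hTS.trans hS) t s ht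
    rwa [hTc, Nat.add_sub_cancel] at h
  choose! zf hzf using hz
  have hint : (N.factorial : ℝ) ^ d * ((Xs s : ℝ) - R.eval (s : ℝ))
      = (((N.factorial : ℤ) ^ d * Xs s - ∑ t ∈ T, Xs t * zf t : ℤ) : ℝ) := by
    push_cast
    rw [hRs, mul_sub, Finset.mul_sum]
    congr 1
    refine Finset.sum_congr rfl (fun t ht => ?_)
    rw [← hzf t ht]
    ring
  have hbound : |(Xs s : ℝ) - R.eval (s : ℝ)| ≤ η * (1 + (d + 1) * (N : ℝ) ^ d) := by
    have e : (Xs s : ℝ) - R.eval (s : ℝ) = ((Xs s : ℝ) - Q.eval (s : ℝ))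
        - ∑ t ∈ T, ((Xs t : ℝ) - Q.eval (t : ℝ))
          * (Lagrange.basis T (fun k : ℕ => (k : ℝ)) t).eval (s : ℝ) := by
      simp only [sub_mul, Finset.sum_sub_distrib]
      rw [← hQs, ← hRs]
      ring
    rw [e]
    calc _ ≤ |(Xs s : ℝ) - Q.eval (s : ℝ)| + |∑ t ∈ T, ((Xs t : ℝ) - Q.eval (t : ℝ))
          * (Lagrange.basis T (fun k : ℕ => (k : ℝ)) t).eval (s : ℝ)| := abs_sub _ _
      _ ≤ η + ∑ _t ∈ T, η * (N : ℝ) ^ d := by
          refine add_le_add (happ s hs) ?_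
          refine (Finset.abs_sum_le_sum_abs _ _).trans (Finset.sum_le_sum fun t ht => ?_)
          rw [abs_mul]
          exact mul_le_mul (happ t (hTS ht)) (hb t ht) (abs_nonneg _)
            (le_trans (abs_nonneg _) (happ t (hTS ht)))
      _ = η * (1 + (d + 1) * (N : ℝ) ^ d) := by
          rw [Finset.sum_const, hTc, nsmul_eq_mul]
          push_cast
          ring
  have hz0 : ((N.factorial : ℤ) ^ d * Xs s - ∑ t ∈ T, Xs t * zf t : ℤ) = 0 := by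
    rw [← Int.abs_lt_one_iff]
    have h1 : |(((N.factorial : ℤ) ^ d * Xs s - ∑ t ∈ T, Xs t * zf t : ℤ) : ℝ)| < 1 := by
      rw [← hint, abs_mul, abs_of_nonneg (by positivity)]
      calc (N.factorial : ℝ) ^ d * |(Xs s : ℝ) - R.eval (s : ℝ)|
            ≤ (N.factorial : ℝ) ^ d * (η * (1 + (d + 1) * (N : ℝ) ^ d)) := by gcongr
        _ < 1 := hη
    exact_mod_cast h1
  have h0 : (N.factorial : ℝ) ^ d * ((Xs s : ℝ) - R.eval (s : ℝ)) = 0 := by
    rw [hint, hz0]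
    simp
  have hW : (N.factorial : ℝ) ^ d ≠ 0 := by positivity
  have h2 := (mul_eq_zero.mp h0).resolve_left hW
  linarith

theorem interp_core (d : ℕ) (Qs : Finset ℝ[X]) (hdeg : ∀ Q ∈ Qs, Q.natDegree ≤ d)
    (Xs : ℕ → ℤ) (D : ℝ) (k0 : ℕ)
    (happ : ∀ k : ℕ, k0 ≤ k → ∃ Q ∈ Qs, |(Xs k : ℝ) - Q.eval (k : ℝ)| ≤ D / k) (L : ℕ) :
    ∃ (R : ℝ[X]) (S : Finset ℕ), R.natDegree ≤ d ∧ L ≤ S.card ∧ (∀ k ∈ S, k0 ≤ k) ∧
      ∀ k ∈ S, R.eval (k : ℝ) = Xs k := by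
  classical
  set L' := max L (d + 1) with hL'
  set N := Qs.card * L' + 1 with hN
  obtain ⟨K, hK0, hK1, hKη⟩ : ∃ K : ℕ, k0 ≤ K ∧ 1 ≤ K ∧
      (N.factorial : ℝ) ^ d * (|D| / K * (1 + (d + 1) * (N : ℝ) ^ d)) < 1 := by
    set c : ℝ := (N.factorial : ℝ) ^ d * (|D| * (1 + (d + 1) * (N : ℝ) ^ d)) with hc
    obtain ⟨K1, hK1⟩ := exists_nat_gt c
    have h1 : 1 ≤ max (max k0 1) K1 := le_trans (le_max_right _ _) (le_max_left _ _)
    refine ⟨max (max k0 1) K1, le_trans (le_max_left _ _) (le_max_left _ _), h1, ?_⟩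
    have hKpos : (0 : ℝ) < ((max (max k0 1) K1 : ℕ) : ℝ) := by exact_mod_cast h1
    have hKc : c < ((max (max k0 1) K1 : ℕ) : ℝ) :=
      lt_of_lt_of_le hK1 (by exact_mod_cast le_max_right _ _)
    have e : (N.factorial : ℝ) ^ d * (|D| / ((max (max k0 1) K1 : ℕ) : ℝ)
        * (1 + (d + 1) * (N : ℝ) ^ d)) = c / ((max (max k0 1) K1 : ℕ) : ℝ) := by
      rw [hc]
      field_simp
    rw [e, div_lt_one hKpos]
    exact hKc
  have hbr : ∀ k : ℕ, ∃ Q : ℝ[X], k0 ≤ k → (Q ∈ Qs ∧ |(Xs k : ℝ) - Q.eval (k : ℝ)| ≤ D / k) := by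
    intro k
    by_cases hk : k0 ≤ k
    · obtain ⟨Q, hQ, h⟩ := happ k hk
      exact ⟨Q, fun _ => ⟨hQ, h⟩⟩
    · exact ⟨0, fun h => absurd h hk⟩
  choose br hbr' using hbr
  have hmaps : ∀ k ∈ Finset.Ico K (K + N), br k ∈ Qs :=
    fun k hk => (hbr' k (hK0.trans (Finset.mem_Ico.mp hk).1)).1
  have hcard : Qs.card * L' < (Finset.Ico K (K + N)).card := by
    rw [Nat.card_Ico]
    omega
  obtain ⟨Q0, hQ0, hfib⟩ := Finset.exists_lt_card_fiber_of_mul_lt_card_of_maps_to hmaps hcard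
  set S := (Finset.Ico K (K + N)).filter (fun k => br k = Q0) with hS
  have hSsub : S ⊆ Finset.Ico K (K + N) := Finset.filter_subset _ _
  have hScard : L' < S.card := hfib
  obtain ⟨T, hTS, hTc⟩ := Finset.exists_subset_card_eq
    (show d + 1 ≤ S.card from (le_max_right _ _).trans hScard.le)
  have hKpos : (0 : ℝ) < K := by exact_mod_cast hK1
  have happS : ∀ k ∈ S, |(Xs k : ℝ) - Q0.eval (k : ℝ)| ≤ |D| / K := by
    intro k hk
    have hkI := Finset.mem_Ico.mp (hSsub hk)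
    have hbk := (hbr' k (hK0.trans hkI.1)).2
    rw [(Finset.mem_filter.mp hk).2] at hbk
    have hkK : (K : ℝ) ≤ k := by exact_mod_cast hkI.1
    have hkpos : (0 : ℝ) < k := lt_of_lt_of_le hKpos hkK
    calc |(Xs k : ℝ) - Q0.eval (k : ℝ)| ≤ D / k := hbk
      _ ≤ |D| / k := div_le_div_of_nonneg_right (le_abs_self D) hkpos.le
      _ ≤ |D| / K := div_le_div_of_nonneg_left (abs_nonneg D) hKpos hkK
  refine ⟨Lagrange.interpolate T (fun k : ℕ => (k : ℝ)) (fun k => (Xs k : ℝ)), S, ?_, ?_, ?_, ?_⟩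
  · have hinj : Set.InjOn (fun k : ℕ => (k : ℝ)) (T : Set ℕ) := Nat.cast_injective.injOn
    have hlt := Lagrange.degree_interpolate_lt (r := fun k => (Xs k : ℝ)) hinj
    rw [hTc] at hlt
    by_cases h0 : Lagrange.interpolate T (fun k : ℕ => (k : ℝ)) (fun k => (Xs k : ℝ)) = 0
    · rw [h0]
      simp
    · exact Nat.lt_succ_iff.mp ((natDegree_lt_iff_degree_lt h0).mpr hlt)
  · exact (le_max_left _ _).trans hScard.le
  · intro k hk
    exact hK0.trans (Finset.mem_Ico.mp (hSsub hk)).1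
  · exact interp_eq d Q0 (hdeg Q0 hQ0) Xs K N (|D| / K) S hSsub happS hKη T hTS hTc

/-! ### The main statement -/

theorem natDegree_QP_le (d : ℕ) (α β P : ℝ[X]) (hα : α.natDegree ≤ 2 * d)
    (hβ : β.natDegree ≤ 3 * d) (hP : P.natDegree ≤ d) : (QP α β P).natDegree ≤ 4 * d := by
  have e : QP α β P = P ^ 4 - C 6 * (α * P ^ 2) - C 8 * (β * P) - C 3 * α ^ 2 := by
    simp only [QP, map_ofNat]
    ring
  rw [e]
  have h1 : (P ^ 4).natDegree ≤ 4 * d := natDegree_pow_le_of_le 4 hP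
  have h2 : (C 6 * (α * P ^ 2)).natDegree ≤ 4 * d := by
    refine (natDegree_C_mul_le _ _).trans ?_
    refine (natDegree_mul_le_of_le hα (natDegree_pow_le_of_le 2 hP)).trans ?_
    omega
  have h3 : (C 8 * (β * P)).natDegree ≤ 4 * d := by
    refine (natDegree_C_mul_le _ _).trans ?_
    refine (natDegree_mul_le_of_le hβ hP).trans ?_
    omega
  have h4 : (C 3 * α ^ 2).natDegree ≤ 4 * d := by
    refine (natDegree_C_mul_le _ _).trans ?_
    refine (natDegree_pow_le_of_le 2 hα).trans ?_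
    omega
  exact (natDegree_sub_le_of_le ((natDegree_sub_le_of_le ((natDegree_sub_le_of_le h1 h2).trans
    (max_self _).le) h3).trans (max_self _).le) h4).trans (max_self _).le

/-- **Integer roots along an arithmetic progression force a polynomial root.**
Let `α`, `β` be real polynomials of degrees at most `2 d`, `3 d` with `α(0) ^ 3 ≠ β(0) ^ 2`, and
let `M ≥ 1`.  If for every `k ≥ k1` the quartic `q(·, M / n)`, `n = 1 + M k`, has a root of the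
form `X / n ^ d` with `X` an integer, then `q` has a polynomial root of degree at most `d`. -/
theorem hit (d : ℕ) (α β : ℝ[X]) (hα : α.natDegree ≤ 2 * d) (hβ : β.natDegree ≤ 3 * d)
    (hsep : α.eval 0 ^ 3 ≠ β.eval 0 ^ 2) (M : ℕ) (hM : 0 < M) (k1 : ℕ)
    (hroot : ∀ k : ℕ, k1 ≤ k → ∃ Xk : ℤ,
      qv α β ((Xk : ℝ) / (1 + (M : ℝ) * k) ^ d) ((M : ℝ) / (1 + (M : ℝ) * k)) = 0) :
    ∃ P : ℝ[X], P.natDegree ≤ d ∧ QP α β P = 0 := by
  classical
  choose! Xs hXs using hroot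
  obtain ⟨Fam, C0, ε0, hε0, hdeg, happ⟩ := exists_approx_family α β hsep d
  have hMR : (0 : ℝ) < M := by exact_mod_cast hM
  have hM1 : (1 : ℝ) ≤ M := by exact_mod_cast hM
  have hn : ∀ k : ℕ, (0 : ℝ) < 1 + (M : ℝ) * k := fun k => by positivity
  -- the approximants as polynomials in `k`
  let hat : ℝ[X] → ℝ[X] := fun P => ∑ i ∈ Finset.range (d + 1),
    C (P.coeff i * (M : ℝ) ^ i) * (1 + C (M : ℝ) * X) ^ (d - i)
  have hlin : (1 + C (M : ℝ) * X : ℝ[X]).natDegree ≤ 1 :=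
    (natDegree_add_le _ _).trans (max_le (by simp) ((natDegree_C_mul_le _ _).trans natDegree_X_le))
  have hhat_deg : ∀ P : ℝ[X], (hat P).natDegree ≤ d := by
    intro P
    refine natDegree_sum_le_of_forall_le _ _ (fun i hi => ?_)
    refine (natDegree_C_mul_le _ _).trans ?_
    refine (natDegree_pow_le_of_le (d - i) hlin).trans ?_
    omega
  have hhat_eval : ∀ P : ℝ[X], P.natDegree ≤ d → ∀ k : ℕ,
      (hat P).eval (k : ℝ) = (1 + (M : ℝ) * k) ^ d * P.eval ((M : ℝ) / (1 + (M : ℝ) * k)) := by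
    intro P hP k
    have hnk := hn k
    simp only [hat, eval_finsetSum, eval_mul, eval_C, eval_pow, eval_add, eval_one, eval_X]
    rw [eval_eq_sum_range' (Nat.lt_succ_of_le hP), Finset.mul_sum]
    refine Finset.sum_congr rfl (fun i hi => ?_)
    have hi' : i ≤ d := Nat.lt_succ_iff.mp (Finset.mem_range.mp hi)
    have e : (1 + (M : ℝ) * k) ^ d = (1 + (M : ℝ) * k) ^ (d - i) * (1 + (M : ℝ) * k) ^ i := by
      rw [← pow_add, Nat.sub_add_cancel hi']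
    rw [e, div_pow]
    field_simp
  obtain ⟨kε, hkε⟩ := exists_nat_gt (1 / ε0)
  set k0 := max (max k1 1) kε with hk0
  have happ' : ∀ k : ℕ, k0 ≤ k → ∃ Q ∈ Fam.image hat,
      |(Xs k : ℝ) - Q.eval (k : ℝ)| ≤ (|C0| * (M : ℝ) ^ (d + 1)) / k := by
    intro k hk
    have hk1 : k1 ≤ k := le_trans (le_trans (le_max_left _ _) (le_max_left _ _)) hk
    have hk1' : 1 ≤ k := le_trans (le_trans (le_max_right _ _) (le_max_left _ _)) hk
    have hkε' : kε ≤ k := le_trans (le_max_right _ _) hk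
    have hkpos : (0 : ℝ) < k := by exact_mod_cast hk1'
    have hnk := hn k
    have hnk' : (k : ℝ) ≤ 1 + (M : ℝ) * k := by
      have h1 : (k : ℝ) ≤ M * k := le_mul_of_one_le_left hkpos.le hM1
      linarith
    have hεpos : 0 < (M : ℝ) / (1 + (M : ℝ) * k) := div_pos hMR hnk
    have hεle : (M : ℝ) / (1 + (M : ℝ) * k) ≤ ε0 := by
      have h1 : (M : ℝ) / (1 + (M : ℝ) * k) ≤ 1 / k := by
        rw [div_le_div_iff₀ hnk hkpos]
        linarith
      have h2 : 1 / (k : ℝ) ≤ ε0 := by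
        have h3 : 1 / ε0 < k := lt_of_lt_of_le hkε (by exact_mod_cast hkε')
        rw [div_le_iff₀ hkpos]
        have h4 := (div_lt_iff₀ hε0).mp h3
        linarith
      exact h1.trans h2
    obtain ⟨P, hP, hPx⟩ := happ ((M : ℝ) / (1 + (M : ℝ) * k))
      ((Xs k : ℝ) / (1 + (M : ℝ) * k) ^ d) (by rw [abs_of_pos hεpos]; exact hεle) (hXs k hk1)
    refine ⟨hat P, Finset.mem_image_of_mem _ hP, ?_⟩
    rw [hhat_eval P (hdeg P hP) k]
    have hnd : (0 : ℝ) < (1 + (M : ℝ) * k) ^ d := pow_pos hnk d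
    have e1 : (Xs k : ℝ) - (1 + (M : ℝ) * k) ^ d * P.eval ((M : ℝ) / (1 + (M : ℝ) * k))
        = (1 + (M : ℝ) * k) ^ d * ((Xs k : ℝ) / (1 + (M : ℝ) * k) ^ d
          - P.eval ((M : ℝ) / (1 + (M : ℝ) * k))) := by
      field_simp
    rw [e1, abs_mul, abs_of_pos hnd]
    calc (1 + (M : ℝ) * k) ^ d * |(Xs k : ℝ) / (1 + (M : ℝ) * k) ^ d
            - P.eval ((M : ℝ) / (1 + (M : ℝ) * k))|
          ≤ (1 + (M : ℝ) * k) ^ d * (C0 * |(M : ℝ) / (1 + (M : ℝ) * k)| ^ (d + 1)) := by gcongr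
      _ ≤ (1 + (M : ℝ) * k) ^ d * (|C0| * |(M : ℝ) / (1 + (M : ℝ) * k)| ^ (d + 1)) := by
          gcongr
          exact le_abs_self C0
      _ = |C0| * (M : ℝ) ^ (d + 1) / (1 + (M : ℝ) * k) := by
          rw [abs_of_pos hεpos, div_pow, pow_succ (1 + (M : ℝ) * k) d]
          field_simp
      _ ≤ |C0| * (M : ℝ) ^ (d + 1) / k :=
          div_le_div_of_nonneg_left (by positivity) hkpos hnk'
  have hdegQ : ∀ Q ∈ Fam.image hat, Q.natDegree ≤ d := by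
    intro Q hQ
    obtain ⟨P, _, rfl⟩ := Finset.mem_image.mp hQ
    exact hhat_deg P
  obtain ⟨R, S, hRdeg, hScard, hSk, hRS⟩ := interp_core d (Fam.image hat) hdegQ Xs
    (|C0| * (M : ℝ) ^ (d + 1)) k0 happ' (4 * d + 1)
  -- back to the variable `ε`
  let Pfin : ℝ[X] := ∑ i ∈ Finset.range (d + 1),
    C (R.coeff i / (M : ℝ) ^ d) * (1 - C (1 / (M : ℝ)) * X) ^ i * X ^ (d - i)
  have hlin2 : (1 - C (1 / (M : ℝ)) * X : ℝ[X]).natDegree ≤ 1 :=
    (natDegree_sub_le _ _).trans (max_le (by simp) ((natDegree_C_mul_le _ _).trans natDegree_X_le))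
  have hPfin_deg : Pfin.natDegree ≤ d := by
    refine natDegree_sum_le_of_forall_le _ _ (fun i hi => ?_)
    have hi' : i ≤ d := Nat.lt_succ_iff.mp (Finset.mem_range.mp hi)
    rw [mul_assoc]
    refine (natDegree_C_mul_le _ _).trans ?_
    refine (natDegree_mul_le_of_le (natDegree_pow_le_of_le i hlin2)
      (natDegree_X_pow_le (d - i))).trans ?_
    omega
  have hPfin_eval : ∀ k ∈ S, Pfin.eval ((M : ℝ) / (1 + (M : ℝ) * k))
      = (Xs k : ℝ) / (1 + (M : ℝ) * k) ^ d := by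
    intro k hk
    have hnk := hn k
    simp only [Pfin, eval_finsetSum, eval_mul, eval_C, eval_pow, eval_sub, eval_one, eval_X]
    have e1 : (1 : ℝ) - 1 / M * (M / (1 + M * k)) = k * (M / (1 + M * k)) := by
      field_simp
      ring
    rw [← hRS k hk, eval_eq_sum_range' (Nat.lt_succ_of_le hRdeg), Finset.sum_div]
    refine Finset.sum_congr rfl (fun i hi => ?_)
    have hi' : i ≤ d := Nat.lt_succ_iff.mp (Finset.mem_range.mp hi)
    rw [e1, mul_pow]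
    have e2 : ((M : ℝ) / (1 + M * k)) ^ i * ((M : ℝ) / (1 + M * k)) ^ (d - i)
        = ((M : ℝ) / (1 + M * k)) ^ d := by
      rw [← pow_add, Nat.add_sub_cancel' hi']
    calc R.coeff i / (M : ℝ) ^ d * ((k : ℝ) ^ i * ((M : ℝ) / (1 + M * k)) ^ i)
          * ((M : ℝ) / (1 + M * k)) ^ (d - i)
        = R.coeff i / (M : ℝ) ^ d * (k : ℝ) ^ i
          * (((M : ℝ) / (1 + M * k)) ^ i * ((M : ℝ) / (1 + M * k)) ^ (d - i)) := by ring
      _ = R.coeff i * (k : ℝ) ^ i / (1 + (M : ℝ) * k) ^ d := by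
          rw [e2, div_pow]
          field_simp
  refine ⟨Pfin, hPfin_deg, ?_⟩
  have hinjS : Set.InjOn (fun k : ℕ => (M : ℝ) / (1 + (M : ℝ) * k)) (S : Set ℕ) := by
    intro a _ b _ hab
    have ha := hn a
    have hb := hn b
    simp only at hab
    rw [div_eq_div_iff ha.ne' hb.ne'] at hab
    have h1 : 1 + (M : ℝ) * b = 1 + (M : ℝ) * a := mul_left_cancel₀ hMR.ne' hab
    have h2 : (M : ℝ) * b = (M : ℝ) * a := by linarith
    have h3 : (b : ℝ) = a := mul_left_cancel₀ hMR.ne' h2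
    exact_mod_cast h3.symm
  refine eq_zero_of_natDegree_lt_card_of_eval_eq_zero' (QP α β Pfin)
    (S.image (fun k : ℕ => (M : ℝ) / (1 + (M : ℝ) * k))) ?_ ?_
  · intro x hx
    obtain ⟨k, hk, rfl⟩ := Finset.mem_image.mp hx
    rw [eval_QP, hPfin_eval k hk]
    exact hXs k (le_trans (le_trans (le_max_left _ _) (le_max_left _ _)) (hSk k hk))
  · rw [Finset.card_image_of_injOn hinjS]
    have h5 := natDegree_QP_le d α β Pfin hα hβ hPfin_deg
    omega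

/-- Homogeneous form of `hit`: for `n = 1 + M k` the numbers `a k = n ^ (2 d) α(M / n)` and
`b k = n ^ (3 d) β(M / n)` are the coefficients of the quartic
`X ^ 4 - 6 a X ^ 2 - 8 b X - 3 a ^ 2`; if it has an integer root for every `k ≥ k1`, then
`q` has a polynomial root of degree at most `d`. -/
theorem hit_hom (d : ℕ) (α β : ℝ[X]) (hα : α.natDegree ≤ 2 * d) (hβ : β.natDegree ≤ 3 * d)
    (hsep : α.eval 0 ^ 3 ≠ β.eval 0 ^ 2) (M : ℕ) (hM : 0 < M) (k1 : ℕ) (a b : ℕ → ℝ)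
    (ha : ∀ k : ℕ, k1 ≤ k →
      a k = (1 + (M : ℝ) * k) ^ (2 * d) * α.eval ((M : ℝ) / (1 + (M : ℝ) * k)))
    (hb : ∀ k : ℕ, k1 ≤ k →
      b k = (1 + (M : ℝ) * k) ^ (3 * d) * β.eval ((M : ℝ) / (1 + (M : ℝ) * k)))
    (hroot : ∀ k : ℕ, k1 ≤ k → ∃ Xk : ℤ,
      (Xk : ℝ) ^ 4 - 6 * a k * (Xk : ℝ) ^ 2 - 8 * b k * (Xk : ℝ) - 3 * a k ^ 2 = 0) :
    ∃ P : ℝ[X], P.natDegree ≤ d ∧ QP α β P = 0 := by
  refine hit d α β hα hβ hsep M hM k1 (fun k hk => ?_)
  obtain ⟨Xk, hXk⟩ := hroot k hk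
  refine ⟨Xk, ?_⟩
  have hn : (0 : ℝ) < 1 + (M : ℝ) * k := by positivity
  have hN : (0 : ℝ) < (1 + (M : ℝ) * k) ^ d := pow_pos hn d
  rw [ha k hk, hb k hk, pow_mul' (1 + (M : ℝ) * k) 2 d, pow_mul' (1 + (M : ℝ) * k) 3 d] at hXk
  simp only [qv]
  generalize (1 + (M : ℝ) * k) ^ d = N at hN hXk
  generalize α.eval ((M : ℝ) / (1 + (M : ℝ) * k)) = A at hXk
  generalize β.eval ((M : ℝ) / (1 + (M : ℝ) * k)) = B at hXk
  have e : ((Xk : ℝ) / N) ^ 4 - 6 * A * ((Xk : ℝ) / N) ^ 2 - 8 * B * ((Xk : ℝ) / N) - 3 * A ^ 2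
      = ((Xk : ℝ) ^ 4 - 6 * (N ^ 2 * A) * (Xk : ℝ) ^ 2 - 8 * (N ^ 3 * B) * (Xk : ℝ)
        - 3 * (N ^ 2 * A) ^ 2) / N ^ 4 := by
    field_simp
  rw [e, hXk, zero_div]

/-- The quartic identity after a change of coefficient ring. -/
theorem QP_map {K : Type*} [CommRing K] (φ : ℝ →+* K) (α β P : ℝ[X]) :
    (QP α β P).map φ = P.map φ ^ 4 - 6 * α.map φ * P.map φ ^ 2 - 8 * β.map φ * P.map φ
      - 3 * α.map φ ^ 2 := by
  simp [QP]

/-- `hit_hom` with the polynomial root transported to an arbitrary commutative ring under `ℝ`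
(for instance `ℂ`). -/
theorem hit_hom_map {K : Type*} [CommRing K] (φ : ℝ →+* K) (d : ℕ) (α β : ℝ[X])
    (hα : α.natDegree ≤ 2 * d) (hβ : β.natDegree ≤ 3 * d)
    (hsep : α.eval 0 ^ 3 ≠ β.eval 0 ^ 2) (M : ℕ) (hM : 0 < M) (k1 : ℕ) (a b : ℕ → ℝ)
    (ha : ∀ k : ℕ, k1 ≤ k →
      a k = (1 + (M : ℝ) * k) ^ (2 * d) * α.eval ((M : ℝ) / (1 + (M : ℝ) * k)))
    (hb : ∀ k : ℕ, k1 ≤ k →
      b k = (1 + (M : ℝ) * k) ^ (3 * d) * β.eval ((M : ℝ) / (1 + (M : ℝ) * k)))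
    (hroot : ∀ k : ℕ, k1 ≤ k → ∃ Xk : ℤ,
      (Xk : ℝ) ^ 4 - 6 * a k * (Xk : ℝ) ^ 2 - 8 * b k * (Xk : ℝ) - 3 * a k ^ 2 = 0) :
    ∃ P : K[X], P.natDegree ≤ d ∧
      P ^ 4 - 6 * α.map φ * P ^ 2 - 8 * β.map φ * P - 3 * α.map φ ^ 2 = 0 := by
  obtain ⟨P, hP, h0⟩ := hit_hom d α β hα hβ hsep M hM k1 a b ha hb hroot
  refine ⟨P.map φ, natDegree_map_le.trans hP, ?_⟩
  rw [← QP_map, h0, Polynomial.map_zero]

end Fermat.Agent.S52.H05
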