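import Mathlib
import Fermat.Agent.S51.Galois
import Fermat.Agent.S52.Hit_helper5
import Fermat.Agent.S52.NoPolyRoot_helper48

/-!
# S52, block G (HIT), top level

* `exists_int_root_of_not_irreducible`: if the mod `3` representation of an integral Weierstrass
  curve `W` with `Δ ≠ 0` is not irreducible, then `X ^ 4 - 6 c₄ X ^ 2 - 8 c₆ X - 3 c₄ ^ 2` has an
  integer root (a rational root `x₀` of the `3`-division polynomial gives `X = 12 x₀ + b₂`).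
* `exists_irreducible_three`: for a family of integral curves `Wf k` whose `c₄`, `c₆` are
  `n ^ 20 α(M / n)`, `n ^ 30 β(M / n)`, `n = 1 + M k`, some member (with `k` arbitrarily large) has
  an irreducible mod `3` representation, provided the quartic has no polynomial root.
-/

set_option autoImplicit false

open Polynomial

namespace Fermat.Agent.S52.H05

open Fermat.Agent.S51.H80 in
/-- The quartic `X ^ 4 - 6 c₄ X ^ 2 - 8 c₆ X - 3 c₄ ^ 2` at `12 x + b₂` is `6912` times the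
`3`-division polynomial. -/
theorem quartic_eq_psi3 {K : Type*} [Field K] (E : WeierstrassCurve K) (x : K) :
    (12 * x + E.b₂) ^ 4 - 6 * E.c₄ * (12 * x + E.b₂) ^ 2 - 8 * E.c₆ * (12 * x + E.b₂)
      - 3 * E.c₄ ^ 2 = 6912 * psi3 E x := by
  simp only [psi3, WeierstrassCurve.c₄, WeierstrassCurve.c₆, WeierstrassCurve.b₂,
    WeierstrassCurve.b₄, WeierstrassCurve.b₆, WeierstrassCurve.b₈]
  ring

/-- A rational root of a monic quartic with integer coefficients is an integer. -/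
theorem int_root_of_rat_root (a b c : ℤ) (y : ℚ)
    (hy : y ^ 4 - (a : ℚ) * y ^ 2 - (b : ℚ) * y - (c : ℚ) = 0) :
    ∃ z : ℤ, (z : ℚ) = y := by
  have hdeg : (C a * X ^ 2 + C b * X + C c : ℤ[X]).degree < ((4 : ℕ) : WithBot ℕ) := by
    refine lt_of_le_of_lt (b := ((2 : ℕ) : WithBot ℕ)) ?_
      (by exact_mod_cast (by norm_num : (2 : ℕ) < 4))
    compute_degree
    exact le_rfl
  have hmonic : (X ^ 4 - (C a * X ^ 2 + C b * X + C c) : ℤ[X]).Monic :=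
    monic_X_pow_sub hdeg
  have hroot : aeval y (X ^ 4 - (C a * X ^ 2 + C b * X + C c) : ℤ[X]) = 0 := by
    simp only [map_sub, map_add, map_mul, map_pow, aeval_X, aeval_C]
    simp only [eq_intCast]
    linear_combination hy
  obtain ⟨z, hz⟩ := isInteger_of_is_root_of_monic hmonic hroot
  exact ⟨z, by simpa using hz⟩

open Fermat.Agent.S51.H80 in
/-- **Reducible mod `3` gives an integer root of the quartic.** -/
theorem exists_int_root_of_not_irreducible (W : WeierstrassCurve ℤ) (hΔ : W.Δ ≠ 0)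
    (h : ¬ W.ModRepIsIrreducible 3) :
    ∃ Xr : ℤ, Xr ^ 4 - 6 * W.c₄ * Xr ^ 2 - 8 * W.c₆ * Xr - 3 * W.c₄ ^ 2 = 0 := by
  obtain ⟨x₀, hx₀⟩ := exists_root3 W hΔ h
  have hq := quartic_eq_psi3 (EQ W) x₀
  rw [hx₀, mul_zero] at hq
  have hc4 : (EQ W).c₄ = ((W.c₄ : ℤ) : ℚ) := by
    show (W.map (Int.castRingHom ℚ)).c₄ = _
    rw [WeierstrassCurve.map_c₄]
    rfl
  have hc6 : (EQ W).c₆ = ((W.c₆ : ℤ) : ℚ) := by
    show (W.map (Int.castRingHom ℚ)).c₆ = _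
    rw [WeierstrassCurve.map_c₆]
    rfl
  rw [hc4, hc6] at hq
  obtain ⟨z, hz⟩ := int_root_of_rat_root (6 * W.c₄) (8 * W.c₆) (3 * W.c₄ ^ 2)
    (12 * x₀ + (EQ W).b₂) (by push_cast; linear_combination hq)
  refine ⟨z, ?_⟩
  rw [← hz] at hq
  exact_mod_cast hq

/-- **Block G, abstract top level.**  Let `Wf k` be integral curves with `Δ ≠ 0` whose invariants
are `c₄ = n ^ (2 d) α(M / n)`, `c₆ = n ^ (3 d) β(M / n)` for `n = 1 + M k`.  If the quartic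
`x ^ 4 - 6 α x ^ 2 - 8 β x - 3 α ^ 2` has no polynomial root of degree at most `d` over some
commutative ring `K` under `ℝ`, then for every `k1` some `Wf k` with `k ≥ k1` has an irreducible
mod `3` representation. -/
theorem exists_irreducible_three_of_no_root {K : Type*} [CommRing K] (φ : ℝ →+* K) (d : ℕ)
    (α β : ℝ[X]) (hα : α.natDegree ≤ 2 * d) (hβ : β.natDegree ≤ 3 * d)
    (hsep : α.eval 0 ^ 3 ≠ β.eval 0 ^ 2) (M : ℕ) (hM : 0 < M) (k1 : ℕ)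
    (Wf : ℕ → WeierstrassCurve ℤ) (hΔ : ∀ k : ℕ, k1 ≤ k → (Wf k).Δ ≠ 0)
    (hc4 : ∀ k : ℕ, k1 ≤ k → (((Wf k).c₄ : ℤ) : ℝ)
      = (1 + (M : ℝ) * k) ^ (2 * d) * α.eval ((M : ℝ) / (1 + (M : ℝ) * k)))
    (hc6 : ∀ k : ℕ, k1 ≤ k → (((Wf k).c₆ : ℤ) : ℝ)
      = (1 + (M : ℝ) * k) ^ (3 * d) * β.eval ((M : ℝ) / (1 + (M : ℝ) * k)))
    (hno : ∀ P : K[X], P.natDegree ≤ d →
      P ^ 4 - 6 * α.map φ * P ^ 2 - 8 * β.map φ * P - 3 * α.map φ ^ 2 ≠ 0) :
    ∃ k : ℕ, k1 ≤ k ∧ (Wf k).ModRepIsIrreducible 3 := by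
  by_contra hcon
  push Not at hcon
  obtain ⟨P, hP, h0⟩ := hit_hom_map φ d α β hα hβ hsep M hM k1
    (fun k => (((Wf k).c₄ : ℤ) : ℝ)) (fun k => (((Wf k).c₆ : ℤ) : ℝ)) hc4 hc6 (by
      intro k hk
      obtain ⟨Xr, hXr⟩ := exists_int_root_of_not_irreducible (Wf k) (hΔ k hk) (hcon k hk)
      exact ⟨Xr, by exact_mod_cast hXr⟩)
  exact hno P hP h0

/-- **Block G with the `G3` data** (`NoPolyRoot_helper48.no_poly_root`): `α`, `β` are the real
polynomials `C4(ε)`, `C6(ε)` of degrees at most `20`, `30`; `D`, `Th`, `kap` are the complex data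
with `C4 ^ 3 - C6 ^ 2 = kap D ^ 5`, `C4 D' - 12 C6 = Th D`. -/
theorem exists_irreducible_three (α β : ℝ[X]) (hα : α.natDegree ≤ 20) (hβ : β.natDegree ≤ 30)
    (hsep : α.eval 0 ^ 3 ≠ β.eval 0 ^ 2) (M : ℕ) (hM : 0 < M) (k1 : ℕ)
    (Wf : ℕ → WeierstrassCurve ℤ) (hΔ : ∀ k : ℕ, k1 ≤ k → (Wf k).Δ ≠ 0)
    (hc4 : ∀ k : ℕ, k1 ≤ k → (((Wf k).c₄ : ℤ) : ℝ)
      = (1 + (M : ℝ) * k) ^ 20 * α.eval ((M : ℝ) / (1 + (M : ℝ) * k)))
    (hc6 : ∀ k : ℕ, k1 ≤ k → (((Wf k).c₆ : ℤ) : ℝ)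
      = (1 + (M : ℝ) * k) ^ 30 * β.eval ((M : ℝ) / (1 + (M : ℝ) * k)))
    (D Th : ℂ[X]) (kap : ℂ) (hk : kap ≠ 0)
    (hF1 : α.map Complex.ofRealHom ^ 3 - β.map Complex.ofRealHom ^ 2 = C kap * D ^ 5)
    (hF3 : α.map Complex.ofRealHom * derivative D - 12 * β.map Complex.ofRealHom = Th * D)
    (hC4 : ∀ c, D.IsRoot c → (α.map Complex.ofRealHom).eval c ≠ 0) (hdeg : 11 ≤ D.natDegree)
    (hne : (derivative D) ^ 4 - 96 * α.map Complex.ofRealHom * (derivative D) ^ 2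
      - 512 * β.map Complex.ofRealHom * derivative D - 768 * α.map Complex.ofRealHom ^ 2 ≠ 0) :
    ∃ k : ℕ, k1 ≤ k ∧ (Wf k).ModRepIsIrreducible 3 :=
  exists_irreducible_three_of_no_root Complex.ofRealHom 10 α β hα hβ hsep M hM k1 Wf hΔ hc4 hc6
    (fun P hP h0 => Fermat.Agent.S52.H48.no_poly_root (α.map Complex.ofRealHom)
      (β.map Complex.ofRealHom) D Th P kap hk hF1 hF3 hC4 hdeg hne hP h0)

end Fermat.Agent.S52.H05
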