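import Mathlib
import Fermat.Prelude.Def_FLTPrelim_Modularity
import Fermat.Agent.S52.FrobFive_helper47
import Fermat.Agent.S52.Lift_helper83
import Fermat.Agent.S52.Bridge_helper83
import Fermat.Agent.S52.Struct_helper34

/-!
# S52: the congruence `a_l(W') ≡ a_l(W) (mod 5)` from line-level Klein data

`five_dvd_card_sub_of_line`: over `ZMod l` (`l ∉ {2, 3, 5}`), let `(c4, c6)` and `(c4', c6')` be
the two ends (`s = 0, 1`) of a polynomial path `(A4(s), A6(s))` which over an algebraically closed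
field `K ⊇ ZMod l` is the image under `(-kH, -kT)` of a LINE `s ↦ (u0 + s u1, v0 + s v1)` through
a Klein lift `(u0, v0)` of `(c4, c6)` (`hfam`, = identity (F2) of the family), and suppose that
along every line there are twelve polynomial sections `(X j, Y j)` of `ψ₅`-roots (`hsec`, = the
Klein section data).  Then `5 ∣ #E'(ZMod l) - #E(ZMod l)` for the short curves
`E = H83.shortCurve c4 c6`, `E' = H83.shortCurve c4' c6'`.

`five_dvd_apOfModel_sub_of_line`: the same for the traces `apOfModel` of two integral models.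
-/

set_option autoImplicit false
set_option linter.unusedSectionVars false

open Polynomial WeierstrassCurve WeierstrassCurve.Affine

namespace Fermat.Agent.S52.H47

/-- Two points with the same abscissa and equal ordinates. -/
lemma eq_some_iff_of_eq {K : Type*} [Field K] {W : WeierstrassCurve.Affine K} {x y y' : K}
    (hy : y = y') (h : W.Nonsingular x y) (h' : W.Nonsingular x y') (P : W.Point) :
    P = Point.some x y h ↔ P = Point.some x y' h' := by
  subst hy
  rfl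

section Line

variable (l : ℕ) [Fact l.Prime] {K : Type*} [Field K] [DecidableEq K] [CharP K l]

lemma prime_cast_ne_zero {p : ℕ} (hp : p.Prime) (hlp : l ≠ p) : ((p : ℕ) : K) ≠ 0 := by
  intro h
  have hdvd : l ∣ p := (CharP.cast_eq_zero_iff K l p).mp h
  exact hlp ((Nat.prime_dvd_prime_iff_eq (Fact.out : l.Prime) hp).mp hdvd)

theorem five_dvd_card_sub_of_line [IsAlgClosed K] (hl2 : l ≠ 2) (hl3 : l ≠ 3) (hl5 : l ≠ 5)
    (j0 : ZMod l →+* K) (c4 c6 c4' c6' : ZMod l) (hΔ : c4 ^ 3 ≠ c6 ^ 2)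
    (hΔ' : c4' ^ 3 ≠ c6' ^ 2) (A4 A6 D : (ZMod l)[X])
    (h40 : A4.eval 0 = c4) (h60 : A6.eval 0 = c6) (h41 : A4.eval 1 = c4')
    (h61 : A6.eval 1 = c6')
    (hfam : ∀ u0 v0 : K, -H83.kH u0 v0 = j0 c4 → -H83.kT u0 v0 = j0 c6 →
      ∃ u1 v1 : K, ∀ s : K,
        -H83.kH (u0 + s * u1) (v0 + s * v1) = (A4.map j0).eval s ∧
        -H83.kT (u0 + s * u1) (v0 + s * v1) = (A6.map j0).eval s ∧
        H83.kf (u0 + s * u1) (v0 + s * v1) = H83.kf u0 v0 * (D.map j0).eval s)
    (hsec : ∀ u0 u1 v0 v1 : K, ∃ X Y : Fin 12 → K[X], ∀ s : K,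
      (∀ j, (Y j).eval s ^ 2 = (X j).eval s ^ 3
          + 27 * H83.kH (u0 + s * u1) (v0 + s * v1) * (X j).eval s
          + 54 * H83.kT (u0 + s * u1) (v0 + s * v1)) ∧
      (∀ j, Fermat.Agent.S51.H80.psi5 (H34.shortW (27 * H83.kH (u0 + s * u1) (v0 + s * v1))
          (54 * H83.kT (u0 + s * u1) (v0 + s * v1))) ((X j).eval s) = 0) ∧
      (H83.kf (u0 + s * u1) (v0 + s * v1) ≠ 0 → Function.Injective fun j => (X j).eval s)) :
    (5 : ℤ) ∣ (Nat.card (H83.shortCurve c4' c6').toAffine.Point : ℤ)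
      - (Nat.card (H83.shortCurve c4 c6).toAffine.Point : ℤ) := by
  -- characteristic facts
  have h2 : (2 : K) ≠ 0 := by
    have := prime_cast_ne_zero (K := K) l Nat.prime_two hl2
    exact_mod_cast this
  have h3 : (3 : K) ≠ 0 := by
    have := prime_cast_ne_zero (K := K) l Nat.prime_three hl3
    exact_mod_cast this
  have h5 : (5 : K) ≠ 0 := by
    have := prime_cast_ne_zero (K := K) l Nat.prime_five hl5
    exact_mod_cast this
  have h2' : (2 : ZMod l) ≠ 0 := by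
    have := prime_cast_ne_zero (K := ZMod l) l Nat.prime_two hl2
    exact_mod_cast this
  have h3' : (3 : ZMod l) ≠ 0 := by
    have := prime_cast_ne_zero (K := ZMod l) l Nat.prime_three hl3
    exact_mod_cast this
  have hperf : Function.Surjective (frobenius K l) := by
    intro x
    obtain ⟨z, hz⟩ := IsAlgClosed.exists_pow_nat_eq x (n := l) (Fact.out : l.Prime).pos
    exact ⟨z, by rw [frobenius_def, hz]⟩
  -- the lift and the line
  have hdK : (j0 c4) ^ 3 ≠ (j0 c6) ^ 2 := by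
    rw [← map_pow, ← map_pow]
    exact fun h => hΔ (j0.injective h)
  obtain ⟨u0, v0, hH0, hT0, hf0⟩ := H83.exists_klein_lift h2 h3 h5 (j0 c4) (j0 c6) hdK
  obtain ⟨u1, v1, hline⟩ := hfam u0 v0 hH0 hT0
  obtain ⟨X, Y, hXY⟩ := hsec u0 u1 v0 v1
  -- the good set
  have hg0 : (D.map j0).eval 0 = 1 := by
    have := (hline 0).2.2
    simp only [zero_mul, add_zero] at this
    have h' : H83.kf u0 v0 * (D.map j0).eval 0 = H83.kf u0 v0 * 1 := by rw [mul_one]; exact this.symm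
    exact mul_left_cancel₀ hf0 h'
  have hg : D.map j0 ≠ 0 := by
    intro h
    rw [h, eval_zero] at hg0
    exact zero_ne_one hg0
  have he1 : ∀ p : (ZMod l)[X], (p.map j0).eval 1 = j0 (p.eval 1) := by
    intro p
    have := Polynomial.eval_map_apply (p := p) j0 1
    rwa [map_one] at this
  have hdK' : (j0 c4') ^ 3 ≠ (j0 c6') ^ 2 := by
    rw [← map_pow, ← map_pow]
    exact fun h => hΔ' (j0.injective h)
  have hg1 : (D.map j0).eval 1 ≠ 0 := by
    have hH1 : -H83.kH (u0 + 1 * u1) (v0 + 1 * v1) = j0 c4' := by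
      rw [(hline 1).1, he1, h41]
    have hT1 : -H83.kT (u0 + 1 * u1) (v0 + 1 * v1) = j0 c6' := by
      rw [(hline 1).2.1, he1, h61]
    have hf1 := H83.kf_ne_zero_of_lift hdK' hH1 hT1
    rw [(hline 1).2.2] at hf1
    exact right_ne_zero_of_mul hf1
  -- the family over `ZMod l`
  set A₀ : (ZMod l)[X] := C (-27) * A4 with hA₀
  set B₀ : (ZMod l)[X] := C (-54) * A6 with hB₀
  have hA : ∀ s, (A₀.map j0).eval s = 27 * H83.kH (u0 + s * u1) (v0 + s * v1) := by
    intro s
    have := (hline s).1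
    rw [hA₀, Polynomial.map_mul, Polynomial.map_C, eval_mul, eval_C, ← this, map_neg]
    have e : j0 27 = 27 := map_ofNat j0 27
    rw [e]; ring
  have hB : ∀ s, (B₀.map j0).eval s = 54 * H83.kT (u0 + s * u1) (v0 + s * v1) := by
    intro s
    have := (hline s).2.1
    rw [hB₀, Polynomial.map_mul, Polynomial.map_C, eval_mul, eval_C, ← this, map_neg]
    have e : j0 54 = 54 := map_ofNat j0 54
    rw [e]; ring
  -- the section system
  set X' : Fin 12 × Bool → K[X] := fun i => X i.1 with hX'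
  set Y' : Fin 12 × Bool → K[X] := fun i => bif i.2 then -(Y i.1) else Y i.1 with hY'
  have hYs : ∀ (s : K) (i : Fin 12 × Bool),
      (Y' i).eval s = H34.signY (fun j => (Y j).eval s) i := by
    rintro s ⟨j, _ | _⟩ <;> simp [hY', H34.signY]
  have hfs : ∀ s, (D.map j0).eval s ≠ 0 → H83.kf (u0 + s * u1) (v0 + s * v1) ≠ 0 := by
    intro s hs
    rw [(hline s).2.2]
    exact mul_ne_zero hf0 hs
  have hdisc : ∀ s, (D.map j0).eval s ≠ 0 →
      4 * (A₀.map j0).eval s ^ 3 + 27 * (B₀.map j0).eval s ^ 2 ≠ 0 := by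
    intro s hs h0
    rw [hA, hB] at h0
    have hrel := H83.klein_rel (u0 + s * u1) (v0 + s * v1)
    have e : (2 : K) ^ 8 * 3 ^ 12 * H83.kf (u0 + s * u1) (v0 + s * v1) ^ 5 = 0 := by
      linear_combination h0 - 78732 * hrel
    have hne : (2 : K) ^ 8 * 3 ^ 12 ≠ 0 := mul_ne_zero (pow_ne_zero _ h2) (pow_ne_zero _ h3)
    rcases mul_eq_zero.mp e with e' | e'
    · exact hne e'
    · exact hfs s hs (pow_eq_zero_iff (by norm_num) |>.mp e')
  have hcurve : ∀ s, ∀ j, (Y j).eval s ^ 2 = (X j).eval s ^ 3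
      + (A₀.map j0).eval s * (X j).eval s + (B₀.map j0).eval s := by
    intro s j
    rw [hA, hB]
    exact (hXY s).1 j
  have hpsi : ∀ s, ∀ j, Fermat.Agent.S51.H80.psi5
      (H34.shortW ((A₀.map j0).eval s) ((B₀.map j0).eval s)) ((X j).eval s) = 0 := by
    intro s j
    rw [hA, hB]
    exact (hXY s).2.1 j
  have hsys : ∀ s, (D.map j0).eval s ≠ 0 →
      H44.IsSysAt (A₀.map j0) (B₀.map j0) 5 X' Y' s := by
    intro s hs
    have hinj := (hXY s).2.2 (hfs s hs)
    have hns := H34.short_sections_nonsingular h2 (hdisc s hs) (fun j => (X j).eval s)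
      (fun j => (Y j).eval s) (hcurve s)
    have hns' : ∀ i, (H44.shortW ((A₀.map j0).eval s) ((B₀.map j0).eval s)).Nonsingular
        ((X' i).eval s) ((Y' i).eval s) := by
      intro i
      rw [hYs s i]
      exact hns i
    refine ⟨hns', fun P => ?_⟩
    have key := H34.fiveTorsion_iff_of_short h2 h5 (hdisc s hs) (fun j => (X j).eval s)
      (fun j => (Y j).eval s) (hcurve s) (hpsi s) hinj P
    refine key.trans (exists_congr fun i => ?_)
    exact eq_some_iff_of_eq (hYs s i).symm _ (hns' i) P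
  have hinj : ∀ s, (D.map j0).eval s ≠ 0 → ∀ i j, (X' i).eval s = (X' j).eval s →
      (Y' i).eval s = (Y' j).eval s → i = j := by
    intro s hs i j hx hy
    have hinj0 := (hXY s).2.2 (hfs s hs)
    have := H34.short_sections_injective h2 (hdisc s hs) (fun j => (X j).eval s)
      (fun j => (Y j).eval s) (hcurve s) (hpsi s) hinj0
    apply this
    rw [hYs s i, hYs s j] at hy
    exact Prod.ext hx hy
  -- discriminants over `ZMod l`
  have hd : ∀ a b : ZMod l, a ^ 3 ≠ b ^ 2 →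
      4 * (-27 * a) ^ 3 + 27 * (-54 * b) ^ 2 ≠ 0 := by
    intro a b hab h0
    have e : (2 : ZMod l) ^ 2 * 3 ^ 9 * (a ^ 3 - b ^ 2) = 0 := by linear_combination -h0
    have hne : (2 : ZMod l) ^ 2 * 3 ^ 9 ≠ 0 := mul_ne_zero (pow_ne_zero _ h2') (pow_ne_zero _ h3')
    rcases mul_eq_zero.mp e with e' | e'
    · exact hne e'
    · exact hab (sub_eq_zero.mp e')
  have hA0 : A₀.eval 0 = -27 * c4 := by rw [hA₀, eval_mul, eval_C, h40]
  have hB0 : B₀.eval 0 = -54 * c6 := by rw [hB₀, eval_mul, eval_C, h60]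
  have hA1 : A₀.eval 1 = -27 * c4' := by rw [hA₀, eval_mul, eval_C, h41]
  have hB1 : B₀.eval 1 = -54 * c6' := by rw [hB₀, eval_mul, eval_C, h61]
  have key := dvd_card_sub_card_of_family l hl2 hperf h2 (n := 5) (by norm_num) (by norm_num)
    j0 A₀ B₀ X' Y' (D.map j0) hg hsys hinj 0 1
    (by rw [map_zero, hg0]; exact one_ne_zero) (by rw [map_one]; exact hg1)
    (by rw [hA0, hB0]; exact hd c4 c6 hΔ) (by rw [hA1, hB1]; exact hd c4' c6' hΔ')
  rw [hA0, hB0, hA1, hB1] at key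
  exact key

end Line

section Models

/-- `c₄³ ≠ c₆²` modulo a good prime `l ∉ {2, 3}`. -/
lemma c4_cube_ne_c6_sq_of_good (W : WeierstrassCurve ℤ) (l : ℕ) (hl : l.Prime) (hl2 : l ≠ 2)
    (hl3 : l ≠ 3) (hgood : ¬ (l : ℤ) ∣ W.Δ) :
    ((W.c₄ : ℤ) : ZMod l) ^ 3 ≠ ((W.c₆ : ℤ) : ZMod l) ^ 2 := by
  intro h
  have h1 : ((W.c₄ ^ 3 - W.c₆ ^ 2 : ℤ) : ZMod l) = 0 := by
    push_cast
    rw [h, sub_self]
  rw [ZMod.intCast_zmod_eq_zero_iff_dvd, ← W.c_relation] at h1
  have hlp : Prime (l : ℤ) := Nat.prime_iff_prime_int.mp hl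
  rcases hlp.dvd_mul.mp h1 with h2 | h2
  · have e : (1728 : ℤ) = 2 ^ 6 * 3 ^ 3 := by norm_num
    rw [e] at h2
    rcases hlp.dvd_mul.mp h2 with h3 | h3
    · have h4 := hlp.dvd_of_dvd_pow h3
      have h5 : l ∣ 2 := by exact_mod_cast h4
      exact hl2 ((Nat.prime_dvd_prime_iff_eq hl Nat.prime_two).mp h5)
    · have h4 := hlp.dvd_of_dvd_pow h3
      have h5 : l ∣ 3 := by exact_mod_cast h4
      exact hl3 ((Nat.prime_dvd_prime_iff_eq hl Nat.prime_three).mp h5)
  · exact hgood h2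

/-- **The `hmod5` input of the assembly, from line-level data.**  `W`, `W'` integral models with
good reduction at a prime `l ∉ {2, 3, 5}`, whose invariants modulo `l` are the two ends of a
polynomial path `(A4, A6)` over `ZMod l` satisfying the line hypotheses `hfam` (family identity
(F2) along a line through a Klein lift) and `hsec` (Klein sections along lines) over
`AlgebraicClosure (ZMod l)`.  Then `5 ∣ a_l(W') - a_l(W)`. -/
theorem five_dvd_apOfModel_sub_of_line (W W' : WeierstrassCurve ℤ) (l : ℕ) [Fact l.Prime]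
    (hl2 : l ≠ 2) (hl3 : l ≠ 3) (hl5 : l ≠ 5) (hgood : ¬ (l : ℤ) ∣ W.Δ)
    (hgood' : ¬ (l : ℤ) ∣ W'.Δ) (A4 A6 D : (ZMod l)[X])
    (h40 : A4.eval 0 = ((W.c₄ : ℤ) : ZMod l)) (h60 : A6.eval 0 = ((W.c₆ : ℤ) : ZMod l))
    (h41 : A4.eval 1 = ((W'.c₄ : ℤ) : ZMod l)) (h61 : A6.eval 1 = ((W'.c₆ : ℤ) : ZMod l))
    (hfam : ∀ u0 v0 : AlgebraicClosure (ZMod l),
      -H83.kH u0 v0 = algebraMap (ZMod l) (AlgebraicClosure (ZMod l)) ((W.c₄ : ℤ) : ZMod l) →
      -H83.kT u0 v0 = algebraMap (ZMod l) (AlgebraicClosure (ZMod l)) ((W.c₆ : ℤ) : ZMod l) →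
      ∃ u1 v1 : AlgebraicClosure (ZMod l), ∀ s : AlgebraicClosure (ZMod l),
        -H83.kH (u0 + s * u1) (v0 + s * v1)
          = (A4.map (algebraMap (ZMod l) (AlgebraicClosure (ZMod l)))).eval s ∧
        -H83.kT (u0 + s * u1) (v0 + s * v1)
          = (A6.map (algebraMap (ZMod l) (AlgebraicClosure (ZMod l)))).eval s ∧
        H83.kf (u0 + s * u1) (v0 + s * v1) = H83.kf u0 v0 *
          (D.map (algebraMap (ZMod l) (AlgebraicClosure (ZMod l)))).eval s)
    (hsec : ∀ u0 u1 v0 v1 : AlgebraicClosure (ZMod l),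
      ∃ X Y : Fin 12 → (AlgebraicClosure (ZMod l))[X], ∀ s : AlgebraicClosure (ZMod l),
      (∀ j, (Y j).eval s ^ 2 = (X j).eval s ^ 3
          + 27 * H83.kH (u0 + s * u1) (v0 + s * v1) * (X j).eval s
          + 54 * H83.kT (u0 + s * u1) (v0 + s * v1)) ∧
      (∀ j, 5 * (X j).eval s ^ 12 + 62 * (27 * H83.kH (u0 + s * u1) (v0 + s * v1)) * (X j).eval s ^ 10
          + 380 * (54 * H83.kT (u0 + s * u1) (v0 + s * v1)) * (X j).eval s ^ 9
          - 105 * (27 * H83.kH (u0 + s * u1) (v0 + s * v1)) ^ 2 * (X j).eval s ^ 8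
          + 240 * (27 * H83.kH (u0 + s * u1) (v0 + s * v1))
            * (54 * H83.kT (u0 + s * u1) (v0 + s * v1)) * (X j).eval s ^ 7
          + (-300 * (27 * H83.kH (u0 + s * u1) (v0 + s * v1)) ^ 3
            - 240 * (54 * H83.kT (u0 + s * u1) (v0 + s * v1)) ^ 2) * (X j).eval s ^ 6
          - 696 * (27 * H83.kH (u0 + s * u1) (v0 + s * v1)) ^ 2
            * (54 * H83.kT (u0 + s * u1) (v0 + s * v1)) * (X j).eval s ^ 5
          + (-125 * (27 * H83.kH (u0 + s * u1) (v0 + s * v1)) ^ 4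
            - 1920 * (27 * H83.kH (u0 + s * u1) (v0 + s * v1))
              * (54 * H83.kT (u0 + s * u1) (v0 + s * v1)) ^ 2) * (X j).eval s ^ 4
          + (-80 * (27 * H83.kH (u0 + s * u1) (v0 + s * v1)) ^ 3
              * (54 * H83.kT (u0 + s * u1) (v0 + s * v1))
            - 1600 * (54 * H83.kT (u0 + s * u1) (v0 + s * v1)) ^ 3) * (X j).eval s ^ 3
          + (-50 * (27 * H83.kH (u0 + s * u1) (v0 + s * v1)) ^ 5
            - 240 * (27 * H83.kH (u0 + s * u1) (v0 + s * v1)) ^ 2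
              * (54 * H83.kT (u0 + s * u1) (v0 + s * v1)) ^ 2) * (X j).eval s ^ 2
          + (-100 * (27 * H83.kH (u0 + s * u1) (v0 + s * v1)) ^ 4
              * (54 * H83.kT (u0 + s * u1) (v0 + s * v1))
            - 640 * (27 * H83.kH (u0 + s * u1) (v0 + s * v1))
              * (54 * H83.kT (u0 + s * u1) (v0 + s * v1)) ^ 3) * (X j).eval s
          + ((27 * H83.kH (u0 + s * u1) (v0 + s * v1)) ^ 6
            - 32 * (27 * H83.kH (u0 + s * u1) (v0 + s * v1)) ^ 3
              * (54 * H83.kT (u0 + s * u1) (v0 + s * v1)) ^ 2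
            - 256 * (54 * H83.kT (u0 + s * u1) (v0 + s * v1)) ^ 4) = 0) ∧
      (H83.kf (u0 + s * u1) (v0 + s * v1) ≠ 0 → Function.Injective fun j => (X j).eval s)) :
    (5 : ℤ) ∣ W'.apOfModel l - W.apOfModel l := by
  classical
  have hl : l.Prime := Fact.out
  have h5 : 5 ≤ l := by
    have h2 := hl.two_le
    have h4 : l ≠ 4 := by
      rintro rfl
      exact absurd hl (by norm_num)
    omega
  have hsec' : ∀ u0 u1 v0 v1 : AlgebraicClosure (ZMod l),
      ∃ X Y : Fin 12 → (AlgebraicClosure (ZMod l))[X], ∀ s : AlgebraicClosure (ZMod l),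
      (∀ j, (Y j).eval s ^ 2 = (X j).eval s ^ 3
          + 27 * H83.kH (u0 + s * u1) (v0 + s * v1) * (X j).eval s
          + 54 * H83.kT (u0 + s * u1) (v0 + s * v1)) ∧
      (∀ j, Fermat.Agent.S51.H80.psi5 (H34.shortW (27 * H83.kH (u0 + s * u1) (v0 + s * v1))
          (54 * H83.kT (u0 + s * u1) (v0 + s * v1))) ((X j).eval s) = 0) ∧
      (H83.kf (u0 + s * u1) (v0 + s * v1) ≠ 0 → Function.Injective fun j => (X j).eval s) := by
    intro u0 u1 v0 v1
    obtain ⟨X, Y, h⟩ := hsec u0 u1 v0 v1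
    refine ⟨X, Y, fun s => ⟨(h s).1, fun j => ?_, (h s).2.2⟩⟩
    rw [H34.psi5_shortW]
    exact (h s).2.1 j
  have key := five_dvd_card_sub_of_line l hl2 hl3 hl5
    (algebraMap (ZMod l) (AlgebraicClosure (ZMod l))) _ _ _ _
    (c4_cube_ne_c6_sq_of_good W l hl hl2 hl3 hgood)
    (c4_cube_ne_c6_sq_of_good W' l hl hl2 hl3 hgood') A4 A6 D h40 h60 h41 h61 hfam hsec'
  rw [H83.apOfModel_eq_short W l hl h5, H83.apOfModel_eq_short W' l hl h5]
  have e : ((l : ℤ) + 1 - (Nat.card (H83.shortCurve ((W'.c₄ : ℤ) : ZMod l)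
        ((W'.c₆ : ℤ) : ZMod l)).toAffine.Point : ℤ))
      - ((l : ℤ) + 1 - (Nat.card (H83.shortCurve ((W.c₄ : ℤ) : ZMod l)
        ((W.c₆ : ℤ) : ZMod l)).toAffine.Point : ℤ))
      = -((Nat.card (H83.shortCurve ((W'.c₄ : ℤ) : ZMod l)
        ((W'.c₆ : ℤ) : ZMod l)).toAffine.Point : ℤ)
        - (Nat.card (H83.shortCurve ((W.c₄ : ℤ) : ZMod l)
        ((W.c₆ : ℤ) : ZMod l)).toAffine.Point : ℤ)) := by ring
  rw [e]
  exact (dvd_neg).mpr key

end Models

end Fermat.Agent.S52.H47
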