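import Mathlib
import Fermat.Agent.S52.KleinBridge_helper29
import Fermat.Agent.S52.LineMod5_helper47

/-!
# S52: the Klein sections along lines = hypothesis `hsec` of `H47.five_dvd_apOfModel_sub_of_line`
(helper29)

* `klein_hsec`, `klein_hsec'` : the two literal shapes of `hsec` (with `S51.H80.psi5` resp. the
  expanded fifth division polynomial);
* `five_dvd_apOfModel_sub_of_fam`, `five_dvd_card_sub_of_fam` : helper47's theorems with `hsec`
  discharged, so that only the family hypothesis `hfam` remains.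
-/

set_option autoImplicit false
set_option linter.unusedSectionVars false

open WeierstrassCurve WeierstrassCurve.Affine Polynomial

namespace Fermat.Agent.S52.H29

section Line

variable {K : Type*} [Field K]

/-- the `x`-sections along the line `(u0 + s u1, v0 + s v1)` as polynomials in `s` -/
noncomputable def lineX (r z u0 u1 v0 v1 : K) (j : Fin 12) : K[X] :=
  secX (C r) (C z) (C u0 + X * C u1) (C v0 + X * C v1) (lbl j)

/-- the `y`-sections along the line `(u0 + s u1, v0 + s v1)` as polynomials in `s` -/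
noncomputable def lineY (r z u0 u1 v0 v1 : K) (j : Fin 12) : K[X] :=
  secY (C r) (C z) (C u0 + X * C u1) (C v0 + X * C v1) (lbl j)

theorem lineX_eval (r z u0 u1 v0 v1 : K) (j : Fin 12) (s : K) :
    (lineX r z u0 u1 v0 v1 j).eval s = secX r z (u0 + s * u1) (v0 + s * v1) (lbl j) := by
  have h := map_secX (Polynomial.evalRingHom s) (C r) (C z) (C u0 + X * C u1) (C v0 + X * C v1)
    (lbl j)
  simp only [Polynomial.coe_evalRingHom, eval_add, eval_mul, eval_C, eval_X] at h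
  exact h

theorem lineY_eval (r z u0 u1 v0 v1 : K) (j : Fin 12) (s : K) :
    (lineY r z u0 u1 v0 v1 j).eval s = secY r z (u0 + s * u1) (v0 + s * v1) (lbl j) := by
  have h := map_secY (Polynomial.evalRingHom s) (C r) (C z) (C u0 + X * C u1) (C v0 + X * C v1)
    (lbl j)
  simp only [Polynomial.coe_evalRingHom, eval_add, eval_mul, eval_C, eval_X] at h
  exact h

/-- `hsec` in the expanded-`ψ₅` form of `H47.five_dvd_apOfModel_sub_of_line`. -/
theorem klein_hsec (h2 : (2 : K) ≠ 0) (h3 : (3 : K) ≠ 0) (h5 : (5 : K) ≠ 0) (z : K)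
    (hz : z ^ 4 + z ^ 3 + z ^ 2 + z + 1 = 0) :
    ∀ u0 u1 v0 v1 : K, ∃ X Y : Fin 12 → K[X], ∀ s : K,
      (∀ j, (Y j).eval s ^ 2 = (X j).eval s ^ 3
          + 27 * H83.kH (u0 + s * u1) (v0 + s * v1) * (X j).eval s
          + 54 * H83.kT (u0 + s * u1) (v0 + s * v1)) ∧
      (∀ j, 5 * (X j).eval s ^ 12 + 62 * (27 * H83.kH (u0 + s * u1) (v0 + s * v1)) * (X j).eval s ^ 10
          + 380 * (54 * H83.kT (u0 + s * u1) (v0 + s * v1)) * (X j).eval s ^ 9
          - 105 * (27 * H83.kH (u0 + s * u1) (v0 + s * v1)) ^ 2 * (X j).eval s ^ 8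
          + 240 * (27 * H83.kH (u0 + s * u1) (v0 + s * v1))
            * (54 * H83.kT (u0 + s * u1) (v0 + s * v1)) * (X j).eval s ^ 7
          + (-300 * (27 * H83.kH (u0 + s * u1) (v0 + s * v1)) ^ 3
            - 240 * (54 * H83.kT (u0 + s * u1) (v0 + s * v1)) ^ 2) * (X j).eval s ^ 6
          - 696 * (27 * H83.kH (u0 + s * u1) (v0 + s * v1)) ^ 2
            * (54 * H83.kT (u0 + s * u1) (v0 + s * v1)) * (X j).eval s ^ 5
          + (-125 * (27 * H83.kH (u0 + s * u1) (v0 + s * v1)) ^ 4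
            - 1920 * (27 * H83.kH (u0 + s * u1) (v0 + s * v1))
              * (54 * H83.kT (u0 + s * u1) (v0 + s * v1)) ^ 2) * (X j).eval s ^ 4
          + (-80 * (27 * H83.kH (u0 + s * u1) (v0 + s * v1)) ^ 3
              * (54 * H83.kT (u0 + s * u1) (v0 + s * v1))
            - 1600 * (54 * H83.kT (u0 + s * u1) (v0 + s * v1)) ^ 3) * (X j).eval s ^ 3
          + (-50 * (27 * H83.kH (u0 + s * u1) (v0 + s * v1)) ^ 5
            - 240 * (27 * H83.kH (u0 + s * u1) (v0 + s * v1)) ^ 2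
              * (54 * H83.kT (u0 + s * u1) (v0 + s * v1)) ^ 2) * (X j).eval s ^ 2
          + (-100 * (27 * H83.kH (u0 + s * u1) (v0 + s * v1)) ^ 4
              * (54 * H83.kT (u0 + s * u1) (v0 + s * v1))
            - 640 * (27 * H83.kH (u0 + s * u1) (v0 + s * v1))
              * (54 * H83.kT (u0 + s * u1) (v0 + s * v1)) ^ 3) * (X j).eval s
          + ((27 * H83.kH (u0 + s * u1) (v0 + s * v1)) ^ 6
            - 32 * (27 * H83.kH (u0 + s * u1) (v0 + s * v1)) ^ 3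
              * (54 * H83.kT (u0 + s * u1) (v0 + s * v1)) ^ 2
            - 256 * (54 * H83.kT (u0 + s * u1) (v0 + s * v1)) ^ 4) = 0) ∧
      (H83.kf (u0 + s * u1) (v0 + s * v1) ≠ 0 → Function.Injective fun j => (X j).eval s) := by
  intro u0 u1 v0 v1
  have hr : 5 * (5 : K)⁻¹ = 1 := mul_inv_cancel₀ h5
  refine ⟨lineX (5 : K)⁻¹ z u0 u1 v0 v1, lineY (5 : K)⁻¹ z u0 u1 v0 v1, fun s => ⟨?_, ?_, ?_⟩⟩
  · intro j
    rw [lineX_eval, lineY_eval, ← kH_eq_kH, ← kT_eq_kT]
    exact sec_curve _ z _ _ hr hz (lbl j)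
  · intro j
    rw [lineX_eval, ← kH_eq_kH, ← kT_eq_kT]
    exact sec_psi5 _ z _ _ hr hz (lbl j)
  · intro hf
    have hf' : kF (u0 + s * u1) (v0 + s * v1) ≠ 0 := by rw [kF_eq_kf]; exact hf
    have hinj := (secX_injective h2 h3 h5 _ z _ _ hr hz hf').comp lbl_injective
    intro i j hij
    have hij' : (lineX (5 : K)⁻¹ z u0 u1 v0 v1 i).eval s = (lineX (5 : K)⁻¹ z u0 u1 v0 v1 j).eval s :=
      hij
    rw [lineX_eval, lineX_eval] at hij'
    exact hinj hij'

/-- `hsec` in the `S51.H80.psi5` form of `H47.five_dvd_card_sub_of_line`. -/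
theorem klein_hsec' [DecidableEq K] (h2 : (2 : K) ≠ 0) (h3 : (3 : K) ≠ 0) (h5 : (5 : K) ≠ 0)
    (z : K) (hz : z ^ 4 + z ^ 3 + z ^ 2 + z + 1 = 0) :
    ∀ u0 u1 v0 v1 : K, ∃ X Y : Fin 12 → K[X], ∀ s : K,
      (∀ j, (Y j).eval s ^ 2 = (X j).eval s ^ 3
          + 27 * H83.kH (u0 + s * u1) (v0 + s * v1) * (X j).eval s
          + 54 * H83.kT (u0 + s * u1) (v0 + s * v1)) ∧
      (∀ j, Fermat.Agent.S51.H80.psi5 (H34.shortW (27 * H83.kH (u0 + s * u1) (v0 + s * v1))
          (54 * H83.kT (u0 + s * u1) (v0 + s * v1))) ((X j).eval s) = 0) ∧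
      (H83.kf (u0 + s * u1) (v0 + s * v1) ≠ 0 → Function.Injective fun j => (X j).eval s) := by
  intro u0 u1 v0 v1
  obtain ⟨X, Y, h⟩ := klein_hsec h2 h3 h5 z hz u0 u1 v0 v1
  refine ⟨X, Y, fun s => ⟨(h s).1, fun j => ?_, (h s).2.2⟩⟩
  rw [H34.psi5_shortW]
  exact (h s).2.1 j

end Line

/-- helper47's `five_dvd_apOfModel_sub_of_line` with the Klein-section hypothesis discharged:
only the family hypothesis `hfam` (= (F2) along a line) remains. -/
theorem five_dvd_apOfModel_sub_of_fam (W W' : WeierstrassCurve ℤ) (l : ℕ) [Fact l.Prime]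
    (hl2 : l ≠ 2) (hl3 : l ≠ 3) (hl5 : l ≠ 5) (hgood : ¬ (l : ℤ) ∣ W.Δ)
    (hgood' : ¬ (l : ℤ) ∣ W'.Δ) (A4 A6 D : (ZMod l)[X])
    (h40 : A4.eval 0 = ((W.c₄ : ℤ) : ZMod l)) (h60 : A6.eval 0 = ((W.c₆ : ℤ) : ZMod l))
    (h41 : A4.eval 1 = ((W'.c₄ : ℤ) : ZMod l)) (h61 : A6.eval 1 = ((W'.c₆ : ℤ) : ZMod l))
    (hfam : ∀ u0 v0 : AlgebraicClosure (ZMod l),
      -H83.kH u0 v0 = algebraMap (ZMod l) (AlgebraicClosure (ZMod l)) ((W.c₄ : ℤ) : ZMod l) →
      -H83.kT u0 v0 = algebraMap (ZMod l) (AlgebraicClosure (ZMod l)) ((W.c₆ : ℤ) : ZMod l) →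
      ∃ u1 v1 : AlgebraicClosure (ZMod l), ∀ s : AlgebraicClosure (ZMod l),
        -H83.kH (u0 + s * u1) (v0 + s * v1)
          = (A4.map (algebraMap (ZMod l) (AlgebraicClosure (ZMod l)))).eval s ∧
        -H83.kT (u0 + s * u1) (v0 + s * v1)
          = (A6.map (algebraMap (ZMod l) (AlgebraicClosure (ZMod l)))).eval s ∧
        H83.kf (u0 + s * u1) (v0 + s * v1) = H83.kf u0 v0 *
          (D.map (algebraMap (ZMod l) (AlgebraicClosure (ZMod l)))).eval s) :
    (5 : ℤ) ∣ W'.apOfModel l - W.apOfModel l := by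
  have hl : l.Prime := Fact.out
  have hne : ∀ p : ℕ, p.Prime → l ≠ p → ((p : ℕ) : AlgebraicClosure (ZMod l)) ≠ 0 := by
    intro p hp hlp h
    have hdvd : l ∣ p := (CharP.cast_eq_zero_iff (AlgebraicClosure (ZMod l)) l p).mp h
    exact hlp ((Nat.prime_dvd_prime_iff_eq hl hp).mp hdvd)
  have h2 : (2 : AlgebraicClosure (ZMod l)) ≠ 0 := by
    have := hne 2 Nat.prime_two hl2; exact_mod_cast this
  have h3 : (3 : AlgebraicClosure (ZMod l)) ≠ 0 := by
    have := hne 3 Nat.prime_three hl3; exact_mod_cast this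
  have h5 : (5 : AlgebraicClosure (ZMod l)) ≠ 0 := by
    have := hne 5 Nat.prime_five hl5; exact_mod_cast this
  obtain ⟨z, hz⟩ := exists_root_phi5 (AlgebraicClosure (ZMod l))
  exact H47.five_dvd_apOfModel_sub_of_line W W' l hl2 hl3 hl5 hgood hgood' A4 A6 D h40 h60 h41 h61
    hfam (klein_hsec h2 h3 h5 z hz)

end Fermat.Agent.S52.H29
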