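/-
S52 node D (Lift), helper55.

Over an algebraically closed field of characteristic not 2, 3, 5, every pair `(c4, c6)` with
`c4 ^ 3 ≠ c6 ^ 2` is of the form `(-H(u,v), -T(u,v))` for the Klein icosahedral forms
`H = -(u^20+v^20) + 228 (u^15 v^5 - u^5 v^15) - 494 u^10 v^10`,
`T = (u^30+v^30) + 522 (u^25 v^5 - u^5 v^25) - 10005 (u^20 v^10 + u^10 v^20)`.
-/
import Mathlib

namespace Fermat.Agent.S52.H55

open Polynomial

/-- The dehomogenised (`v = 1`) Klein form `H`, as a polynomial. -/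
noncomputable def kleinHPoly (K : Type*) [Field K] : K[X] :=
  -(X ^ 20 + 1) + 228 * (X ^ 15 - X ^ 5) - 494 * X ^ 10

/-- The dehomogenised (`v = 1`) Klein form `T`, as a polynomial. -/
noncomputable def kleinTPoly (K : Type*) [Field K] : K[X] :=
  (X ^ 30 + 1) + 522 * (X ^ 25 - X ^ 5) - 10005 * (X ^ 20 + X ^ 10)

/-- The degree-60 form `c6^2 H^3 + c4^3 T^2` at `v = 1`. -/
noncomputable def kleinLiftPoly {K : Type*} [Field K] (c4 c6 : K) : K[X] :=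
  C (c6 ^ 2) * kleinHPoly K ^ 3 + C (c4 ^ 3) * kleinTPoly K ^ 2

theorem kleinLiftPoly_natDegree {K : Type*} [Field K] (c4 c6 : K) (h : c4 ^ 3 ≠ c6 ^ 2) :
    (kleinLiftPoly c4 c6).natDegree = 60 := by
  unfold kleinLiftPoly kleinHPoly kleinTPoly
  compute_degree!
  have h1 : (coeff (1 : K[X]) 20) = 0 := by simp [coeff_one]
  have h2 : ((Int.negSucc 0 : ℤ) : K) = -1 := by simp
  rw [h1, h2]
  intro h0
  apply h
  linear_combination h0

theorem klein_identity_dehom {K : Type*} [CommRing K] (u : K) :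
    ((u ^ 30 + 1) + 522 * (u ^ 25 - u ^ 5) - 10005 * (u ^ 20 + u ^ 10)) ^ 2
      + (-(u ^ 20 + 1) + 228 * (u ^ 15 - u ^ 5) - 494 * u ^ 10) ^ 3
      = 1728 * u ^ 5 * (u ^ 10 + 11 * u ^ 5 - 1) ^ 5 := by
  ring

theorem klein_bezout_dehom {K : Type*} [CommRing K] (u : K) :
    (-11 * (u ^ 5) ^ 3 + 2507 * (u ^ 5) ^ 2 - 5206 * u ^ 5 - 3003) * (u ^ 10 + 11 * u ^ 5 - 1)
      + (-11 * u ^ 5 - 122) * (-(u ^ 20 + 1) + 228 * (u ^ 15 - u ^ 5) - 494 * u ^ 10)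
      = 3125 := by
  ring

/-- The dehomogenised Klein forms `H`, `T` have no common zero in characteristic `≠ 2, 3, 5`. -/
theorem klein_HT_not_both_zero {K : Type*} [Field K] (h2 : (2 : K) ≠ 0) (h3 : (3 : K) ≠ 0)
    (h5 : (5 : K) ≠ 0) (u : K)
    (hH : -(u ^ 20 + 1) + 228 * (u ^ 15 - u ^ 5) - 494 * u ^ 10 = 0)
    (hT : (u ^ 30 + 1) + 522 * (u ^ 25 - u ^ 5) - 10005 * (u ^ 20 + u ^ 10) = 0) : False := by
  have hk := klein_identity_dehom u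
  rw [hH, hT] at hk
  have h1728 : (1728 : K) ≠ 0 := by
    have : (1728 : K) = 2 ^ 6 * 3 ^ 3 := by norm_num
    rw [this]
    exact mul_ne_zero (pow_ne_zero _ h2) (pow_ne_zero _ h3)
  have h3125 : (3125 : K) ≠ 0 := by
    have : (3125 : K) = 5 ^ 5 := by norm_num
    rw [this]
    exact pow_ne_zero _ h5
  have hz : u ^ 5 * (u ^ 10 + 11 * u ^ 5 - 1) ^ 5 = 0 := by
    have : (1728 : K) * (u ^ 5 * (u ^ 10 + 11 * u ^ 5 - 1) ^ 5) = 0 := by
      linear_combination -hk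
    exact (mul_eq_zero.mp this).resolve_left h1728
  rcases mul_eq_zero.mp hz with hu | hg
  · have hu0 : u = 0 := by simpa using hu
    rw [hu0] at hH
    norm_num at hH
  · have hg0 : u ^ 10 + 11 * u ^ 5 - 1 = 0 := by simpa using hg
    have hb := klein_bezout_dehom u
    rw [hg0, hH] at hb
    apply h3125
    linear_combination -hb

/-- **Node D (Lift).**  Over an algebraically closed field of characteristic `≠ 2, 3, 5`, every
`(c4, c6)` with `c4 ^ 3 ≠ c6 ^ 2` equals `(-H(u, v), -T(u, v))` for the Klein forms `H`, `T`. -/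
theorem exists_klein_lift {K : Type*} [Field K] [IsAlgClosed K] (h2 : (2 : K) ≠ 0)
    (h3 : (3 : K) ≠ 0) (h5 : (5 : K) ≠ 0) (c4 c6 : K) (h : c4 ^ 3 ≠ c6 ^ 2) :
    ∃ u v : K,
      (u ^ 20 + v ^ 20) - 228 * (u ^ 15 * v ^ 5 - u ^ 5 * v ^ 15) + 494 * u ^ 10 * v ^ 10 = c4 ∧
      -((u ^ 30 + v ^ 30) + 522 * (u ^ 25 * v ^ 5 - u ^ 5 * v ^ 25)
          - 10005 * (u ^ 20 * v ^ 10 + u ^ 10 * v ^ 20)) = c6 := by
  have hdeg : (kleinLiftPoly c4 c6).degree ≠ 0 := by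
    rw [degree_eq_natDegree (by
      intro h0
      have := kleinLiftPoly_natDegree c4 c6 h
      rw [h0] at this
      simp at this), kleinLiftPoly_natDegree c4 c6 h]
    norm_num
  obtain ⟨u₁, hu₁⟩ := IsAlgClosed.exists_root _ hdeg
  -- abbreviations
  obtain ⟨H₁, hH₁⟩ : ∃ H : K, H = -(u₁ ^ 20 + 1) + 228 * (u₁ ^ 15 - u₁ ^ 5) - 494 * u₁ ^ 10 :=
    ⟨_, rfl⟩
  obtain ⟨T₁, hT₁⟩ : ∃ T : K,
      T = (u₁ ^ 30 + 1) + 522 * (u₁ ^ 25 - u₁ ^ 5) - 10005 * (u₁ ^ 20 + u₁ ^ 10) := ⟨_, rfl⟩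
  have hrel : c6 ^ 2 * H₁ ^ 3 + c4 ^ 3 * T₁ ^ 2 = 0 := by
    have := hu₁
    simp only [IsRoot.def, kleinLiftPoly, kleinHPoly, kleinTPoly, eval_add, eval_mul, eval_C,
      eval_pow, eval_sub, eval_neg, eval_X, eval_one, eval_ofNat] at this
    rw [hH₁, hT₁]
    exact this
  have hnot : ¬ (H₁ = 0 ∧ T₁ = 0) := fun hh =>
    klein_HT_not_both_zero h2 h3 h5 u₁ (hH₁ ▸ hh.1) (hT₁ ▸ hh.2)
  -- homogeneity
  have hhomH : ∀ μ : K, ((μ * u₁) ^ 20 + μ ^ 20)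
      - 228 * ((μ * u₁) ^ 15 * μ ^ 5 - (μ * u₁) ^ 5 * μ ^ 15) + 494 * (μ * u₁) ^ 10 * μ ^ 10
      = -(μ ^ 20 * H₁) := by
    intro μ; rw [hH₁]; ring
  have hhomT : ∀ μ : K, -(((μ * u₁) ^ 30 + μ ^ 30)
      + 522 * ((μ * u₁) ^ 25 * μ ^ 5 - (μ * u₁) ^ 5 * μ ^ 25)
      - 10005 * ((μ * u₁) ^ 20 * μ ^ 10 + (μ * u₁) ^ 10 * μ ^ 20))
      = -(μ ^ 30 * T₁) := by
    intro μ; rw [hT₁]; ring
  by_cases hc4 : c4 = 0
  · -- `c4 = 0`: then `c6 ≠ 0`, `H₁ = 0`, `T₁ ≠ 0`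
    have hc6 : c6 ≠ 0 := by
      intro h6; apply h; rw [hc4, h6]; ring
    have hH0 : H₁ = 0 := by
      have : c6 ^ 2 * H₁ ^ 3 = 0 := by rw [hc4] at hrel; linear_combination hrel
      have := (mul_eq_zero.mp this).resolve_left (pow_ne_zero _ hc6)
      simpa using this
    have hT0 : T₁ ≠ 0 := fun hT => hnot ⟨hH0, hT⟩
    obtain ⟨μ, hμ⟩ := IsAlgClosed.exists_pow_nat_eq (-c6 / T₁) (n := 30) (by norm_num)
    refine ⟨μ * u₁, μ, ?_, ?_⟩
    · rw [hhomH, hH0, hc4]; ring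
    · rw [hhomT, hμ]; field_simp
  by_cases hc6 : c6 = 0
  · -- `c6 = 0`: then `T₁ = 0`, `H₁ ≠ 0`
    have hT0 : T₁ = 0 := by
      have : c4 ^ 3 * T₁ ^ 2 = 0 := by rw [hc6] at hrel; linear_combination hrel
      have := (mul_eq_zero.mp this).resolve_left (pow_ne_zero _ hc4)
      simpa using this
    have hH0 : H₁ ≠ 0 := fun hH => hnot ⟨hH, hT0⟩
    obtain ⟨μ, hμ⟩ := IsAlgClosed.exists_pow_nat_eq (-c4 / H₁) (n := 20) (by norm_num)
    refine ⟨μ * u₁, μ, ?_, ?_⟩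
    · rw [hhomH, hμ]; field_simp
    · rw [hhomT, hT0, hc6]; ring
  · -- generic case
    have hH0 : H₁ ≠ 0 := by
      intro hH
      have : c4 ^ 3 * T₁ ^ 2 = 0 := by rw [hH] at hrel; linear_combination hrel
      have := (mul_eq_zero.mp this).resolve_left (pow_ne_zero _ hc4)
      exact hnot ⟨hH, by simpa using this⟩
    have hT0 : T₁ ≠ 0 := by
      intro hT
      have : c6 ^ 2 * H₁ ^ 3 = 0 := by rw [hT] at hrel; linear_combination hrel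
      have := (mul_eq_zero.mp this).resolve_left (pow_ne_zero _ hc6)
      exact hnot ⟨by simpa using this, hT⟩
    obtain ⟨μ, hμ⟩ := IsAlgClosed.exists_pow_nat_eq (c6 * H₁ / (c4 * T₁)) (n := 10) (by norm_num)
    have hne : c4 * T₁ ≠ 0 := mul_ne_zero hc4 hT0
    have e : μ ^ 10 * (c4 * T₁) = c6 * H₁ := by
      rw [hμ]; field_simp
    have hμ20 : μ ^ 20 * H₁ = -c4 := by
      have h0 : (c4 * T₁) ^ 2 * (μ ^ 20 * H₁ + c4) = 0 := by
        linear_combination (μ ^ 10 * (c4 * T₁) + c6 * H₁) * H₁ * e + hrel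
      have := (mul_eq_zero.mp h0).resolve_left (pow_ne_zero _ hne)
      linear_combination this
    have hμ30 : μ ^ 30 * T₁ = -c6 := by
      have h0 : (c4 * T₁) ^ 3 * (μ ^ 30 * T₁ + c6) = 0 := by
        linear_combination ((μ ^ 10 * (c4 * T₁)) ^ 2 + (μ ^ 10 * (c4 * T₁)) * (c6 * H₁)
          + (c6 * H₁) ^ 2) * T₁ * e + c6 * T₁ * hrel
      have := (mul_eq_zero.mp h0).resolve_left (pow_ne_zero _ hne)
      linear_combination this
    refine ⟨μ * u₁, μ, ?_, ?_⟩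
    · rw [hhomH, hμ20]; ring
    · rw [hhomT, hμ30]; ring

end Fermat.Agent.S52.H55
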