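import Mathlib

/-!
S52, node E4 (Manin count), helper59.

Pure polynomial core over `ZMod l` (`l` an odd prime): for `fP = X^3 + A X + B` with
`4A^3 + 27B^2 ≠ 0` and
`NP = fP * (fP^((l-1)/2) + 1)^2 - (X^l + X) * (X^l - X)^2`
the reduced fraction of `NP / (X^l - X)^2` has numerator degree `#E(F_l)` and smaller
denominator degree.
-/

set_option autoImplicit false

open Polynomial

namespace Fermat.Agent.S52.H59

variable {l : ℕ} [Fact l.Prime]

/-- the cubic `X^3 + A X + B` -/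
noncomputable def fP (A B : ZMod l) : (ZMod l)[X] := X ^ 3 + C A * X + C B

/-- Manin's numerator of `x(Φ - G₀)` -/
noncomputable def NP (A B : ZMod l) : (ZMod l)[X] :=
  fP A B * (fP A B ^ ((l - 1) / 2) + 1) ^ 2 - (X ^ l + X) * (X ^ l - X) ^ 2

lemma fP_monic (A B : ZMod l) : (fP A B).Monic := by
  unfold fP
  monicity!

lemma fP_natDegree (A B : ZMod l) : (fP A B).natDegree = 3 := by
  unfold fP
  compute_degree!

lemma fP_eval (A B a : ZMod l) : (fP A B).eval a = a ^ 3 + A * a + B := by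
  simp [fP]

/-- Frobenius on the cubic. -/
lemma fP_pow_l (A B : ZMod l) : fP A B ^ l = X ^ (3 * l) + C A * X ^ l + C B := by
  unfold fP
  rw [add_pow_char, add_pow_char, mul_pow, ← pow_mul, ← C_pow, ← C_pow, ZMod.pow_card, ZMod.pow_card]

/-- `l = 2k+1` with `k = (l-1)/2 ≥ 1`. -/
lemma exists_half (hl : l ≠ 2) : ∃ k : ℕ, 1 ≤ k ∧ l = 2 * k + 1 ∧ (l - 1) / 2 = k ∧ l / 2 = k := by
  have hp : l.Prime := Fact.out
  have h2 := hp.two_le
  rcases hp.eq_two_or_odd with h | h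
  · exact absurd h hl
  · exact ⟨l / 2, by omega, by omega, by omega, rfl⟩

/-- The expanded form of `NP`. -/
lemma NP_expand (A B : ZMod l) {k : ℕ} (hk : l = 2 * k + 1) (hk' : (l - 1) / 2 = k) :
    NP A B = X ^ (2 * l + 1) +
      (X ^ (l + 2) + C A * X ^ l + 2 * fP A B ^ (k + 1) + C A * X + 2 * C B) := by
  have e : fP A B ^ l = fP A B ^ (2 * k + 1) := congrArg (fun n => fP A B ^ n) hk
  have h1 : fP A B * (fP A B ^ k + 1) ^ 2 = fP A B ^ l + 2 * fP A B ^ (k + 1) + fP A B := by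
    rw [e]; ring
  unfold NP
  rw [hk', h1, fP_pow_l]
  unfold fP
  ring

lemma NP_rest_degree (A B : ZMod l) {k : ℕ} (hk2 : 1 ≤ k) (hk : l = 2 * k + 1) :
    (X ^ (l + 2) + C A * X ^ l + 2 * fP A B ^ (k + 1) + C A * X + 2 * C B : (ZMod l)[X]).degree
      < ((2 * l + 1 : ℕ) : WithBot ℕ) := by
  have hf : (fP A B ^ (k + 1)).natDegree ≤ 3 * (k + 1) := by
    refine (natDegree_pow_le).trans ?_
    rw [fP_natDegree]; omega
  have h20 : (2 : (ZMod l)[X]).natDegree = 0 := natDegree_ofNat 2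
  have h2 : ((2 : (ZMod l)[X]) * fP A B ^ (k + 1)).natDegree ≤ 2 * l := by
    refine natDegree_mul_le.trans ?_
    rw [h20]; omega
  have h3 : (2 * C B : (ZMod l)[X]).natDegree ≤ 2 * l := by
    refine natDegree_mul_le.trans ?_
    rw [h20, natDegree_C]; omega
  have h4 : (C A * X : (ZMod l)[X]).natDegree ≤ 2 * l := by
    refine (natDegree_C_mul_le _ _).trans ?_
    rw [natDegree_X]; omega
  have h5 : (C A * X ^ l : (ZMod l)[X]).natDegree ≤ 2 * l := by
    refine (natDegree_C_mul_le _ _).trans ?_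
    rw [natDegree_X_pow]; omega
  have h6 : (X ^ (l + 2) : (ZMod l)[X]).natDegree ≤ 2 * l := by
    rw [natDegree_X_pow]; omega
  have hle : (X ^ (l + 2) + C A * X ^ l + 2 * fP A B ^ (k + 1) + C A * X + 2 * C B :
      (ZMod l)[X]).natDegree ≤ 2 * l :=
    natDegree_add_le_of_degree_le (natDegree_add_le_of_degree_le (natDegree_add_le_of_degree_le
      (natDegree_add_le_of_degree_le h6 h5) h2) h4) h3
  refine lt_of_le_of_lt degree_le_natDegree ?_
  exact_mod_cast Nat.lt_succ_of_le hle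

lemma NP_monic (hl : l ≠ 2) (A B : ZMod l) : (NP A B).Monic := by
  obtain ⟨k, hk2, hk, hk', -⟩ := exists_half hl
  rw [NP_expand A B hk hk']
  exact monic_X_pow_add (NP_rest_degree A B hk2 hk)

lemma NP_natDegree (hl : l ≠ 2) (A B : ZMod l) : (NP A B).natDegree = 2 * l + 1 := by
  obtain ⟨k, hk2, hk, hk', -⟩ := exists_half hl
  rw [NP_expand A B hk hk']
  have h := NP_rest_degree A B hk2 hk
  apply natDegree_eq_of_degree_eq_some
  rw [degree_add_eq_left_of_degree_lt (by rwa [degree_X_pow]), degree_X_pow]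

section Eval

variable (A B : ZMod l)

lemma prod_X_sub_C_eq : ∏ a : ZMod l, (X - C a) = (X ^ l - X : (ZMod l)[X]) := by
  have hp : (1 : ℕ) < l := (Fact.out : l.Prime).one_lt
  have hmonic : (X ^ l - X : (ZMod l)[X]).Monic :=
    monic_X_pow_sub (by rw [degree_X]; exact_mod_cast hp)
  have hroots : (X ^ l - X : (ZMod l)[X]).roots = Finset.univ.val := by
    have := FiniteField.roots_X_pow_card_sub_X (ZMod l)
    rwa [ZMod.card] at this
  have h := prod_multiset_X_sub_C_of_monic_of_roots_card_eq hmonic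
    (by rw [hroots, FiniteField.X_pow_card_sub_X_natDegree_eq _ hp]; simp)
  rw [hroots] at h
  exact h

lemma eval_X_pow_sub_X (a : ZMod l) : (X ^ l - X : (ZMod l)[X]).eval a = 0 := by
  simp [ZMod.pow_card]

lemma NP_eval (a : ZMod l) :
    (NP A B).eval a = (fP A B).eval a * ((fP A B).eval a ^ ((l - 1) / 2) + 1) ^ 2 := by
  simp [NP, ZMod.pow_card]

/-- quadratic character of the value of the cubic -/
noncomputable def chi (a : ZMod l) : ℤ := quadraticChar (ZMod l) ((fP A B).eval a)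

lemma ringChar_ne_two (hl : l ≠ 2) : ringChar (ZMod l) ≠ 2 := by
  rw [ZMod.ringChar_zmod_n]; exact hl

lemma two_ne_zero_zmod (hl : l ≠ 2) : (2 : ZMod l) ≠ 0 := by
  intro h
  have h2 : ((2 : ℕ) : ZMod l) = 0 := by exact_mod_cast h
  exact hl ((Nat.prime_dvd_prime_iff_eq (Fact.out : l.Prime) Nat.prime_two).mp
    ((ZMod.natCast_eq_zero_iff 2 l).mp h2))

lemma chi_cast (hl : l ≠ 2) (a : ZMod l) :
    ((chi A B a : ℤ) : ZMod l) = (fP A B).eval a ^ ((l - 1) / 2) := by
  obtain ⟨k, -, -, hk', hk''⟩ := exists_half hl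
  rw [chi, quadraticChar_eq_pow_of_char_ne_two' (ringChar_ne_two hl), ZMod.card, hk'', hk']

lemma chi_cases (a : ZMod l) : chi A B a = 0 ∨ chi A B a = 1 ∨ chi A B a = -1 := by
  by_cases h : (fP A B).eval a = 0
  · left; rw [chi, h]; exact quadraticChar_eq_zero_iff.mpr rfl
  · right; exact quadraticChar_dichotomy h

/-- nonzero square value: `NP` does not vanish -/
lemma NP_eval_ne_zero (hl : l ≠ 2) {a : ZMod l} (h : chi A B a = 1) : (NP A B).eval a ≠ 0 := by
  have hc : (fP A B).eval a ≠ 0 := by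
    intro h0
    have : chi A B a = 0 := by rw [chi, h0]; exact quadraticChar_eq_zero_iff.mpr rfl
    omega
  have h1 := chi_cast A B hl a
  rw [h] at h1
  rw [NP_eval, ← h1]
  have h2 := two_ne_zero_zmod hl
  have : ((1 : ℤ) : ZMod l) + 1 = 2 := by norm_num
  rw [this]
  exact mul_ne_zero hc (pow_ne_zero 2 h2)

/-- zero value: simple root of `NP` -/
lemma NP_simple_root (hl : l ≠ 2) (hΔ : 4 * A ^ 3 + 27 * B ^ 2 ≠ 0) {a : ZMod l}
    (h : chi A B a = 0) : (X - C a) ∣ NP A B ∧ ¬ (X - C a) ^ 2 ∣ NP A B := by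
  have hc : (fP A B).eval a = 0 := quadraticChar_eq_zero_iff.mp h
  have hc' : a ^ 3 + A * a + B = 0 := by rw [← fP_eval]; exact hc
  obtain ⟨k, hk2, hk, hk', -⟩ := exists_half hl
  refine ⟨dvd_iff_isRoot.mpr (by rw [IsRoot, NP_eval, hc, zero_mul]), ?_⟩
  intro hdvd
  obtain ⟨q2, hq2⟩ : (X - C a) ∣ (X ^ l - X : (ZMod l)[X]) :=
    dvd_iff_isRoot.mpr (eval_X_pow_sub_X a)
  have hB : C B = -(C a ^ 3 + C A * C a) := by
    rw [← C_pow, ← C_mul, ← C_add, ← C_neg]
    congr 1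
    linear_combination hc'
  have hf : fP A B = (X - C a) * (X ^ 2 + C a * X + (C a ^ 2 + C A)) := by
    unfold fP
    rw [hB]; ring
  have hfd : (X - C a) ∣ fP A B ^ k := dvd_pow (hf ▸ dvd_mul_right _ _) (by omega)
  obtain ⟨g1, hg1⟩ := hfd
  have hNP : NP A B = (X - C a) * (X ^ 2 + C a * X + (C a ^ 2 + C A)) +
      (X - C a) ^ 2 * ((X ^ 2 + C a * X + (C a ^ 2 + C A)) * (2 * g1 + (X - C a) * g1 ^ 2)
        - (X ^ l + X) * q2 ^ 2) := by
    unfold NP
    rw [hk', hg1, hq2, hf]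
    ring
  rw [hNP] at hdvd
  have h1 : (X - C a) ^ 2 ∣ (X - C a) * (X ^ 2 + C a * X + (C a ^ 2 + C A)) :=
    (dvd_add_left (dvd_mul_right _ _)).mp hdvd
  rw [pow_two] at h1
  have h2 : (X - C a) ∣ (X ^ 2 + C a * X + (C a ^ 2 + C A) : (ZMod l)[X]) :=
    (mul_dvd_mul_iff_left (X_sub_C_ne_zero a)).mp h1
  have h3 := dvd_iff_isRoot.mp h2
  simp only [IsRoot, eval_add, eval_mul, eval_pow, eval_X, eval_C] at h3
  apply hΔ
  linear_combination (6 * A * a ^ 2 - 9 * B * a + 4 * A ^ 2) * h3 - 9 * (2 * A * a - 3 * B) * hc'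

/-- non-square value: double root of `NP` -/
lemma NP_double_root (hl : l ≠ 2) {a : ZMod l} (h : chi A B a = -1) :
    (X - C a) ^ 2 ∣ NP A B := by
  have h1 := chi_cast A B hl a
  rw [h] at h1
  have hroot : (X - C a) ∣ fP A B ^ ((l - 1) / 2) + 1 := by
    rw [dvd_iff_isRoot, IsRoot, eval_add, eval_pow, eval_one, ← h1]
    norm_num
  have hroot2 : (X - C a) ∣ (X ^ l - X : (ZMod l)[X]) :=
    dvd_iff_isRoot.mpr (eval_X_pow_sub_X a)
  unfold NP
  exact dvd_sub (Dvd.dvd.mul_left (pow_dvd_pow_of_dvd hroot 2) _)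
    (Dvd.dvd.mul_left (pow_dvd_pow_of_dvd hroot2 2) _)

end Eval

section Short

open WeierstrassCurve WeierstrassCurve.Affine

variable {F : Type*} [Field F]

lemma short_equation_iff (A B x y : F) :
    (⟨0, 0, 0, A, B⟩ : WeierstrassCurve F).toAffine.Equation x y ↔ y ^ 2 = x ^ 3 + A * x + B := by
  rw [equation_iff]; simp

lemma short_nonsingular_iff (A B x y : F) :
    (⟨0, 0, 0, A, B⟩ : WeierstrassCurve F).toAffine.Nonsingular x y ↔
      y ^ 2 = x ^ 3 + A * x + B ∧ (3 * x ^ 2 + A ≠ 0 ∨ y ≠ -y) := by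
  rw [nonsingular_iff, short_equation_iff]
  simp only [zero_mul, mul_zero, add_zero, sub_zero, ne_eq]
  constructor
  · rintro ⟨h1, h2 | h2⟩
    · exact ⟨h1, Or.inl fun h => h2 h.symm⟩
    · exact ⟨h1, Or.inr h2⟩
  · rintro ⟨h1, h2 | h2⟩
    · exact ⟨h1, Or.inl fun h => h2 h.symm⟩
    · exact ⟨h1, Or.inr h2⟩

/-- on a short curve with nonzero discriminant (characteristic `≠ 2`) every affine solution is
nonsingular -/
lemma short_nonsingular (A B : F) (h2 : (2 : F) ≠ 0) (hΔ : 4 * A ^ 3 + 27 * B ^ 2 ≠ 0) {x y : F}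
    (h : y ^ 2 = x ^ 3 + A * x + B) :
    (⟨0, 0, 0, A, B⟩ : WeierstrassCurve F).toAffine.Nonsingular x y := by
  rw [short_nonsingular_iff]
  refine ⟨h, ?_⟩
  by_cases hy : y = -y
  · left
    have hy0 : y = 0 := by
      have : (2 : F) * y = 0 := by linear_combination hy
      exact (mul_eq_zero.mp this).resolve_left h2
    rw [hy0] at h
    intro h3
    apply hΔ
    linear_combination (6 * A * x ^ 2 - 9 * B * x + 4 * A ^ 2) * h3 + 9 * (2 * A * x - 3 * B) * h
  · exact Or.inr hy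

end Short

section Main

variable (A B : ZMod l)

/-- exponent of `X - a` in `gcd (NP, (X^l - X)^2)` -/
noncomputable def eE (a : ZMod l) : ℕ := (1 - chi A B a).toNat

lemma eE_of_zero {a : ZMod l} (h : chi A B a = 0) : eE A B a = 1 := by unfold eE; rw [h]; rfl
lemma eE_of_one {a : ZMod l} (h : chi A B a = 1) : eE A B a = 0 := by unfold eE; rw [h]; rfl
lemma eE_of_neg_one {a : ZMod l} (h : chi A B a = -1) : eE A B a = 2 := by unfold eE; rw [h]; rfl

lemma eE_le (a : ZMod l) : eE A B a ≤ 2 := by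
  rcases chi_cases A B a with h | h | h
  · rw [eE_of_zero A B h]; omega
  · rw [eE_of_one A B h]; omega
  · rw [eE_of_neg_one A B h]

/-- the common factor -/
noncomputable def GP : (ZMod l)[X] := ∏ a : ZMod l, (X - C a) ^ eE A B a

/-- the reduced denominator -/
noncomputable def DP : (ZMod l)[X] := ∏ a : ZMod l, (X - C a) ^ (2 - eE A B a)

lemma GP_monic : (GP A B).Monic := monic_prod_of_monic _ _ fun a _ => (monic_X_sub_C a).pow _

lemma DP_monic : (DP A B).Monic := monic_prod_of_monic _ _ fun a _ => (monic_X_sub_C a).pow _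

lemma GP_natDegree : (GP A B).natDegree = ∑ a : ZMod l, eE A B a := by
  unfold GP
  rw [natDegree_prod_of_monic _ _ fun a _ => (monic_X_sub_C a).pow _]
  refine Finset.sum_congr rfl fun a _ => ?_
  rw [natDegree_pow, natDegree_X_sub_C, mul_one]

lemma DP_natDegree : (DP A B).natDegree = ∑ a : ZMod l, (2 - eE A B a) := by
  unfold DP
  rw [natDegree_prod_of_monic _ _ fun a _ => (monic_X_sub_C a).pow _]
  refine Finset.sum_congr rfl fun a _ => ?_
  rw [natDegree_pow, natDegree_X_sub_C, mul_one]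

lemma sum_eE_add : ∑ a : ZMod l, eE A B a + ∑ a : ZMod l, (2 - eE A B a) = 2 * l := by
  rw [← Finset.sum_add_distrib]
  have : ∀ a ∈ (Finset.univ : Finset (ZMod l)), eE A B a + (2 - eE A B a) = 2 := by
    intro a _
    have := eE_le A B a
    omega
  rw [Finset.sum_congr rfl this, Finset.sum_const, Finset.card_univ, ZMod.card, smul_eq_mul, mul_comm]

lemma GP_mul_DP : GP A B * DP A B = (X ^ l - X) ^ 2 := by
  unfold GP DP
  rw [← Finset.prod_mul_distrib, ← prod_X_sub_C_eq, ← Finset.prod_pow]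
  refine Finset.prod_congr rfl fun a _ => ?_
  rw [← pow_add]
  congr 1
  have := eE_le A B a
  omega

lemma GP_dvd_NP (hl : l ≠ 2) (hΔ : 4 * A ^ 3 + 27 * B ^ 2 ≠ 0) : GP A B ∣ NP A B := by
  unfold GP
  refine Finset.prod_dvd_of_coprime ?_ ?_
  · intro a _ b _ hab
    exact IsCoprime.pow ((pairwise_coprime_X_sub_C (K := ZMod l) (s := id) Function.injective_id) hab)
  · intro a _
    rcases chi_cases A B a with h | h | h
    · rw [eE_of_zero A B h, pow_one]; exact (NP_simple_root A B hl hΔ h).1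
    · rw [eE_of_one A B h, pow_zero]; exact one_dvd _
    · rw [eE_of_neg_one A B h]; exact NP_double_root A B hl h

lemma card_sqrt (hl : l ≠ 2) (a : ZMod l) :
    Fintype.card {y : ZMod l // y ^ 2 = a ^ 3 + A * a + B} = 2 - eE A B a := by
  have h := quadraticChar_card_sqrts (ringChar_ne_two hl) (a ^ 3 + A * a + B)
  have h2 : Fintype.card {y : ZMod l // y ^ 2 = a ^ 3 + A * a + B} =
      ({x : ZMod l | x ^ 2 = a ^ 3 + A * a + B} : Set (ZMod l)).toFinset.card := by
    rw [Fintype.card_subtype]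
    congr 1
    ext
    simp
  have h3 : chi A B a = quadraticChar (ZMod l) (a ^ 3 + A * a + B) := by rw [chi, fP_eval]
  rw [h2]
  rw [← h3] at h
  rcases chi_cases A B a with hc | hc | hc
  · rw [eE_of_zero A B hc]; rw [hc] at h; omega
  · rw [eE_of_one A B hc]; rw [hc] at h; omega
  · rw [eE_of_neg_one A B hc]; rw [hc] at h; omega

open WeierstrassCurve WeierstrassCurve.Affine in
/-- the points of the short curve over `ZMod l` -/
noncomputable def pointEquiv (hl : l ≠ 2) (hΔ : 4 * A ^ 3 + 27 * B ^ 2 ≠ 0) :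
    (⟨0, 0, 0, A, B⟩ : WeierstrassCurve (ZMod l)).toAffine.Point ≃
      Option (Σ a : ZMod l, {y : ZMod l // y ^ 2 = a ^ 3 + A * a + B}) where
  toFun P := match P with
    | .zero => none
    | .some x y h => some ⟨x, y, (short_equation_iff A B x y).mp h.1⟩
  invFun o := match o with
    | none => .zero
    | some ⟨x, y, hy⟩ => .some x y (short_nonsingular A B (two_ne_zero_zmod hl) hΔ hy)
  left_inv P := by cases P <;> rfl
  right_inv o := by rcases o with _ | ⟨x, y, hy⟩ <;> rfl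

lemma card_point (hl : l ≠ 2) (hΔ : 4 * A ^ 3 + 27 * B ^ 2 ≠ 0) :
    Nat.card (⟨0, 0, 0, A, B⟩ : WeierstrassCurve (ZMod l)).toAffine.Point =
      1 + ∑ a : ZMod l, (2 - eE A B a) := by
  rw [Nat.card_congr (pointEquiv A B hl hΔ), Nat.card_eq_fintype_card, Fintype.card_option,
    Fintype.card_sigma, add_comm]
  congr 1
  exact Finset.sum_congr rfl fun a _ => card_sqrt A B hl a

/-- **Manin count, polynomial form.** `NP / (X^l - X)^2 = N' / D'` in lowest terms with
`deg N' = #E(F_l) > deg D'`. -/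
theorem manin_num_den (hl : l ≠ 2) (hΔ : 4 * A ^ 3 + 27 * B ^ 2 ≠ 0) :
    ∃ G N' D' : (ZMod l)[X], NP A B = G * N' ∧ (X ^ l - X) ^ 2 = G * D' ∧ G.Monic ∧
      IsCoprime N' D' ∧ N'.Monic ∧ D'.Monic ∧
      N'.natDegree = Nat.card (⟨0, 0, 0, A, B⟩ : WeierstrassCurve (ZMod l)).toAffine.Point ∧
      D'.natDegree < N'.natDegree := by
  obtain ⟨N', hN'⟩ := GP_dvd_NP A B hl hΔ
  have hNm : N'.Monic := (GP_monic A B).of_mul_monic_left (hN' ▸ NP_monic hl A B)
  have hdeg : (NP A B).natDegree = (GP A B).natDegree + N'.natDegree := by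
    rw [hN', (GP_monic A B).natDegree_mul hNm]
  rw [NP_natDegree hl, GP_natDegree] at hdeg
  have hsum := sum_eE_add A B
  have hNdeg : N'.natDegree = 1 + ∑ a : ZMod l, (2 - eE A B a) := by omega
  refine ⟨GP A B, N', DP A B, hN', (GP_mul_DP A B).symm, GP_monic A B, ?_, hNm, DP_monic A B, ?_, ?_⟩
  · unfold DP
    refine IsCoprime.prod_right fun a _ => ?_
    rcases chi_cases A B a with h | h | h
    · rw [eE_of_zero A B h]
      refine IsCoprime.pow_right (((irreducible_X_sub_C a).coprime_iff_not_dvd.mpr ?_).symm)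
      intro hd
      apply (NP_simple_root A B hl hΔ h).2
      rw [hN', pow_two]
      refine mul_dvd_mul ?_ hd
      have := Finset.dvd_prod_of_mem (fun a : ZMod l => (X - C a) ^ eE A B a) (Finset.mem_univ a)
      rw [eE_of_zero A B h, pow_one] at this
      exact this
    · rw [eE_of_one A B h]
      refine IsCoprime.pow_right (((irreducible_X_sub_C a).coprime_iff_not_dvd.mpr ?_).symm)
      intro hd
      apply NP_eval_ne_zero A B hl h
      have : (X - C a) ∣ NP A B := hN' ▸ Dvd.dvd.mul_left hd _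
      exact dvd_iff_isRoot.mp this
    · rw [eE_of_neg_one A B h, Nat.sub_self, pow_zero]
      exact isCoprime_one_right
  · rw [hNdeg, card_point A B hl hΔ]
  · rw [hNdeg, DP_natDegree]; omega

end Main

section RatFuncForm

/-- numerator and denominator of a fraction in lowest terms with monic denominator -/
lemma ratFunc_num_denom_of_coprime {K : Type*} [Field K] {p q : K[X]} (h : IsCoprime p q)
    (hq : q.Monic) :
    (algebraMap K[X] (RatFunc K) p / algebraMap K[X] (RatFunc K) q).num = p ∧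
    (algebraMap K[X] (RatFunc K) p / algebraMap K[X] (RatFunc K) q).denom = q := by
  set x := algebraMap K[X] (RatFunc K) p / algebraMap K[X] (RatFunc K) q with hx
  have hq0 : q ≠ 0 := hq.ne_zero
  have hd0 : x.denom ≠ 0 := x.denom_ne_zero
  have hq' : algebraMap K[X] (RatFunc K) q ≠ 0 := by simpa using hq0
  have hd' : algebraMap K[X] (RatFunc K) x.denom ≠ 0 := by simpa using hd0
  have hcross : x.num * q = p * x.denom := by
    have h1 := x.num_div_denom
    have h2 : algebraMap K[X] (RatFunc K) (x.num * q) =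
        algebraMap K[X] (RatFunc K) (p * x.denom) := by
      rw [map_mul, map_mul]
      have h3 : algebraMap K[X] (RatFunc K) x.num / algebraMap K[X] (RatFunc K) x.denom =
          algebraMap K[X] (RatFunc K) p / algebraMap K[X] (RatFunc K) q := h1
      rw [div_eq_div_iff hd' hq'] at h3
      exact h3
    exact (IsFractionRing.injective K[X] (RatFunc K)) h2
  have h1 : x.denom ∣ q :=
    (x.isCoprime_num_denom.symm).dvd_of_dvd_mul_left (hcross ▸ dvd_mul_left _ _)
  have h2 : q ∣ x.denom := h.symm.dvd_of_dvd_mul_left (hcross.symm ▸ dvd_mul_left _ _)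
  have hdq : x.denom = q :=
    eq_of_monic_of_associated x.monic_denom hq (associated_of_dvd_dvd h1 h2)
  refine ⟨?_, hdq⟩
  rw [hdq] at hcross
  exact mul_right_cancel₀ hq0 hcross

variable (A B : ZMod l)

/-- Manin's fraction `x(Φ - G₀)/f` as an element of `RatFunc (ZMod l)` -/
noncomputable def maninFrac : RatFunc (ZMod l) :=
  algebraMap (ZMod l)[X] (RatFunc (ZMod l)) (NP A B) /
    algebraMap (ZMod l)[X] (RatFunc (ZMod l)) ((X ^ l - X) ^ 2)

/-- **Manin count, `RatFunc` form**: the numerator of `maninFrac` has degree `#E(F_l)`, the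
denominator has smaller degree. -/
theorem manin_ratFunc (hl : l ≠ 2) (hΔ : 4 * A ^ 3 + 27 * B ^ 2 ≠ 0) :
    (maninFrac A B).num.natDegree =
        Nat.card (⟨0, 0, 0, A, B⟩ : WeierstrassCurve (ZMod l)).toAffine.Point ∧
      (maninFrac A B).denom.natDegree < (maninFrac A B).num.natDegree := by
  obtain ⟨G, N', D', hN, hD, hG, hcop, -, hDm, hcard, hlt⟩ := manin_num_den A B hl hΔ
  have hG' : algebraMap (ZMod l)[X] (RatFunc (ZMod l)) G ≠ 0 := by simpa using hG.ne_zero
  have hfrac : maninFrac A B = algebraMap (ZMod l)[X] (RatFunc (ZMod l)) N' /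
      algebraMap (ZMod l)[X] (RatFunc (ZMod l)) D' := by
    unfold maninFrac
    rw [hN, hD, map_mul, map_mul, mul_div_mul_left _ _ hG']
  obtain ⟨h1, h2⟩ := ratFunc_num_denom_of_coprime hcop hDm
  rw [hfrac, h1, h2]
  exact ⟨hcard, hlt⟩

end RatFuncForm

section PointForm

open WeierstrassCurve WeierstrassCurve.Affine

lemma some_eq_of_x_eq {F : Type*} [Field F] {W : WeierstrassCurve.Affine F} {x x' y : F}
    (h : W.Nonsingular x y) (e : x = x') :
    ∃ h' : W.Nonsingular x' y, Point.some x y h = Point.some x' y h' := by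
  subst e
  exact ⟨h, rfl⟩

/-- difference of two affine points with distinct abscissae on a curve with
`a₁ = a₂ = a₃ = 0` -/
lemma sub_some_of_X_ne {F : Type*} [Field F] [DecidableEq F] {W : WeierstrassCurve F}
    (h1 : W.a₁ = 0) (h2 : W.a₂ = 0) (h3 : W.a₃ = 0) {x₁ y₁ x₂ y₂ : F}
    (hP₁ : W.toAffine.Nonsingular x₁ y₁) (hP₂ : W.toAffine.Nonsingular x₂ y₂) (hx : x₁ ≠ x₂) :
    ∃ (y : F) (h : W.toAffine.Nonsingular (((y₁ + y₂) / (x₁ - x₂)) ^ 2 - x₁ - x₂) y),
      Point.some x₁ y₁ hP₁ - Point.some x₂ y₂ hP₂ = Point.some _ y h := by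
  have hneg : W.toAffine.Nonsingular x₂ (W.toAffine.negY x₂ y₂) := (nonsingular_neg ..).mpr hP₂
  have e : W.toAffine.negY x₂ y₂ = -y₂ := by simp [negY, h1, h3]
  have hX : W.toAffine.addX x₁ x₂ (W.toAffine.slope x₁ x₂ y₁ (W.toAffine.negY x₂ y₂)) =
      ((y₁ + y₂) / (x₁ - x₂)) ^ 2 - x₁ - x₂ := by
    rw [slope_of_X_ne hx, addX, e, h1, h2]; ring
  obtain ⟨h', e'⟩ := some_eq_of_x_eq (nonsingular_add hP₁ hneg (fun h => absurd h.1 hx)) hX
  refine ⟨_, h', ?_⟩
  rw [sub_eq_add_neg, Point.neg_some, Point.add_of_X_ne hx]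
  exact e'

variable (A B : ZMod l)

/-- the cubic as an element of the function field `F_l(t)` -/
noncomputable def fF : RatFunc (ZMod l) :=
  algebraMap (ZMod l)[X] (RatFunc (ZMod l)) (fP A B)

lemma fF_eq : fF A B = RatFunc.X ^ 3 + RatFunc.C A * RatFunc.X + RatFunc.C B := by
  simp [fF, fP]

lemma fF_ne_zero : fF A B ≠ 0 := by
  unfold fF
  simpa using (fP_monic A B).ne_zero

lemma fF_pow_l : fF A B ^ l = RatFunc.X ^ (3 * l) + RatFunc.C A * RatFunc.X ^ l + RatFunc.C B := by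
  unfold fF
  rw [← map_pow, fP_pow_l]
  simp

lemma X_pow_sub_X_ne_zero : (RatFunc.X ^ l - RatFunc.X : RatFunc (ZMod l)) ≠ 0 := by
  have hp : (1 : ℕ) < l := (Fact.out : l.Prime).one_lt
  have hne : (X ^ l - X : (ZMod l)[X]) ≠ 0 :=
    (monic_X_pow_sub (by rw [degree_X]; exact_mod_cast hp)).ne_zero
  have h : (RatFunc.X ^ l - RatFunc.X : RatFunc (ZMod l)) =
      algebraMap (ZMod l)[X] (RatFunc (ZMod l)) (X ^ l - X) := by simp
  rw [h]
  exact (map_ne_zero_iff _ (IsFractionRing.injective (ZMod l)[X] (RatFunc (ZMod l)))).mpr hne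

lemma maninFrac_eq {k : ℕ} (hk : l = 2 * k + 1) :
    maninFrac A B = (fF A B * (fF A B ^ k + 1) ^ 2 -
      (RatFunc.X ^ l + RatFunc.X) * (RatFunc.X ^ l - RatFunc.X) ^ 2) /
        (RatFunc.X ^ l - RatFunc.X) ^ 2 := by
  have hk' : (l - 1) / 2 = k := by omega
  unfold maninFrac NP fF
  rw [hk']
  simp

/-- **Manin count, point form**: on any Weierstrass curve `W` over `F_l(t)` with
`a₁ = a₂ = a₃ = 0` carrying the points `Φ = (t^l f, f^((l+3)/2))` and `G₀ = (t f, f^2)`, the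
abscissa of `Φ - G₀` is `f * maninFrac`. -/
theorem manin_point [DecidableEq (RatFunc (ZMod l))] {W : WeierstrassCurve (RatFunc (ZMod l))}
    (h1 : W.a₁ = 0) (h2 : W.a₂ = 0) (h3 : W.a₃ = 0) {m : ℕ} (hm : 2 * m = l + 3)
    (hΦ : W.toAffine.Nonsingular (RatFunc.X ^ l * fF A B) (fF A B ^ m))
    (hG : W.toAffine.Nonsingular (RatFunc.X * fF A B) (fF A B ^ 2)) :
    ∃ (y : RatFunc (ZMod l)) (h : W.toAffine.Nonsingular (fF A B * maninFrac A B) y),
      Point.some _ _ hΦ - Point.some _ _ hG = Point.some _ y h := by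
  obtain ⟨k, rfl⟩ : ∃ k, m = k + 2 := ⟨m - 2, by
    have := (Fact.out : l.Prime).two_le
    omega⟩
  have hk : l = 2 * k + 1 := by omega
  have hf := fF_ne_zero A B
  have ht := X_pow_sub_X_ne_zero (l := l)
  have hx : RatFunc.X ^ l * fF A B ≠ RatFunc.X * fF A B := by
    intro h
    have : (RatFunc.X ^ l - RatFunc.X) * fF A B = 0 := by linear_combination h
    rcases mul_eq_zero.mp this with h | h
    · exact ht h
    · exact hf h
  obtain ⟨y, h, e⟩ := sub_some_of_X_ne h1 h2 h3 hΦ hG hx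
  have hX : ((fF A B ^ (k + 2) + fF A B ^ 2) / (RatFunc.X ^ l * fF A B - RatFunc.X * fF A B)) ^ 2 -
      RatFunc.X ^ l * fF A B - RatFunc.X * fF A B = fF A B * maninFrac A B := by
    rw [maninFrac_eq A B hk]
    have hd : RatFunc.X ^ l * fF A B - RatFunc.X * fF A B ≠ 0 := sub_ne_zero.mpr hx
    field_simp
    ring
  obtain ⟨h', e'⟩ := some_eq_of_x_eq h hX
  exact ⟨y, h', e.trans e'⟩

end PointForm

section Twist

open WeierstrassCurve WeierstrassCurve.Affine

variable (A B : ZMod l)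

lemma two_ne_zero_ratFunc (hl : l ≠ 2) : (2 : RatFunc (ZMod l)) ≠ 0 := by
  have h : (2 : RatFunc (ZMod l)) = RatFunc.C (2 : ZMod l) := (map_ofNat RatFunc.C 2).symm
  rw [h]
  exact (map_ne_zero_iff _ (RatFunc.C (K := ZMod l)).injective).mpr (two_ne_zero_zmod hl)

/-- `x(Φ)/f = t^l` has numerator `X^l` and denominator `1` (so `d(Φ) = l`). -/
lemma ratFunc_X_pow_num_denom (n : ℕ) :
    (RatFunc.X ^ n : RatFunc (ZMod l)).num = X ^ n ∧ (RatFunc.X ^ n : RatFunc (ZMod l)).denom = 1 := by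
  have h : (RatFunc.X ^ n : RatFunc (ZMod l)) = algebraMap (ZMod l)[X] (RatFunc (ZMod l)) (X ^ n) := by
    simp
  rw [h]
  exact ⟨RatFunc.num_algebraMap _, RatFunc.denom_algebraMap _⟩

/-- `G₀ = (t f, f^2)` lies on the twisted curve `Y^2 = X^3 + A f^2 X + B f^3`. -/
lemma twist_nonsingular_G0 (hl : l ≠ 2) {W : WeierstrassCurve (RatFunc (ZMod l))}
    (h1 : W.a₁ = 0) (h2 : W.a₂ = 0) (h3 : W.a₃ = 0) (h4 : W.a₄ = RatFunc.C A * fF A B ^ 2)
    (h6 : W.a₆ = RatFunc.C B * fF A B ^ 3) :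
    W.toAffine.Nonsingular (RatFunc.X * fF A B) (fF A B ^ 2) := by
  have hf := fF_ne_zero A B
  have h2' := two_ne_zero_ratFunc (l := l) hl
  rw [nonsingular_iff, equation_iff, h1, h2, h3, h4, h6]
  refine ⟨?_, Or.inr ?_⟩
  · have e := fF_eq A B
    linear_combination (fF A B ^ 3) * e
  · intro h
    have : (2 : RatFunc (ZMod l)) * fF A B ^ 2 = 0 := by linear_combination h
    rcases mul_eq_zero.mp this with h | h
    · exact h2' h
    · exact hf (pow_eq_zero_iff (two_ne_zero)|>.mp h)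

/-- `Φ_n = (t^n f, f^((n+3)/2))` lies on the twisted curve `Y^2 = X^3 + A f^2 X + B f^3` as soon
as `f^n = f(t^n)` (e.g. `n = l`, `n = l^2`). -/
lemma twist_nonsingular_PhiN (hl : l ≠ 2) {W : WeierstrassCurve (RatFunc (ZMod l))}
    (h1 : W.a₁ = 0) (h2 : W.a₂ = 0) (h3 : W.a₃ = 0) (h4 : W.a₄ = RatFunc.C A * fF A B ^ 2)
    (h6 : W.a₆ = RatFunc.C B * fF A B ^ 3) {n m : ℕ} (hm : 2 * m = n + 3)
    (hn : fF A B ^ n = RatFunc.X ^ (3 * n) + RatFunc.C A * RatFunc.X ^ n + RatFunc.C B) :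
    W.toAffine.Nonsingular (RatFunc.X ^ n * fF A B) (fF A B ^ m) := by
  have hf := fF_ne_zero A B
  have h2' := two_ne_zero_ratFunc (l := l) hl
  rw [nonsingular_iff, equation_iff, h1, h2, h3, h4, h6]
  refine ⟨?_, Or.inr ?_⟩
  · have e2 : (fF A B ^ m) ^ 2 = fF A B ^ 3 * fF A B ^ n := by
      rw [← pow_mul, ← pow_add]; congr 1; omega
    have e3 : (RatFunc.X ^ n : RatFunc (ZMod l)) ^ 3 = RatFunc.X ^ (3 * n) := by
      rw [← pow_mul]; congr 1; omega
    linear_combination e2 + (fF A B ^ 3) * hn - (fF A B ^ 3) * e3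
  · intro h
    have : (2 : RatFunc (ZMod l)) * fF A B ^ m = 0 := by linear_combination h
    rcases mul_eq_zero.mp this with h | h
    · exact h2' h
    · exact hf (pow_eq_zero_iff (by omega)|>.mp h)

/-- `Φ = (t^l f, f^((l+3)/2))` lies on the twisted curve. -/
lemma twist_nonsingular_Phi (hl : l ≠ 2) {W : WeierstrassCurve (RatFunc (ZMod l))}
    (h1 : W.a₁ = 0) (h2 : W.a₂ = 0) (h3 : W.a₃ = 0) (h4 : W.a₄ = RatFunc.C A * fF A B ^ 2)
    (h6 : W.a₆ = RatFunc.C B * fF A B ^ 3) {m : ℕ} (hm : 2 * m = l + 3) :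
    W.toAffine.Nonsingular (RatFunc.X ^ l * fF A B) (fF A B ^ m) :=
  twist_nonsingular_PhiN A B hl h1 h2 h3 h4 h6 hm (fF_pow_l A B)

lemma fP_pow_l_sq : fP A B ^ (l ^ 2) = X ^ (3 * l ^ 2) + C A * X ^ (l ^ 2) + C B := by
  rw [pow_two, pow_mul, fP_pow_l, add_pow_char, add_pow_char, mul_pow, ← pow_mul, ← pow_mul,
    ← C_pow, ← C_pow, ZMod.pow_card, ZMod.pow_card, mul_assoc]

lemma fF_pow_l_sq :
    fF A B ^ (l ^ 2) = RatFunc.X ^ (3 * l ^ 2) + RatFunc.C A * RatFunc.X ^ (l ^ 2) + RatFunc.C B := by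
  unfold fF
  rw [← map_pow, fP_pow_l_sq]
  simp

/-- `Φ₂ = (t^(l^2) f, f^((l^2+3)/2))` lies on the twisted curve. -/
lemma twist_nonsingular_Phi2 (hl : l ≠ 2) {W : WeierstrassCurve (RatFunc (ZMod l))}
    (h1 : W.a₁ = 0) (h2 : W.a₂ = 0) (h3 : W.a₃ = 0) (h4 : W.a₄ = RatFunc.C A * fF A B ^ 2)
    (h6 : W.a₆ = RatFunc.C B * fF A B ^ 3) {m : ℕ} (hm : 2 * m = l ^ 2 + 3) :
    W.toAffine.Nonsingular (RatFunc.X ^ (l ^ 2) * fF A B) (fF A B ^ m) :=
  twist_nonsingular_PhiN A B hl h1 h2 h3 h4 h6 hm (fF_pow_l_sq A B)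

/-- **E4, summary form.** On any curve `W` over `F_l(t)` with `a₁ = a₂ = a₃ = 0` carrying
`Φ = (t^l f, f^m)` (`2m = l+3`) and `G₀ = (t f, f^2)`: `x(Φ - G₀) = f * r` where the reduced
numerator of `r` has degree `#E(F_l)` and its denominator has smaller degree. -/
theorem manin_count [DecidableEq (RatFunc (ZMod l))] (hl : l ≠ 2)
    (hΔ : 4 * A ^ 3 + 27 * B ^ 2 ≠ 0) {W : WeierstrassCurve (RatFunc (ZMod l))}
    (h1 : W.a₁ = 0) (h2 : W.a₂ = 0) (h3 : W.a₃ = 0) {m : ℕ} (hm : 2 * m = l + 3)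
    (hΦ : W.toAffine.Nonsingular (RatFunc.X ^ l * fF A B) (fF A B ^ m))
    (hG : W.toAffine.Nonsingular (RatFunc.X * fF A B) (fF A B ^ 2)) :
    ∃ (r y : RatFunc (ZMod l)) (h : W.toAffine.Nonsingular (fF A B * r) y),
      Point.some _ _ hΦ - Point.some _ _ hG = Point.some _ y h ∧
      r.num.natDegree = Nat.card (⟨0, 0, 0, A, B⟩ : WeierstrassCurve (ZMod l)).toAffine.Point ∧
      r.denom.natDegree < r.num.natDegree := by
  obtain ⟨y, h, e⟩ := manin_point A B h1 h2 h3 hm hΦ hG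
  exact ⟨maninFrac A B, y, h, e, manin_ratFunc A B hl hΔ⟩

end Twist

end Fermat.Agent.S52.H59
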