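import Fermat.Agent.S52.DegM1_helper28
import Fermat.Agent.S52.ManinCount_helper59

/-!
# S52 node E4 (Manin count), consumer form in the vocabulary of `DegM1_helper28`

For a prime `l ≠ 2` and `A B : ZMod l` with `4 A^3 + 27 B^2 ≠ 0`, on the twisted curve
`H28.twist A B : Y^2 = X^3 + A f^2 X + B f^3` over `F_l(t)`:

* (E4-a) `nonsingular_Phi`, `nonsingular_Phi2`: the Frobenius points
  `Φ = (t^l f, f^((l+3)/2))`, `Φ₂ = (t^(l^2) f, f^((l^2+3)/2))` are nonsingular;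
* (E4-b) `dPt_Phi : d(Φ) = l` (and `dPt_Phi2 : d(Φ₂) = l^2`);
* (E4-c) `dPt_Phi_sub_G0 : d(Φ - G₀) = #E(F_l)` where `E = ⟨0,0,0,A,B⟩` over `ZMod l`.
-/

namespace Fermat.Agent.S52.H59

open Polynomial WeierstrassCurve

variable {l : ℕ} [Fact l.Prime] (A B : ZMod l)

lemma fF_H28 : H28.fF A B = fF A B := rfl

lemma odd_of_prime_ne_two (hl : l ≠ 2) : l % 2 = 1 := by
  rcases (Fact.out : l.Prime).eq_two_or_odd with h | h
  · exact absurd h hl
  · exact h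

lemma two_mul_half_l (hl : l ≠ 2) : 2 * ((l + 3) / 2) = l + 3 := by
  have := odd_of_prime_ne_two (l := l) hl
  omega

lemma two_mul_half_l_sq (hl : l ≠ 2) : 2 * ((l ^ 2 + 3) / 2) = l ^ 2 + 3 := by
  have h := odd_of_prime_ne_two (l := l) hl
  have h2 : l ^ 2 % 2 = 1 := by
    rw [pow_two, Nat.mul_mod, h]
  omega

/-- (E4-a) `Φ = (t^l f, f^((l+3)/2))` is a nonsingular point of the twisted curve. -/
theorem nonsingular_Phi (hl : l ≠ 2) :
    (H28.twist A B).toAffine.Nonsingular (RatFunc.X ^ l * H28.fF A B)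
      (H28.fF A B ^ ((l + 3) / 2)) :=
  twist_nonsingular_Phi (W := H28.twist A B) A B hl rfl rfl rfl rfl rfl (two_mul_half_l hl)

/-- (E4-a) `Φ₂ = (t^(l^2) f, f^((l^2+3)/2))` is a nonsingular point of the twisted curve. -/
theorem nonsingular_Phi2 (hl : l ≠ 2) :
    (H28.twist A B).toAffine.Nonsingular (RatFunc.X ^ (l ^ 2) * H28.fF A B)
      (H28.fF A B ^ ((l ^ 2 + 3) / 2)) :=
  twist_nonsingular_Phi2 (W := H28.twist A B) A B hl rfl rfl rfl rfl rfl (two_mul_half_l_sq hl)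

lemma rdeg_X_pow (n : ℕ) : H28.rdeg (RatFunc.X ^ n : RatFunc (ZMod l)) = n := by
  obtain ⟨h1, h2⟩ := ratFunc_X_pow_num_denom (l := l) n
  unfold H28.rdeg
  rw [h1, h2]
  simp

/-- `d` of any affine point with abscissa `t^n f` is `n`. -/
theorem dPt_X_pow_mul {n : ℕ} {y : RatFunc (ZMod l)}
    (h : (H28.twist A B).toAffine.Nonsingular (RatFunc.X ^ n * H28.fF A B) y) :
    H28.dPt A B (.some _ _ h) = n := by
  rw [H28.dPt_some, mul_div_assoc, div_self (H28.fF_ne_zero A B), mul_one, rdeg_X_pow]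

/-- (E4-b) `d(Φ) = l` (for an arbitrary nonsingularity proof). -/
theorem dPt_Phi
    (hΦ : (H28.twist A B).toAffine.Nonsingular (RatFunc.X ^ l * H28.fF A B)
      (H28.fF A B ^ ((l + 3) / 2))) :
    H28.dPt A B (.some _ _ hΦ) = l :=
  dPt_X_pow_mul A B hΦ

/-- `d(Φ₂) = l^2` (for an arbitrary nonsingularity proof). -/
theorem dPt_Phi2
    (hΦ2 : (H28.twist A B).toAffine.Nonsingular (RatFunc.X ^ (l ^ 2) * H28.fF A B)
      (H28.fF A B ^ ((l ^ 2 + 3) / 2))) :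
    H28.dPt A B (.some _ _ hΦ2) = l ^ 2 :=
  dPt_X_pow_mul A B hΦ2

/-- (E4-c) **Manin count**: `d(Φ - G₀) = #E(F_l)` (arbitrary nonsingularity proofs). -/
theorem dPt_Phi_sub_G0 [DecidableEq (RatFunc (ZMod l))] (hl : l ≠ 2)
    (hΔ : 4 * A ^ 3 + 27 * B ^ 2 ≠ 0)
    (hΦ : (H28.twist A B).toAffine.Nonsingular (RatFunc.X ^ l * H28.fF A B)
      (H28.fF A B ^ ((l + 3) / 2)))
    (hG : (H28.twist A B).toAffine.Nonsingular (RatFunc.X * H28.fF A B) (H28.fF A B ^ 2)) :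
    H28.dPt A B (Affine.Point.some _ _ hΦ - Affine.Point.some _ _ hG) =
      Nat.card (⟨0, 0, 0, A, B⟩ : WeierstrassCurve (ZMod l)).toAffine.Point := by
  obtain ⟨y, h, e⟩ := manin_point (W := H28.twist A B) A B rfl rfl rfl (two_mul_half_l hl) hΦ hG
  obtain ⟨hnum, hlt⟩ := manin_ratFunc A B hl hΔ
  have e' : Affine.Point.some (RatFunc.X ^ l * H28.fF A B) (H28.fF A B ^ ((l + 3) / 2)) hΦ -
      Affine.Point.some (RatFunc.X * H28.fF A B) (H28.fF A B ^ 2) hG =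
      Affine.Point.some (fF A B * maninFrac A B) y h := e
  rw [e', H28.dPt_some]
  have hq : fF A B * maninFrac A B / H28.fF A B = maninFrac A B := by
    rw [fF_H28, mul_comm, mul_div_assoc, div_self (fF_ne_zero A B), mul_one]
  rw [hq]
  unfold H28.rdeg
  rw [max_eq_left hlt.le, hnum]

/-- (E4-c), integer form consumed by the E5 core: `d(Φ - G₀) = l + 1 - a` with
`a = l + 1 - #E(F_l)`. -/
theorem dPt_Phi_sub_G0_int [DecidableEq (RatFunc (ZMod l))] (hl : l ≠ 2)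
    (hΔ : 4 * A ^ 3 + 27 * B ^ 2 ≠ 0)
    (hΦ : (H28.twist A B).toAffine.Nonsingular (RatFunc.X ^ l * H28.fF A B)
      (H28.fF A B ^ ((l + 3) / 2)))
    (hG : (H28.twist A B).toAffine.Nonsingular (RatFunc.X * H28.fF A B) (H28.fF A B ^ 2)) :
    (H28.dPt A B (Affine.Point.some _ _ hΦ - Affine.Point.some _ _ hG) : ℤ) =
      (l : ℤ) + 1 - ((l : ℤ) + 1 -
        Nat.card (⟨0, 0, 0, A, B⟩ : WeierstrassCurve (ZMod l)).toAffine.Point) := by
  rw [dPt_Phi_sub_G0 A B hl hΔ hΦ hG]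
  ring

end Fermat.Agent.S52.H59
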