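import Mathlib
import Fermat.Agent.S52.FrobSec_helper44
import Fermat.Agent.S52.ModFive_helper47
import Fermat.Agent.S52.Transfer_helper50

/-!
# S52, node F4 (ModFive): glue of F2 + F3 + F4-core + the output shape of E6

`modFive_glue`: let `K` be an infinite field of characteristic `ℓ` with surjective Frobenius and
`E_s : y² = x³ + A(s) x + B(s)` a family of short curves whose coefficient functions commute
with Frobenius.  Let `h` be a section system (`H14.SecSys`, node F2) enumerating the nonzero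
`n`-torsion (`n` an odd prime) on a cofinite set `S` of parameters, and let `s₀, s₁ ∈ S` be
Frobenius-fixed.  If the Frobenius endomorphisms `H50.frobPt` of the two fibres satisfy
`2 • (Fr² P - a₀ • Fr P + ℓ • P) = 0`, resp. with `a₁` (the conclusion of `H50.transfer`,
node E6), then `n ∣ a₀ - a₁`.

Inputs used: `secSys_exists_frob_perm` (F3, `FrobSec_helper44`) and
`H47.secSys_dvd_sub_of_frob` (F4 core).
-/

set_option autoImplicit false

open Polynomial WeierstrassCurve WeierstrassCurve.Affine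

namespace Fermat.Agent.S52.H44

open Fermat.Agent.S52.H14

section Glue

variable {K : Type*} [Field K] [DecidableEq K]

omit [DecidableEq K] in
/-- The family of short curves with coefficient functions `A`, `B` is compatible with Frobenius
as soon as `A` and `B` are. -/
lemma shortFam_map_frobenius (ℓ : ℕ) [Fact ℓ.Prime] [CharP K ℓ] (A B : K → K)
    (hA : ∀ s, A (s ^ ℓ) = A s ^ ℓ) (hB : ∀ s, B (s ^ ℓ) = B s ^ ℓ) (s : K) :
    ((fun s => (⟨0, 0, 0, A s, B s⟩ : WeierstrassCurve K)) s).toAffine.map (frobenius K ℓ) =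
      ((fun s => (⟨0, 0, 0, A s, B s⟩ : WeierstrassCurve K)) (s ^ ℓ)).toAffine := by
  have := shortW_map (frobenius K ℓ) (A s) (B s)
  rw [frobenius_def, frobenius_def, ← hA, ← hB] at this
  exact this

/-- **F4 glue.** See the module docstring. -/
theorem modFive_glue (ℓ : ℕ) [Fact ℓ.Prime] [CharP K ℓ] [Infinite K]
    (hperf : Function.Surjective (frobenius K ℓ)) (h2K : (2 : K) ≠ 0)
    {n : ℕ} (hn : n.Prime) (hn2 : n ≠ 2)
    (A B : K → K) (hA : ∀ s, A (s ^ ℓ) = A s ^ ℓ) (hB : ∀ s, B (s ^ ℓ) = B s ^ ℓ)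
    {S : Set K} (hfin : Sᶜ.Finite)
    {G : ∀ s, AddSubgroup (H50.short K (A s) (B s)).Point}
    (hG : ∀ s (P : (H50.short K (A s) (B s)).Point), P ∈ G s ↔ n • P = 0)
    {ι : Type*} [Finite ι] [Nonempty ι] {X Y : ι → K → K}
    (h : SecSys (fun s => (⟨0, 0, 0, A s, B s⟩ : WeierstrassCurve K)) A S G X Y)
    {s₀ s₁ : K} (hs₀ : s₀ ∈ S) (hs₁ : s₁ ∈ S) (hsl₀ : s₀ ^ ℓ = s₀) (hsl₁ : s₁ ^ ℓ = s₁)
    (hA₀ : A s₀ ^ ℓ = A s₀) (hB₀ : B s₀ ^ ℓ = B s₀)
    (hA₁ : A s₁ ^ ℓ = A s₁) (hB₁ : B s₁ ^ ℓ = B s₁) (a₀ a₁ : ℤ)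
    (hc₀ : ∀ P : (H50.short K (A s₀) (B s₀)).Point,
      2 • (H50.frobPt ℓ hA₀ hB₀ (H50.frobPt ℓ hA₀ hB₀ P) - a₀ • H50.frobPt ℓ hA₀ hB₀ P
        + (ℓ : ℤ) • P) = 0)
    (hc₁ : ∀ P : (H50.short K (A s₁) (B s₁)).Point,
      2 • (H50.frobPt ℓ hA₁ hB₁ (H50.frobPt ℓ hA₁ hB₁ P) - a₁ • H50.frobPt ℓ hA₁ hB₁ P
        + (ℓ : ℤ) • P) = 0) :
    (n : ℤ) ∣ a₀ - a₁ := by
  obtain ⟨π, hπ⟩ := secSys_exists_frob_perm h ℓ hperf (shortFam_map_frobenius ℓ A B hA hB) n hG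
    hfin
  have hSinf : S.Infinite := by
    have := hfin.infinite_compl
    rwa [compl_compl] at this
  exact H47.secSys_dvd_sub_of_frob h hSinf h2K hn hn2 hs₀ hs₁
    (fun P hP => (hG _ P).mp hP) (fun P hP => (hG _ P).mp hP)
    (H50.frobPt ℓ hA₀ hB₀) (H50.frobPt ℓ hA₁ hB₁) π
    (hπ s₀ hs₀ hsl₀ _ (fun x y hxy => ⟨_, H50.frobPt_some ℓ hA₀ hB₀ hxy⟩))
    (hπ s₁ hs₁ hsl₁ _ (fun x y hxy => ⟨_, H50.frobPt_some ℓ hA₁ hB₁ hxy⟩))
    a₀ a₁ (ℓ : ℤ) (fun i => hc₀ _) (fun i => hc₁ _)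

end Glue

end Fermat.Agent.S52.H44
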