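import Mathlib
import Fermat.Agent.S52.CompBridge_helper79

/-!
# S52 (E4-a): nonsingularity of the Frobenius points `Φ`, `Φ2` on the twisted curve,
in the vocabulary of `DegM1_helper28`.
-/

set_option autoImplicit false

namespace Fermat.Agent.S52.H79

open WeierstrassCurve

variable {l : ℕ} [Fact l.Prime]

theorem nonsingular_Phi_exp {r : ℕ} (hl : l = 2 * r + 1) (A B : ZMod l)
    (hG : (twAff A B).Nonsingular (RatFunc.X * fRat A B) (fRat A B ^ 2)) :
    (twAff A B).Nonsingular (RatFunc.X ^ l * fRat A B) (fRat A B ^ (r + 2)) := by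
  have h1 := sigmaFrob_nonsingular hl hG
  have hf := fRat_ne_zero A B
  have hl' : ∀ z : RatFunc (ZMod l), z ^ l = z ^ (2 * r + 1) :=
    fun z => congrArg (fun n => z ^ n) hl
  have e1 : (RatFunc.X * fRat A B) ^ l / fRat A B ^ (2 * r) = RatFunc.X ^ l * fRat A B := by
    rw [hl' (RatFunc.X * fRat A B), hl' RatFunc.X]
    field_simp
    ring
  have e2 : (fRat A B ^ 2) ^ l / fRat A B ^ (3 * r) = fRat A B ^ (r + 2) := by
    rw [hl' (fRat A B ^ 2)]
    field_simp
    ring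
  rw [e1, e2] at h1
  exact h1

theorem nonsingular_Phi2_exp {r : ℕ} (hl : l = 2 * r + 1) (A B : ZMod l)
    (hΦ : (twAff A B).Nonsingular (RatFunc.X ^ l * fRat A B) (fRat A B ^ (r + 2))) :
    (twAff A B).Nonsingular (RatFunc.X ^ (l ^ 2) * fRat A B)
      (fRat A B ^ (2 * r ^ 2 + 2 * r + 2)) := by
  have h1 := sigmaFrob_nonsingular hl hΦ
  have hf := fRat_ne_zero A B
  have hl' : ∀ z : RatFunc (ZMod l), z ^ l = z ^ (2 * r + 1) :=
    fun z => congrArg (fun n => z ^ n) hl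
  have hl2 : (RatFunc.X : RatFunc (ZMod l)) ^ (l ^ 2) = (RatFunc.X ^ l) ^ l := by
    rw [← pow_mul, pow_two]
  have e1 : (RatFunc.X ^ l * fRat A B) ^ l / fRat A B ^ (2 * r) =
      RatFunc.X ^ (l ^ 2) * fRat A B := by
    rw [hl2, hl' (RatFunc.X ^ l * fRat A B), hl' (RatFunc.X ^ l)]
    field_simp
    ring
  have e2 : (fRat A B ^ (r + 2)) ^ l / fRat A B ^ (3 * r) =
      fRat A B ^ (2 * r ^ 2 + 2 * r + 2) := by
    rw [hl' (fRat A B ^ (r + 2))]
    field_simp
    ring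
  rw [e1, e2] at h1
  exact h1

/-- (E4-a) `Φ = (X^l f, f^((l+3)/2))` is a nonsingular point of the twisted curve. -/
theorem nonsingular_Phi_H28 (hl2 : l ≠ 2) (A B : ZMod l) :
    (H28.twist A B).toAffine.Nonsingular (RatFunc.X ^ l * H28.fF A B)
      (H28.fF A B ^ ((l + 3) / 2)) := by
  obtain ⟨r, hr⟩ := (Fact.out : l.Prime).odd_of_ne_two hl2
  have he₁ : (l + 3) / 2 = r + 2 := by omega
  have h2 : (2 : ZMod l) ≠ 0 := by
    intro h
    have h3 : ((2 : ℕ) : ZMod l) = 0 := by exact_mod_cast h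
    rw [ZMod.natCast_eq_zero_iff] at h3
    have := (Nat.prime_dvd_prime_iff_eq (Fact.out : l.Prime) Nat.prime_two).mp h3
    exact hl2 this
  rw [he₁]
  exact nonsingular_Phi_exp hr A B (H28.nonsingular_G0 h2 A B)

/-- (E4-a) `Φ2 = (X^(l²) f, f^((l²+3)/2))` is a nonsingular point of the twisted curve. -/
theorem nonsingular_Phi2_H28 (hl2 : l ≠ 2) (A B : ZMod l) :
    (H28.twist A B).toAffine.Nonsingular (RatFunc.X ^ (l ^ 2) * H28.fF A B)
      (H28.fF A B ^ ((l ^ 2 + 3) / 2)) := by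
  obtain ⟨r, hr⟩ := (Fact.out : l.Prime).odd_of_ne_two hl2
  have he₁ : (l + 3) / 2 = r + 2 := by omega
  have he₂ : (l ^ 2 + 3) / 2 = 2 * r ^ 2 + 2 * r + 2 := by
    apply Nat.div_eq_of_eq_mul_left (by norm_num)
    rw [hr]; ring
  have h1 := nonsingular_Phi_H28 hl2 A B
  rw [he₁] at h1
  rw [he₂]
  exact nonsingular_Phi2_exp hr A B h1

/-- `d Φ = l`. -/
theorem dPt_Phi_H28 (A B : ZMod l) {y : RatFunc (ZMod l)}
    (hΦ : (H28.twist A B).toAffine.Nonsingular (RatFunc.X ^ l * H28.fF A B) y) :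
    H28.dPt A B (Affine.Point.some _ _ hΦ) = l := by
  rw [H28.dPt_some]
  have hf := H28.fF_ne_zero A B
  have e : RatFunc.X ^ l * H28.fF A B / H28.fF A B = (RatFunc.X : RatFunc (ZMod l)) ^ l := by
    field_simp
  rw [e]
  have e2 : (RatFunc.X : RatFunc (ZMod l)) ^ l =
      algebraMap (Polynomial (ZMod l)) (RatFunc (ZMod l)) (Polynomial.X ^ l) := by
    rw [map_pow, RatFunc.algebraMap_X]
  rw [e2, H28.rdeg, RatFunc.num_algebraMap, RatFunc.denom_algebraMap]
  simp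

end Fermat.Agent.S52.H79
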