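import Mathlib

/-!
# S52: semistability of the switched model at the primes not dividing `M` (`hss`)

Abstract over the Klein/family data (functions `kH kT kf kn1 kn2`, `F4`, `FD` with the
identities `(F2)`, `(B1)`, the Klein relation, the determinant identity and the lifting lemma):
if `famD(c4, c6; a, b) = 0` with `(a, b) ≠ (0, 0)` and `c4³ ≠ c6²` then `famC4(c4, c6; a, b) ≠ 0`.
The integer corollary `hss_of_data` is literally the body of the hypothesis `hss` of
`H43.switch_of_model`.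
-/

set_option autoImplicit false

namespace Fermat.Agent.S52.H82

/-- On the Klein line family, `famD = 0` forces `famC4 ≠ 0` (no additive reduction). -/
theorem fam_c4_ne_zero {K : Type*} [Field K] (kH kT kf kn1 kn2 : K → K → K)
    (F4 FD : K → K → K → K → K)
    (hrel : ∀ u v, kT u v ^ 2 + kH u v ^ 3 = 1728 * kf u v ^ 5)
    (hdet : ∀ u v, u * kn2 u v - v * kn1 u v = -12 * kf u v)
    (hF2H : ∀ a b u v, -kH (a * u + b * kn1 u v) (a * v + b * kn2 u v) =
      F4 (-kH u v) (-kT u v) a b)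
    (hF2f : ∀ a b u v, kf (a * u + b * kn1 u v) (a * v + b * kn2 u v) =
      kf u v * FD (-kH u v) (-kT u v) a b)
    (hB1 : ∀ u v, kf u v = 0 → kH u v = 0 → u = 0 ∧ v = 0)
    (hlift : ∀ c4 c6 : K, c4 ^ 3 ≠ c6 ^ 2 → ∃ u v, -kH u v = c4 ∧ -kT u v = c6)
    (h6 : (6 : K) ≠ 0) (c4 c6 a b : K) (hdisc : c4 ^ 3 ≠ c6 ^ 2) (hab : a ≠ 0 ∨ b ≠ 0)
    (hD : FD c4 c6 a b = 0) : F4 c4 c6 a b ≠ 0 := by
  obtain ⟨u, v, hH, hT⟩ := hlift c4 c6 hdisc
  have hf0 : kf u v ≠ 0 := by
    intro h0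
    have h := hrel u v
    rw [h0] at h
    apply hdisc
    rw [← hH, ← hT]
    linear_combination -h
  have h12 : (12 : K) ≠ 0 := by
    intro h
    apply h6
    have h2 : (2 : K) * 6 = 0 := by rw [← h]; norm_num
    rcases mul_eq_zero.mp h2 with h' | h'
    · have : (6 : K) = 2 * 3 := by norm_num
      rw [this, h', zero_mul]
    · exact h'
  intro h4
  have hHw : kH (a * u + b * kn1 u v) (a * v + b * kn2 u v) = 0 := by
    have h := hF2H a b u v
    rw [hH, hT, h4] at h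
    exact neg_eq_zero.mp h
  have hfw : kf (a * u + b * kn1 u v) (a * v + b * kn2 u v) = 0 := by
    rw [hF2f, hH, hT, hD, mul_zero]
  obtain ⟨e1, e2⟩ := hB1 _ _ hfw hHw
  have hdet' := hdet u v
  have hne : (-12 : K) * kf u v ≠ 0 := mul_ne_zero (neg_ne_zero.mpr h12) hf0
  have ha : a = 0 := by
    have : a * (-12 * kf u v) = 0 := by
      rw [← hdet']
      linear_combination kn2 u v * e1 - kn1 u v * e2
    rcases mul_eq_zero.mp this with h | h
    · exact h
    · exact absurd h hne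
  have hb : b = 0 := by
    have : b * (-12 * kf u v) = 0 := by
      rw [← hdet']
      linear_combination u * e2 - v * e1
    rcases mul_eq_zero.mp this with h | h
    · exact h
    · exact absurd h hne
  rcases hab with h | h
  · exact h ha
  · exact h hb

/-- **`hss`**: for a prime `p ∤ 6 M (c4³ - c6²)`, if `p ∣ d' = famD(c4, c6; n, M)` then
`p ∤ c4' = famC4(c4, c6; n, M)`.  `K` is an algebraically closed field of characteristic `p`
(the data hypotheses are those of `fam_c4_ne_zero`); `hc4'`, `hd'` express that the integer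
family reduces to the family over `K`. -/
theorem hss_of_data (p : ℕ) [Fact p.Prime] {K : Type*} [Field K] [CharP K p]
    (kH kT kf kn1 kn2 : K → K → K) (F4 FD : K → K → K → K → K)
    (hrel : ∀ u v, kT u v ^ 2 + kH u v ^ 3 = 1728 * kf u v ^ 5)
    (hdet : ∀ u v, u * kn2 u v - v * kn1 u v = -12 * kf u v)
    (hF2H : ∀ a b u v, -kH (a * u + b * kn1 u v) (a * v + b * kn2 u v) =
      F4 (-kH u v) (-kT u v) a b)
    (hF2f : ∀ a b u v, kf (a * u + b * kn1 u v) (a * v + b * kn2 u v) =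
      kf u v * FD (-kH u v) (-kT u v) a b)
    (hB1 : ∀ u v, kf u v = 0 → kH u v = 0 → u = 0 ∧ v = 0)
    (hlift : ∀ c4 c6 : K, c4 ^ 3 ≠ c6 ^ 2 → ∃ u v, -kH u v = c4 ∧ -kT u v = c6)
    (c4 c6 n M c4' d' : ℤ)
    (hc4' : (c4' : K) = F4 (c4 : K) (c6 : K) (n : K) (M : K))
    (hd' : (d' : K) = FD (c4 : K) (c6 : K) (n : K) (M : K))
    (hp6 : ¬ (p : ℤ) ∣ 6) (hpM : ¬ (p : ℤ) ∣ M) (hpΔ : ¬ (p : ℤ) ∣ c4 ^ 3 - c6 ^ 2)
    (hpd : (p : ℤ) ∣ d') : ¬ (p : ℤ) ∣ c4' := by
  have cast0 : ∀ z : ℤ, (z : K) = 0 ↔ (p : ℤ) ∣ z := fun z => CharP.intCast_eq_zero_iff K p z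
  intro hc
  have h6 : (6 : K) ≠ 0 := by
    intro h
    apply hp6
    apply (cast0 6).mp
    exact_mod_cast h
  have hb : (M : K) ≠ 0 := fun h => hpM ((cast0 M).mp h)
  have hdisc : (c4 : K) ^ 3 ≠ (c6 : K) ^ 2 := by
    intro h
    apply hpΔ
    apply (cast0 _).mp
    push_cast
    rw [h, sub_self]
  have hD : FD (c4 : K) (c6 : K) (n : K) (M : K) = 0 := by
    rw [← hd']
    exact (cast0 d').mpr hpd
  have key := fam_c4_ne_zero kH kT kf kn1 kn2 F4 FD hrel hdet hF2H hF2f hB1 hlift h6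
    (c4 : K) (c6 : K) (n : K) (M : K) hdisc (Or.inr hb) hD
  apply key
  rw [← hc4']
  exact (cast0 c4').mpr hc

end Fermat.Agent.S52.H82
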