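/-
S52 node E1 (ShortScale), helper55.

Short Weierstrass curves `y² = x³ + A x + B` over a field, and the group homomorphisms between
their point groups given by "semilinear scalings" `(x, y) ↦ (s² φ x, s³ φ y)` for a ring
homomorphism `φ` and a nonzero scalar `s` (special cases: scaling `φ = id`, base change `s = 1`).
-/
import Mathlib

namespace Fermat.Agent.S52.H55

open WeierstrassCurve WeierstrassCurve.Affine

/-- The short Weierstrass curve `y² = x³ + A x + B`, in affine form. -/
abbrev shortW {R : Type*} [CommRing R] (A B : R) : WeierstrassCurve.Affine R :=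
  (⟨0, 0, 0, A, B⟩ : WeierstrassCurve R)

section basic

variable {R : Type*} [CommRing R]

theorem shortW_equation_iff (A B x y : R) :
    (shortW A B).Equation x y ↔ y ^ 2 = x ^ 3 + A * x + B := by
  rw [WeierstrassCurve.Affine.equation_iff]
  simp

theorem shortW_nonsingular_iff (A B x y : R) :
    (shortW A B).Nonsingular x y ↔
      y ^ 2 = x ^ 3 + A * x + B ∧ (3 * x ^ 2 + A ≠ 0 ∨ 2 * y ≠ 0) := by
  rw [WeierstrassCurve.Affine.nonsingular_iff', shortW_equation_iff]
  have e1 : (shortW A B).a₁ * y - (3 * x ^ 2 + 2 * (shortW A B).a₂ * x + (shortW A B).a₄)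
      = -(3 * x ^ 2 + A) := by
    dsimp only; ring
  have e2 : 2 * y + (shortW A B).a₁ * x + (shortW A B).a₃ = 2 * y := by
    dsimp only; ring
  rw [e1, e2, neg_ne_zero]

theorem shortW_negY (A B x y : R) : (shortW A B).negY x y = -y := by
  simp

theorem shortW_Δ (A B : R) : (shortW A B).Δ = -16 * (4 * A ^ 3 + 27 * B ^ 2) := by
  simp only [WeierstrassCurve.Δ, WeierstrassCurve.b₂, WeierstrassCurve.b₄,
    WeierstrassCurve.b₆, WeierstrassCurve.b₈]
  ring

theorem shortW_c₄ (A B : R) : (shortW A B).c₄ = -48 * A := by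
  simp only [WeierstrassCurve.c₄, WeierstrassCurve.b₂, WeierstrassCurve.b₄]
  ring

theorem shortW_c₆ (A B : R) : (shortW A B).c₆ = -864 * B := by
  simp only [WeierstrassCurve.c₆, WeierstrassCurve.b₂, WeierstrassCurve.b₄,
    WeierstrassCurve.b₆]
  ring

end basic

section semi

variable {F F' : Type*} [Field F] [Field F']

/-- Nonsingular points of a short curve, when the discriminant is nonzero: just the equation. -/
theorem shortW_nonsingular_of_equation {A B x y : F} (hΔ : 4 * A ^ 3 + 27 * B ^ 2 ≠ 0)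
    (h2 : (2 : F) ≠ 0) (h : y ^ 2 = x ^ 3 + A * x + B) : (shortW A B).Nonsingular x y := by
  refine (WeierstrassCurve.Affine.equation_iff_nonsingular_of_Δ_ne_zero ?_).mp
    ((shortW_equation_iff A B x y).mpr h)
  rw [shortW_Δ]
  have h16 : (-16 : F) ≠ 0 := by
    have : (-16 : F) = -(2 ^ 4) := by norm_num
    rw [this]
    exact neg_ne_zero.mpr (pow_ne_zero _ h2)
  exact mul_ne_zero h16 hΔ

theorem shortW_nonsingular_semi {A B : F} {A' B' : F'} (φ : F →+* F') {s : F'} (hs : s ≠ 0)
    (hA : A' = s ^ 4 * φ A) (hB : B' = s ^ 6 * φ B) {x y : F}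
    (h : (shortW A B).Nonsingular x y) :
    (shortW A' B').Nonsingular (s ^ 2 * φ x) (s ^ 3 * φ y) := by
  rw [shortW_nonsingular_iff] at h ⊢
  obtain ⟨he, hns⟩ := h
  subst hA hB
  refine ⟨?_, ?_⟩
  · have := congrArg φ he
    simp only [map_pow, map_add, map_mul] at this
    linear_combination s ^ 6 * this
  · rcases hns with h1 | h1
    · left
      have h1' : φ (3 * x ^ 2 + A) ≠ 0 := (map_ne_zero φ).mpr h1
      simp only [map_add, map_mul, map_pow, map_ofNat] at h1'
      intro h0
      apply h1'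
      have : s ^ 4 * (3 * φ x ^ 2 + φ A) = 0 := by linear_combination h0
      exact (mul_eq_zero.mp this).resolve_left (pow_ne_zero _ hs)
    · right
      have h1' : φ (2 * y) ≠ 0 := (map_ne_zero φ).mpr h1
      simp only [map_mul, map_ofNat] at h1'
      intro h0
      apply h1'
      have : s ^ 3 * (2 * φ y) = 0 := by linear_combination h0
      exact (mul_eq_zero.mp this).resolve_left (pow_ne_zero _ hs)

variable [DecidableEq F] [DecidableEq F']

theorem shortW_slope_semi {A B : F} (φ : F →+* F') {s : F'} (hs : s ≠ 0) (x₁ x₂ y₁ y₂ : F) :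
    (shortW (s ^ 4 * φ A) (s ^ 6 * φ B)).slope (s ^ 2 * φ x₁) (s ^ 2 * φ x₂) (s ^ 3 * φ y₁)
        (s ^ 3 * φ y₂)
      = s * φ ((shortW A B).slope x₁ x₂ y₁ y₂) := by
  by_cases hx : x₁ = x₂
  · by_cases hy : y₁ = (shortW A B).negY x₂ y₂
    · rw [slope_of_Y_eq hx hy, slope_of_Y_eq (by rw [hx]) (by
        rw [hy, shortW_negY, shortW_negY, map_neg]; ring)]
      simp
    · have hy' : s ^ 3 * φ y₁ ≠ (shortW (s ^ 4 * φ A) (s ^ 6 * φ B)).negY (s ^ 2 * φ x₂)
          (s ^ 3 * φ y₂) := by
        rw [shortW_negY]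
        intro h0
        apply hy
        rw [shortW_negY]
        apply φ.injective
        rw [map_neg]
        have : s ^ 3 * (φ y₁ + φ y₂) = 0 := by linear_combination h0
        have := (mul_eq_zero.mp this).resolve_left (pow_ne_zero _ hs)
        linear_combination this
      rw [slope_of_Y_ne hx hy, slope_of_Y_ne (by rw [hx]) hy', shortW_negY, shortW_negY]
      simp only [map_div₀, map_sub, map_add, map_mul, map_pow, map_neg, map_ofNat, map_zero]
      have e1 : 3 * (s ^ 2 * φ x₁) ^ 2 + 2 * 0 * (s ^ 2 * φ x₁) + s ^ 4 * φ A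
          - 0 * (s ^ 3 * φ y₁) = s ^ 3 * (s * (3 * φ x₁ ^ 2 + 2 * 0 * φ x₁ + φ A - 0 * φ y₁)) := by
        ring
      have e2 : s ^ 3 * φ y₁ - -(s ^ 3 * φ y₁) = s ^ 3 * (φ y₁ - -φ y₁) := by ring
      rw [e1, e2, mul_div_mul_left _ _ (pow_ne_zero 3 hs), mul_div_assoc]
  · have hx' : s ^ 2 * φ x₁ ≠ s ^ 2 * φ x₂ := by
      intro h0
      apply hx
      apply φ.injective
      exact mul_left_cancel₀ (pow_ne_zero 2 hs) h0
    rw [slope_of_X_ne hx, slope_of_X_ne hx']
    simp only [map_div₀, map_sub]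
    have e1 : s ^ 3 * φ y₁ - s ^ 3 * φ y₂ = s ^ 2 * (s * (φ y₁ - φ y₂)) := by ring
    have e2 : s ^ 2 * φ x₁ - s ^ 2 * φ x₂ = s ^ 2 * (φ x₁ - φ x₂) := by ring
    rw [e1, e2, mul_div_mul_left _ _ (pow_ne_zero 2 hs), mul_div_assoc]

/-- The semilinear scaling `(x, y) ↦ (s² φ x, s³ φ y)` as a group homomorphism between the point
groups of short Weierstrass curves. -/
noncomputable def semiTo {A B : F} {A' B' : F'} (φ : F →+* F') (s : F') (hs : s ≠ 0)
    (hA : A' = s ^ 4 * φ A) (hB : B' = s ^ 6 * φ B) :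
    (shortW A B).Point →+ (shortW A' B').Point where
  toFun P := match P with
    | .zero => 0
    | .some _ _ h => .some _ _ (shortW_nonsingular_semi φ hs hA hB h)
  map_zero' := rfl
  map_add' := by
    subst hA hB
    rintro (_ | ⟨x₁, y₁, h₁⟩) (_ | ⟨x₂, y₂, h₂⟩)
    any_goals rfl
    by_cases hxy : x₁ = x₂ ∧ y₁ = (shortW A B).negY x₂ y₂
    · rw [Point.add_of_Y_eq hxy.left hxy.right]
      refine (Point.add_of_Y_eq (by rw [hxy.left]) ?_).symm
      rw [hxy.right, shortW_negY, shortW_negY, map_neg]; ring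
    · have hxy' : ¬ (s ^ 2 * φ x₁ = s ^ 2 * φ x₂ ∧ s ^ 3 * φ y₁ =
          (shortW (s ^ 4 * φ A) (s ^ 6 * φ B)).negY (s ^ 2 * φ x₂) (s ^ 3 * φ y₂)) := by
        rintro ⟨h1, h2⟩
        apply hxy
        refine ⟨φ.injective (mul_left_cancel₀ (pow_ne_zero 2 hs) h1), ?_⟩
        rw [shortW_negY] at h2 ⊢
        apply φ.injective
        rw [map_neg]
        have : s ^ 3 * (φ y₁ + φ y₂) = 0 := by linear_combination h2
        have := (mul_eq_zero.mp this).resolve_left (pow_ne_zero _ hs)
        linear_combination this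
      rw [Point.add_some hxy]
      refine Eq.trans ?_ (Point.add_some hxy').symm
      simp only [Point.some.injEq]
      rw [shortW_slope_semi φ hs]
      constructor
      · simp only [addX, map_sub, map_add, map_mul, map_pow, map_zero]
        ring
      · simp only [addY, negAddY, addX, shortW_negY, map_sub, map_add, map_mul, map_pow, map_zero,
          map_neg]
        ring

@[simp]
theorem semiTo_zero {A B : F} {A' B' : F'} (φ : F →+* F') (s : F') (hs : s ≠ 0)
    (hA : A' = s ^ 4 * φ A) (hB : B' = s ^ 6 * φ B) :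
    semiTo φ s hs hA hB (0 : (shortW A B).Point) = 0 := rfl

theorem semiTo_some {A B : F} {A' B' : F'} (φ : F →+* F') (s : F') (hs : s ≠ 0)
    (hA : A' = s ^ 4 * φ A) (hB : B' = s ^ 6 * φ B) {x y : F}
    (h : (shortW A B).Nonsingular x y) :
    semiTo φ s hs hA hB (Point.some x y h)
      = Point.some (s ^ 2 * φ x) (s ^ 3 * φ y) (shortW_nonsingular_semi φ hs hA hB h) := rfl

theorem semiTo_injective {A B : F} {A' B' : F'} (φ : F →+* F') (s : F') (hs : s ≠ 0)
    (hA : A' = s ^ 4 * φ A) (hB : B' = s ^ 6 * φ B) :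
    Function.Injective (semiTo (A := A) (B := B) φ s hs hA hB) := by
  rintro (_ | ⟨x₁, y₁, h₁⟩) (_ | ⟨x₂, y₂, h₂⟩) h
  · rfl
  · exact absurd h.symm (by rw [semiTo_some]; exact Point.some_ne_zero _)
  · exact absurd h (by rw [semiTo_some]; exact Point.some_ne_zero _)
  · rw [semiTo_some, semiTo_some, Point.some.injEq] at h
    rw [Point.some.injEq]
    exact ⟨φ.injective (mul_left_cancel₀ (pow_ne_zero 2 hs) h.1),
      φ.injective (mul_left_cancel₀ (pow_ne_zero 3 hs) h.2)⟩

theorem semiTo_eq_zero_iff {A B : F} {A' B' : F'} (φ : F →+* F') (s : F') (hs : s ≠ 0)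
    (hA : A' = s ^ 4 * φ A) (hB : B' = s ^ 6 * φ B) (P : (shortW A B).Point) :
    semiTo φ s hs hA hB P = 0 ↔ P = 0 := by
  constructor
  · intro h
    exact semiTo_injective φ s hs hA hB (h.trans (semiTo_zero φ s hs hA hB).symm)
  · rintro rfl; rfl

/-- Composition of two semilinear scalings is a semilinear scaling. -/
theorem semiTo_semiTo {F'' : Type*} [Field F''] [DecidableEq F''] {A B : F} {A' B' : F'}
    {A'' B'' : F''} (φ : F →+* F') (s : F') (hs : s ≠ 0) (hA : A' = s ^ 4 * φ A)
    (hB : B' = s ^ 6 * φ B) (ψ : F' →+* F'') (r : F'') (hr : r ≠ 0) (hA' : A'' = r ^ 4 * ψ A')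
    (hB' : B'' = r ^ 6 * ψ B') (P : (shortW A B).Point) :
    semiTo ψ r hr hA' hB' (semiTo φ s hs hA hB P)
      = semiTo (ψ.comp φ) (r * ψ s) (mul_ne_zero hr ((map_ne_zero ψ).mpr hs))
          (by rw [hA', hA]; simp only [map_mul, map_pow, RingHom.comp_apply]; ring)
          (by rw [hB', hB]; simp only [map_mul, map_pow, RingHom.comp_apply]; ring) P := by
  rcases P with _ | ⟨x, y, h⟩
  · rfl
  · rw [semiTo_some, semiTo_some, semiTo_some, Point.some.injEq]
    simp only [map_mul, map_pow, RingHom.comp_apply]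
    constructor <;> ring

/-- Pure scaling `(x, y) ↦ (s² x, s³ y)`. -/
noncomputable def scaleTo {A B A' B' : F} (s : F) (hs : s ≠ 0) (hA : A' = s ^ 4 * A)
    (hB : B' = s ^ 6 * B) : (shortW A B).Point →+ (shortW A' B').Point :=
  semiTo (RingHom.id F) s hs hA hB

@[simp]
theorem scaleTo_zero {A B A' B' : F} (s : F) (hs : s ≠ 0) (hA : A' = s ^ 4 * A)
    (hB : B' = s ^ 6 * B) : scaleTo s hs hA hB (0 : (shortW A B).Point) = 0 := rfl

theorem scaleTo_some {A B A' B' : F} (s : F) (hs : s ≠ 0) (hA : A' = s ^ 4 * A)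
    (hB : B' = s ^ 6 * B) {x y : F} (h : (shortW A B).Nonsingular x y) :
    scaleTo s hs hA hB (Point.some x y h)
      = Point.some (s ^ 2 * x) (s ^ 3 * y)
          (shortW_nonsingular_semi (RingHom.id F) hs hA hB h) := rfl

theorem scaleTo_injective {A B A' B' : F} (s : F) (hs : s ≠ 0) (hA : A' = s ^ 4 * A)
    (hB : B' = s ^ 6 * B) : Function.Injective (scaleTo (A := A) (B := B) s hs hA hB) :=
  semiTo_injective _ s hs hA hB

/-- Scaling is bijective (inverse: scaling by `s⁻¹`). -/
theorem scaleTo_bijective {A B A' B' : F} (s : F) (hs : s ≠ 0) (hA : A' = s ^ 4 * A)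
    (hB : B' = s ^ 6 * B) : Function.Bijective (scaleTo (A := A) (B := B) s hs hA hB) := by
  refine ⟨scaleTo_injective s hs hA hB, ?_⟩
  have hA2 : A = s⁻¹ ^ 4 * A' := by rw [hA]; field_simp
  have hB2 : B = s⁻¹ ^ 6 * B' := by rw [hB]; field_simp
  intro Q
  refine ⟨scaleTo s⁻¹ (inv_ne_zero hs) hA2 hB2 Q, ?_⟩
  rcases Q with _ | ⟨x, y, h⟩
  · rfl
  · rw [scaleTo_some, scaleTo_some, Point.some.injEq]
    constructor <;> field_simp

/-- Base change `(x, y) ↦ (φ x, φ y)` along a ring homomorphism of fields. -/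
noncomputable def mapTo {A B : F} {A' B' : F'} (φ : F →+* F') (hA : A' = φ A) (hB : B' = φ B) :
    (shortW A B).Point →+ (shortW A' B').Point :=
  semiTo φ 1 one_ne_zero (by rw [hA]; ring) (by rw [hB]; ring)

omit [DecidableEq F] [DecidableEq F'] in
theorem nonsingular_mapTo {A B : F} {A' B' : F'} (φ : F →+* F') (hA : A' = φ A) (hB : B' = φ B)
    {x y : F} (h : (shortW A B).Nonsingular x y) : (shortW A' B').Nonsingular (φ x) (φ y) := by
  have := shortW_nonsingular_semi φ (one_ne_zero (α := F')) (A' := A') (B' := B')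
    (by rw [hA]; ring) (by rw [hB]; ring) h
  simpa using this

@[simp]
theorem mapTo_zero {A B : F} {A' B' : F'} (φ : F →+* F') (hA : A' = φ A) (hB : B' = φ B) :
    mapTo φ hA hB (0 : (shortW A B).Point) = 0 := rfl

theorem mapTo_some {A B : F} {A' B' : F'} (φ : F →+* F') (hA : A' = φ A) (hB : B' = φ B)
    {x y : F} (h : (shortW A B).Nonsingular x y) :
    mapTo φ hA hB (Point.some x y h) = Point.some (φ x) (φ y) (nonsingular_mapTo φ hA hB h) := by
  unfold mapTo
  rw [semiTo_some, Point.some.injEq]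
  constructor <;> ring

theorem mapTo_injective {A B : F} {A' B' : F'} (φ : F →+* F') (hA : A' = φ A) (hB : B' = φ B) :
    Function.Injective (mapTo (A := A) (B := B) φ hA hB) :=
  semiTo_injective _ _ _ _ _

/-- The semilinear scaling is base change followed by scaling. -/
theorem semiTo_eq_scaleTo_mapTo {A B : F} {A' B' : F'} (φ : F →+* F') (s : F') (hs : s ≠ 0)
    (hA : A' = s ^ 4 * φ A) (hB : B' = s ^ 6 * φ B) (P : (shortW A B).Point) :
    semiTo φ s hs hA hB P = scaleTo s hs hA hB (mapTo φ rfl rfl P) := by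
  rcases P with _ | ⟨x, y, h⟩
  · rfl
  · rw [mapTo_some, scaleTo_some, semiTo_some]

omit [DecidableEq F] in
/-- Negation on a short curve. -/
theorem shortW_neg_some {A B x y : F} (h : (shortW A B).Nonsingular x y) :
    -(Point.some x y h) = Point.some x (-y)
      ((shortW_negY A B x y) ▸ (nonsingular_neg x y).mpr h) := by
  rw [Point.neg_some, Point.some.injEq]
  exact ⟨rfl, shortW_negY A B x y⟩

end semi

end Fermat.Agent.S52.H55
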