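import Mathlib
import Fermat.Agent.S51.TorsSub
import Fermat.Agent.S52.FrobPerm_helper44

/-!
# S52, node F1 (structure of the 5-torsion from 12 roots of `ψ₅`) — abstract core

For a Weierstrass curve `E` over a field `K` with `a₁ = a₃ = 0`, `2 ≠ 0`, `5 ≠ 0`, all of whose
points are nonsingular: if `ξ i` (`i : ι`, `12 ≤ card ι`) are pairwise distinct roots of the
5-division polynomial `psi5 E` (from the landed S51 library) and `(ξ i, η i)` lie on `E`, then
`η i ≠ 0`, the `24` points `(ξ i, ± η i)` are pairwise distinct, and they are exactly the nonzero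
points killed by `5`.

`isSysAt_of_roots` restates this in the `IsSysAt` shape of `FrobPerm_helper44` for a polynomial
family of short curves, with labels `ι × Bool`.
-/

set_option autoImplicit false

open Polynomial WeierstrassCurve WeierstrassCurve.Affine

namespace Fermat.Agent.S52.H44

open Fermat.Agent.S51.H80

section Struct

variable {K : Type*} [Field K] [DecidableEq K]

/-- A root of `psi5` among at least twelve pairwise distinct known roots. -/
lemma exists_eq_of_psi5 (E : Affine K) (h5 : (5 : K) ≠ 0) {ι : Type*} [Fintype ι]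
    (hcard : 12 ≤ Fintype.card ι) (ξ : ι → K) (hinj : Function.Injective ξ)
    (hψ : ∀ i, psi5 E (ξ i) = 0) {x : K} (hx : psi5 E x = 0) : ∃ i, ξ i = x := by
  classical
  have hne : WeierstrassCurve.preΨ' E 5 ≠ 0 :=
    WeierstrassCurve.preΨ'_ne_zero E (n := 5) (by exact_mod_cast h5)
  have hdeg : (WeierstrassCurve.preΨ' E 5).natDegree ≤ 12 := by
    have := WeierstrassCurve.natDegree_preΨ'_le E 5
    have h2 : (5 ^ 2 - if Even 5 then 4 else 1) / 2 = 12 := by decide
    rw [h2] at this
    exact this
  set R : Finset K := (WeierstrassCurve.preΨ' E 5).roots.toFinset with hR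
  have hRcard : R.card ≤ 12 :=
    ((Multiset.toFinset_card_le _).trans (Polynomial.card_roots' _)).trans hdeg
  have hsub : Finset.univ.image ξ ⊆ R := by
    intro z hz
    obtain ⟨i, -, rfl⟩ := Finset.mem_image.mp hz
    rw [hR, Multiset.mem_toFinset, Polynomial.mem_roots hne, IsRoot, eval_preΨ'_five]
    exact hψ i
  have hcard' : (Finset.univ.image ξ).card = Fintype.card ι := by
    rw [Finset.card_image_of_injective _ hinj, Finset.card_univ]
  have heq : Finset.univ.image ξ = R :=
    Finset.eq_of_subset_of_card_le hsub (by rw [hcard']; exact hRcard.trans hcard)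
  have hxR : x ∈ R := by
    rw [hR, Multiset.mem_toFinset, Polynomial.mem_roots hne, IsRoot, eval_preΨ'_five]
    exact hx
  rw [← heq] at hxR
  obtain ⟨i, -, hi⟩ := Finset.mem_image.mp hxR
  exact ⟨i, hi⟩

/-- **F1 core.** Twelve distinct roots of `psi5` with `y`-coordinates give all of `E[5] ∖ 0`. -/
theorem struct_five (E : Affine K) (ha₁ : E.a₁ = 0) (ha₃ : E.a₃ = 0)
    (hns : ∀ x y, E.Equation x y → E.Nonsingular x y) (h5 : (5 : K) ≠ 0)
    {ι : Type*} [Fintype ι] (hcard : 12 ≤ Fintype.card ι) (ξ η : ι → K)
    (hinj : Function.Injective ξ) (hψ : ∀ i, psi5 E (ξ i) = 0)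
    (heq : ∀ i, E.Equation (ξ i) (η i)) :
    ∃ hns' : ∀ p : ι × Bool, E.Nonsingular (ξ p.1) (if p.2 then η p.1 else -η p.1),
      (∀ P : E.Point, (P ≠ 0 ∧ 5 • P = 0) ↔ ∃ p, P = Point.some _ _ (hns' p)) ∧
      (Function.Injective fun p => Point.some _ _ (hns' p)) ∧ ∀ i, η i ≠ 0 := by
  -- the curve equation in the form `y² = c(x)`
  have heq' : ∀ x y, E.Equation x y ↔ y ^ 2 = x ^ 3 + E.a₂ * x ^ 2 + E.a₄ * x + E.a₆ := by
    intro x y
    rw [Affine.equation_iff, ha₁, ha₃]
    constructor <;> intro h <;> linear_combination h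
  have hneg : ∀ i, E.Equation (ξ i) (-η i) := by
    intro i
    rw [heq']
    have := (heq' _ _).mp (heq i)
    linear_combination this
  have hns' : ∀ p : ι × Bool, E.Nonsingular (ξ p.1) (if p.2 then η p.1 else -η p.1) := by
    rintro ⟨i, b⟩
    cases b
    · simpa using hns _ _ (hneg i)
    · simpa using hns _ _ (heq i)
  -- the labelled points are `5`-torsion
  have hfive : ∀ p, (5 : ℕ) • Point.some _ _ (hns' p) = 0 := fun p =>
    five_nsmul_of_psi5 (hns' p) (hψ p.1)
  -- `η i ≠ 0`
  have hη : ∀ i, η i ≠ 0 := by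
    intro i h0
    have hP5 := hfive (i, true)
    have hy : (if (i, true).2 then η (i, true).1 else -η (i, true).1) =
        E.negY (ξ (i, true).1) (if (i, true).2 then η (i, true).1 else -η (i, true).1) := by
      simp [Affine.negY, ha₁, ha₃, h0]
    have h2P : Point.some _ _ (hns' (i, true)) + Point.some _ _ (hns' (i, true)) = 0 :=
      Point.add_self_of_Y_eq hy
    have hP0 : Point.some _ _ (hns' (i, true)) = 0 := by
      have h5' : (5 : ℕ) • Point.some _ _ (hns' (i, true)) =
          (Point.some _ _ (hns' (i, true)) + Point.some _ _ (hns' (i, true))) +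
          (Point.some _ _ (hns' (i, true)) + Point.some _ _ (hns' (i, true))) +
          Point.some _ _ (hns' (i, true)) := by abel
      rw [h5', h2P, zero_add, zero_add] at hP5
      exact hP5
    exact Point.some_ne_zero _ hP0
  refine ⟨hns', ?_, ?_, hη⟩
  · intro P
    constructor
    · rintro ⟨hP0, hP5⟩
      rcases P with _ | ⟨x, y, h⟩
      · exact absurd rfl hP0
      · have hx := (psi5_eq_zero_of_five_nsmul h hP5).1
        obtain ⟨i, rfl⟩ := exists_eq_of_psi5 E h5 hcard ξ hinj hψ hx
        have e1 := (heq' _ _).mp h.1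
        have e2 := (heq' _ _).mp (heq i)
        have e3 : (y - η i) * (y + η i) = 0 := by linear_combination e1 - e2
        rcases mul_eq_zero.mp e3 with e | e
        · refine ⟨(i, true), ?_⟩
          simp only [Point.some.injEq, if_true, true_and]
          linear_combination e
        · refine ⟨(i, false), ?_⟩
          simp only [Point.some.injEq, true_and]
          simp only [Bool.false_eq_true, if_false]
          linear_combination e
    · rintro ⟨p, rfl⟩
      exact ⟨Point.some_ne_zero _, hfive p⟩
  · rintro ⟨i, b⟩ ⟨j, c⟩ h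
    have h' := Point.some.inj h
    have hij : i = j := hinj h'.1
    subst hij
    have hy := h'.2
    have h2 : (2 : K) ≠ 0 := by
      intro h2
      -- in characteristic `2` the point `(ξ i, η i)` would be `2`-torsion, contradiction
      have hy2 : η i = E.negY (ξ i) (η i) := by
        simp only [Affine.negY, ha₁, ha₃]
        linear_combination (η i) * h2
      have hnsi : E.Nonsingular (ξ i) (η i) := hns _ _ (heq i)
      have h2P : Point.some _ _ hnsi + Point.some _ _ hnsi = 0 := Point.add_self_of_Y_eq hy2
      have hP5 : (5 : ℕ) • Point.some _ _ hnsi = 0 := five_nsmul_of_psi5 hnsi (hψ i)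
      have h5' : (5 : ℕ) • Point.some _ _ hnsi =
          (Point.some _ _ hnsi + Point.some _ _ hnsi) +
          (Point.some _ _ hnsi + Point.some _ _ hnsi) + Point.some _ _ hnsi := by abel
      rw [h5', h2P, zero_add, zero_add] at hP5
      exact Point.some_ne_zero _ hP5
    cases b <;> cases c
    · rfl
    · exfalso
      simp only [Bool.false_eq_true, if_false, if_true] at hy
      apply hη i
      have : (2 : K) * η i = 0 := by linear_combination -hy
      exact (mul_eq_zero.mp this).resolve_left h2
    · exfalso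
      simp only [Bool.false_eq_true, if_false, if_true] at hy
      apply hη i
      have : (2 : K) * η i = 0 := by linear_combination hy
      exact (mul_eq_zero.mp this).resolve_left h2
    · rfl

omit [DecidableEq K] in
lemma shortW_Δ (a b : K) : (shortW a b).Δ = -16 * (4 * a ^ 3 + 27 * b ^ 2) := by
  simp only [WeierstrassCurve.Δ, WeierstrassCurve.b₂, WeierstrassCurve.b₄,
    WeierstrassCurve.b₆, WeierstrassCurve.b₈]
  ring

omit [DecidableEq K] in
lemma shortW_equation (a b x y : K) :
    (shortW a b).Equation x y ↔ y ^ 2 = x ^ 3 + a * x + b := by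
  rw [Affine.equation_iff]
  constructor <;> intro h <;> linear_combination h

/-- **F1 core, family form.** At a parameter `s` where the curve `E_s : y² = x³ + A(s)x + B(s)`
is nonsingular, twelve polynomial `x`-sections `Ξ i` with pairwise distinct values which are
roots of `psi5`, together with `y`-sections `H i`, give a section system for `E_s[5] ∖ 0` in the
sense of `IsSysAt`, with labels `ι × Bool` (`(i, true) ↦ (Ξ i, H i)`, `(i, false) ↦ (Ξ i, -H i)`),
and the labelled points are pairwise distinct. -/
theorem isSysAt_of_roots (A B : K[X]) {ι : Type*} [Fintype ι] (hcard : 12 ≤ Fintype.card ι)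
    (Ξ H : ι → K[X]) (s : K) (h5 : (5 : K) ≠ 0)
    (hΔ : (shortW (A.eval s) (B.eval s)).Δ ≠ 0)
    (hinj : Function.Injective fun i => (Ξ i).eval s)
    (hψ : ∀ i, psi5 (shortW (A.eval s) (B.eval s)) ((Ξ i).eval s) = 0)
    (heq : ∀ i, ((H i).eval s) ^ 2 = ((Ξ i).eval s) ^ 3 + A.eval s * (Ξ i).eval s + B.eval s) :
    IsSysAt A B 5 (fun p : ι × Bool => Ξ p.1) (fun p : ι × Bool => if p.2 then H p.1 else -H p.1) s
      ∧ ∀ p q : ι × Bool,
        (Ξ p.1).eval s = (Ξ q.1).eval s →
        (if p.2 then H p.1 else -H p.1).eval s = (if q.2 then H q.1 else -H q.1).eval s → p = q := by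
  set E : Affine K := shortW (A.eval s) (B.eval s) with hE
  have hnsE : ∀ x y, E.Equation x y → E.Nonsingular x y := fun x y h =>
    (Affine.equation_iff_nonsingular_of_Δ_ne_zero hΔ).mp h
  obtain ⟨hns', hiff, hinj', -⟩ := struct_five E rfl rfl hnsE h5 hcard
    (fun i => (Ξ i).eval s) (fun i => (H i).eval s) hinj hψ
    (fun i => (shortW_equation _ _ _ _).mpr (heq i))
  have hY : ∀ p : ι × Bool, (if p.2 then H p.1 else -H p.1).eval s =
      if p.2 then (H p.1).eval s else -(H p.1).eval s := by
    rintro ⟨i, b⟩
    cases b <;> simp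
  have hns'' : ∀ p : ι × Bool, E.Nonsingular ((Ξ p.1).eval s)
      ((if p.2 then H p.1 else -H p.1).eval s) := by
    intro p
    rw [hY p]
    exact hns' p
  have hpt : ∀ p, Point.some _ _ (hns'' p) = Point.some _ _ (hns' p) := by
    intro p
    simp only [Point.some.injEq, true_and]
    exact hY p
  refine ⟨⟨hns'', fun P => ?_⟩, ?_⟩
  · rw [hiff P]
    constructor
    · rintro ⟨p, rfl⟩
      exact ⟨p, (hpt p).symm⟩
    · rintro ⟨p, rfl⟩
      exact ⟨p, hpt p⟩
  · intro p q hx hy
    apply hinj'
    simp only [Point.some.injEq]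
    exact ⟨hx, by rw [← hY p, ← hY q]; exact hy⟩

end Struct

end Fermat.Agent.S52.H44
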