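import Mathlib
import Fermat.Agent.S51.TorsSub

/-!
# S52 node F1 (Struct), interface-free core  (helper61)

`struct_core`: on a Weierstrass curve `E` over a field `K` (with `5 ≠ 0`), twelve
nonsingular points `(ξ i, η i)` with pairwise distinct abscissae, each abscissa a root of the
`5`-division polynomial, give (together with their negatives) exactly the `24` nonzero
`5`-torsion points of `E`.
-/

set_option autoImplicit false
set_option linter.unusedSectionVars false

open WeierstrassCurve WeierstrassCurve.Affine Polynomial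

namespace Fermat.Agent.S52.H61

open Fermat.Agent.S51.H80

variable {K : Type*} [Field K] [DecidableEq K] {E : WeierstrassCurve.Affine K}

/-- The `5`-torsion of a Weierstrass curve (in characteristic `≠ 5`) has at most `25` points. -/
theorem torsion5_card_le (h5 : (5 : K) ≠ 0) :
    Finite (Submodule.torsionBy ℤ E.Point ((5 : ℕ) : ℤ)) ∧
      Nat.card (Submodule.torsionBy ℤ E.Point ((5 : ℕ) : ℤ)) ≤ 25 := by
  have hne : WeierstrassCurve.preΨ' E 5 ≠ 0 :=
    WeierstrassCurve.preΨ'_ne_zero E (n := 5) (by exact_mod_cast h5)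
  have key := torsion_card_le (E := E) 5 (WeierstrassCurve.preΨ' E 5) hne
    (by
      intro x y h hn
      rw [eval_preΨ'_five]
      exact (psi5_eq_zero_of_five_nsmul h hn).1)
  refine ⟨key.1, le_trans key.2 ?_⟩
  have := WeierstrassCurve.natDegree_preΨ'_le E 5
  have h2 : (5 ^ 2 - if Even 5 then 4 else 1) / 2 = 12 := by decide
  rw [h2] at this
  omega

/-- A nonzero `5`-torsion point is not `2`-torsion. -/
theorem ne_neg_of_five {P : E.Point} (hP : P ≠ 0) (h5 : (5 : ℕ) • P = 0) : P ≠ -P := by
  intro h
  apply hP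
  have h2 : P + P = 0 := by
    nth_rewrite 2 [h]
    exact add_neg_cancel P
  have : P = (5 : ℕ) • P - (2 : ℕ) • (P + P) := by abel
  rw [this, h5, h2]; simp

/-- The labelled points: `(i, true) ↦ (ξ i, η i)`, `(i, false) ↦ -(ξ i, η i)`. -/
def lpt (ξ η : K) (h : E.Nonsingular ξ η) (b : Bool) : E.Point :=
  if b then Point.some ξ η h else -Point.some ξ η h

theorem lpt_ne_zero (ξ η : K) (h : E.Nonsingular ξ η) (b : Bool) : lpt ξ η h b ≠ 0 := by
  unfold lpt
  split_ifs
  · exact Point.some_ne_zero h
  · exact neg_ne_zero.mpr (Point.some_ne_zero h)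

theorem lpt_five (ξ η : K) (h : E.Nonsingular ξ η) (hpsi : psi5 E ξ = 0) (b : Bool) :
    (5 : ℕ) • lpt ξ η h b = 0 := by
  have h5 := five_nsmul_of_psi5 h hpsi
  unfold lpt
  split_ifs
  · exact h5
  · rw [smul_neg, h5, neg_zero]

theorem xc_lpt (ξ η : K) (h : E.Nonsingular ξ η) (b : Bool) : xc (lpt ξ η h b) = ξ := by
  unfold lpt
  split_ifs
  · rfl
  · rw [xc_neg]; rfl

/-- **F1 core.**  Twelve nonsingular points with distinct abscissae killing `ψ₅`, together with
their negatives, are exactly the nonzero `5`-torsion points. -/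
theorem struct_core {ι : Type*} [Fintype ι] (hι : Fintype.card ι = 12) (h5 : (5 : K) ≠ 0)
    (ξ η : ι → K) (hns : ∀ i, E.Nonsingular (ξ i) (η i))
    (hpsi : ∀ i, psi5 E (ξ i) = 0) (hinj : Function.Injective ξ) :
    Function.Injective (fun p : ι × Bool => lpt (ξ p.1) (η p.1) (hns p.1) p.2) ∧
      ∀ Q : E.Point, (Q ≠ 0 ∧ (5 : ℕ) • Q = 0) ↔
        ∃ p : ι × Bool, Q = lpt (ξ p.1) (η p.1) (hns p.1) p.2 := by
  classical
  set P : ι × Bool → E.Point := fun p => lpt (ξ p.1) (η p.1) (hns p.1) p.2 with hPdef
  have hP0 : ∀ p, P p ≠ 0 := fun p => lpt_ne_zero _ _ _ _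
  have hP5 : ∀ p, (5 : ℕ) • P p = 0 := fun p => lpt_five _ _ _ (hpsi p.1) _
  have hPinj : Function.Injective P := by
    rintro ⟨i, b⟩ ⟨j, c⟩ h
    have hx : ξ i = ξ j := by
      have := congrArg xc h
      simpa only [hPdef, xc_lpt] using this
    have hij : i = j := hinj hx
    subst hij
    have hbc : b = c := by
      by_contra hne
      have hne5 := ne_neg_of_five (hP0 (i, true)) (hP5 (i, true))
      apply hne5
      have e1 : P (i, true) = Point.some (ξ i) (η i) (hns i) := by simp [hPdef, lpt]
      have e2 : P (i, false) = -Point.some (ξ i) (η i) (hns i) := by simp [hPdef, lpt]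
      cases b <;> cases c
      · exact absurd rfl hne
      · rw [e1]; rw [e1, e2] at h; exact h.symm
      · rw [e1]; rw [e1, e2] at h; exact h
      · exact absurd rfl hne
    rw [hbc]
  refine ⟨hPinj, ?_⟩
  obtain ⟨hfin, hcard⟩ := torsion5_card_le (E := E) h5
  -- the map `Option (ι × Bool) → E[5]`
  let g : Option (ι × Bool) → Submodule.torsionBy ℤ E.Point ((5 : ℕ) : ℤ) := fun o =>
    match o with
    | none => 0
    | some p => ⟨P p, by
        rw [Submodule.mem_torsionBy_iff, natCast_zsmul]; exact hP5 p⟩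
  have hg : Function.Injective g := by
    rintro (_ | p) (_ | q) h
    · rfl
    · exfalso
      have := congrArg Subtype.val h
      exact hP0 q this.symm
    · exfalso
      have := congrArg Subtype.val h
      exact hP0 p this
    · have := congrArg Subtype.val h
      exact congrArg some (hPinj this)
  have hcardO : Nat.card (Option (ι × Bool)) = 25 := by
    rw [Nat.card_eq_fintype_card, Fintype.card_option, Fintype.card_prod, hι, Fintype.card_bool]
  have hbij : Function.Bijective g :=
    hg.bijective_of_nat_card_le (by rw [hcardO]; exact hcard)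
  intro Q
  constructor
  · rintro ⟨hQ0, hQ5⟩
    have hQmem : Q ∈ Submodule.torsionBy ℤ E.Point ((5 : ℕ) : ℤ) := by
      rw [Submodule.mem_torsionBy_iff, natCast_zsmul]; exact hQ5
    obtain ⟨o, ho⟩ := hbij.2 ⟨Q, hQmem⟩
    rcases o with _ | p
    · exfalso
      have := congrArg Subtype.val ho
      exact hQ0 this.symm
    · refine ⟨p, ?_⟩
      have := congrArg Subtype.val ho
      exact this.symm
  · rintro ⟨p, rfl⟩
    exact ⟨hP0 p, hP5 p⟩

end Fermat.Agent.S52.H61
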